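import Mathlib

/-!
# S24, block (C): combinatorics of `SL(2,ℤ) ⧸ Γ₀(N)` — basics

* the coset space `X N := SL(2,ℤ) ⧸ Γ₀(N)` with the left multiplication action,
* the cross product criterion for equality of cosets (in terms of first columns),
* lifting of primitive pairs modulo `N` to first columns of matrices in `SL(2,ℤ)`.
-/

set_option autoImplicit false

namespace Fermat.Agent.S24.Comb

open scoped MatrixGroups
open CongruenceSubgroup Matrix Matrix.SpecialLinearGroup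

/-- The coset space `SL(2,ℤ) ⧸ Γ₀(N)`. -/
abbrev X (N : ℕ) : Type := SL(2, ℤ) ⧸ Gamma0 N

/-- The cross product of the first columns of two matrices. -/
def cross (g g' : SL(2, ℤ)) : ℤ := g 0 0 * g' 1 0 - g 1 0 * g' 0 0

theorem mul_apply' (h g : SL(2, ℤ)) (i j : Fin 2) :
    (h * g) i j = h i 0 * g 0 j + h i 1 * g 1 j := by
  have : (h * g).val = h.val * g.val := rfl
  rw [this, Matrix.mul_apply, Fin.sum_univ_two]

theorem inv_apply_one_zero (g : SL(2, ℤ)) : (g⁻¹) 1 0 = - g 1 0 := by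
  have : (g⁻¹).val = adjugate g.val := rfl
  rw [this, adjugate_fin_two]
  simp

theorem inv_apply_one_one (g : SL(2, ℤ)) : (g⁻¹) 1 1 = g 0 0 := by
  have : (g⁻¹).val = adjugate g.val := rfl
  rw [this, adjugate_fin_two]
  simp

theorem inv_mul_apply_one_zero (g g' : SL(2, ℤ)) : (g⁻¹ * g') 1 0 = cross g g' := by
  rw [cross, mul_apply', inv_apply_one_zero, inv_apply_one_one]; ring

variable {N : ℕ}

theorem mem_Gamma0_iff_dvd {g : SL(2, ℤ)} : g ∈ Gamma0 N ↔ (N : ℤ) ∣ g 1 0 := by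
  rw [Gamma0_mem, ZMod.intCast_zmod_eq_zero_iff_dvd]

theorem mk_eq_mk_iff (g g' : SL(2, ℤ)) :
    (QuotientGroup.mk g : X N) = QuotientGroup.mk g' ↔ (N : ℤ) ∣ cross g g' := by
  rw [QuotientGroup.eq, mem_Gamma0_iff_dvd, inv_mul_apply_one_zero]

theorem smul_mk (h g : SL(2, ℤ)) : h • (QuotientGroup.mk g : X N) = QuotientGroup.mk (h * g) :=
  rfl

theorem det_eq (g : SL(2, ℤ)) : g 0 0 * g 1 1 - g 0 1 * g 1 0 = 1 := by
  have h := g.det_coe
  rwa [Matrix.det_fin_two] at h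

/-- First column of `S * g`. -/
theorem S_mul_apply_zero (g : SL(2, ℤ)) : (ModularGroup.S * g) 0 0 = - g 1 0 := by
  rw [mul_apply', ModularGroup.coe_S]; simp

theorem S_mul_apply_one (g : SL(2, ℤ)) : (ModularGroup.S * g) 1 0 = g 0 0 := by
  rw [mul_apply', ModularGroup.coe_S]; simp

/-- First column of `T ^ k * g`. -/
theorem T_zpow_mul_apply_zero (k : ℤ) (g : SL(2, ℤ)) :
    (ModularGroup.T ^ k * g) 0 0 = g 0 0 + k * g 1 0 := by
  rw [mul_apply', ModularGroup.coe_T_zpow]; simp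

theorem T_zpow_mul_apply_one (k : ℤ) (g : SL(2, ℤ)) :
    (ModularGroup.T ^ k * g) 1 0 = g 1 0 := by
  rw [mul_apply', ModularGroup.coe_T_zpow]; simp

theorem ST_mul_apply_zero (g : SL(2, ℤ)) :
    (ModularGroup.S * ModularGroup.T * g) 0 0 = - g 1 0 := by
  rw [mul_assoc, S_mul_apply_zero]
  have := T_zpow_mul_apply_one 1 g
  rw [zpow_one] at this
  rw [this]

theorem ST_mul_apply_one (g : SL(2, ℤ)) :
    (ModularGroup.S * ModularGroup.T * g) 1 0 = g 0 0 + g 1 0 := by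
  rw [mul_assoc, S_mul_apply_one]
  have := T_zpow_mul_apply_zero 1 g
  rw [zpow_one] at this
  rw [this]; ring

/-- The first column of a matrix in `SL(2,ℤ)` is a coprime pair. -/
theorem isCoprime_col (g : SL(2, ℤ)) : IsCoprime (g 0 0) (g 1 0) :=
  ⟨g 1 1, -g 0 1, by have := det_eq g; linarith⟩

/-- Every coprime pair is the first column of a matrix in `SL(2,ℤ)`. -/
theorem exists_col {a c : ℤ} (h : IsCoprime a c) : ∃ g : SL(2, ℤ), g 0 0 = a ∧ g 1 0 = c :=
  h.exists_SL2_col 0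

/-- Lifting lemma: if `a` is coprime to `gcd(c, N)` and `c ≠ 0`, then `a` can be changed modulo `N`
so as to become coprime to `c`. -/
theorem exists_coprime_lift_of_ne_zero {a c : ℤ} {N : ℕ} (hc : c ≠ 0)
    (h : IsCoprime a (Int.gcd c N : ℤ)) : ∃ t : ℤ, IsCoprime (a + t * N) c := by
  classical
  -- primes dividing `c` but not `a`
  let ps : Finset ℕ := {p ∈ c.natAbs.primeFactors | ¬ (p : ℤ) ∣ a}
  refine ⟨∏ p ∈ ps, (p : ℤ), ?_⟩
  rw [Int.isCoprime_iff_gcd_eq_one]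
  by_contra hne
  obtain ⟨p, hp, hpd⟩ := Nat.exists_prime_and_dvd hne
  have hpa : (p : ℤ) ∣ a + (∏ p ∈ ps, (p : ℤ)) * N :=
    (Int.natCast_dvd_natCast.mpr hpd).trans (Int.gcd_dvd_left _ _)
  have hpc : (p : ℤ) ∣ c := (Int.natCast_dvd_natCast.mpr hpd).trans (Int.gcd_dvd_right _ _)
  have hpP : Prime (p : ℤ) := Nat.prime_iff_prime_int.mp hp
  by_cases hpa' : (p : ℤ) ∣ a
  · -- then `p ∣ (∏ ps) * N`
    have h1 : (p : ℤ) ∣ (∏ p ∈ ps, (p : ℤ)) * N := (dvd_add_right hpa').mp hpa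
    rcases hpP.dvd_mul.mp h1 with h2 | h2
    · obtain ⟨q, hq, hpq⟩ := (hpP.dvd_finsetProd_iff _).mp h2
      have hq' := (Finset.mem_filter.mp hq)
      have hqp : Nat.Prime q := (Nat.mem_primeFactors.mp hq'.1).1
      have : p = q := (Nat.prime_dvd_prime_iff_eq hp hqp).mp (Int.natCast_dvd_natCast.mp hpq)
      exact hq'.2 (this ▸ hpa')
    · -- `p ∣ N`, `p ∣ c`, `p ∣ a` contradicts coprimality
      have h3 : (p : ℤ) ∣ (Int.gcd c N : ℤ) := Int.dvd_coe_gcd hpc h2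
      exact hpP.not_isUnit (h.isUnit_of_dvd' hpa' h3)
  · have hmem : p ∈ ps := by
      refine Finset.mem_filter.mpr ⟨Nat.mem_primeFactors.mpr ⟨hp, ?_, ?_⟩, hpa'⟩
      · exact Int.natCast_dvd.mp hpc
      · exact Int.natAbs_ne_zero.mpr hc
    have h1 : (p : ℤ) ∣ (∏ p ∈ ps, (p : ℤ)) * N :=
      Dvd.dvd.mul_right (Finset.dvd_prod_of_mem (fun p : ℕ => (p : ℤ)) hmem) _
    exact hpa' ((dvd_add_left h1).mp hpa)

/-- Lifting lemma: every pair `(a, c)` which is primitive modulo `N` is congruent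
modulo `N` to the first column of a matrix in `SL(2,ℤ)`. -/
theorem exists_SL2_col_modEq {a c : ℤ} {N : ℕ}
    (h : IsCoprime a (Int.gcd c N : ℤ)) :
    ∃ g : SL(2, ℤ), (N : ℤ) ∣ g 0 0 - a ∧ (N : ℤ) ∣ g 1 0 - c := by
  by_cases hc : c = 0
  · subst hc
    have h' : IsCoprime a (N : ℤ) := by simpa using h
    obtain ⟨g, hg0, hg1⟩ := exists_col h'
    exact ⟨g, by simp [hg0], by simp [hg1]⟩
  · obtain ⟨t, ht⟩ := exists_coprime_lift_of_ne_zero hc h
    obtain ⟨g, hg0, hg1⟩ := exists_col ht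
    exact ⟨g, ⟨t, by rw [hg0]; ring⟩, by simp [hg1]⟩

end Fermat.Agent.S24.Comb
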