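import Mathlib
import Fermat.Prelude.Def_ModularCurve_GenusNumerics

/-!
# S24, block (C): the Dedekind `ψ` function is multiplicative

`dedekindPsi (m * n) = dedekindPsi m * dedekindPsi n` for coprime `m n`, and
`dedekindPsi (p ^ (e + 1)) = p ^ (e + 1) + p ^ e`.
-/

set_option autoImplicit false

namespace Fermat.Agent.S24.Comb

open ArithmeticFunction

/-- The indicator function of the squarefree numbers, as an arithmetic function. -/
def sqInd : ArithmeticFunction ℕ :=
  ⟨fun n => if Squarefree n then 1 else 0, by simp⟩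

theorem sqInd_apply (n : ℕ) : sqInd n = if Squarefree n then 1 else 0 := rfl

theorem isMultiplicative_sqInd : IsMultiplicative sqInd := by
  refine ⟨by simp [sqInd_apply], ?_⟩
  intro m n hmn
  have hmn' : m.gcd n = 1 := hmn
  simp only [sqInd_apply, Nat.squarefree_mul_iff]
  by_cases hm : Squarefree m <;> by_cases hn : Squarefree n <;>
    simp [hm, hn, Nat.coprime_iff_gcd_eq_one, hmn']

/-- The Dedekind `ψ` function as an arithmetic function. -/
def psiAF : ArithmeticFunction ℕ := sqInd * ArithmeticFunction.id

theorem isMultiplicative_psiAF : IsMultiplicative psiAF :=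
  isMultiplicative_sqInd.mul isMultiplicative_id

theorem psiAF_apply (n : ℕ) : psiAF n = ModularCurve.dedekindPsi n := by
  rw [psiAF, ArithmeticFunction.mul_apply, ModularCurve.dedekindPsi,
    Nat.sum_divisorsAntidiagonal (f := fun a b => sqInd a * ArithmeticFunction.id b),
    Finset.sum_filter]
  refine Finset.sum_congr rfl fun d _ => ?_
  simp only [sqInd_apply, id_apply]
  split_ifs <;> simp

theorem dedekindPsi_mul {m n : ℕ} (h : m.Coprime n) :
    ModularCurve.dedekindPsi (m * n) = ModularCurve.dedekindPsi m * ModularCurve.dedekindPsi n := by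
  rw [← psiAF_apply, ← psiAF_apply, ← psiAF_apply, isMultiplicative_psiAF.map_mul_of_coprime h]

theorem dedekindPsi_prime_pow {p : ℕ} (hp : p.Prime) (e : ℕ) :
    ModularCurve.dedekindPsi (p ^ (e + 1)) = p ^ (e + 1) + p ^ e := by
  rw [ModularCurve.dedekindPsi, Finset.sum_filter, Nat.divisors_prime_pow hp, Finset.sum_map]
  simp only [Function.Embedding.coeFn_mk]
  rw [Finset.sum_range_succ', Finset.sum_range_succ']
  have h0 : ∀ i ∈ Finset.range e, (if Squarefree (p ^ (i + 1 + 1)) then p ^ (e + 1) / p ^ (i + 1 + 1)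
      else 0) = 0 := by
    intro i _
    rw [if_neg]
    rw [Nat.squarefree_pow_iff hp.ne_one (by omega)]
    omega
  rw [Finset.sum_eq_zero h0]
  have h1 : Squarefree (p ^ (0 + 1)) := by simpa using hp.squarefree
  have h2 : Squarefree (p ^ 0) := by simp
  rw [if_pos h1, if_pos h2]
  have h3 : p ^ (e + 1) / p ^ (0 + 1) = p ^ e := by
    rw [zero_add, pow_one, pow_succ]
    exact Nat.mul_div_cancel _ hp.pos
  rw [h3]
  simp
  ring

end Fermat.Agent.S24.Comb
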