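import Mathlib
import Fermat.Prelude.Def_ModularCurve_GenusNumerics
import Fermat.Agent.S24.CombBasic
import Fermat.Agent.S24.CombPsi

/-!
# S24, block (C): the index of `Γ₀(N)` is `ψ(N)`

* `card_X_mul` : `#X(MN) = #X(M) #X(N)` for coprime `M N` (Chinese remainder theorem),
* `card_X_prime_pow` : `#X(p^(e+1)) = p^(e+1) + p^e`,
* `card_X` : `#(SL(2,ℤ) ⧸ Γ₀(N)) = ψ(N)`.
-/

set_option autoImplicit false

namespace Fermat.Agent.S24.Comb

open scoped MatrixGroups
open CongruenceSubgroup Matrix Matrix.SpecialLinearGroup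

/-- Chinese remainder theorem for the coset spaces. -/
theorem card_X_mul {M N : ℕ} (hMN : M.Coprime N) :
    Nat.card (X (M * N)) = Nat.card (X M) * Nat.card (X N) := by
  classical
  rw [← Nat.card_prod]
  have hcop : IsCoprime (M : ℤ) (N : ℤ) := Nat.isCoprime_iff_coprime.mpr hMN
  let f : X (M * N) → X M × X N := fun x =>
    (QuotientGroup.mk (Quotient.out x), QuotientGroup.mk (Quotient.out x))
  refine Nat.card_congr (Equiv.ofBijective f ⟨?_, ?_⟩)
  · intro x x' h
    have h1 : (QuotientGroup.mk (Quotient.out x) : X M) = QuotientGroup.mk (Quotient.out x') :=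
      congrArg Prod.fst h
    have h2 : (QuotientGroup.mk (Quotient.out x) : X N) = QuotientGroup.mk (Quotient.out x') :=
      congrArg Prod.snd h
    rw [mk_eq_mk_iff] at h1 h2
    rw [← Quotient.out_eq x, ← Quotient.out_eq x']
    refine (mk_eq_mk_iff _ _).mpr ?_
    push_cast
    exact hcop.mul_dvd h1 h2
  · rintro ⟨y, z⟩
    set g₁ := Quotient.out y with hg₁
    set g₂ := Quotient.out z with hg₂
    obtain ⟨u, v, huv⟩ := hcop
    obtain ⟨s, t, hst⟩ := isCoprime_col g₁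
    obtain ⟨s', t', hst'⟩ := isCoprime_col g₂
    set a₁ := g₁ 0 0
    set c₁ := g₁ 1 0
    set a₂ := g₂ 0 0
    set c₂ := g₂ 1 0
    set a : ℤ := a₁ * (v * N) + a₂ * (u * M) with ha
    set c : ℤ := c₁ * (v * N) + c₂ * (u * M) with hc
    have ha1 : a = a₁ + M * (u * (a₂ - a₁)) := by
      rw [ha]; linear_combination a₁ * huv
    have hc1 : c = c₁ + M * (u * (c₂ - c₁)) := by
      rw [hc]; linear_combination c₁ * huv
    have ha2 : a = a₂ + N * (v * (a₁ - a₂)) := by
      rw [ha]; linear_combination a₂ * huv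
    have hc2 : c = c₂ + N * (v * (c₁ - c₂)) := by
      rw [hc]; linear_combination c₂ * huv
    set e₁ : ℤ := s * (u * (a₂ - a₁)) + t * (u * (c₂ - c₁)) with he₁
    set e₂ : ℤ := s' * (v * (a₁ - a₂)) + t' * (v * (c₁ - c₂)) with he₂
    have h1 : s * a + t * c = 1 + M * e₁ := by
      rw [ha1, hc1, he₁]; linear_combination hst
    have h2 : s' * a + t' * c = 1 + N * e₂ := by
      rw [ha2, hc2, he₂]; linear_combination hst'
    obtain ⟨c', hc'⟩ : (Int.gcd c ((M * N : ℕ) : ℤ) : ℤ) ∣ c := Int.gcd_dvd_left _ _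
    obtain ⟨m', hm'⟩ : (Int.gcd c ((M * N : ℕ) : ℤ) : ℤ) ∣ ((M * N : ℕ) : ℤ) :=
      Int.gcd_dvd_right _ _
    have hm'' : (M : ℤ) * N = (Int.gcd c ((M * N : ℕ) : ℤ) : ℤ) * m' := by
      rw [← hm']; push_cast; ring
    have hprim : IsCoprime a (Int.gcd c ((M * N : ℕ) : ℤ) : ℤ) := by
      refine ⟨s - M * e₁ * s', c' * (t - M * e₁ * t') + m' * (e₁ * e₂), ?_⟩
      linear_combination h1 - M * e₁ * h2 - (t - M * e₁ * t') * hc' - (e₁ * e₂) * hm''
    obtain ⟨g, hg0, hg1⟩ := exists_SL2_col_modEq hprim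
    obtain ⟨k₀, hk₀⟩ := hg0
    obtain ⟨k₁, hk₁⟩ := hg1
    push_cast at hk₀ hk₁
    refine ⟨QuotientGroup.mk g, ?_⟩
    have hout : (QuotientGroup.mk (Quotient.out (QuotientGroup.mk g : X (M * N))) : X (M * N)) =
        QuotientGroup.mk g := Quotient.out_eq _
    rw [mk_eq_mk_iff] at hout
    push_cast at hout
    have hM : (M : ℤ) ∣ cross (Quotient.out (QuotientGroup.mk g : X (M * N))) g :=
      (Dvd.intro _ rfl).trans hout
    have hN : (N : ℤ) ∣ cross (Quotient.out (QuotientGroup.mk g : X (M * N))) g :=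
      (Dvd.intro_left _ rfl).trans hout
    have hMg : (QuotientGroup.mk g : X M) = QuotientGroup.mk g₁ := by
      rw [mk_eq_mk_iff, cross]
      refine ⟨(u * (a₂ - a₁) + N * k₀) * c₁ - (u * (c₂ - c₁) + N * k₁) * a₁, ?_⟩
      linear_combination c₁ * hk₀ - a₁ * hk₁ + c₁ * ha1 - a₁ * hc1
    have hNg : (QuotientGroup.mk g : X N) = QuotientGroup.mk g₂ := by
      rw [mk_eq_mk_iff, cross]
      refine ⟨(v * (a₁ - a₂) + M * k₀) * c₂ - (v * (c₁ - c₂) + M * k₁) * a₂, ?_⟩
      linear_combination c₂ * hk₀ - a₂ * hk₁ + c₂ * ha2 - a₂ * hc2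
    refine Prod.ext ?_ ?_
    · show (QuotientGroup.mk (Quotient.out (QuotientGroup.mk g : X (M * N))) : X M) = y
      rw [(mk_eq_mk_iff _ _).mpr hM, hMg, hg₁]
      exact Quotient.out_eq y
    · show (QuotientGroup.mk (Quotient.out (QuotientGroup.mk g : X (M * N))) : X N) = z
      rw [(mk_eq_mk_iff _ _).mpr hN, hNg, hg₂]
      exact Quotient.out_eq z


/-- The matrix `[x, -1; 1, 0]`, with first column `(x, 1)`. -/
def colA (x : ℤ) : SL(2, ℤ) := ⟨!![x, -1; 1, 0], by simp [Matrix.det_fin_two_of]⟩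

/-- The matrix `[1, 0; c, 1]`, with first column `(1, c)`. -/
def colB (c : ℤ) : SL(2, ℤ) := ⟨!![1, 0; c, 1], by simp [Matrix.det_fin_two_of]⟩

theorem colA_zero (x : ℤ) : colA x 0 0 = x := rfl
theorem colA_one (x : ℤ) : colA x 1 0 = 1 := rfl
theorem colB_zero (c : ℤ) : colB c 0 0 = 1 := rfl
theorem colB_one (c : ℤ) : colB c 1 0 = c := rfl

/-- The parametrisation of `ℙ¹(ℤ/p^(e+1))` by `ℤ/p^(e+1) ⊔ ℤ/p^e`. -/
noncomputable def primePowMap (p e : ℕ) :
    ZMod (p ^ (e + 1)) ⊕ ZMod (p ^ e) → X (p ^ (e + 1))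
  | Sum.inl x => QuotientGroup.mk (colA (ZMod.cast x : ℤ))
  | Sum.inr y => QuotientGroup.mk (colB (p * (ZMod.cast y : ℤ)))

theorem primePowMap_injective {p : ℕ} (hp : p.Prime) (e : ℕ) :
    Function.Injective (primePowMap p e) := by
  have : NeZero p := ⟨hp.ne_zero⟩
  have hp0 : (p : ℤ) ≠ 0 := by exact_mod_cast hp.ne_zero
  have hpN : (p : ℤ) ∣ ((p ^ (e + 1) : ℕ) : ℤ) := ⟨(p : ℤ) ^ e, by push_cast; ring⟩
  have hp1 : ¬ (p : ℤ) ∣ 1 := (Nat.prime_iff_prime_int.mp hp).not_dvd_one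
  rintro (x | y) (x' | y') h
  · -- inl, inl
    have h' := (mk_eq_mk_iff _ _).mp h
    rw [cross, colA_zero, colA_one, colA_zero, colA_one] at h'
    have h2 := (ZMod.intCast_zmod_eq_zero_iff_dvd _ _).mpr h'
    push_cast at h2
    have h5 : x = x' := by simpa [sub_eq_zero] using h2
    rw [h5]
  · -- inl, inr
    exfalso
    have h' := (mk_eq_mk_iff _ _).mp h
    rw [cross, colA_zero, colA_one, colB_zero, colB_one] at h'
    obtain ⟨k, hk⟩ := hpN.trans h'
    exact hp1 ⟨(ZMod.cast x : ℤ) * (ZMod.cast y' : ℤ) - k, by linear_combination -hk⟩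
  · -- inr, inl
    exfalso
    have h' := (mk_eq_mk_iff _ _).mp h
    rw [cross, colA_zero, colA_one, colB_zero, colB_one] at h'
    obtain ⟨k, hk⟩ := hpN.trans h'
    exact hp1 ⟨(ZMod.cast y : ℤ) * (ZMod.cast x' : ℤ) + k, by linear_combination hk⟩
  · -- inr, inr
    have h' := (mk_eq_mk_iff _ _).mp h
    rw [cross, colB_zero, colB_one, colB_zero, colB_one] at h'
    have h3 : (p : ℤ) * ((p ^ e : ℕ) : ℤ) ∣ (p : ℤ) * ((ZMod.cast y' : ℤ) - (ZMod.cast y : ℤ)) := by
      have e1 : ((p ^ (e + 1) : ℕ) : ℤ) = (p : ℤ) * ((p ^ e : ℕ) : ℤ) := by push_cast; ring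
      rw [← e1]
      refine h'.trans (dvd_of_eq ?_)
      ring
    have h4 := (mul_dvd_mul_iff_left hp0).mp h3
    have h2 := (ZMod.intCast_zmod_eq_zero_iff_dvd _ _).mpr h4
    push_cast at h2
    have h5 : y' = y := by simpa [sub_eq_zero] using h2
    rw [h5]

theorem primePowMap_surjective {p : ℕ} (hp : p.Prime) (e : ℕ) :
    Function.Surjective (primePowMap p e) := by
  have : NeZero p := ⟨hp.ne_zero⟩
  have hpP : Prime (p : ℤ) := Nat.prime_iff_prime_int.mp hp
  intro x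
  induction x using QuotientGroup.induction_on with
  | H g =>
    obtain ⟨s, t, hst⟩ := isCoprime_col g
    by_cases hc : (p : ℤ) ∣ g 1 0
    · -- `p ∣ c`, so `a` is a unit modulo `p ^ e`
      obtain ⟨c₀, hc₀⟩ := hc
      have hcop : IsCoprime (g 0 0) (p : ℤ) := ⟨s, t * c₀, by linear_combination hst - t * hc₀⟩
      obtain ⟨u, v, huv⟩ := hcop.pow_right (n := e)
      refine ⟨Sum.inr ((c₀ * u : ℤ) : ZMod (p ^ e)), ?_⟩
      refine (mk_eq_mk_iff _ _).mpr ?_
      rw [cross, colB_zero, colB_one]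
      have h1 : ((p ^ e : ℕ) : ℤ) ∣
          (ZMod.cast ((c₀ * u : ℤ) : ZMod (p ^ e)) : ℤ) * g 0 0 - c₀ := by
        rw [← ZMod.intCast_zmod_eq_zero_iff_dvd]
        push_cast
        have h2 : ((u : ℤ) : ZMod (p ^ e)) * ((g 0 0 : ℤ) : ZMod (p ^ e)) = 1 := by
          have := congrArg (fun z : ℤ => (z : ZMod (p ^ e))) huv
          push_cast at this
          have hz : ((p : ℕ) : ZMod (p ^ e)) ^ e = 0 := by
            have := ZMod.natCast_self (p ^ e)
            rwa [Nat.cast_pow] at this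
          rwa [hz, mul_zero, add_zero] at this
        linear_combination ((c₀ : ℤ) : ZMod (p ^ e)) * h2
      obtain ⟨k, hk⟩ := h1
      refine ⟨-k, ?_⟩
      rw [hc₀]
      push_cast at hk ⊢
      linear_combination -(p : ℤ) * hk
    · -- `p ∤ c`, so `c` is a unit modulo `p ^ (e + 1)`
      have hcop : IsCoprime (p : ℤ) (g 1 0) := hpP.coprime_iff_not_dvd.mpr hc
      obtain ⟨u, v, huv⟩ := hcop.pow_left (m := e + 1)
      refine ⟨Sum.inl ((g 0 0 * v : ℤ) : ZMod (p ^ (e + 1))), ?_⟩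
      refine (mk_eq_mk_iff _ _).mpr ?_
      rw [cross, colA_zero, colA_one]
      rw [← ZMod.intCast_zmod_eq_zero_iff_dvd]
      push_cast
      have h2 : ((v : ℤ) : ZMod (p ^ (e + 1))) * ((g 1 0 : ℤ) : ZMod (p ^ (e + 1))) = 1 := by
        have := congrArg (fun z : ℤ => (z : ZMod (p ^ (e + 1)))) huv
        push_cast at this
        have hz : ((p : ℕ) : ZMod (p ^ (e + 1))) ^ (e + 1) = 0 := by
          have := ZMod.natCast_self (p ^ (e + 1))
          rwa [Nat.cast_pow] at this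
        rwa [hz, mul_zero, zero_add] at this
      linear_combination ((g 0 0 : ℤ) : ZMod (p ^ (e + 1))) * h2

theorem card_X_prime_pow {p : ℕ} (hp : p.Prime) (e : ℕ) :
    Nat.card (X (p ^ (e + 1))) = p ^ (e + 1) + p ^ e := by
  have : NeZero p := ⟨hp.ne_zero⟩
  rw [← Nat.card_congr (Equiv.ofBijective _
    ⟨primePowMap_injective hp e, primePowMap_surjective hp e⟩), Nat.card_sum, Nat.card_zmod,
    Nat.card_zmod]


theorem card_X_one : Nat.card (X 1) = 1 := by
  rw [Nat.card_eq_one_iff_unique]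
  refine ⟨⟨fun x y => ?_⟩, ⟨QuotientGroup.mk 1⟩⟩
  induction x using QuotientGroup.induction_on with
  | H g =>
    induction y using QuotientGroup.induction_on with
    | H g' => exact (mk_eq_mk_iff _ _).mpr (by simp)

/-- **The index of `Γ₀(N)` in `SL(2,ℤ)` is `ψ(N)`.** -/
theorem card_X (N : ℕ) (hN : N ≠ 0) : Nat.card (X N) = ModularCurve.dedekindPsi N := by
  induction N using Nat.recOnPosPrimePosCoprime with
  | prime_pow p n hp hn =>
    obtain ⟨e, rfl⟩ : ∃ e, n = e + 1 := ⟨n - 1, by omega⟩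
    rw [card_X_prime_pow hp, dedekindPsi_prime_pow hp]
  | zero => exact absurd rfl hN
  | one => rw [card_X_one, ModularCurve.dedekindPsi_one]
  | coprime a b ha hb hab iha ihb =>
    rw [card_X_mul hab, dedekindPsi_mul hab, iha (by omega), ihb (by omega)]

/-- `SL(2,ℤ) ⧸ Γ₀(N)` is finite for `N ≠ 0`. -/
theorem finite_X (N : ℕ) (hN : N ≠ 0) : Finite (X N) := by
  refine Nat.finite_of_card_ne_zero ?_
  rw [card_X N hN, ← psiAF_apply]
  intro h
  have h1 : ModularCurve.dedekindPsi N = 0 := by rw [← psiAF_apply]; exact h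
  have h2 : N ≤ ModularCurve.dedekindPsi N := by
    rw [ModularCurve.dedekindPsi]
    have hmem : 1 ∈ Finset.filter (fun d => Squarefree d) N.divisors := by
      simp [hN]
    calc N = N / 1 := (Nat.div_one N).symm
      _ ≤ _ := Finset.single_le_sum (f := fun d => N / d) (fun _ _ => Nat.zero_le _) hmem
  omega

end Fermat.Agent.S24.Comb
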