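/-
S24 (genus of the function field of X₀(N) over Q̄ = classical genus formula).
INTERFACE FILE (architect: helper22).  Only definitions and `Prop`-valued statements; the
packages FF / DIFF / PERM / COMB / AN / COUNT prove them in their own files
(one file = one owner), GLUE (helper22) assembles `Fermat.Agent.S24.result`.

Conventions
* `K` algebraically closed of characteristic 0, `F/K` a function field in one variable.
* "`f` lies in the maximal ideal of the place `v`" is written
  `f ∈ v.toValuationSubring.nonunits`  (true for `f = 0`);  "`f` is regular at `v`" is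
  `f ∈ v.toValuationSubring`.   (`Place.ord 0 = 0` is junk, so we avoid `0 < v.ord f`.)
* `X = SL(2,ℤ) ⧸ Γ₀(N)` are LEFT cosets with Mathlib's left multiplication action.
-/
import Mathlib
import Fermat.Prelude.Def_ModularCurve_ArithmeticGalois
import Fermat.Prelude.Def_ModularCurve_GenusNumerics
import Fermat.Prelude.Def_AlgebraicCurve_CanonicalDivisor

set_option autoImplicit false

noncomputable section

namespace Fermat.Agent.S24

open AlgebraicCurve IntermediateField
open scoped MatrixGroups

/-! ### The concrete objects -/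

/-- The base field `Q̄`. -/
abbrev QBar : Type := AlgebraicClosure ℚ

/-- The function field of `X₀(N)` over `Q̄` (inside `Q̄((q))`). -/
abbrev FunField (N : ℕ) : Type := ↥(ModularCurve.modularFunctionFieldBar N)

/-- The formal `q`-expansion of `z ↦ j(d z)` with coefficients in `Q̄`. -/
def jLaurent (d : ℕ) [NeZero d] : LaurentSeries QBar :=
  ModularCurve.coeffEmb QBar (ModularCurve.qExpand ℚ d ModularCurve.jq)

theorem jLaurent_mem (N : ℕ) {d : ℕ} [NeZero d] (hd : d ∣ N) :
    jLaurent d ∈ ModularCurve.modularFunctionFieldBar N :=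
  ModularCurve.coeffEmb_mem_laurentBaseChange QBar (ModularCurve.jqd_mem_full N hd)

/-- `j(d z)` as an element of the function field of `X₀(N)`, for `d ∣ N`. -/
def jDiv (N : ℕ) (d : ℕ) [NeZero d] (hd : d ∣ N) : FunField N :=
  ⟨jLaurent d, jLaurent_mem N hd⟩

/-- The modular invariant `j` as an element of the function field of `X₀(N)`. -/
def jF (N : ℕ) : FunField N := jDiv N 1 (one_dvd N)

/-- The coset space `SL(2,ℤ) ⧸ Γ₀(N)` (left cosets `γ Γ₀(N)`, `SL(2,ℤ)` acts on the left). -/
abbrev XN (N : ℕ) : Type := SL(2, ℤ) ⧸ CongruenceSubgroup.Gamma0 N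

/-- The element `S T = !![0,-1;1,1]`, of order 3 in `PSL(2,ℤ)`, fixing `ρ = e^{2πi/3}`. -/
def elST : SL(2, ℤ) := ModularGroup.S * ModularGroup.T

/-! ### General notions -/

section General

variable {K F : Type*} [Field K] [Field F] [Algebra K F]

/-- `u` is a coordinate on the curve: transcendental over `K`, with `F` finite over `K(u)`. -/
structure IsCoordinate (K : Type*) {F : Type*} [Field K] [Field F] [Algebra K F] (u : F) :
    Prop where
  transcendental : Transcendental K u
  finite : FiniteDimensional K⟮u⟯ F

/-- The set of places of `F/K` at which `u` vanishes ("places over `u = 0`"). -/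
def placesOver (K : Type*) {F : Type*} [Field K] [Field F] [Algebra K F] (u : F) :
    Set (Place K F) :=
  {v | u ∈ v.toValuationSubring.nonunits}

/-- Number of orbits of the cyclic group generated by `g` acting on `X`. -/
def orbitCount {G : Type*} (X : Type*) [Group G] [MulAction G X] (g : G) : ℕ :=
  Nat.card (MulAction.orbitRel.Quotient (Subgroup.zpowers g) X)

/-- **The key abstraction.**  A family of places `P x` (`x ∈ X`) lying over `u = 0`,
constant on the orbits of `H`, with ramification index at most the orbit length, and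
"complete" in the sense of (sym): an integral function vanishing at all `P x` has its
`|X|`-th power divisible by `u` in the integral closure of `K[u]`. -/
structure IsUniformized {G X : Type*} [Group G] [MulAction G X]
    (u : F) (H : Subgroup G) (P : X → Place K F) : Prop where
  vanishes : ∀ x, u ∈ (P x).toValuationSubring.nonunits
  invariant : ∀ (h : H) (x : X), P (h • x) = P x
  ram_le : ∀ x, (P x).ord u ≤ (Nat.card (MulAction.orbit H x) : ℤ)
  sym : ∀ g : F, IsIntegral (Algebra.adjoin K {u}) g →
    (∀ x, g ∈ (P x).toValuationSubring.nonunits) →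
      ∃ b : F, IsIntegral (Algebra.adjoin K {u}) b ∧ g ^ Nat.card X = u * b

end General

/-! ### (FF) function-field algebra — general `K`, no modular forms -/

/-- (FF-res) The residue field of every place is `K` (so every place has degree one). -/
def ResidueFieldStatement : Prop :=
  ∀ (K F : Type) [Field K] [Field F] [Algebra K F] [IsAlgClosed K] (u : F),
    IsCoordinate K u → ∀ v : Place K F,
      Function.Bijective (algebraMap K v.ResidueField)

/-- (FF-deg) Every place has degree one. -/
def DegOneStatement : Prop :=
  ∀ (K F : Type) [Field K] [Field F] [Algebra K F] [IsAlgClosed K] (u : F),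
    IsCoordinate K u → ∀ v : Place K F, v.deg = 1

/-- (FF-val) Every place is centred at a point of the `u`-line or at `u = ∞`. -/
def CentreStatement : Prop :=
  ∀ (K F : Type) [Field K] [Field F] [Algebra K F] [IsAlgClosed K] (u : F),
    IsCoordinate K u → ∀ v : Place K F,
      (∃ c : K, u - algebraMap K F c ∈ v.toValuationSubring.nonunits) ∨
        u⁻¹ ∈ v.toValuationSubring.nonunits

/-- (FF2) The fundamental identity `∑_{v ∣ u} ord_v(u) = [F : K(u)]`. -/
def FundamentalIdentityStatement : Prop :=
  ∀ (K F : Type) [Field K] [Field F] [Algebra K F] [IsAlgClosed K] [CharZero K] (u : F),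
    IsCoordinate K u →
      ∃ hfin : (placesOver K u).Finite,
        ∑ v ∈ hfin.toFinset, v.ord u = (Module.finrank K⟮u⟯ F : ℤ)

/-- (FF3) Weak approximation over the `u`-line: a place `v` at which `u` is regular can be
separated from finitely many other such places by a function integral over `K[u]`. -/
def WeakApproximationStatement : Prop :=
  ∀ (K F : Type) [Field K] [Field F] [Algebra K F] [IsAlgClosed K] [CharZero K] (u : F),
    IsCoordinate K u → ∀ (S : Finset (Place K F)) (v : Place K F),
      (∀ w ∈ S, u ∈ w.toValuationSubring) → u ∈ v.toValuationSubring → v ∉ S →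
        ∃ g : F, IsIntegral (Algebra.adjoin K {u}) g ∧
          (∀ w ∈ S, g ∈ w.toValuationSubring.nonunits) ∧
            g ∉ v.toValuationSubring.nonunits

/-- (FF4) Principal divisors exist and have degree `0`. -/
def PrincipalDivisorStatement : Prop :=
  ∀ (K F : Type) [Field K] [Field F] [Algebra K F] [IsAlgClosed K] [CharZero K] (u : F),
    IsCoordinate K u → HasPrincipalDivisors K F

/-! ### (DIFF) differentials — general `K`, no modular forms -/

/-- (D1) `Ω[F/K]` is one-dimensional, generated by `du`. -/
def DiffGeneratorStatement : Prop :=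
  ∀ (K F : Type) [Field K] [Field F] [Algebra K F] [IsAlgClosed K] [CharZero K] (u : F),
    IsCoordinate K u →
      KaehlerDifferential.D K F u ≠ 0 ∧
        ∀ ω : Ω[F⁄K], ∃ h : F, ω = h • KaehlerDifferential.D K F u

/-- (D2) The differential of the (prelude-chosen) uniformizer generates `Ω[F/K]`. -/
def DCoordGeneratesStatement : Prop :=
  ∀ (K F : Type) [Field K] [Field F] [Algebra K F] [IsAlgClosed K] [CharZero K] (u : F),
    IsCoordinate K u → ∀ v : Place K F, v.DCoordGenerates

/-- (D5a) `ord_v(du) = ord_v(u - c) - 1` at a place where `u - c` vanishes. -/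
def OrdDiffZeroStatement : Prop :=
  ∀ (K F : Type) [Field K] [Field F] [Algebra K F] [IsAlgClosed K] [CharZero K] (u : F),
    IsCoordinate K u → ∀ (v : Place K F) (c : K),
      u - algebraMap K F c ∈ v.toValuationSubring.nonunits →
        v.ordDifferential (KaehlerDifferential.D K F u) = v.ord (u - algebraMap K F c) - 1

/-- (D5b) `ord_v(du) = ord_v(u) - 1 = -ord_v(u⁻¹) - 1` at a pole of `u`. -/
def OrdDiffPoleStatement : Prop :=
  ∀ (K F : Type) [Field K] [Field F] [Algebra K F] [IsAlgClosed K] [CharZero K] (u : F),
    IsCoordinate K u → ∀ (v : Place K F),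
      u⁻¹ ∈ v.toValuationSubring.nonunits →
        v.ordDifferential (KaehlerDifferential.D K F u) = - v.ord u⁻¹ - 1

/-- (D6) `ord_v(h ω) = ord_v(h) + ord_v(ω)`. -/
def OrdDiffSMulStatement : Prop :=
  ∀ (K F : Type) [Field K] [Field F] [Algebra K F] [IsAlgClosed K] [CharZero K] (u : F),
    IsCoordinate K u → ∀ (v : Place K F) (h : F) (ω : Ω[F⁄K]), h ≠ 0 → ω ≠ 0 →
      v.ordDifferential (h • ω) = v.ord h + v.ordDifferential ω

/-- (D7) The genus from the divisor of `du`: if `div(du)` has degree `2g - 2` then the
(prelude) genus is `g`. -/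
def GenusOfDivisorStatement : Prop :=
  ∀ (K F : Type) [Field K] [Field F] [Algebra K F] [IsAlgClosed K] [CharZero K]
    [HasCanonicalDivisor (K := K) (F := F)] (u : F),
    IsCoordinate K u → HasPrincipalDivisors K F →
      ∀ (D : Divisor K F) (g : ℕ),
        (∀ v : Place K F, D v = v.ordDifferential (KaehlerDifferential.D K F u)) →
          Divisor.degree D = 2 * (g : ℤ) - 2 → genus K F = g

/-! ### (PERM): DONE by helper13, see `Fermat/Agent/S24/Perm.lean`
(`perm_exists_genus`, `perm_orbits_le`, `perm_orbits_parity`). -/

/-! ### (COMB) combinatorics of `SL(2,ℤ) ⧸ Γ₀(N)` — Mathlib + prelude numerics -/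

/-- (C0) `Γ₀(N)` has finite index. -/
def CosetFiniteStatement : Prop :=
  ∀ (N : ℕ) [NeZero N], Finite (XN N)

/-- (C1) The index of `Γ₀(N)` is `ψ(N)`. -/
def CosetCardStatement : Prop :=
  ∀ (N : ℕ) [NeZero N], Nat.card (XN N) = ModularCurve.dedekindPsi N

/-- (C2) `S` acts as an involution with `ν₂(N)` fixed points: `2·#orbits = ψ + ν₂`. -/
def OrbitsSStatement : Prop :=
  ∀ (N : ℕ) [NeZero N],
    2 * orbitCount (XN N) ModularGroup.S = ModularCurve.dedekindPsi N + ModularCurve.nuTwo N

/-- (C3) `S T` acts with order dividing 3 and `ν₃(N)` fixed points: `3·#orbits = ψ + 2ν₃`. -/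
def OrbitsSTStatement : Prop :=
  ∀ (N : ℕ) [NeZero N],
    3 * orbitCount (XN N) elST = ModularCurve.dedekindPsi N + 2 * ModularCurve.nuThree N

/-- (C4) The `T`-orbits are the cusps. -/
def OrbitsTStatement : Prop :=
  ∀ (N : ℕ) [NeZero N], orbitCount (XN N) ModularGroup.T = ModularCurve.cuspCount N

/-! ### (AN) the analytic input, top level -/

/-- (AN-coord) `j` is a coordinate on `X₀(N)`. -/
def JCoordinateStatement : Prop :=
  ∀ (N : ℕ) [NeZero N], IsCoordinate QBar (jF N)

/-- (AN-G) `[F : Q̄(j)] ≥ [SL(2,ℤ) : Γ₀(N)]`. -/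
def DegreeLowerBoundStatement : Prop :=
  ∀ (N : ℕ) [NeZero N], Nat.card (XN N) ≤ Module.finrank QBar⟮jF N⟯ (FunField N)

/-- (AN-gen) Uniformization over a generic point `j = c`, `c ≠ 0, 1728`. -/
def UniformizedGenericStatement : Prop :=
  ∀ (N : ℕ) [NeZero N] (c : QBar), c ≠ 0 → c ≠ 1728 →
    ∃ P : XN N → Place QBar (FunField N),
      IsUniformized (jF N - algebraMap QBar (FunField N) c) (⊥ : Subgroup SL(2, ℤ)) P

/-- (AN-i) Uniformization over `j = 1728` (the orbit of `i`, stabilizer generated by `S`). -/
def UniformizedIStatement : Prop :=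
  ∀ (N : ℕ) [NeZero N],
    ∃ P : XN N → Place QBar (FunField N),
      IsUniformized (jF N - algebraMap QBar (FunField N) 1728)
        (Subgroup.zpowers ModularGroup.S) P

/-- (AN-ρ) Uniformization over `j = 0` (the orbit of `ρ`, stabilizer generated by `S T`). -/
def UniformizedRhoStatement : Prop :=
  ∀ (N : ℕ) [NeZero N],
    ∃ P : XN N → Place QBar (FunField N),
      IsUniformized (jF N) (Subgroup.zpowers elST) P

/-- (AN-∞) Uniformization over `j = ∞` (the cusps, stabilizer generated by `T`). -/
def UniformizedCuspStatement : Prop :=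
  ∀ (N : ℕ) [NeZero N],
    ∃ P : XN N → Place QBar (FunField N),
      IsUniformized (jF N)⁻¹ (Subgroup.zpowers ModularGroup.T) P

/-! ### (COUNT) the squeeze -/

/-- (COUNT) If `u` is uniformized by `P` and `|X| ≤ [F : K(u)]`, then the places over
`u = 0` are exactly the `P x`, they correspond bijectively to the `H`-orbits, and the
ramification index is the orbit length. -/
def CountStatement : Prop :=
  ∀ (K F : Type) [Field K] [Field F] [Algebra K F] [IsAlgClosed K] [CharZero K]
    (G X : Type) [Group G] [MulAction G X] [Finite X] (u : F) (H : Subgroup G)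
    (P : X → Place K F),
    IsCoordinate K u → IsUniformized u H P → Nat.card X ≤ Module.finrank K⟮u⟯ F →
      (∀ v ∈ placesOver K u, ∃ x, P x = v) ∧
        (∀ x y, P x = P y → ∃ h : H, h • x = y) ∧
          (∀ x, (P x).ord u = (Nat.card (MulAction.orbit H x) : ℤ)) ∧
            Module.finrank K⟮u⟯ F = Nat.card X

/-- (COUNT') Consequence used by GLUE: the ramification sum over `u = 0`. -/
def RamificationSumStatement : Prop :=
  ∀ (K F : Type) [Field K] [Field F] [Algebra K F] [IsAlgClosed K] [CharZero K]
    (G X : Type) [Group G] [MulAction G X] [Finite X] (u : F) (H : Subgroup G)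
    (P : X → Place K F),
    IsCoordinate K u → IsUniformized u H P → Nat.card X ≤ Module.finrank K⟮u⟯ F →
      ∃ hfin : (placesOver K u).Finite,
        (hfin.toFinset.card = Nat.card (MulAction.orbitRel.Quotient H X)) ∧
          ∑ v ∈ hfin.toFinset, v.ord u = (Nat.card X : ℤ)

/-! ### The target -/

/-- The frozen statement S24, as a `Prop`. -/
def TargetStatement : Prop :=
  ∀ (N : ℕ) [NeZero N]
    [AlgebraicCurve.HasCanonicalDivisor (K := AlgebraicClosure ℚ)
      (F := ↥(ModularCurve.modularFunctionFieldBar N))],
    (AlgebraicCurve.genus (AlgebraicClosure ℚ) ↥(ModularCurve.modularFunctionFieldBar N) : ℚ)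
      = ModularCurve.genusFormula N

end Fermat.Agent.S24
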