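/-
S24 helper library (helper7), package AN-E: the `j`-function on the upper half plane and its
local orders.
-/
import Mathlib

set_option autoImplicit false

namespace Fermat.Agent.S24

open UpperHalfPlane hiding I
open Complex Filter Function ModularForm ModularFormClass Derivative
open scoped Topology Manifold Real MatrixGroups ModularForm

local notation "𝕢" => Periodic.qParam

/-! ### The normalised derivative of a bounded periodic holomorphic function vanishes at `i∞` -/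

lemma anE_D_eq_qParam_mul {f : ℍ → ℂ} (hper : Periodic (f ∘ ofComplex) 1) (hhol : MDiff f)
    (hbdd : IsBoundedAtImInfty f) (z : ℍ) :
    D f z = 𝕢 1 z * deriv (cuspFunction 1 f) (𝕢 1 z) := by
  have hq : ‖𝕢 1 (z : ℂ)‖ < 1 := Periodic.norm_qParam_lt_one one_pos z.im_pos
  have hg : HasDerivAt (cuspFunction 1 f) (deriv (cuspFunction 1 f) (𝕢 1 z)) (𝕢 1 z) :=
    (differentiableAt_cuspFunction one_pos hper hhol hbdd hq).hasDerivAt
  have hqd : HasDerivAt (𝕢 1) (2 * π * I * 𝕢 1 (z : ℂ)) (z : ℂ) := by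
    have h1 : HasDerivAt (fun w : ℂ => 2 * π * I * w / ((1 : ℝ) : ℂ)) (2 * π * I) (z : ℂ) := by
      simpa using ((hasDerivAt_id (z : ℂ)).const_mul (2 * π * I))
    have h2 : HasDerivAt (𝕢 1) (cexp (2 * π * I * (z : ℂ) / ((1 : ℝ) : ℂ)) * (2 * π * I))
        (z : ℂ) := h1.cexp
    refine h2.congr_deriv ?_
    simp only [Periodic.qParam]
    ring
  have hcomp : (f ∘ ofComplex) =ᶠ[𝓝 (z : ℂ)] (cuspFunction 1 f) ∘ (𝕢 1) := by
    filter_upwards [isOpen_upperHalfPlaneSet.mem_nhds z.im_pos] with w hw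
    have := eq_cuspFunction (f := f) ⟨w, hw⟩ one_ne_zero hper
    simp only [Function.comp_apply, ofComplex_apply_of_im_pos hw]
    exact this.symm
  have hd : deriv (f ∘ ofComplex) (z : ℂ) =
      deriv (cuspFunction 1 f) (𝕢 1 z) * (2 * π * I * 𝕢 1 (z : ℂ)) := by
    rw [hcomp.deriv_eq]
    exact (hg.comp (z : ℂ) hqd).deriv
  have h2 : (2 * π * I : ℂ) ≠ 0 := by
    simp [Real.pi_ne_zero, I_ne_zero]
  rw [normalizedDerivOfComplex, hd]
  field_simp

theorem anE_isZeroAtImInfty_D {f : ℍ → ℂ} (hper : Periodic (f ∘ ofComplex) 1) (hhol : MDiff f)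
    (hbdd : IsBoundedAtImInfty f) : IsZeroAtImInfty (D f) := by
  have han : AnalyticAt ℂ (cuspFunction 1 f) 0 :=
    analyticAt_cuspFunction_zero one_pos hper hhol hbdd
  have hc : ContinuousAt (fun q : ℂ => q * deriv (cuspFunction 1 f) q) 0 :=
    continuousAt_id.mul han.deriv.continuousAt
  have ht : Tendsto (fun z : ℍ => 𝕢 1 z * deriv (cuspFunction 1 f) (𝕢 1 z)) atImInfty (𝓝 0) := by
    have := hc.tendsto.comp (qParam_tendsto_atImInfty one_pos)
    simp only [zero_mul] at this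
    exact this
  have heq : D f = fun z : ℍ => 𝕢 1 z * deriv (cuspFunction 1 f) (𝕢 1 z) :=
    funext fun z => anE_D_eq_qParam_mul hper hhol hbdd z
  rw [IsZeroAtImInfty, ZeroAtFilter, heq]
  exact ht

/-! ### Transformation of `D F` for a slash-invariant `F` -/

lemma anE_D_smul_apply {k : ℤ} {F : ℍ → ℂ} (hF : MDiff F) (γ : SL(2, ℤ))
    (hinv : F ∣[k] γ = F) (z : ℍ) :
    D F (γ • z) = denom γ z ^ (k + 2) *
      (D F z + (k : ℂ) * (2 * π * I)⁻¹ * (γ 1 0 / denom γ z) * F z) := by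
  have h1 := congrFun (normalizedDerivOfComplex_SL_slash (k := k) hF (γ := γ)) z
  rw [hinv] at h1
  simp only [Pi.sub_apply, ModularForm.SL_slash_apply] at h1
  have hd : denom γ z ≠ 0 := denom_ne_zero γ z
  have h2 : D F (γ • z) * denom γ z ^ (-(k + 2)) =
      D F z + (k : ℂ) * (2 * π * I)⁻¹ * (γ 1 0 / denom γ z) * F z := by
    rw [h1]; ring
  rw [← h2, mul_comm (D F (γ • z)), ← mul_assoc, ← zpow_add₀ hd]
  simp

lemma anE_smul_apply {k : ℤ} {F : ℍ → ℂ} (γ : SL(2, ℤ)) (hinv : F ∣[k] γ = F) (z : ℍ) :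
    F (γ • z) = denom γ z ^ k * F z := by
  have h1 := congrFun hinv z
  simp only [ModularForm.SL_slash_apply] at h1
  have hd : denom γ z ≠ 0 := denom_ne_zero γ z
  rw [← h1, mul_comm (F (γ • z)), ← mul_assoc, ← zpow_add₀ hd]
  simp

/-! ### The bracket `2 E₄ D E₆ - 3 E₆ D E₄` -/

/-- The Rankin–Cohen bracket `2 E₄ D E₆ - 3 E₆ D E₄`. -/
noncomputable def anE_bracket (z : ℍ) : ℂ := 2 * E₄ z * D E₆ z - 3 * E₆ z * D E₄ z

lemma anE_E₄_slash (γ : SL(2, ℤ)) : (⇑E₄ : ℍ → ℂ) ∣[(4 : ℤ)] γ = E₄ := by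
  rw [ModularForm.SL_slash]
  exact SlashInvariantFormClass.slash_action_eq E₄ _ ⟨γ, rfl⟩

lemma anE_E₆_slash (γ : SL(2, ℤ)) : (⇑E₆ : ℍ → ℂ) ∣[(6 : ℤ)] γ = E₆ := by
  rw [ModularForm.SL_slash]
  exact SlashInvariantFormClass.slash_action_eq E₆ _ ⟨γ, rfl⟩

lemma anE_bracket_smul (γ : SL(2, ℤ)) (z : ℍ) :
    anE_bracket (γ • z) = denom γ z ^ (12 : ℤ) * anE_bracket z := by
  have hd : denom γ z ≠ 0 := denom_ne_zero γ z
  have h4 := anE_smul_apply γ (anE_E₄_slash γ) z
  have h6 := anE_smul_apply γ (anE_E₆_slash γ) z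
  have hD4 := anE_D_smul_apply (ModularFormClass.holo E₄) γ (anE_E₄_slash γ) z
  have hD6 := anE_D_smul_apply (ModularFormClass.holo E₆) γ (anE_E₆_slash γ) z
  rw [anE_bracket, anE_bracket, h4, h6, hD4, hD6]
  have e1 : denom γ z ^ (12 : ℤ) = denom γ z ^ (4 : ℤ) * denom γ z ^ ((6 : ℤ) + 2) := by
    rw [← zpow_add₀ hd]; norm_num
  have e2 : denom γ z ^ (12 : ℤ) = denom γ z ^ (6 : ℤ) * denom γ z ^ ((4 : ℤ) + 2) := by
    rw [← zpow_add₀ hd]; norm_num
  have : (2 : ℂ) * (denom γ z ^ (4 : ℤ) * E₄ z) *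
        (denom γ z ^ ((6 : ℤ) + 2) *
          (D (⇑E₆) z + ((6 : ℤ) : ℂ) * (2 * π * I)⁻¹ * (γ 1 0 / denom γ z) * E₆ z)) -
      3 * (denom γ z ^ (6 : ℤ) * E₆ z) *
        (denom γ z ^ ((4 : ℤ) + 2) *
          (D (⇑E₄) z + ((4 : ℤ) : ℂ) * (2 * π * I)⁻¹ * (γ 1 0 / denom γ z) * E₄ z)) =
      (denom γ z ^ (4 : ℤ) * denom γ z ^ ((6 : ℤ) + 2)) * (2 * E₄ z * D (⇑E₆) z) -
      (denom γ z ^ (6 : ℤ) * denom γ z ^ ((4 : ℤ) + 2)) * (3 * E₆ z * D (⇑E₄) z) +
      ((denom γ z ^ (4 : ℤ) * denom γ z ^ ((6 : ℤ) + 2)) -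
        (denom γ z ^ (6 : ℤ) * denom γ z ^ ((4 : ℤ) + 2))) *
        (12 * (2 * π * I)⁻¹ * (γ 1 0 / denom γ z) * E₄ z * E₆ z) := by
    push_cast
    ring
  rw [this, ← e1, ← e2]
  ring

lemma anE_bracket_slash (γ : SL(2, ℤ)) : anE_bracket ∣[(12 : ℤ)] γ = anE_bracket := by
  funext z
  rw [ModularForm.SL_slash_apply, anE_bracket_smul, mul_comm, ← mul_assoc,
    ← zpow_add₀ (denom_ne_zero γ z)]
  simp

lemma anE_bracket_mdiff : MDiff anE_bracket := by
  have h4 : MDiff (⇑E₄ : ℍ → ℂ) := ModularFormClass.holo E₄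
  have h6 : MDiff (⇑E₆ : ℍ → ℂ) := ModularFormClass.holo E₆
  have hD4 := normalizedDerivOfComplex_mdifferentiable h4
  have hD6 := normalizedDerivOfComplex_mdifferentiable h6
  have h2 : MDiff (fun _ : ℍ => (2 : ℂ)) := mdifferentiable_const
  have h3 : MDiff (fun _ : ℍ => (3 : ℂ)) := mdifferentiable_const
  exact ((h2.mul h4).mul hD6).sub ((h3.mul h6).mul hD4)

lemma anE_periodic (k : ℤ) (f : ModularForm 𝒮ℒ k) : Periodic ((⇑f : ℍ → ℂ) ∘ ofComplex) 1 := by
  have := SlashInvariantFormClass.periodic_comp_ofComplex f one_mem_strictPeriods_SL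
  simpa using this

lemma anE_bracket_isZeroAtImInfty : IsZeroAtImInfty anE_bracket := by
  have b4 : IsBoundedAtImInfty (⇑E₄ : ℍ → ℂ) := ModularFormClass.bdd_at_infty E₄
  have b6 : IsBoundedAtImInfty (⇑E₆ : ℍ → ℂ) := ModularFormClass.bdd_at_infty E₆
  have z4 : IsZeroAtImInfty (D (⇑E₄ : ℍ → ℂ)) :=
    anE_isZeroAtImInfty_D (anE_periodic 4 E₄) (ModularFormClass.holo E₄) b4
  have z6 : IsZeroAtImInfty (D (⇑E₆ : ℍ → ℂ)) :=
    anE_isZeroAtImInfty_D (anE_periodic 6 E₆) (ModularFormClass.holo E₆) b6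
  have c2 : IsBoundedAtImInfty (fun _ : ℍ => (2 : ℂ)) := const_boundedAtFilter _ _
  have c3 : IsBoundedAtImInfty (fun _ : ℍ => (3 : ℂ)) := const_boundedAtFilter _ _
  have t1 := (c2.mul b4).mul_zeroAtFilter z6
  have t2 := (c3.mul b6).mul_zeroAtFilter z4
  exact t1.add t2.neg |>.congr' (by
    refine Filter.Eventually.of_forall fun z => ?_
    simp only [anE_bracket, Pi.add_apply, Pi.mul_apply, Pi.neg_apply]
    ring) |> fun h => h

/-- The bracket as a cusp form of weight 12 and level 1. -/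
noncomputable def anE_bracketCF : CuspForm 𝒮ℒ 12 where
  toFun := anE_bracket
  slash_action_eq' A hA := by
    obtain ⟨A, rfl⟩ := hA
    exact anE_bracket_slash A
  holo' := anE_bracket_mdiff
  zero_at_cusps' hc := by
    rw [Subgroup.IsArithmetic.isCusp_iff_isCusp_SL2Z] at hc
    rw [OnePoint.isZeroAt_iff_forall_SL2Z hc]
    intro γ _
    rw [anE_bracket_slash]
    exact anE_bracket_isZeroAtImInfty

/-- The bracket is a constant multiple of `Δ`. -/
lemma anE_exists_bracket_eq : ∃ c : ℂ, ∀ z : ℍ, anE_bracket z = c * discriminant z := by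
  obtain ⟨c, hc⟩ := CuspForm.exists_smul_discriminant_of_weight_eq_twelve anE_bracketCF
  refine ⟨c, fun z => ?_⟩
  have h : (c • CuspForm.discriminant) z = anE_bracketCF z :=
    congrArg (fun f : CuspForm 𝒮ℒ 12 => f z) hc
  exact h.symm

/-! ### The `j`-function -/

/-- The `j`-function on the upper half plane, `j = E₄³ / Δ`. -/
noncomputable def jfun (z : ℍ) : ℂ := E₄ z ^ 3 / discriminant z

lemma anE_E₄_cube_sub (z : ℍ) : E₄ z ^ 3 - E₆ z ^ 2 = 1728 * discriminant z := by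
  rw [discriminant_eq_E₄_cube_sub_E₆_sq]; ring

lemma jfun_sub_1728 (z : ℍ) : jfun z - 1728 = E₆ z ^ 2 / discriminant z := by
  have hΔ := discriminant_ne_zero z
  rw [jfun, eq_div_iff hΔ, sub_mul, div_mul_cancel₀ _ hΔ]
  linear_combination anE_E₄_cube_sub z

lemma jfun_eq_zero_iff (z : ℍ) : jfun z = 0 ↔ E₄ z = 0 := by
  simp [jfun, discriminant_ne_zero z]

lemma jfun_eq_1728_iff (z : ℍ) : jfun z = 1728 ↔ E₆ z = 0 := by
  rw [← sub_eq_zero, jfun_sub_1728]
  simp [discriminant_ne_zero z]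

lemma anE_not_E₄_E₆_zero (z : ℍ) : ¬ (E₄ z = 0 ∧ E₆ z = 0) := by
  rintro ⟨h4, h6⟩
  have := anE_E₄_cube_sub z
  rw [h4, h6] at this
  have hΔ := discriminant_ne_zero z
  apply hΔ
  have h : (1728 : ℂ) * discriminant z = 0 := by rw [← this]; ring
  simpa using h

lemma jfun_smul (γ : SL(2, ℤ)) (z : ℍ) : jfun (γ • z) = jfun z := by
  have hd : denom γ z ≠ 0 := denom_ne_zero γ z
  have h4 := anE_smul_apply γ (anE_E₄_slash γ) z
  have hΔ : discriminant (γ • z) = denom γ z ^ (12 : ℤ) * discriminant z := by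
    have hinv : (discriminant : ℍ → ℂ) ∣[(12 : ℤ)] γ = discriminant := by
      rw [ModularForm.SL_slash]
      exact SlashInvariantFormClass.slash_action_eq CuspForm.discriminant _ ⟨γ, rfl⟩
    exact anE_smul_apply γ hinv z
  rw [jfun, jfun, h4, hΔ, mul_pow, ← zpow_natCast (denom γ z ^ (4 : ℤ)) 3, ← zpow_mul]
  norm_num
  rw [mul_div_mul_left _ _ (pow_ne_zero 12 hd)]

lemma jfun_mdiff : MDiff jfun := by
  have h4 : MDiff (⇑E₄ : ℍ → ℂ) := ModularFormClass.holo E₄
  have hΔ : MDiff (discriminant : ℍ → ℂ) := ModularFormClass.holo CuspForm.discriminant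
  exact (h4.pow 3).div hΔ discriminant_ne_zero

/-! ### Special values -/

/-- The point `ρ = -1/2 + (√3/2) i` of the upper half plane. -/
noncomputable def anE_rho : ℍ :=
  ⟨(-1 / 2 : ℂ) + (Real.sqrt 3 / 2 : ℝ) * Complex.I, by
    simp only [add_im, mul_im, ofReal_re, Complex.I_im, ofReal_im, Complex.I_re]
    norm_num⟩

lemma anE_coe_rho : (anE_rho : ℂ) = (-1 / 2 : ℂ) + (Real.sqrt 3 / 2 : ℝ) * Complex.I := rfl

lemma anE_rho_sq_add : (anE_rho : ℂ) ^ 2 + (anE_rho : ℂ) + 1 = 0 := by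
  rw [anE_coe_rho]
  have h3 : ((Real.sqrt 3 : ℝ) : ℂ) ^ 2 = 3 := by
    rw [← ofReal_pow, Real.sq_sqrt (by norm_num : (0 : ℝ) ≤ 3)]; norm_num
  push_cast
  ring_nf
  rw [I_sq, h3]
  ring

lemma anE_S_smul_I : ModularGroup.S • UpperHalfPlane.I = UpperHalfPlane.I := by
  rw [modular_S_smul]
  ext
  simp [UpperHalfPlane.coe_I]

lemma anE_E₆_I : E₆ UpperHalfPlane.I = 0 := by
  have h := anE_smul_apply ModularGroup.S (anE_E₆_slash ModularGroup.S) UpperHalfPlane.I
  rw [anE_S_smul_I, ModularGroup.denom_S, UpperHalfPlane.coe_I] at h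
  have h6 : (Complex.I : ℂ) ^ (6 : ℤ) = -1 := by
    have : (Complex.I : ℂ) ^ (6 : ℕ) = -1 := by
      calc (Complex.I : ℂ) ^ 6 = (Complex.I ^ 2) ^ 3 := by ring
        _ = -1 := by rw [I_sq]; norm_num
    exact_mod_cast this
  rw [h6] at h
  have h2 : (2 : ℂ) * E₆ UpperHalfPlane.I = 0 := by linear_combination h
  simpa using h2

lemma jfun_I : jfun UpperHalfPlane.I = 1728 := (jfun_eq_1728_iff _).mpr anE_E₆_I

lemma anE_ST_smul_rho : (ModularGroup.S * ModularGroup.T : SL(2, ℤ)) • anE_rho = anE_rho := by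
  rw [mul_smul, modular_T_smul, modular_S_smul]
  ext
  simp only [UpperHalfPlane.coe_vadd, ofReal_one]
  have h := anE_rho_sq_add
  have hρ : (anE_rho : ℂ) ≠ 0 := ne_zero anE_rho
  change (-((1 : ℂ) + (anE_rho : ℂ)))⁻¹ = (anE_rho : ℂ)
  rw [inv_eq_iff_eq_inv]
  apply eq_inv_of_mul_eq_one_left
  linear_combination -h

lemma anE_denom_ST (z : ℍ) :
    denom ((ModularGroup.S * ModularGroup.T : SL(2, ℤ))) z = (z : ℂ) + 1 := by
  rw [ModularGroup.denom_apply]
  have h10 : (ModularGroup.S * ModularGroup.T : SL(2, ℤ)) 1 0 = 1 := by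
    rw [Matrix.SpecialLinearGroup.coe_mul]
    simp [ModularGroup.S, ModularGroup.T, Matrix.mul_apply, Fin.sum_univ_two]
  have h11 : (ModularGroup.S * ModularGroup.T : SL(2, ℤ)) 1 1 = 1 := by
    rw [Matrix.SpecialLinearGroup.coe_mul]
    simp [ModularGroup.S, ModularGroup.T, Matrix.mul_apply, Fin.sum_univ_two]
  rw [h10, h11]
  simp

lemma anE_E₄_rho : E₄ anE_rho = 0 := by
  have h := anE_smul_apply (ModularGroup.S * ModularGroup.T)
    (anE_E₄_slash (ModularGroup.S * ModularGroup.T)) anE_rho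
  rw [anE_ST_smul_rho, anE_denom_ST] at h
  have hr := anE_rho_sq_add
  have h4 : ((anE_rho : ℂ) + 1) ^ (4 : ℤ) = -(anE_rho : ℂ) - 1 := by
    have : ((anE_rho : ℂ) + 1) ^ (4 : ℕ) = -(anE_rho : ℂ) - 1 := by
      linear_combination ((anE_rho : ℂ) ^ 2 + 3 * (anE_rho : ℂ) + 2) * hr
    exact_mod_cast this
  rw [h4] at h
  have h2 : ((anE_rho : ℂ) + 2) * E₄ anE_rho = 0 := by linear_combination h
  rcases mul_eq_zero.mp h2 with h3 | h3
  · exfalso
    have him := congrArg Complex.im h3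
    rw [anE_coe_rho] at him
    simp only [add_im, mul_im, ofReal_re, Complex.I_im, ofReal_im, Complex.I_re, zero_im] at him
    norm_num at him
  · exact h3

lemma jfun_rho : jfun anE_rho = 0 := (jfun_eq_zero_iff _).mpr anE_E₄_rho

/-! ### The derivative of `j` -/

lemma anE_D_E₄_cube (z : ℍ) :
    D (fun w : ℍ => E₄ w ^ 3) z = 3 * E₄ z ^ 2 * D E₄ z := by
  have h := congrFun (normalizedDerivOfComplex_pow (⇑E₄ : ℍ → ℂ) 3 (ModularFormClass.holo E₄)) z
  have e : (fun w : ℍ => E₄ w ^ 3) = (⇑E₄ : ℍ → ℂ) ^ 3 := rfl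
  rw [e, h]
  simp

lemma anE_D_E₆_sq (z : ℍ) :
    D (fun w : ℍ => E₆ w ^ 2) z = 2 * E₆ z * D E₆ z := by
  have h := congrFun (normalizedDerivOfComplex_pow (⇑E₆ : ℍ → ℂ) 2 (ModularFormClass.holo E₆)) z
  have e : (fun w : ℍ => E₆ w ^ 2) = (⇑E₆ : ℍ → ℂ) ^ 2 := rfl
  rw [e, h]
  simp

lemma anE_mdiff_E₄_cube : MDiff (fun w : ℍ => E₄ w ^ 3) :=
  (ModularFormClass.holo E₄).pow 3

lemma anE_mdiff_E₆_sq : MDiff (fun w : ℍ => E₆ w ^ 2) :=
  (ModularFormClass.holo E₆).pow 2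

lemma anE_mdiff_discriminant : MDiff (discriminant : ℍ → ℂ) :=
  ModularFormClass.holo CuspForm.discriminant

lemma anE_D_discriminant (z : ℍ) :
    1728 * D discriminant z = 3 * E₄ z ^ 2 * D E₄ z - 2 * E₆ z * D E₆ z := by
  have e : (fun w : ℍ => E₄ w ^ 3) - (fun w : ℍ => E₆ w ^ 2) =
      (1728 : ℂ) • (discriminant : ℍ → ℂ) := by
    funext w
    simp only [Pi.sub_apply, Pi.smul_apply, smul_eq_mul]
    exact anE_E₄_cube_sub w
  have h1 := congrFun (normalizedDerivOfComplex_sub _ _ anE_mdiff_E₄_cube anE_mdiff_E₆_sq) z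
  rw [e, normalizedDerivOfComplex_smul _ _ anE_mdiff_discriminant] at h1
  simp only [Pi.sub_apply, Pi.smul_apply, smul_eq_mul] at h1
  rw [h1, anE_D_E₄_cube, anE_D_E₆_sq]

lemma anE_D_jfun (z : ℍ) :
    1728 * discriminant z ^ 2 * D jfun z = E₄ z ^ 2 * E₆ z * anE_bracket z := by
  have hΔ := discriminant_ne_zero z
  have e : jfun * (discriminant : ℍ → ℂ) = fun w : ℍ => E₄ w ^ 3 := by
    funext w
    simp only [Pi.mul_apply, jfun]
    exact div_mul_cancel₀ _ (discriminant_ne_zero w)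
  have h1 := congrFun (normalizedDerivOfComplex_mul jfun discriminant jfun_mdiff
    anE_mdiff_discriminant) z
  rw [e, anE_D_E₄_cube] at h1
  simp only [Pi.add_apply, Pi.mul_apply] at h1
  have h2 := anE_D_discriminant z
  have h3 : jfun z * discriminant z = E₄ z ^ 3 := div_mul_cancel₀ _ hΔ
  have h4 := anE_E₄_cube_sub z
  rw [anE_bracket]
  -- 1728 Δ² Dj = 1728 Δ (3E₄² DE₄ - j DΔ) = 3E₄² DE₄ (E₄³ - E₆²) - E₄³ (3E₄² DE₄ - 2E₆ DE₆)
  have h5 : 1728 * discriminant z ^ 2 * D jfun z =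
      1728 * discriminant z * (3 * E₄ z ^ 2 * D E₄ z) -
        (jfun z * discriminant z) * (1728 * D discriminant z) := by
    linear_combination (-(1728 * discriminant z)) * h1
  rw [h5, h3, h2, ← h4]
  ring

/-- The constant `c` with `2 E₄ D E₆ - 3 E₆ D E₄ = c Δ`. -/
noncomputable def anE_c : ℂ := anE_exists_bracket_eq.choose

lemma anE_bracket_eq (z : ℍ) : anE_bracket z = anE_c * discriminant z :=
  anE_exists_bracket_eq.choose_spec z

lemma anE_D_jfun' (z : ℍ) :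
    1728 * discriminant z * D jfun z = anE_c * (E₄ z ^ 2 * E₆ z) := by
  have hΔ := discriminant_ne_zero z
  have h := anE_D_jfun z
  rw [anE_bracket_eq] at h
  apply mul_left_cancel₀ hΔ
  linear_combination h

lemma anE_deriv_jfun_eq_zero_of_c (hc : anE_c = 0) (z : ℍ) :
    deriv (jfun ∘ ofComplex) (z : ℂ) = 0 := by
  have h := anE_D_jfun' z
  rw [hc, zero_mul] at h
  have hΔ := discriminant_ne_zero z
  have h2 : D jfun z = 0 := by
    rcases mul_eq_zero.mp h with h3 | h3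
    · exfalso
      rcases mul_eq_zero.mp h3 with h4 | h4
      · norm_num at h4
      · exact hΔ h4
    · exact h3
  rw [normalizedDerivOfComplex] at h2
  rcases mul_eq_zero.mp h2 with h3 | h3
  · exfalso
    have : (2 * π * I : ℂ) ≠ 0 := by simp [Real.pi_ne_zero, I_ne_zero]
    exact this (inv_eq_zero.mp h3)
  · exact h3

lemma anE_c_ne_zero : anE_c ≠ 0 := by
  intro hc
  have hopen : IsOpen upperHalfPlaneSet := isOpen_upperHalfPlaneSet
  have hconn : IsPreconnected upperHalfPlaneSet :=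
    (convex_halfSpace_im_gt 0).isPreconnected
  have hdiff : DifferentiableOn ℂ (jfun ∘ ofComplex) upperHalfPlaneSet :=
    UpperHalfPlane.mdifferentiable_iff.mp jfun_mdiff
  have hder : upperHalfPlaneSet.EqOn (deriv (jfun ∘ ofComplex)) 0 := by
    intro w hw
    exact anE_deriv_jfun_eq_zero_of_c hc ⟨w, hw⟩
  have h := hopen.is_const_of_deriv_eq_zero hconn hdiff hder
    (UpperHalfPlane.I).im_pos anE_rho.im_pos
  simp only [Function.comp_apply, ofComplex_apply] at h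
  rw [jfun_I, jfun_rho] at h
  norm_num at h

/-! ### Simple zeros of `E₄` and `E₆` -/

lemma anE_D_E₄_ne_zero {z : ℍ} (h : E₄ z = 0) : D E₄ z ≠ 0 := by
  intro hD
  have hb := anE_bracket_eq z
  rw [anE_bracket, h, hD] at hb
  have : anE_c * discriminant z = 0 := by rw [← hb]; ring
  rcases mul_eq_zero.mp this with h1 | h1
  · exact anE_c_ne_zero h1
  · exact discriminant_ne_zero z h1

lemma anE_D_E₆_ne_zero {z : ℍ} (h : E₆ z = 0) : D E₆ z ≠ 0 := by
  intro hD
  have hb := anE_bracket_eq z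
  rw [anE_bracket, h, hD] at hb
  have : anE_c * discriminant z = 0 := by rw [← hb]; ring
  rcases mul_eq_zero.mp this with h1 | h1
  · exact anE_c_ne_zero h1
  · exact discriminant_ne_zero z h1

lemma anE_D_jfun_ne_zero {z : ℍ} (h4 : E₄ z ≠ 0) (h6 : E₆ z ≠ 0) : D jfun z ≠ 0 := by
  intro hD
  have h := anE_D_jfun' z
  rw [hD, mul_zero] at h
  have : anE_c * (E₄ z ^ 2 * E₆ z) ≠ 0 :=
    mul_ne_zero anE_c_ne_zero (mul_ne_zero (pow_ne_zero 2 h4) h6)
  exact this h.symm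

lemma anE_deriv_ne_zero_of_D {F : ℍ → ℂ} {z : ℍ} (h : D F z ≠ 0) :
    deriv (F ∘ ofComplex) (z : ℂ) ≠ 0 := by
  intro h0
  apply h
  rw [normalizedDerivOfComplex, h0, mul_zero]

/-! ### Analytic orders -/

lemma anE_analyticAt {F : ℍ → ℂ} (hF : MDiff F) (z : ℍ) : AnalyticAt ℂ (F ∘ ofComplex) (z : ℂ) :=
  (UpperHalfPlane.mdifferentiable_iff.mp hF).analyticAt
    (isOpen_upperHalfPlaneSet.mem_nhds z.im_pos)

lemma anE_order_E₄ {z : ℍ} (h : E₄ z = 0) :
    analyticOrderAt ((⇑E₄ : ℍ → ℂ) ∘ ofComplex) (z : ℂ) = 1 :=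
  (anE_analyticAt (ModularFormClass.holo E₄) z).analyticOrderAt_eq_one_of_zero_deriv_ne_zero
    (by simpa using h) (anE_deriv_ne_zero_of_D (anE_D_E₄_ne_zero h))

lemma anE_order_E₆ {z : ℍ} (h : E₆ z = 0) :
    analyticOrderAt ((⇑E₆ : ℍ → ℂ) ∘ ofComplex) (z : ℂ) = 1 :=
  (anE_analyticAt (ModularFormClass.holo E₆) z).analyticOrderAt_eq_one_of_zero_deriv_ne_zero
    (by simpa using h) (anE_deriv_ne_zero_of_D (anE_D_E₆_ne_zero h))

lemma anE_order_inv_discriminant (z : ℍ) :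
    analyticOrderAt (fun w : ℂ => (discriminant (ofComplex w))⁻¹) (z : ℂ) = 0 := by
  rw [analyticOrderAt_eq_zero]
  right
  simpa using discriminant_ne_zero z

lemma anE_analyticAt_inv_discriminant (z : ℍ) :
    AnalyticAt ℂ (fun w : ℂ => (discriminant (ofComplex w))⁻¹) (z : ℂ) :=
  (anE_analyticAt anE_mdiff_discriminant z).inv (by simpa using discriminant_ne_zero z)

/-- `j` vanishes to order exactly `3` at every zero. -/
theorem anE_order_jfun_of_zero {z : ℍ} (h : jfun z = 0) :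
    analyticOrderAt (fun w : ℂ => jfun (ofComplex w) - jfun z) (z : ℂ) = 3 := by
  have h4 : E₄ z = 0 := (jfun_eq_zero_iff z).mp h
  have e : (fun w : ℂ => jfun (ofComplex w) - jfun z) =
      ((⇑E₄ : ℍ → ℂ) ∘ ofComplex) ^ 3 * (fun w : ℂ => (discriminant (ofComplex w))⁻¹) := by
    funext w
    rw [h, sub_zero]
    simp only [jfun, Pi.mul_apply, Pi.pow_apply, Function.comp_apply, div_eq_mul_inv]
  rw [e, analyticOrderAt_mul ((anE_analyticAt (ModularFormClass.holo E₄) z).pow 3)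
    (anE_analyticAt_inv_discriminant z),
    analyticOrderAt_pow (anE_analyticAt (ModularFormClass.holo E₄) z), anE_order_E₄ h4,
    anE_order_inv_discriminant]
  rfl

/-- `j - 1728` vanishes to order exactly `2` at every zero. -/
theorem anE_order_jfun_of_1728 {z : ℍ} (h : jfun z = 1728) :
    analyticOrderAt (fun w : ℂ => jfun (ofComplex w) - jfun z) (z : ℂ) = 2 := by
  have h6 : E₆ z = 0 := (jfun_eq_1728_iff z).mp h
  have e : (fun w : ℂ => jfun (ofComplex w) - jfun z) =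
      ((⇑E₆ : ℍ → ℂ) ∘ ofComplex) ^ 2 * (fun w : ℂ => (discriminant (ofComplex w))⁻¹) := by
    funext w
    simp only [h, jfun_sub_1728, Pi.mul_apply, Pi.pow_apply, Function.comp_apply, div_eq_mul_inv]
  rw [e, analyticOrderAt_mul ((anE_analyticAt (ModularFormClass.holo E₆) z).pow 2)
    (anE_analyticAt_inv_discriminant z),
    analyticOrderAt_pow (anE_analyticAt (ModularFormClass.holo E₆) z), anE_order_E₆ h6,
    anE_order_inv_discriminant]
  rfl

/-- `j - c` vanishes to order exactly `1` at every zero, if `c ≠ 0, 1728`. -/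
theorem anE_order_jfun_of_generic {z : ℍ} (h0 : jfun z ≠ 0) (h1 : jfun z ≠ 1728) :
    analyticOrderAt (fun w : ℂ => jfun (ofComplex w) - jfun z) (z : ℂ) = 1 := by
  have h4 : E₄ z ≠ 0 := fun h => h0 ((jfun_eq_zero_iff z).mpr h)
  have h6 : E₆ z ≠ 0 := fun h => h1 ((jfun_eq_1728_iff z).mpr h)
  have := (anE_analyticAt jfun_mdiff z).analyticOrderAt_sub_eq_one_of_deriv_ne_zero
    (anE_deriv_ne_zero_of_D (anE_D_jfun_ne_zero h4 h6))
  simpa using this

/-! ### Values at `i∞` and surjectivity of `j` -/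

lemma anE_tendsto_E₄ : Tendsto (⇑E₄ : ℍ → ℂ) atImInfty (𝓝 1) := by
  have hanal := ModularFormClass.analyticAt_cuspFunction_zero E₄ one_pos one_mem_strictPeriods_SL
  have h1 : cuspFunction 1 (⇑E₄ : ℍ → ℂ) 0 = 1 := by
    have := EisensteinSeries.E_qExpansion_coeff_zero (k := 4) (by norm_num) ⟨2, rfl⟩
    simpa [qExpansion_coeff] using this
  have := (hanal.continuousAt.tendsto.comp (qParam_tendsto_atImInfty one_pos)).congr
    (fun τ ↦ SlashInvariantFormClass.eq_cuspFunction E₄ τ one_mem_strictPeriods_SL one_ne_zero)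
  rwa [h1] at this

lemma anE_tendsto_E₆ : Tendsto (⇑E₆ : ℍ → ℂ) atImInfty (𝓝 1) := by
  have hanal := ModularFormClass.analyticAt_cuspFunction_zero E₆ one_pos one_mem_strictPeriods_SL
  have h1 : cuspFunction 1 (⇑E₆ : ℍ → ℂ) 0 = 1 := by
    have := EisensteinSeries.E_qExpansion_coeff_zero (k := 6) (by norm_num) ⟨3, rfl⟩
    simpa [qExpansion_coeff] using this
  have := (hanal.continuousAt.tendsto.comp (qParam_tendsto_atImInfty one_pos)).congr
    (fun τ ↦ SlashInvariantFormClass.eq_cuspFunction E₆ τ one_mem_strictPeriods_SL one_ne_zero)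
  rwa [h1] at this

lemma anE_tendsto_discriminant : Tendsto (discriminant : ℍ → ℂ) atImInfty (𝓝 0) :=
  discriminant_isZeroAtImInfty

/-- The weight-12 level-one form `E₄³ - c Δ`. -/
noncomputable def anE_pencil (c : ℂ) (z : ℍ) : ℂ := E₄ z ^ 3 - c * discriminant z

lemma anE_pencil_smul (c : ℂ) (γ : SL(2, ℤ)) (z : ℍ) :
    anE_pencil c (γ • z) = denom γ z ^ (12 : ℤ) * anE_pencil c z := by
  have hd : denom γ z ≠ 0 := denom_ne_zero γ z
  have h4 := anE_smul_apply γ (anE_E₄_slash γ) z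
  have hΔ : discriminant (γ • z) = denom γ z ^ (12 : ℤ) * discriminant z := by
    have hinv : (discriminant : ℍ → ℂ) ∣[(12 : ℤ)] γ = discriminant := by
      rw [ModularForm.SL_slash]
      exact SlashInvariantFormClass.slash_action_eq CuspForm.discriminant _ ⟨γ, rfl⟩
    exact anE_smul_apply γ hinv z
  rw [anE_pencil, anE_pencil, h4, hΔ, mul_pow, ← zpow_natCast (denom γ z ^ (4 : ℤ)) 3,
    ← zpow_mul]
  norm_num
  ring

lemma anE_pencil_mdiff (c : ℂ) : MDiff (anE_pencil c) := by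
  have hc : MDiff (fun _ : ℍ => c) := mdifferentiable_const
  exact anE_mdiff_E₄_cube.sub (hc.mul anE_mdiff_discriminant)

lemma anE_tendsto_pencil (c : ℂ) : Tendsto (anE_pencil c) atImInfty (𝓝 1) := by
  have h := (anE_tendsto_E₄.pow 3).sub (anE_tendsto_discriminant.const_mul c)
  have e : (1 : ℂ) ^ 3 - c * 0 = 1 := by norm_num
  rw [e] at h
  exact h

/-- `j` is surjective. -/
theorem jfun_surjective : Function.Surjective jfun := by
  intro c
  by_contra hne
  replace hne : ∀ z : ℍ, jfun z ≠ c := fun z hz => hne ⟨z, hz⟩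
  have hg : ∀ z : ℍ, anE_pencil c z ≠ 0 := by
    intro z h0
    apply hne z
    rw [jfun, div_eq_iff (discriminant_ne_zero z)]
    rw [anE_pencil] at h0
    linear_combination h0
  -- the inverse is a modular form of weight `-12`
  let h : ℍ → ℂ := fun z => (anE_pencil c z)⁻¹
  have hslash : ∀ γ : SL(2, ℤ), h ∣[(-12 : ℤ)] γ = h := by
    intro γ
    funext z
    have hd : denom γ z ≠ 0 := denom_ne_zero γ z
    rw [ModularForm.SL_slash_apply]
    simp only [h, anE_pencil_smul, neg_neg, mul_inv]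
    rw [mul_comm, ← mul_assoc, mul_inv_cancel₀ (zpow_ne_zero 12 hd), one_mul]
  have hbdd : IsBoundedAtImInfty h := by
    have ht : Tendsto h atImInfty (𝓝 (1 : ℂ)⁻¹) :=
      (anE_tendsto_pencil c).inv₀ one_ne_zero
    exact ht.isBigO_one ℝ
  have hmd : MDiff h := by
    have e : h = (fun _ : ℍ => (1 : ℂ)) / anE_pencil c := by
      funext z; simp [h]
    rw [e]
    exact mdifferentiable_const.div (anE_pencil_mdiff c) hg
  let f : ModularForm 𝒮ℒ (-12) :=
    { toFun := h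
      slash_action_eq' := fun A hA => by
        obtain ⟨A, rfl⟩ := hA
        exact hslash A
      holo' := hmd
      bdd_at_cusps' := fun {c'} hc => by
        rw [Subgroup.IsArithmetic.isCusp_iff_isCusp_SL2Z] at hc
        rw [OnePoint.isBoundedAt_iff_forall_SL2Z hc]
        intro γ _
        rw [hslash]
        exact hbdd }
  have hzero := ModularFormClass.levelOne_neg_weight_eq_zero (by norm_num : (-12 : ℤ) < 0) f
  have := congrFun hzero UpperHalfPlane.I
  have h2 : (anE_pencil c UpperHalfPlane.I)⁻¹ = 0 := this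
  exact hg _ (inv_eq_zero.mp h2)

end Fermat.Agent.S24
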