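/-
S24, analytic part (AN): shared definitions and `Prop`-valued statements.
Architect: helper22.  Nothing is proved here.

Conventions
* `X = SL(2,ℤ) ⧸ Γ₀(N)` LEFT cosets `x = γ Γ₀(N)`; the point/cusp attached to `x` and a base
  point `z₀` is `γ⁻¹ • z₀` (well defined modulo `Γ₀(N)` acting on the left of `ℍ`).
  The translate of a `Γ₀(N)`-invariant function `f` is `fun z => f (γ⁻¹ • z)`.
* No meromorphic functions, no fraction field of holomorphic functions: everything is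
  expressed through the ring `ringA N = Q̄[j(dz) : d ∣ N] ⊆ F` and the bridge `Θ₀`.
-/
import Mathlib
import Fermat.Agent.S24.Defs
import Fermat.Agent.S24.JOrder

set_option autoImplicit false

noncomputable section

namespace Fermat.Agent.S24

open AlgebraicCurve IntermediateField UpperHalfPlane Filter CongruenceSubgroup
open scoped MatrixGroups Manifold Topology

/-! ### Shared objects -/

/-- The fixed embedding `Q̄ → ℂ`. -/
def iota : QBar →+* ℂ :=
  haveI : Algebra.IsAlgebraic ℚ (AlgebraicClosure ℚ) := AlgebraicClosure.isAlgebraic ℚ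
  ((IsAlgClosed.lift : AlgebraicClosure ℚ →ₐ[ℚ] ℂ) : AlgebraicClosure ℚ →+* ℂ)

/-- The generators `j(dz)`, `d ∣ N`, of the function field. -/
def jDivSet (N : ℕ) : Set (FunField N) :=
  {x | ∃ (d : ℕ) (_ : NeZero d) (hd : d ∣ N), x = jDiv N d hd}

/-- The subalgebra `Q̄[j(dz) : d ∣ N]` of the function field. -/
def ringA (N : ℕ) : Subalgebra QBar (FunField N) := Algebra.adjoin QBar (jDivSet N)

theorem jDiv_mem_ringA (N : ℕ) (d : ℕ) [NeZero d] (hd : d ∣ N) : jDiv N d hd ∈ ringA N :=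
  Algebra.subset_adjoin ⟨d, ‹_›, hd, rfl⟩

/-- `j(dz)` as an element of `ringA N`. -/
def jDivA (N : ℕ) (d : ℕ) [NeZero d] (hd : d ∣ N) : ringA N := ⟨jDiv N d hd, jDiv_mem_ringA N d hd⟩

/-- `j` as an element of `ringA N`. -/
def jA (N : ℕ) : ringA N := jDivA N 1 (one_dvd N)

/-- The function `z ↦ j(d z)` on the upper half plane. -/
def jfunMul (d : ℕ) (z : ℍ) : ℂ := jfun (ofComplex ((d : ℂ) * (z : ℂ)))

/-- **The bridge** between the formal function field and functions on `ℍ`. -/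
structure IsBridge (N : ℕ) (Θ₀ : ringA N →+* (ℍ → ℂ)) (π : ℂ →+ QBar) : Prop where
  map_const : ∀ (c : QBar) (z : ℍ), Θ₀ (algebraMap QBar (ringA N) c) z = iota c
  map_jDiv : ∀ (d : ℕ) [NeZero d] (hd : d ∣ N) (z : ℍ), Θ₀ (jDivA N d hd) z = jfunMul d z
  holo : ∀ a : ringA N, MDiff (Θ₀ a)
  inv : ∀ (a : ringA N) (γ : SL(2, ℤ)), γ ∈ Gamma0 N → ∀ z : ℍ, Θ₀ a (γ • z) = Θ₀ a z
  retract_one : π 1 = 1
  retract_mul : ∀ (c : QBar) (x : ℂ), π (iota c * x) = c * π x
  descent : ∀ (n : ℕ) (c : Fin n → ℂ) (a : Fin n → ringA N),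
    (∀ z : ℍ, ∑ i, c i * Θ₀ (a i) z = 0) → ∑ i, π (c i) • a i = 0

/-- (AN-A) The bridge exists. -/
def BridgeStatement : Prop :=
  ∀ (N : ℕ) [NeZero N], ∃ (Θ₀ : ringA N →+* (ℍ → ℂ)) (π : ℂ →+ QBar), IsBridge N Θ₀ π

/-- The translate of a function by `γ` (attached to the left coset `γ Γ₀(N)`). -/
def translate (f : ℍ → ℂ) (γ : SL(2, ℤ)) : ℍ → ℂ := fun z => f (γ⁻¹ • z)

/-- Moderate growth at `i∞`. -/
def ModerateGrowth (f : ℍ → ℂ) : Prop :=
  ∃ M : ℕ, f =O[atImInfty] fun z : ℍ => Real.exp (2 * Real.pi * M * z.im)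

/-- (AN-B) All translates of all elements of `ringA N` have moderate growth. -/
def GrowthStatement : Prop :=
  ∀ (N : ℕ) [NeZero N] (Θ₀ : ringA N →+* (ℍ → ℂ)) (π : ℂ →+ QBar), IsBridge N Θ₀ π →
    ∀ (a : ringA N) (γ : SL(2, ℤ)), ModerateGrowth (translate (Θ₀ a) γ)

/-- (AN-C) A holomorphic `SL(2,ℤ)`-invariant function of moderate growth is a polynomial
in `j`. -/
def InvariantPolynomialStatement : Prop :=
  ∀ f : ℍ → ℂ, MDiff f → (∀ (γ : SL(2, ℤ)) (z : ℍ), f (γ • z) = f z) → ModerateGrowth f →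
    ∃ p : Polynomial ℂ, ∀ z : ℍ, f z = p.eval (jfun z)

/-! ### Places at points of `ℍ` and at cusps -/

/-- The analytic order of a function on `ℍ` at a point (`⊤` if it vanishes identically
near the point). -/
def ordAt (f : ℍ → ℂ) (z : ℍ) : ℕ∞ := analyticOrderAt (f ∘ ofComplex) (z : ℂ)

/-- `v` is the place of `F` "at the point `z`": its valuation ring consists of the
quotients `a / b` with `ord_z(Θ₀ a) ≥ ord_z(Θ₀ b)`. -/
def IsPlaceAt {N : ℕ} (Θ₀ : ringA N →+* (ℍ → ℂ)) (z : ℍ) (v : Place QBar (FunField N)) : Prop :=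
  ∀ a b : ringA N, b ≠ 0 →
    ((a : FunField N) / (b : FunField N) ∈ v.toValuationSubring ↔
      ordAt (Θ₀ b) z ≤ ordAt (Θ₀ a) z)

/-- `m` is the order of `f` at `i∞` in the variable `q_N = exp(2πi z / N)`:
`f(z) · q_N^(-m)` tends to a nonzero limit. -/
def IsCuspOrd (N : ℕ) (f : ℍ → ℂ) (m : ℤ) : Prop :=
  ∃ L : ℂ, L ≠ 0 ∧
    Tendsto (fun z : ℍ => f z * Complex.exp (-(2 * Real.pi * Complex.I * m * (z : ℂ) / N)))
      atImInfty (𝓝 L)

/-- `v` is the place of `F` "at the cusp `γ⁻¹ ∞`": its valuation ring consists of the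
quotients `a / b` with `ord_∞(a^γ) ≥ ord_∞(b^γ)`. -/
def IsPlaceAtCusp {N : ℕ} (Θ₀ : ringA N →+* (ℍ → ℂ)) (γ : SL(2, ℤ))
    (v : Place QBar (FunField N)) : Prop :=
  ∀ (a b : ringA N) (m n : ℤ), IsCuspOrd N (translate (Θ₀ a) γ) m →
    IsCuspOrd N (translate (Θ₀ b) γ) n →
      ((a : FunField N) / (b : FunField N) ∈ v.toValuationSubring ↔ n ≤ m)

/-- (AN-F0) Every nonzero element of `ringA N` has an order at every cusp. -/
def CuspOrdExistsStatement : Prop :=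
  ∀ (N : ℕ) [NeZero N] (Θ₀ : ringA N →+* (ℍ → ℂ)) (π : ℂ →+ QBar), IsBridge N Θ₀ π →
    ∀ (a : ringA N) (γ : SL(2, ℤ)), a ≠ 0 → ∃ m : ℤ, IsCuspOrd N (translate (Θ₀ a) γ) m

/-- (AN-E1) Places at the points with algebraic `j`-invariant exist. -/
def PointPlaceStatement : Prop :=
  ∀ (N : ℕ) [NeZero N] (Θ₀ : ringA N →+* (ℍ → ℂ)) (π : ℂ →+ QBar), IsBridge N Θ₀ π →
    ∀ z : ℍ, (∃ c : QBar, jfun z = iota c) → ∃ v : Place QBar (FunField N), IsPlaceAt Θ₀ z v

/-- (AN-F1) Places at the cusps exist. -/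
def CuspPlaceStatement : Prop :=
  ∀ (N : ℕ) [NeZero N] (Θ₀ : ringA N →+* (ℍ → ℂ)) (π : ℂ →+ QBar), IsBridge N Θ₀ π →
    ∀ γ : SL(2, ℤ), ∃ v : Place QBar (FunField N), IsPlaceAtCusp Θ₀ γ v

/-- A family of places `P x` attached to the points `γ⁻¹ • z₀`. -/
def IsPointFamily {N : ℕ} (Θ₀ : ringA N →+* (ℍ → ℂ)) (z₀ : ℍ)
    (P : XN N → Place QBar (FunField N)) : Prop :=
  ∀ γ : SL(2, ℤ), IsPlaceAt Θ₀ (γ⁻¹ • z₀) (P (γ : XN N))

/-- A family of places `P x` attached to the cusps `γ⁻¹ ∞`. -/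
def IsCuspFamily {N : ℕ} (Θ₀ : ringA N →+* (ℍ → ℂ))
    (P : XN N → Place QBar (FunField N)) : Prop :=
  ∀ γ : SL(2, ℤ), IsPlaceAtCusp Θ₀ γ (P (γ : XN N))

/-- (AN-E2) Point families exist, vanish on `j - c`, and are invariant under the stabilizer
of `z₀`. -/
def PointFamilyStatement : Prop :=
  ∀ (N : ℕ) [NeZero N] (Θ₀ : ringA N →+* (ℍ → ℂ)) (π : ℂ →+ QBar), IsBridge N Θ₀ π →
    ∀ (c : QBar) (z₀ : ℍ), jfun z₀ = iota c →
      ∃ P : XN N → Place QBar (FunField N), IsPointFamily Θ₀ z₀ P ∧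
        (∀ x, jF N - algebraMap QBar (FunField N) c ∈ (P x).toValuationSubring.nonunits) ∧
        (∀ (h : SL(2, ℤ)) (x : XN N), h • z₀ = z₀ → P (h • x) = P x)

/-- (AN-E3 generic) `j - c` is unramified over a generic point. -/
def RamGenericStatement : Prop :=
  ∀ (N : ℕ) [NeZero N] (Θ₀ : ringA N →+* (ℍ → ℂ)) (π : ℂ →+ QBar), IsBridge N Θ₀ π →
    ∀ (c : QBar) (z₀ : ℍ), jfun z₀ = iota c → c ≠ 0 → c ≠ 1728 →
      ∀ P : XN N → Place QBar (FunField N), IsPointFamily Θ₀ z₀ P →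
        ∀ x, (P x).ord (jF N - algebraMap QBar (FunField N) c) ≤ 1

/-- (AN-E3 i) Ramification bound over `j = 1728` (base point `i`, stabilizer `⟨S⟩`). -/
def RamIStatement : Prop :=
  ∀ (N : ℕ) [NeZero N] (Θ₀ : ringA N →+* (ℍ → ℂ)) (π : ℂ →+ QBar), IsBridge N Θ₀ π →
    ∀ P : XN N → Place QBar (FunField N), IsPointFamily Θ₀ UpperHalfPlane.I P →
      ∀ x, (P x).ord (jF N - algebraMap QBar (FunField N) 1728) ≤
        (Nat.card (MulAction.orbit (Subgroup.zpowers ModularGroup.S) x) : ℤ)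

/-- (AN-E3 ρ) Ramification bound over `j = 0` (base point `ρ`, stabilizer `⟨S T⟩`). -/
def RamRhoStatement : Prop :=
  ∀ (N : ℕ) [NeZero N] (Θ₀ : ringA N →+* (ℍ → ℂ)) (π : ℂ →+ QBar), IsBridge N Θ₀ π →
    ∀ P : XN N → Place QBar (FunField N), IsPointFamily Θ₀ anE_rho P →
      ∀ x, (P x).ord (jF N) ≤
        (Nat.card (MulAction.orbit (Subgroup.zpowers elST) x) : ℤ)

/-- (AN-F2) The cusp family exists, vanishes on `j⁻¹`, is `T`-invariant, and satisfies the
ramification bound by the width. -/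
def CuspFamilyStatement : Prop :=
  ∀ (N : ℕ) [NeZero N] (Θ₀ : ringA N →+* (ℍ → ℂ)) (π : ℂ →+ QBar), IsBridge N Θ₀ π →
    ∃ P : XN N → Place QBar (FunField N), IsCuspFamily Θ₀ P ∧
      (∀ x, (jF N)⁻¹ ∈ (P x).toValuationSubring.nonunits) ∧
      (∀ x : XN N, P (ModularGroup.T • x) = P x) ∧
      (∀ x : XN N, (P x).ord (jF N)⁻¹ ≤
        (Nat.card (MulAction.orbit (Subgroup.zpowers ModularGroup.T) x) : ℤ))

/-- (AN-D) The symmetric-function property over a finite point. -/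
def SymPointStatement : Prop :=
  ∀ (N : ℕ) [NeZero N] (Θ₀ : ringA N →+* (ℍ → ℂ)) (π : ℂ →+ QBar), IsBridge N Θ₀ π →
    ∀ (c : QBar) (z₀ : ℍ), jfun z₀ = iota c →
      ∀ P : XN N → Place QBar (FunField N), IsPointFamily Θ₀ z₀ P →
        ∀ g : FunField N,
          IsIntegral (Algebra.adjoin QBar {jF N - algebraMap QBar (FunField N) c}) g →
          (∀ x, g ∈ (P x).toValuationSubring.nonunits) →
            ∃ b : FunField N,
              IsIntegral (Algebra.adjoin QBar {jF N - algebraMap QBar (FunField N) c}) b ∧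
                g ^ Nat.card (XN N) = (jF N - algebraMap QBar (FunField N) c) * b

/-- (AN-D∞) The symmetric-function property over the cusps. -/
def SymCuspStatement : Prop :=
  ∀ (N : ℕ) [NeZero N] (Θ₀ : ringA N →+* (ℍ → ℂ)) (π : ℂ →+ QBar), IsBridge N Θ₀ π →
    ∀ P : XN N → Place QBar (FunField N), IsCuspFamily Θ₀ P →
      ∀ g : FunField N,
        IsIntegral (Algebra.adjoin QBar {(jF N)⁻¹}) g →
        (∀ x, g ∈ (P x).toValuationSubring.nonunits) →
          ∃ b : FunField N,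
            IsIntegral (Algebra.adjoin QBar {(jF N)⁻¹}) b ∧
              g ^ Nat.card (XN N) = (jF N)⁻¹ * b

/-- (AN-D0) Every element of `ringA N` is integral over `Q̄[j]` (the characteristic
polynomial `∏_x (T - a^x)` has coefficients in `ℂ[j]` by (AN-C); descend with `π`). -/
def RingAIntegralStatement : Prop :=
  ∀ (N : ℕ) [NeZero N] (Θ₀ : ringA N →+* (ℍ → ℂ)) (π : ℂ →+ QBar), IsBridge N Θ₀ π →
    ∀ a : ringA N, IsIntegral (Algebra.adjoin QBar {jF N}) (a : FunField N)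

/-- (AN-G0) The formal `j` is transcendental over `Q̄`. -/
def JTranscendentalStatement : Prop :=
  ∀ (N : ℕ) [NeZero N], Transcendental QBar (jF N)

/-- (AN-G1) The stabilizer of `z ↦ j(Nz)` in `SL(2,ℤ)` is contained in `Γ₀(N)`. -/
def StabilizerStatement : Prop :=
  ∀ (N : ℕ) [NeZero N] (δ : SL(2, ℤ)),
    (∀ z : ℍ, jfunMul N (δ • z) = jfunMul N z) → δ ∈ Gamma0 N

/-- (AN-E5) `j` is surjective. -/
def JSurjectiveStatement : Prop := Function.Surjective jfun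

/-- (AN-E4) Local orders of `j`. -/
def JOrderStatement : Prop :=
  ∀ z₀ : ℍ, ordAt (fun z => jfun z - jfun z₀) z₀ =
    if jfun z₀ = 0 then 3 else if jfun z₀ = 1728 then 2 else 1

end Fermat.Agent.S24
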