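import Mathlib
import Fermat.Prelude.Def_ModularCurve_X0
import Fermat.Agent.S22.Basic
import Fermat.Agent.S22.Nice
import Fermat.Agent.S22.LevelOne

/-!
# S24, package AN-A (bridge), part 1: the `q`-expansions of the building blocks

* `anA_etaF z = ∏' n, (1 - q ^ (n + 1))` is nice, nowhere zero, and its `q`-expansion is the
  formal product `ModularCurve.etaProd` (coefficientwise cast to `ℂ`);
* the `q`-expansion of `E₄` is `ModularCurve.eisenstein4`;
* `Δ = q * anA_etaF ^ 24`.
-/

set_option autoImplicit false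

noncomputable section

namespace Fermat.Agent.S24

open UpperHalfPlane ModularFormClass CongruenceSubgroup Matrix.SpecialLinearGroup Function
open ModularForm EisensteinSeries Filter Topology
open scoped MatrixGroups ModularForm Manifold

open Fermat.Agent.S22

local notation "𝕢" => Function.Periodic.qParam

/-! ### Iterated derivatives of locally uniform limits -/

theorem anA_tendstoLocallyUniformlyOn_iteratedDeriv {ι : Type*} {φ : Filter ι}
    {F : ι → ℂ → ℂ} {f : ℂ → ℂ} {U : Set ℂ} (hU : IsOpen U)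
    (hf : TendstoLocallyUniformlyOn F f φ U) (hF : ∀ᶠ n in φ, DifferentiableOn ℂ (F n) U)
    (k : ℕ) :
    TendstoLocallyUniformlyOn (fun n => iteratedDeriv k (F n)) (iteratedDeriv k f) φ U ∧
      ∀ᶠ n in φ, DifferentiableOn ℂ (iteratedDeriv k (F n)) U := by
  induction k with
  | zero =>
    simp only [iteratedDeriv_zero]
    exact ⟨hf, hF⟩
  | succ k ih =>
    obtain ⟨h1, h2⟩ := ih
    refine ⟨?_, ?_⟩
    · have := h1.deriv h2 hU
      simp only [iteratedDeriv_succ]
      exact this
    · filter_upwards [h2] with n hn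
      rw [iteratedDeriv_succ]
      exact hn.deriv hU

theorem anA_tendsto_iteratedDeriv {ι : Type*} {φ : Filter ι}
    {F : ι → ℂ → ℂ} {f : ℂ → ℂ} {U : Set ℂ} (hU : IsOpen U)
    (hf : TendstoLocallyUniformlyOn F f φ U) (hF : ∀ᶠ n in φ, DifferentiableOn ℂ (F n) U)
    (k : ℕ) {x : ℂ} (hx : x ∈ U) :
    Tendsto (fun n => iteratedDeriv k (F n) x) φ (𝓝 (iteratedDeriv k f x)) :=
  (anA_tendstoLocallyUniformlyOn_iteratedDeriv hU hf hF k).1.tendsto_at hx

/-! ### Iterated derivatives of polynomial functions at `0` -/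

theorem anA_iteratedDeriv_polynomial (p : Polynomial ℂ) (k : ℕ) :
    iteratedDeriv k (fun x : ℂ => p.eval x) = fun x => (Polynomial.derivative^[k] p).eval x := by
  induction k generalizing p with
  | zero => simp
  | succ k ih =>
    rw [iteratedDeriv_succ', Function.iterate_succ_apply]
    have : deriv (fun x : ℂ => p.eval x) = fun x => (Polynomial.derivative p).eval x := by
      funext x
      exact p.deriv
    rw [this, ih]

theorem anA_iteratedDeriv_polynomial_zero (p : Polynomial ℂ) (k : ℕ) :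
    iteratedDeriv k (fun x : ℂ => p.eval x) 0 = (k.factorial : ℂ) * p.coeff k := by
  rw [anA_iteratedDeriv_polynomial]
  show Polynomial.eval 0 (Polynomial.derivative^[k] p) = _
  rw [← Polynomial.coeff_zero_eq_eval_zero, Polynomial.coeff_iterate_derivative]
  simp [Nat.descFactorial_self]

/-! ### The eta product: formal versus analytic coefficients -/

/-- The finite partial products of the eta product as integral polynomials. -/
def anA_etaPoly (s : Finset ℕ) : Polynomial ℤ := ∏ n ∈ s, (1 - Polynomial.X ^ (n + 1))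

theorem anA_etaPoly_coe (s : Finset ℕ) :
    ((anA_etaPoly s : Polynomial ℤ) : PowerSeries ℤ) =
      ∏ n ∈ s, (1 - (PowerSeries.X : PowerSeries ℤ) ^ (n + 1)) := by
  rw [anA_etaPoly, ← Polynomial.coeToPowerSeries.ringHom_apply, map_prod]
  refine Finset.prod_congr rfl fun n _ => ?_
  simp

theorem anA_etaPoly_eval (s : Finset ℕ) (q : ℂ) :
    ((anA_etaPoly s).map (Int.castRingHom ℂ)).eval q = ∏ n ∈ s, (1 - q ^ (n + 1)) := by
  rw [anA_etaPoly, Polynomial.map_prod, Polynomial.eval_prod]
  refine Finset.prod_congr rfl fun n _ => ?_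
  simp

open scoped PowerSeries.WithPiTopology in
theorem anA_tendsto_coeff_etaProd (k : ℕ) :
    Tendsto (fun s : Finset ℕ => (((anA_etaPoly s).coeff k : ℤ) : ℂ)) atTop
      (𝓝 ((ModularCurve.etaProd.coeff k : ℤ) : ℂ)) := by
  have h1 : HasProd (fun n : ℕ => (1 - (PowerSeries.X : PowerSeries ℤ) ^ (n + 1)))
      ModularCurve.etaProd :=
    (PowerSeries.WithPiTopology.multipliable_one_sub_X_pow ℤ).hasProd
  have h2 : Tendsto (fun s : Finset ℕ =>
      (∏ n ∈ s, (1 - (PowerSeries.X : PowerSeries ℤ) ^ (n + 1))).coeff k) atTop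
      (𝓝 (ModularCurve.etaProd.coeff k)) :=
    ((PowerSeries.WithPiTopology.continuous_coeff ℤ k).tendsto _).comp h1
  have h3 : Continuous (fun m : ℤ => (m : ℂ)) := continuous_of_discreteTopology
  have h4 := (h3.tendsto _).comp h2
  refine h4.congr fun s => ?_
  simp only [comp_apply]
  rw [← anA_etaPoly_coe, Polynomial.coeff_coe]

/-- The analytic eta product on the unit disc. -/
def anA_etaDisc (q : ℂ) : ℂ := ∏' n : ℕ, (1 - q ^ (n + 1))

theorem anA_iteratedDeriv_etaDisc (k : ℕ) :
    iteratedDeriv k anA_etaDisc 0 = (k.factorial : ℂ) * ((ModularCurve.etaProd.coeff k : ℤ) : ℂ) := by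
  have hloc : TendstoLocallyUniformlyOn
      (fun (s : Finset ℕ) (q : ℂ) => ∏ n ∈ s, (1 - q ^ (n + 1))) anA_etaDisc atTop
      (Metric.ball (0 : ℂ) 1) := by
    have := multipliableLocallyUniformlyOn_one_sub_pow.hasProdLocallyUniformlyOn
    rw [hasProdLocallyUniformlyOn_iff_tendstoLocallyUniformlyOn] at this
    exact this
  have hdiff : ∀ᶠ s : Finset ℕ in atTop, DifferentiableOn ℂ
      (fun q : ℂ => ∏ n ∈ s, (1 - q ^ (n + 1))) (Metric.ball (0 : ℂ) 1) :=
    .of_forall fun s => by
      simpa [Finset.prod_fn] using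
        DifferentiableOn.finsetProd (𝕜 := ℂ) (u := s) (s := Metric.ball (0 : ℂ) 1)
          (f := fun (n : ℕ) (q : ℂ) => 1 - q ^ (n + 1)) (fun _ _ => by fun_prop)
  have h1 := anA_tendsto_iteratedDeriv Metric.isOpen_ball hloc hdiff k
    (Metric.mem_ball_self one_pos)
  have h2 : ∀ s : Finset ℕ, iteratedDeriv k (fun q : ℂ => ∏ n ∈ s, (1 - q ^ (n + 1))) 0 =
      (k.factorial : ℂ) * (((anA_etaPoly s).coeff k : ℤ) : ℂ) := by
    intro s
    have := anA_iteratedDeriv_polynomial_zero ((anA_etaPoly s).map (Int.castRingHom ℂ)) k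
    simp only [anA_etaPoly_eval, Polynomial.coeff_map, eq_intCast] at this
    exact this
  simp only [h2] at h1
  exact tendsto_nhds_unique h1 ((anA_tendsto_coeff_etaProd k).const_mul _)

/-! ### Functions of the form `g ∘ q` with `g` holomorphic on the unit disc -/

theorem anA_qParam_add_one (w : ℂ) : 𝕢 1 (w + 1) = 𝕢 1 w := by
  simp only [Periodic.qParam, Complex.ofReal_one, div_one]
  rw [mul_add, mul_one, Complex.exp_add, Complex.exp_two_pi_mul_I, mul_one]

theorem anA_norm_qParam_lt_one (z : ℍ) : ‖𝕢 1 (z : ℂ)‖ < 1 :=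
  Periodic.norm_qParam_lt_one one_pos z.im_pos

theorem anA_qParam_mem_ball (z : ℍ) : 𝕢 1 (z : ℂ) ∈ Metric.ball (0 : ℂ) 1 := by
  simpa using anA_norm_qParam_lt_one z

theorem anA_isNice_comp_qParam {g : ℂ → ℂ} (hg : DifferentiableOn ℂ g (Metric.ball (0 : ℂ) 1)) :
    IsNice (fun z : ℍ => g (𝕢 1 (z : ℂ))) where
  per := fun w => by
    by_cases hw : 0 < w.im
    · have hw' : 0 < (w + 1).im := by simpa using hw
      simp only [comp_apply, ofComplex_apply_of_im_pos hw, ofComplex_apply_of_im_pos hw']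
      show g (𝕢 1 (w + 1)) = g (𝕢 1 w)
      rw [anA_qParam_add_one]
    · have hw1 : w.im ≤ 0 := not_lt.mp hw
      have hw' : (w + 1).im ≤ 0 := by simpa using hw1
      simp only [comp_apply, ofComplex_apply_of_im_nonpos hw1, ofComplex_apply_of_im_nonpos hw']
  holo := by
    rw [UpperHalfPlane.mdifferentiable_iff]
    have h1 : DifferentiableOn ℂ (fun w : ℂ => g (𝕢 1 w)) {z : ℂ | 0 < z.im} := by
      intro w hw
      have hq : 𝕢 1 w ∈ Metric.ball (0 : ℂ) 1 := by
        simpa using Periodic.norm_qParam_lt_one one_pos hw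
      have h2 : DifferentiableAt ℂ g (𝕢 1 w) :=
        (hg _ hq).differentiableAt (Metric.isOpen_ball.mem_nhds hq)
      have h3 : DifferentiableAt ℂ (fun w : ℂ => 𝕢 1 w) w := by
        unfold Periodic.qParam
        fun_prop
      exact (h2.comp w h3).differentiableWithinAt
    refine h1.congr fun w hw => ?_
    simp only [comp_apply, ofComplex_apply_of_im_pos hw]
  bdd := by
    have h0 : (0 : ℂ) ∈ Metric.ball (0 : ℂ) 1 := Metric.mem_ball_self one_pos
    have hc : ContinuousAt g 0 :=
      ((hg 0 h0).differentiableAt (Metric.isOpen_ball.mem_nhds h0)).continuousAt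
    have ht : Tendsto (fun z : ℍ => g (𝕢 1 (z : ℂ))) atImInfty (𝓝 (g 0)) :=
      hc.tendsto.comp (qParam_tendsto_atImInfty one_pos)
    exact ht.isBigO_one ℝ

theorem anA_qExpansion_coeff_unique {f : ℍ → ℂ} {c : ℕ → ℂ} (hf : IsNice f)
    (hs : ∀ τ : ℍ, HasSum (fun m => c m • 𝕢 1 (τ : ℂ) ^ m) (f τ)) (m : ℕ) :
    (qExpansion 1 f).coeff m = c m := by
  have h1 := (hasFPowerSeriesOnBall_cuspFunction one_pos hf.analyticAt hs).hasFPowerSeriesAt
  have h2 := hf.analyticAt.hasFPowerSeriesAt
  have h3 := congr_arg (FormalMultilinearSeries.coeff · m) (h1.eq_formalMultilinearSeries h2)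
  simp only [FormalMultilinearSeries.coeff_ofScalars] at h3
  rw [qExpansion_coeff, h3]
  ring

theorem anA_qExpansion_comp_qParam_coeff {g : ℂ → ℂ}
    (hg : DifferentiableOn ℂ g (Metric.ball (0 : ℂ) 1)) (m : ℕ) :
    (qExpansion 1 (fun z : ℍ => g (𝕢 1 (z : ℂ)))).coeff m =
      (m.factorial : ℂ)⁻¹ * iteratedDeriv m g 0 := by
  refine anA_qExpansion_coeff_unique (c := fun m => (m.factorial : ℂ)⁻¹ * iteratedDeriv m g 0)
    (anA_isNice_comp_qParam hg) (fun τ => ?_) m
  have := Complex.hasSum_taylorSeries_on_ball hg (anA_qParam_mem_ball τ)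
  refine this.congr_fun ?_
  intro n
  simp only [sub_zero, smul_eq_mul]
  ring

/-! ### The function `q` -/

/-- The function `q = exp (2 π i z)` on the upper half plane. -/
def anA_qfun : ℍ → ℂ := fun z => 𝕢 1 (z : ℂ)

theorem anA_qfun_apply (z : ℍ) : anA_qfun z = 𝕢 1 (z : ℂ) := rfl

theorem anA_qfun_ne_zero (z : ℍ) : anA_qfun z ≠ 0 := Periodic.qParam_ne_zero _

theorem anA_isNice_qfun : IsNice anA_qfun :=
  anA_isNice_comp_qParam (g := fun q => q) differentiableOn_id

theorem anA_qExpansion_qfun : qExpansion 1 anA_qfun = PowerSeries.X := by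
  ext m
  rw [anA_qExpansion_coeff_unique (c := fun m => if m = 1 then 1 else 0) anA_isNice_qfun]
  · rw [PowerSeries.coeff_X]
  · intro τ
    have := hasSum_ite_eq (1 : ℕ) (anA_qfun τ)
    refine this.congr_fun fun n => ?_
    by_cases hn : n = 1
    · subst hn
      simp [anA_qfun]
    · simp [hn]

/-! ### The eta product as a function on the upper half plane -/

/-- The function `∏ (1 - q ^ (n + 1))` on the upper half plane. -/
def anA_etaF : ℍ → ℂ := fun z => anA_etaDisc (𝕢 1 (z : ℂ))

theorem anA_differentiableOn_etaDisc : DifferentiableOn ℂ anA_etaDisc (Metric.ball (0 : ℂ) 1) :=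
  differentiableOn_tprod_one_sub_pow

theorem anA_isNice_etaF : IsNice anA_etaF := anA_isNice_comp_qParam anA_differentiableOn_etaDisc

theorem anA_qExpansion_etaF :
    qExpansion 1 anA_etaF = ModularCurve.etaProd.map (Int.castRingHom ℂ) := by
  ext m
  rw [show anA_etaF = fun z : ℍ => anA_etaDisc (𝕢 1 (z : ℂ)) from rfl,
    anA_qExpansion_comp_qParam_coeff anA_differentiableOn_etaDisc, anA_iteratedDeriv_etaDisc,
    PowerSeries.coeff_map, eq_intCast, ← mul_assoc, inv_mul_cancel₀, one_mul]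
  exact_mod_cast Nat.factorial_ne_zero m

theorem anA_etaF_ne_zero (z : ℍ) : anA_etaF z ≠ 0 := by
  have := eta_tprod_ne_zero z.2
  exact this

theorem anA_discriminant_eq (z : ℍ) :
    ModularForm.discriminant z = anA_qfun z * anA_etaF z ^ 24 := by
  rw [discriminant_eq_q_prod]
  congr 1
  exact (multipliableLocallyUniformlyOn_eta.multipliable z.2).tprod_pow 24

theorem anA_etaDisc_ne_zero {q : ℂ} (hq : ‖q‖ < 1) : anA_etaDisc q ≠ 0 := by
  have h := tprod_one_add_ne_zero_of_summable (f := fun n : ℕ => -q ^ (n + 1)) ?_ ?_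
  · simpa [anA_etaDisc, sub_eq_add_neg] using h
  · intro i
    rw [← sub_eq_add_neg, sub_ne_zero]
    intro h
    have h1 : ‖q ^ (i + 1)‖ = 1 := by rw [← h, norm_one]
    rw [norm_pow] at h1
    have h2 : ‖q‖ ^ (i + 1) < 1 := pow_lt_one₀ (norm_nonneg _) hq (Nat.succ_ne_zero i)
    exact absurd h1 h2.ne
  · simp only [norm_neg, norm_pow]
    exact (summable_nat_add_iff 1).mpr (summable_geometric_of_lt_one (norm_nonneg _) hq)

/-- The function `(∏ (1 - q ^ (n + 1))) ^ (-24)` on the upper half plane. -/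
def anA_etaInv : ℍ → ℂ := fun z => (anA_etaF z ^ 24)⁻¹

theorem anA_isNice_etaInv : IsNice anA_etaInv := by
  refine anA_isNice_comp_qParam (g := fun q => (anA_etaDisc q ^ 24)⁻¹) ?_
  refine DifferentiableOn.inv (anA_differentiableOn_etaDisc.pow 24) fun q hq => ?_
  exact pow_ne_zero _ (anA_etaDisc_ne_zero (by simpa using hq))

theorem anA_etaF_pow_mul_etaInv : anA_etaF ^ 24 * anA_etaInv = 1 := by
  funext z
  simp only [Pi.mul_apply, Pi.pow_apply, Pi.one_apply, anA_etaInv]
  exact mul_inv_cancel₀ (pow_ne_zero _ (anA_etaF_ne_zero z))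

theorem anA_qExpansion_etaInv :
    qExpansion 1 anA_etaInv = ModularCurve.dedekindEtaUnitInv.map (Int.castRingHom ℂ) := by
  have h1 : qExpansion 1 (anA_etaF ^ 24) * qExpansion 1 anA_etaInv = 1 := by
    rw [← (anA_isNice_etaF.pow 24).qExpansion_mul anA_isNice_etaInv, anA_etaF_pow_mul_etaInv,
      qExpansion_one]
  rw [anA_isNice_etaF.qExpansion_pow, anA_qExpansion_etaF] at h1
  have h2 : (ModularCurve.etaProd.map (Int.castRingHom ℂ)) ^ 24 *
      ModularCurve.dedekindEtaUnitInv.map (Int.castRingHom ℂ) = 1 := by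
    rw [← map_pow, ← map_mul]
    have := ModularCurve.dedekindEtaUnit_mul_inv
    rw [ModularCurve.dedekindEtaUnit] at this
    rw [this, map_one]
  calc qExpansion 1 anA_etaInv
      = ((ModularCurve.etaProd.map (Int.castRingHom ℂ)) ^ 24 *
          ModularCurve.dedekindEtaUnitInv.map (Int.castRingHom ℂ)) * qExpansion 1 anA_etaInv := by
        rw [h2, one_mul]
    _ = ((ModularCurve.etaProd.map (Int.castRingHom ℂ)) ^ 24 * qExpansion 1 anA_etaInv) *
          ModularCurve.dedekindEtaUnitInv.map (Int.castRingHom ℂ) := by ring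
    _ = _ := by rw [h1, one_mul]

/-! ### The Eisenstein series `E₄` -/

theorem anA_qExpansion_E4 :
    qExpansion 1 (E₄ : ℍ → ℂ) = ModularCurve.eisenstein4.map (Int.castRingHom ℂ) := by
  ext n
  rw [E_qExpansion_coeff _ ⟨2, rfl⟩, show bernoulli 4 = -1 / 30 by decide +kernel,
    PowerSeries.coeff_map, ModularCurve.eisenstein4, PowerSeries.coeff_mk]
  by_cases h : n = 0
  · simp [h]
  · simp only [h, if_false, eq_intCast]
    rw [ArithmeticFunction.sigma_apply]
    push_cast
    norm_num

theorem anA_isNice_E4 : IsNice (E₄ : ℍ → ℂ) := isNice_E4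

/-! ### The function `q * j` and the `j`-function -/

/-- The function `q * j = E₄ ^ 3 / ∏ (1 - q ^ (n + 1)) ^ 24`. -/
def anA_jNumF : ℍ → ℂ := (E₄ : ℍ → ℂ) ^ 3 * anA_etaInv

theorem anA_isNice_jNumF : IsNice anA_jNumF := (anA_isNice_E4.pow 3).mul anA_isNice_etaInv

theorem anA_qExpansion_jNumF :
    qExpansion 1 anA_jNumF = ModularCurve.jNum.map (Int.castRingHom ℂ) := by
  rw [anA_jNumF, (anA_isNice_E4.pow 3).qExpansion_mul anA_isNice_etaInv,
    anA_isNice_E4.qExpansion_pow, anA_qExpansion_E4, anA_qExpansion_etaInv, ModularCurve.jNum,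
    map_mul, map_pow]

/-- The modular `j`-function `E₄ ^ 3 / Δ`. -/
def anA_jfun : ℍ → ℂ := fun z => E₄ z ^ 3 / ModularForm.discriminant z

theorem anA_jfun_apply (z : ℍ) : anA_jfun z = E₄ z ^ 3 / ModularForm.discriminant z := rfl

theorem anA_qfun_mul_jfun : anA_qfun * anA_jfun = anA_jNumF := by
  funext z
  simp only [Pi.mul_apply, anA_jfun, anA_jNumF, Pi.pow_apply, anA_etaInv, anA_discriminant_eq]
  have h1 := anA_qfun_ne_zero z
  have h2 := anA_etaF_ne_zero z
  field_simp

theorem anA_mdiff_jfun : MDiff anA_jfun := by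
  have h1 : MDiff (fun z : ℍ => E₄ z ^ 3) := (anA_isNice_E4.pow 3).holo
  have h2 : MDiff (fun z : ℍ => ModularForm.discriminant z) := by
    have h3 : (fun z : ℍ => ModularForm.discriminant z) = (1728 : ℂ)⁻¹ • Dfun := by
      funext z
      simp only [Pi.smul_apply, smul_eq_mul, Dfun_eq_discriminant]
      field_simp
    rw [h3]
    exact (isNice_Dfun.smul (1728 : ℂ)⁻¹).holo
  exact h1.div h2 (fun z => discriminant_ne_zero z)

end Fermat.Agent.S24
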