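import Mathlib
import Fermat.Prelude.Def_ModularCurve_X0
import Fermat.Prelude.Def_ModularCurve_LaurentCoeff
import Fermat.Agent.S22.Basic
import Fermat.Agent.S22.Nice
import Fermat.Agent.S22.DN
import Fermat.Agent.S24.BridgeEta
import Fermat.Agent.S24.JOrder

/-!
# S24, package AN-A (bridge), part 2: Laurent expansions at `i∞`

`anA_HasLaurent s f` : the function `f : ℍ → ℂ` is `1`-periodic, holomorphic and meromorphic at
`i∞`, with Laurent expansion `s` in `q = exp (2 π i z)`.  This relation is closed under ring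
operations and it is functional in both directions.
-/

set_option autoImplicit false

noncomputable section

namespace Fermat.Agent.S24

open UpperHalfPlane ModularFormClass CongruenceSubgroup Matrix.SpecialLinearGroup Function
open ModularForm EisensteinSeries Filter Topology
open scoped MatrixGroups ModularForm Manifold

open Fermat.Agent.S22

local notation "𝕢" => Function.Periodic.qParam

/-- `f` has the Laurent expansion `s` at `i∞`. -/
def anA_HasLaurent (s : LaurentSeries ℂ) (f : ℍ → ℂ) : Prop :=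
  ∃ m : ℕ, IsNice (anA_qfun ^ m * f) ∧
    HahnSeries.ofPowerSeries ℤ ℂ (qExpansion 1 (anA_qfun ^ m * f)) =
      HahnSeries.single (m : ℤ) (1 : ℂ) * s

theorem anA_single_mul_single (a b : ℤ) :
    HahnSeries.single a (1 : ℂ) * HahnSeries.single b (1 : ℂ) = HahnSeries.single (a + b) 1 := by
  rw [HahnSeries.single_mul_single, one_mul]

theorem anA_ofPowerSeries_X_pow (k : ℕ) :
    HahnSeries.ofPowerSeries ℤ ℂ ((PowerSeries.X : PowerSeries ℂ) ^ k) =
      HahnSeries.single (k : ℤ) 1 := by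
  rw [HahnSeries.ofPowerSeries_X_pow]

namespace anA_HasLaurent

variable {s t : LaurentSeries ℂ} {f g : ℍ → ℂ}

/-- The pole order bound can be increased. -/
theorem shift {m : ℕ} (h1 : IsNice (anA_qfun ^ m * f))
    (h2 : HahnSeries.ofPowerSeries ℤ ℂ (qExpansion 1 (anA_qfun ^ m * f)) =
      HahnSeries.single (m : ℤ) (1 : ℂ) * s) (k : ℕ) :
    IsNice (anA_qfun ^ (m + k) * f) ∧
      HahnSeries.ofPowerSeries ℤ ℂ (qExpansion 1 (anA_qfun ^ (m + k) * f)) =
        HahnSeries.single ((m + k : ℕ) : ℤ) (1 : ℂ) * s := by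
  have e : anA_qfun ^ (m + k) * f = anA_qfun ^ k * (anA_qfun ^ m * f) := by
    rw [pow_add]; ring
  have hk : IsNice (anA_qfun ^ k) := anA_isNice_qfun.pow k
  refine ⟨e ▸ hk.mul h1, ?_⟩
  rw [e, hk.qExpansion_mul h1, anA_isNice_qfun.qExpansion_pow, anA_qExpansion_qfun, map_mul,
    anA_ofPowerSeries_X_pow, h2, ← mul_assoc, anA_single_mul_single]
  congr 2
  push_cast
  ring_nf

theorem exists_ge (h : anA_HasLaurent s f) (M : ℕ) :
    ∃ m : ℕ, M ≤ m ∧ IsNice (anA_qfun ^ m * f) ∧
      HahnSeries.ofPowerSeries ℤ ℂ (qExpansion 1 (anA_qfun ^ m * f)) =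
        HahnSeries.single (m : ℤ) (1 : ℂ) * s := by
  obtain ⟨m, h1, h2⟩ := h
  exact ⟨m + M, Nat.le_add_left _ _, shift h1 h2 M⟩

theorem at_add (h : anA_HasLaurent s f) :
    ∃ m : ℕ, ∀ k : ℕ, IsNice (anA_qfun ^ (m + k) * f) ∧
      HahnSeries.ofPowerSeries ℤ ℂ (qExpansion 1 (anA_qfun ^ (m + k) * f)) =
        HahnSeries.single ((m + k : ℕ) : ℤ) (1 : ℂ) * s := by
  obtain ⟨m, h1, h2⟩ := h
  exact ⟨m, fun k => shift h1 h2 k⟩

theorem of_isNice (hf : IsNice f) :
    anA_HasLaurent (HahnSeries.ofPowerSeries ℤ ℂ (qExpansion 1 f)) f := by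
  refine ⟨0, ?_, ?_⟩
  · simpa using hf
  · simp only [pow_zero, one_mul, Nat.cast_zero]
    rw [show HahnSeries.single (0 : ℤ) (1 : ℂ) = 1 from rfl, one_mul]

theorem const (c : ℂ) : anA_HasLaurent (HahnSeries.C c) (fun _ => c) := by
  have h := of_isNice (IsNice.const c)
  have e : qExpansion 1 (fun _ : ℍ => c) = PowerSeries.C c := by
    have h1 : (fun _ : ℍ => c) = c • (1 : ℍ → ℂ) := by
      funext z; simp
    rw [h1, IsNice.one.qExpansion_smul, qExpansion_one]
    ext n
    simp [PowerSeries.coeff_C, PowerSeries.coeff_one]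
  rw [e, HahnSeries.ofPowerSeries_C] at h
  exact h

theorem zero : anA_HasLaurent 0 (0 : ℍ → ℂ) := by
  have := const 0
  rw [map_zero] at this
  exact this

theorem one : anA_HasLaurent 1 (1 : ℍ → ℂ) := by
  have := const 1
  rw [map_one] at this
  exact this

theorem add (hf : anA_HasLaurent s f) (hg : anA_HasLaurent t g) :
    anA_HasLaurent (s + t) (f + g) := by
  obtain ⟨m, hm⟩ := hf.at_add
  obtain ⟨n, hn⟩ := hg.at_add
  obtain ⟨h1, h2⟩ := hm n
  obtain ⟨h3, h4⟩ := hn m
  rw [Nat.add_comm n m] at h3 h4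
  refine ⟨m + n, ?_, ?_⟩
  · rw [mul_add]
    exact h1.add h3
  · rw [mul_add, h1.qExpansion_add h3, map_add, h2, h4, mul_add]

theorem mul (hf : anA_HasLaurent s f) (hg : anA_HasLaurent t g) :
    anA_HasLaurent (s * t) (f * g) := by
  obtain ⟨m, h1, h2⟩ := hf
  obtain ⟨n, h3, h4⟩ := hg
  have e : anA_qfun ^ (m + n) * (f * g) = (anA_qfun ^ m * f) * (anA_qfun ^ n * g) := by
    rw [pow_add]; ring
  refine ⟨m + n, e ▸ h1.mul h3, ?_⟩
  rw [e, h1.qExpansion_mul h3, map_mul, h2, h4]
  have : HahnSeries.single ((m + n : ℕ) : ℤ) (1 : ℂ) =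
      HahnSeries.single (m : ℤ) 1 * HahnSeries.single (n : ℤ) 1 := by
    rw [anA_single_mul_single]; push_cast; rfl
  rw [this]
  ring

theorem neg (hf : anA_HasLaurent s f) : anA_HasLaurent (-s) (-f) := by
  have := (const (-1)).mul hf
  have e1 : (fun _ : ℍ => (-1 : ℂ)) * f = -f := by
    funext z; simp
  have e2 : HahnSeries.C (-1 : ℂ) * s = -s := by
    rw [map_neg, map_one, neg_one_mul]
  rwa [e1, e2] at this

theorem sub (hf : anA_HasLaurent s f) (hg : anA_HasLaurent t g) :
    anA_HasLaurent (s - t) (f - g) := by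
  rw [sub_eq_add_neg, sub_eq_add_neg]
  exact hf.add hg.neg

theorem smul (c : ℂ) (hf : anA_HasLaurent s f) :
    anA_HasLaurent (HahnSeries.C c * s) (fun z => c * f z) :=
  (const c).mul hf

theorem sum {ι : Type*} (S : Finset ι) {σ : ι → LaurentSeries ℂ} {F : ι → ℍ → ℂ}
    (h : ∀ i ∈ S, anA_HasLaurent (σ i) (F i)) :
    anA_HasLaurent (∑ i ∈ S, σ i) (∑ i ∈ S, F i) := by
  classical
  induction S using Finset.induction_on with
  | empty => simpa using zero
  | insert a S ha ih =>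
    rw [Finset.sum_insert ha, Finset.sum_insert ha]
    exact (h a (Finset.mem_insert_self a S)).add
      (ih fun i hi => h i (Finset.mem_insert_of_mem hi))

/-- The function determines the series. -/
theorem unique_series (hf : anA_HasLaurent s f) (hg : anA_HasLaurent t f) : s = t := by
  obtain ⟨m, hm⟩ := hf.at_add
  obtain ⟨n, hn⟩ := hg.at_add
  obtain ⟨-, h2⟩ := hm n
  obtain ⟨-, h4⟩ := hn m
  rw [Nat.add_comm n m] at h4
  rw [h2] at h4
  have h5 := congrArg (fun x => HahnSeries.single (-((m + n : ℕ) : ℤ)) (1 : ℂ) * x) h4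
  simp only [← mul_assoc, anA_single_mul_single, neg_add_cancel] at h5
  rw [show HahnSeries.single (0 : ℤ) (1 : ℂ) = 1 from rfl, one_mul, one_mul] at h5
  exact h5

/-- The series determines the function. -/
theorem unique_fun (hf : anA_HasLaurent s f) (hg : anA_HasLaurent s g) : f = g := by
  obtain ⟨m, hm⟩ := hf.at_add
  obtain ⟨n, hn⟩ := hg.at_add
  obtain ⟨h1, h2⟩ := hm n
  obtain ⟨h3, h4⟩ := hn m
  rw [Nat.add_comm n m] at h3 h4
  rw [← h4] at h2
  have h5 := h1.eq_of_qExpansion_eq h3 (HahnSeries.ofPowerSeries_injective h2)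
  funext z
  have h6 := congrFun h5 z
  simp only [Pi.mul_apply, Pi.pow_apply] at h6
  exact mul_left_cancel₀ (pow_ne_zero _ (anA_qfun_ne_zero z)) h6

theorem eq_zero_of_zero (hf : anA_HasLaurent 0 f) : f = 0 := hf.unique_fun zero

theorem series_eq_zero (hf : anA_HasLaurent s 0) : s = 0 := hf.unique_series zero

/-- A function with a Laurent expansion is holomorphic. -/
theorem mdiff (hf : anA_HasLaurent s f) : MDiff f := by
  obtain ⟨m, h1, -⟩ := hf
  have hq : MDiff (anA_qfun ^ m) := (anA_isNice_qfun.pow m).holo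
  have e : f = fun z => (anA_qfun ^ m * f) z / (anA_qfun ^ m) z := by
    funext z
    simp only [Pi.mul_apply, Pi.pow_apply]
    rw [mul_div_cancel_left₀ _ (pow_ne_zero _ (anA_qfun_ne_zero z))]
  rw [e]
  exact h1.holo.div hq fun z => by
    simp only [Pi.pow_apply]
    exact pow_ne_zero _ (anA_qfun_ne_zero z)

/-- A function with a Laurent expansion is `1`-periodic. -/
theorem periodic (hf : anA_HasLaurent s f) : Periodic (f ∘ ofComplex) 1 := by
  obtain ⟨m, h1, -⟩ := hf
  intro w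
  have h2 := h1.per w
  have h3 := (anA_isNice_qfun.pow m).per w
  simp only [comp_apply, Pi.mul_apply, Pi.pow_apply] at h2 h3 ⊢
  rw [h3] at h2
  exact mul_left_cancel₀ (pow_ne_zero _ (anA_qfun_ne_zero _)) h2

end anA_HasLaurent

/-! ### Composition with `z ↦ d z` -/

theorem anA_isNice_comp_diag {g : ℍ → ℂ} (hg : IsNice g) (d : ℕ) [NeZero d] :
    IsNice (fun z => g (heckeDiagMatrix d • z)) := by
  rw [DN.comp_diag_eq 0 (NeZero.ne d) g]
  exact (DN.isNice_slash_diag hg 0 d).smul _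

theorem anA_qfun_diag (d : ℕ) [NeZero d] (z : ℍ) :
    anA_qfun (heckeDiagMatrix d • z) = anA_qfun z ^ d := by
  simp only [anA_qfun, coe_heckeDiagMatrix_smul (NeZero.ne d), Periodic.qParam,
    Complex.ofReal_one, div_one]
  rw [← Complex.exp_nat_mul]
  congr 1
  ring

theorem anA_ofPowerSeries_comp_diag {g : ℍ → ℂ} (hg : IsNice g) (d : ℕ) [NeZero d] :
    HahnSeries.ofPowerSeries ℤ ℂ (qExpansion 1 (fun z => g (heckeDiagMatrix d • z))) =
      ModularCurve.qExpand ℂ d (HahnSeries.ofPowerSeries ℤ ℂ (qExpansion 1 g)) := by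
  have hd : (d : ℤ) ≠ 0 := by exact_mod_cast NeZero.ne d
  have hdpos : (0 : ℤ) < d := by exact_mod_cast Nat.pos_of_ne_zero (NeZero.ne d)
  ext k
  by_cases hk : (d : ℤ) ∣ k
  · obtain ⟨l, rfl⟩ := hk
    rw [ModularCurve.qExpand_coeff_mul]
    rcases lt_or_ge l 0 with hl | hl
    · rw [ModularCurve.ofPowerSeries_coeff_of_neg _ hl,
        ModularCurve.ofPowerSeries_coeff_of_neg _ (mul_neg_of_pos_of_neg hdpos hl)]
    · obtain ⟨n, rfl⟩ := Int.eq_ofNat_of_zero_le hl
      rw [show (d : ℤ) * (n : ℤ) = ((d * n : ℕ) : ℤ) by push_cast; ring,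
        HahnSeries.ofPowerSeries_apply_coeff, HahnSeries.ofPowerSeries_apply_coeff,
        DN.qExpansion_comp_diag_coeff hg (NeZero.ne d), if_pos (Dvd.intro _ rfl),
        Nat.mul_div_cancel_left _ (Nat.pos_of_ne_zero (NeZero.ne d))]
  · rw [ModularCurve.qExpand_coeff_of_not_dvd d _ hk]
    rcases lt_or_ge k 0 with hl | hl
    · rw [ModularCurve.ofPowerSeries_coeff_of_neg _ hl]
    · obtain ⟨n, rfl⟩ := Int.eq_ofNat_of_zero_le hl
      rw [HahnSeries.ofPowerSeries_apply_coeff, DN.qExpansion_comp_diag_coeff hg (NeZero.ne d),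
        if_neg]
      intro h
      exact hk (Int.natCast_dvd_natCast.mpr h)

/-! ### The Laurent expansion of `j (d z)` -/

/-- The formal `q`-expansion of `j` with complex coefficients. -/
def anA_jSeries : LaurentSeries ℂ :=
  HahnSeries.single (-1 : ℤ) (1 : ℂ) *
    HahnSeries.ofPowerSeries ℤ ℂ (ModularCurve.jNum.map (Int.castRingHom ℂ))

theorem anA_jfun_eq : anA_jfun = jfun := rfl

theorem anA_hasLaurent_jd (d : ℕ) [NeZero d] :
    anA_HasLaurent (ModularCurve.qExpand ℂ d anA_jSeries)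
      (fun z => jfun (heckeDiagMatrix d • z)) := by
  have e : anA_qfun ^ d * (fun z => jfun (heckeDiagMatrix d • z)) =
      fun z => anA_jNumF (heckeDiagMatrix d • z) := by
    funext z
    simp only [Pi.mul_apply, Pi.pow_apply]
    rw [← anA_qfun_diag, ← anA_qfun_mul_jfun, anA_jfun_eq]
    rfl
  refine ⟨d, ?_, ?_⟩
  · rw [e]
    exact anA_isNice_comp_diag anA_isNice_jNumF d
  · rw [e, anA_ofPowerSeries_comp_diag anA_isNice_jNumF d, anA_qExpansion_jNumF, anA_jSeries,
      map_mul, ModularCurve.qExpand_single, ← mul_assoc, anA_single_mul_single]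
    rw [show (d : ℤ) + (d : ℤ) * (-1) = 0 by ring, show HahnSeries.single (0 : ℤ) (1 : ℂ) = 1
      from rfl, one_mul]

end Fermat.Agent.S24
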