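/-
S24, package AN-B (owner: helper24): translates and growth of modular functions.

* `jfun` (from `JOrder.lean`) : the analytic `j`-function `E₄³ / Δ` on `ℍ`
* `anB_Growth`          : moderate (exponential) growth at `i∞`
* `anB_IsModFun N f`    : `f` is holomorphic on `ℍ`, `Γ₀(N)`-invariant, and every
                          `SL(2,ℤ)`-translate has moderate growth at `i∞`
* `anB_tr N f x`        : the translate of `f` by a left coset `x ∈ SL(2,ℤ) ⧸ Γ₀(N)`
-/
import Mathlib
import Fermat.Agent.S22.Indep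
import Fermat.Agent.S22.DN
import Fermat.Agent.S24.Defs
import Fermat.Agent.S24.JOrder
import Fermat.Agent.S24.CombBasic

set_option autoImplicit false

noncomputable section

namespace Fermat.Agent.S24

open UpperHalfPlane ModularFormClass CongruenceSubgroup Matrix.SpecialLinearGroup Function
open ModularForm Filter Asymptotics
open scoped MatrixGroups ModularForm Manifold Real Topology

/-! ### Moderate growth at `i∞` -/

/-- `f` has at most exponential growth at `i∞`. -/
def anB_Growth (f : ℍ → ℂ) : Prop :=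
  ∃ M : ℕ, f =O[atImInfty] fun z : ℍ => Real.exp (2 * π * M * z.im)

theorem anB_exp_isBigO_of_le {a b : ℝ} (h : a ≤ b) :
    (fun z : ℍ => Real.exp (a * z.im)) =O[atImInfty] fun z : ℍ => Real.exp (b * z.im) := by
  refine IsBigO.of_bound 1 (Eventually.of_forall fun z => ?_)
  rw [Real.norm_of_nonneg (Real.exp_pos _).le, Real.norm_of_nonneg (Real.exp_pos _).le, one_mul]
  exact Real.exp_le_exp.mpr (mul_le_mul_of_nonneg_right h z.im_pos.le)

theorem anB_isBigO_exp_mono {f : ℍ → ℂ} {a : ℝ} {M : ℕ} (ha : a ≤ 2 * π * M)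
    (hf : f =O[atImInfty] fun z : ℍ => Real.exp (a * z.im)) :
    f =O[atImInfty] fun z : ℍ => Real.exp (2 * π * M * z.im) :=
  hf.trans (anB_exp_isBigO_of_le ha)

theorem anB_growth_of_isBigO_exp {f : ℍ → ℂ} (a : ℝ)
    (hf : f =O[atImInfty] fun z : ℍ => Real.exp (a * z.im)) : anB_Growth f := by
  obtain ⟨M, hM⟩ := exists_nat_ge (a / (2 * π))
  refine ⟨M, anB_isBigO_exp_mono ?_ hf⟩
  have hpi : (0 : ℝ) < 2 * π := by positivity
  rw [div_le_iff₀ hpi] at hM
  linarith

namespace anB_Growth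

variable {f g : ℍ → ℂ}

theorem mono {M M' : ℕ} (h : M ≤ M')
    (hf : f =O[atImInfty] fun z : ℍ => Real.exp (2 * π * M * z.im)) :
    f =O[atImInfty] fun z : ℍ => Real.exp (2 * π * M' * z.im) := by
  refine hf.trans (anB_exp_isBigO_of_le ?_)
  have : (M : ℝ) ≤ M' := by exact_mod_cast h
  have hpi : (0 : ℝ) ≤ 2 * π := by positivity
  exact mul_le_mul_of_nonneg_left this hpi

theorem of_isBoundedAtImInfty (hf : IsBoundedAtImInfty f) : anB_Growth f := by
  refine ⟨0, ?_⟩
  have h1 : f =O[atImInfty] (1 : ℍ → ℝ) := hf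
  refine h1.trans (IsBigO.of_bound 1 (Eventually.of_forall fun z => ?_))
  simp

theorem const (c : ℂ) : anB_Growth (fun _ : ℍ => c) := by
  refine ⟨0, ?_⟩
  refine IsBigO.of_bound ‖c‖ (Eventually.of_forall fun z => ?_)
  simp

theorem zero : anB_Growth (0 : ℍ → ℂ) := const 0

theorem one : anB_Growth (1 : ℍ → ℂ) := const 1

theorem add (hf : anB_Growth f) (hg : anB_Growth g) : anB_Growth (f + g) := by
  obtain ⟨M, hM⟩ := hf
  obtain ⟨M', hM'⟩ := hg
  exact ⟨max M M', (mono (le_max_left _ _) hM).add (mono (le_max_right _ _) hM')⟩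

theorem mul (hf : anB_Growth f) (hg : anB_Growth g) : anB_Growth (f * g) := by
  obtain ⟨M, hM⟩ := hf
  obtain ⟨M', hM'⟩ := hg
  refine ⟨M + M', ?_⟩
  have h := hM.mul hM'
  refine h.congr_right fun z => ?_
  rw [← Real.exp_add]
  congr 1
  push_cast
  ring

theorem neg (hf : anB_Growth f) : anB_Growth (-f) := by
  obtain ⟨M, hM⟩ := hf
  exact ⟨M, hM.neg_left⟩

theorem sub (hf : anB_Growth f) (hg : anB_Growth g) : anB_Growth (f - g) := by
  rw [sub_eq_add_neg]
  exact hf.add hg.neg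

theorem smul (c : ℂ) (hf : anB_Growth f) : anB_Growth (c • f) := by
  have : c • f = (fun _ : ℍ => c) * f := by
    funext z
    simp
  rw [this]
  exact (const c).mul hf

theorem pow (hf : anB_Growth f) (n : ℕ) : anB_Growth (f ^ n) := by
  induction n with
  | zero => simpa using one
  | succ n ih =>
    rw [pow_succ]
    exact ih.mul hf

theorem sum {ι : Type*} (s : Finset ι) {F : ι → ℍ → ℂ} (hF : ∀ i ∈ s, anB_Growth (F i)) :
    anB_Growth (∑ i ∈ s, F i) := by
  classical
  induction s using Finset.induction_on with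
  | empty => simpa using zero
  | insert a s ha ih =>
    rw [Finset.sum_insert ha]
    exact (hF a (Finset.mem_insert_self _ _)).add
      (ih fun i hi => hF i (Finset.mem_insert_of_mem hi))

theorem prod {ι : Type*} (s : Finset ι) {F : ι → ℍ → ℂ} (hF : ∀ i ∈ s, anB_Growth (F i)) :
    anB_Growth (∏ i ∈ s, F i) := by
  classical
  induction s using Finset.induction_on with
  | empty => simpa using one
  | insert a s ha ih =>
    rw [Finset.prod_insert ha]
    exact (hF a (Finset.mem_insert_self _ _)).mul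
      (ih fun i hi => hF i (Finset.mem_insert_of_mem hi))

/-- Moderate growth in the shape "bounded after multiplication by a power of `Δ`". -/
theorem isBoundedAtImInfty_mul_discriminant_pow {M : ℕ}
    (hf : f =O[atImInfty] fun z : ℍ => Real.exp (2 * π * M * z.im)) :
    IsBoundedAtImInfty (fun z => f z * ModularForm.discriminant z ^ M) := by
  have hΔ : (⇑CuspForm.discriminant : ℍ → ℂ) =O[atImInfty]
      fun τ ↦ Real.exp (-2 * π * τ.im / 1) :=
    CuspFormClass.exp_decay_atImInfty (h := 1) CuspForm.discriminant one_pos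
      one_mem_strictPeriods_SL
  have h2 := hf.mul (hΔ.pow M)
  have h3 : (fun z : ℍ => f z * ModularForm.discriminant z ^ M) =O[atImInfty]
      (1 : ℍ → ℝ) := by
    refine h2.congr_right fun z => ?_
    rw [← Real.exp_nat_mul, ← Real.exp_add]
    simp only [Pi.one_apply]
    rw [Real.exp_eq_one_iff]
    ring
  exact h3

end anB_Growth

/-! ### Growth of `j` along upper triangular matrices -/

theorem anB_E4_comp_isBigO_one {β : GL (Fin 2) ℝ} (hβ : β 1 0 = 0) :
    (fun τ : ℍ => E₄ (β • τ)) =O[atImInfty] (1 : ℍ → ℝ) := by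
  have h1 : (⇑E₄ : ℍ → ℂ) =O[atImInfty] (1 : ℍ → ℝ) := ModularFormClass.bdd_at_infty E₄
  exact h1.comp_tendsto (tendsto_smul_atImInfty hβ)

theorem anB_inv_disc_comp_isBigO {β : GL (Fin 2) ℝ} (hβ : β 1 0 = 0) :
    (fun τ : ℍ => (ModularForm.discriminant (β • τ))⁻¹) =O[atImInfty]
      fun τ : ℍ => Real.exp (2 * π * (β • τ).im) := by
  have h2 := exp_isBigO_discriminant.comp_tendsto (tendsto_smul_atImInfty hβ)
  have h3 := h2.inv_rev (Eventually.of_forall fun τ h => absurd h (Real.exp_pos _).ne')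
  refine h3.congr_right fun τ => ?_
  simp only [Function.comp_apply]
  rw [← Real.exp_neg]
  congr 1
  ring

theorem anB_jfun_comp_isBigO {β : GL (Fin 2) ℝ} (hβ : β 1 0 = 0) :
    (fun τ : ℍ => jfun (β • τ)) =O[atImInfty]
      fun τ : ℍ => Real.exp (2 * π * (β • τ).im) := by
  have h1 := ((anB_E4_comp_isBigO_one hβ).pow 3).mul (anB_inv_disc_comp_isBigO hβ)
  refine (h1.congr_left fun τ => ?_).congr_right fun τ => ?_
  · rw [jfun, div_eq_mul_inv]
  · simp

theorem anB_jfun_upperTriangular_isBigO (a b d : ℝ) (had : 0 < a * d) :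
    (fun τ : ℍ => jfun (upperTriangularGL a b d had.ne' • τ)) =O[atImInfty]
      fun τ : ℍ => Real.exp (2 * π * (a / d) * τ.im) := by
  have hβ : (upperTriangularGL a b d had.ne') 1 0 = 0 := by simp [val_upperTriangularGL]
  refine (anB_jfun_comp_isBigO hβ).congr_right fun τ => ?_
  rw [S22.Indep.im_upperTriangularGL_smul a b d had]
  congr 1
  ring

/-- `j` is invariant under `SL(2,ℤ)`, in `GL(2,ℝ)` form. -/
theorem anB_jfun_mapGL_smul (γ : SL(2, ℤ)) (z : ℍ) : jfun (mapGL ℝ γ • z) = jfun z :=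
  jfun_smul γ z

/-- The function `z ↦ j(d z)`. -/
def anB_jd (d : ℕ) : ℍ → ℂ := fun z => jfun (heckeDiagMatrix d • z)

theorem anB_jd_one : anB_jd 1 = jfun := by
  funext z
  have : (heckeDiagMatrix 1 • z : ℍ) = z := by
    apply UpperHalfPlane.ext
    rw [coe_heckeDiagMatrix_smul one_ne_zero]
    simp
  rw [anB_jd, this]

/-- Growth of the translates of `j(d z)`. -/
theorem anB_jd_smul_isBigO (d : ℕ) [NeZero d] (γ : SL(2, ℤ)) :
    (fun z : ℍ => anB_jd d (γ • z)) =O[atImInfty]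
      fun z : ℍ => Real.exp (2 * π * d * z.im) := by
  obtain ⟨ε, g, N', B, hpos, hgN, -, -, hmat⟩ := S22.Indep.exists_hermite d γ
  have hg0 : (0 : ℝ) < g := by
    rcases Nat.eq_zero_or_pos g with h0 | h0
    · simp [h0] at hpos
    · exact_mod_cast h0
  have hN'0 : (0 : ℝ) < N' := by
    rcases Nat.eq_zero_or_pos N' with h0 | h0
    · simp [h0] at hpos
    · exact_mod_cast h0
  have hfun : (fun z : ℍ => anB_jd d (γ • z)) =
      fun z : ℍ => jfun (upperTriangularGL (g : ℝ) (B : ℝ) (N' : ℝ) hpos.ne' • z) := by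
    funext z
    rw [← hmat, anB_jd, mul_smul, mul_smul, anB_jfun_mapGL_smul]
    rfl
  rw [hfun]
  refine (anB_jfun_upperTriangular_isBigO g B N' hpos).trans (anB_exp_isBigO_of_le ?_)
  have h1 : (g : ℝ) / N' ≤ d := by
    rw [div_le_iff₀ hN'0]
    have h2 : (d : ℝ) = g * N' := by exact_mod_cast hgN.symm
    have h3 : (1 : ℝ) ≤ N' := by
      have : 0 < N' := by exact_mod_cast hN'0
      exact_mod_cast this
    rw [h2]
    nlinarith
  have hpi : (0 : ℝ) ≤ 2 * π := by positivity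
  calc 2 * π * ((g : ℝ) / N') ≤ 2 * π * d := mul_le_mul_of_nonneg_left h1 hpi

theorem anB_jd_mdiff (d : ℕ) [NeZero d] : MDiff (anB_jd d) := by
  have h1 : MDiff (jfun ∣[(0 : ℤ)] heckeDiagMatrix d) := jfun_mdiff.slash 0 _
  have h2 : anB_jd d = ((d : ℂ) ^ ((0 : ℤ) - 1))⁻¹ • (jfun ∣[(0 : ℤ)] heckeDiagMatrix d) :=
    S22.DN.comp_diag_eq 0 (NeZero.ne d) jfun
  rw [h2]
  exact h1.const_smul _

/-- `j(d z)` is invariant under `Γ₀(N)` when `d ∣ N`. -/
theorem anB_jd_smul_of_mem {N d : ℕ} [NeZero d] (hd : d ∣ N) {γ : SL(2, ℤ)} (hγ : γ ∈ Gamma0 N)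
    (z : ℍ) : anB_jd d (γ • z) = anB_jd d z := by
  have hdvd : (d : ℤ) ∣ γ 1 0 := by
    have h1 : (N : ℤ) ∣ γ 1 0 := (ZMod.intCast_zmod_eq_zero_iff_dvd _ N).1 ((Gamma0_mem).1 hγ)
    exact (Int.natCast_dvd_natCast.mpr hd).trans h1
  obtain ⟨e, he⟩ := hdvd
  obtain ⟨g', -, hg'⟩ :=
    P2MW.S_ModularForm_heckeT_slash_eq_self_of_mem_Gamma0.ModularForm.HeckeSlashInvariance.heckeDiagMatrix_mul_of_eq'
      (p := d) (NeZero.ne d) γ e he
  have h1 : heckeDiagMatrix d • (γ • z) = mapGL ℝ g' • (heckeDiagMatrix d • z) := by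
    rw [← mul_smul, ← hg', mul_smul]
    rfl
  rw [anB_jd, anB_jd, h1, anB_jfun_mapGL_smul]

/-! ### Modular functions of level `Γ₀(N)` -/

/-- `f` is a "modular function" for `Γ₀(N)`: holomorphic on `ℍ`, `Γ₀(N)`-invariant and all its
`SL(2,ℤ)`-translates have moderate growth at `i∞`. -/
structure anB_IsModFun (N : ℕ) (f : ℍ → ℂ) : Prop where
  holo : MDiff f
  inv : ∀ γ ∈ Gamma0 N, ∀ z : ℍ, f (γ • z) = f z
  growth : ∀ γ : SL(2, ℤ), anB_Growth (fun z => f (γ • z))

namespace anB_IsModFun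

variable {N : ℕ} {f g : ℍ → ℂ}

theorem const (c : ℂ) : anB_IsModFun N (fun _ : ℍ => c) where
  holo := mdifferentiable_const
  inv _ _ _ := rfl
  growth _ := anB_Growth.const c

theorem zero : anB_IsModFun N (0 : ℍ → ℂ) := const 0

theorem one : anB_IsModFun N (1 : ℍ → ℂ) := const 1

theorem add (hf : anB_IsModFun N f) (hg : anB_IsModFun N g) : anB_IsModFun N (f + g) where
  holo := hf.holo.add hg.holo
  inv γ hγ z := by simp only [Pi.add_apply, hf.inv γ hγ z, hg.inv γ hγ z]
  growth γ := (hf.growth γ).add (hg.growth γ)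

theorem mul (hf : anB_IsModFun N f) (hg : anB_IsModFun N g) : anB_IsModFun N (f * g) where
  holo := hf.holo.mul hg.holo
  inv γ hγ z := by simp only [Pi.mul_apply, hf.inv γ hγ z, hg.inv γ hγ z]
  growth γ := (hf.growth γ).mul (hg.growth γ)

theorem neg (hf : anB_IsModFun N f) : anB_IsModFun N (-f) where
  holo := hf.holo.neg
  inv γ hγ z := by simp only [Pi.neg_apply, hf.inv γ hγ z]
  growth γ := (hf.growth γ).neg

theorem sub (hf : anB_IsModFun N f) (hg : anB_IsModFun N g) : anB_IsModFun N (f - g) := by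
  rw [sub_eq_add_neg]
  exact hf.add hg.neg

theorem smul (c : ℂ) (hf : anB_IsModFun N f) : anB_IsModFun N (c • f) := by
  have : c • f = (fun _ : ℍ => c) * f := by
    funext z
    simp
  rw [this]
  exact (const c).mul hf

theorem pow (hf : anB_IsModFun N f) (n : ℕ) : anB_IsModFun N (f ^ n) := by
  induction n with
  | zero => simpa using one
  | succ n ih =>
    rw [pow_succ]
    exact ih.mul hf

theorem sum {ι : Type*} (s : Finset ι) {F : ι → ℍ → ℂ} (hF : ∀ i ∈ s, anB_IsModFun N (F i)) :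
    anB_IsModFun N (∑ i ∈ s, F i) := by
  classical
  induction s using Finset.induction_on with
  | empty => simpa using zero
  | insert a s ha ih =>
    rw [Finset.sum_insert ha]
    exact (hF a (Finset.mem_insert_self _ _)).add
      (ih fun i hi => hF i (Finset.mem_insert_of_mem hi))

theorem prod {ι : Type*} (s : Finset ι) {F : ι → ℍ → ℂ} (hF : ∀ i ∈ s, anB_IsModFun N (F i)) :
    anB_IsModFun N (∏ i ∈ s, F i) := by
  classical
  induction s using Finset.induction_on with
  | empty => simpa using one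
  | insert a s ha ih =>
    rw [Finset.prod_insert ha]
    exact (hF a (Finset.mem_insert_self _ _)).mul
      (ih fun i hi => hF i (Finset.mem_insert_of_mem hi))

/-- Polynomials (with complex coefficients) in a modular function are modular functions. -/
theorem polynomial_eval (hf : anB_IsModFun N f) (P : Polynomial ℂ) :
    anB_IsModFun N (fun z => P.eval (f z)) := by
  have : (fun z => P.eval (f z)) = ∑ i ∈ P.support, (P.coeff i) • f ^ i := by
    funext z
    rw [Polynomial.eval_eq_sum, Polynomial.sum, Finset.sum_apply]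
    simp
  rw [this]
  exact sum _ fun i _ => (hf.pow i).smul _

end anB_IsModFun

/-- The modular functions of level `Γ₀(N)` form a `ℂ`-subalgebra of `ℍ → ℂ`. -/
def anB_modFunSubalgebra (N : ℕ) : Subalgebra ℂ (ℍ → ℂ) where
  carrier := {f | anB_IsModFun N f}
  mul_mem' hf hg := hf.mul hg
  one_mem' := anB_IsModFun.one
  add_mem' hf hg := hf.add hg
  zero_mem' := anB_IsModFun.zero
  algebraMap_mem' c := anB_IsModFun.const c

theorem anB_mem_modFunSubalgebra {N : ℕ} {f : ℍ → ℂ} :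
    f ∈ anB_modFunSubalgebra N ↔ anB_IsModFun N f := Iff.rfl

/-- `z ↦ j(d z)` is a modular function of level `Γ₀(N)` for `d ∣ N`. -/
theorem anB_isModFun_jd {N d : ℕ} [NeZero d] (hd : d ∣ N) : anB_IsModFun N (anB_jd d) where
  holo := anB_jd_mdiff d
  inv _ hγ z := anB_jd_smul_of_mem hd hγ z
  growth γ := ⟨d, anB_jd_smul_isBigO d γ⟩

theorem anB_isModFun_jfun (N : ℕ) : anB_IsModFun N jfun := by
  have := anB_isModFun_jd (N := N) (d := 1) (one_dvd N)
  rwa [anB_jd_one] at this

/-! ### Translates by left cosets -/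

/-- The weight-`0` slash action is composition. -/
theorem anB_slash_zero (f : ℍ → ℂ) (γ : SL(2, ℤ)) : f ∣[(0 : ℤ)] γ = fun z => f (γ • z) := by
  funext z
  rw [ModularForm.SL_slash_apply]
  simp

theorem anB_mdiff_comp_smul {f : ℍ → ℂ} (hf : MDiff f) (γ : SL(2, ℤ)) :
    MDiff (fun z => f (γ • z)) := by
  rw [← anB_slash_zero]
  exact hf.slash 0 _

/-- The translate of `f` by the left coset `x = γ Γ₀(N)`: `z ↦ f (γ⁻¹ z)`. -/
def anB_tr (N : ℕ) (f : ℍ → ℂ) (x : XN N) : ℍ → ℂ :=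
  fun z => f ((Quotient.out x : SL(2, ℤ))⁻¹ • z)

section Translates

variable {N : ℕ} {f : ℍ → ℂ}

theorem anB_tr_mk (hinv : ∀ γ ∈ Gamma0 N, ∀ z : ℍ, f (γ • z) = f z) (γ : SL(2, ℤ)) (z : ℍ) :
    anB_tr N f (QuotientGroup.mk γ : XN N) z = f (γ⁻¹ • z) := by
  obtain ⟨h, hh⟩ := QuotientGroup.mk_out_eq_mul (Gamma0 N) γ
  have h1 : (Quotient.out (QuotientGroup.mk γ : XN N) : SL(2, ℤ)) = γ * h := hh
  rw [anB_tr, h1, mul_inv_rev, mul_smul]
  exact hinv _ (inv_mem h.2) _

theorem anB_tr_smul (hinv : ∀ γ ∈ Gamma0 N, ∀ z : ℍ, f (γ • z) = f z) (δ : SL(2, ℤ))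
    (x : XN N) (z : ℍ) : anB_tr N f x (δ • z) = anB_tr N f (δ⁻¹ • x) z := by
  induction x using QuotientGroup.induction_on with
  | H γ =>
    rw [Comb.smul_mk, anB_tr_mk hinv, anB_tr_mk hinv, mul_inv_rev, inv_inv, mul_smul]

theorem anB_tr_one (hinv : ∀ γ ∈ Gamma0 N, ∀ z : ℍ, f (γ • z) = f z) :
    anB_tr N f (QuotientGroup.mk 1 : XN N) = f := by
  funext z
  rw [anB_tr_mk hinv]
  simp

theorem anB_tr_mdiff (hf : MDiff f) (x : XN N) : MDiff (anB_tr N f x) :=
  anB_mdiff_comp_smul hf _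

theorem anB_tr_growth (hf : anB_IsModFun N f) (x : XN N) : anB_Growth (anB_tr N f x) :=
  hf.growth _

theorem anB_tr_smul_growth (hf : anB_IsModFun N f) (x : XN N) (γ : SL(2, ℤ)) :
    anB_Growth (fun z => anB_tr N f x (γ • z)) := by
  have : (fun z => anB_tr N f x (γ • z)) = anB_tr N f (γ⁻¹ • x) := by
    funext z
    exact anB_tr_smul hf.inv γ x z
  rw [this]
  exact anB_tr_growth hf _

/-- `T ^ N` acts trivially on `SL(2,ℤ) ⧸ Γ₀(N)`. -/
theorem anB_T_zpow_smul (N : ℕ) (k : ℤ) (x : XN N) :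
    (ModularGroup.T ^ ((N : ℤ) * k)) • x = x := by
  induction x using QuotientGroup.induction_on with
  | H γ =>
    rw [Comb.smul_mk, Comb.mk_eq_mk_iff, Comb.cross, Comb.T_zpow_mul_apply_zero,
      Comb.T_zpow_mul_apply_one]
    exact ⟨k * γ 1 0 * γ 1 0, by ring⟩

/-- Periodicity of a translate under `z ↦ z + h` whenever `T ^ h` fixes the coset. -/
theorem anB_tr_vadd_of_fixed (hinv : ∀ γ ∈ Gamma0 N, ∀ z : ℍ, f (γ • z) = f z) (x : XN N)
    (h : ℤ) (hx : (ModularGroup.T ^ h) • x = x) (z : ℍ) :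
    anB_tr N f x ((h : ℝ) +ᵥ z) = anB_tr N f x z := by
  rw [← UpperHalfPlane.modular_T_zpow_smul, anB_tr_smul hinv]
  congr 1
  rw [inv_smul_eq_iff, hx]

/-- Every translate is invariant under `z ↦ z + N`. -/
theorem anB_tr_vadd (hinv : ∀ γ ∈ Gamma0 N, ∀ z : ℍ, f (γ • z) = f z) (x : XN N) (z : ℍ) :
    anB_tr N f x ((N : ℝ) +ᵥ z) = anB_tr N f x z := by
  have h := anB_tr_vadd_of_fixed hinv x (N : ℤ)
    (by simpa using anB_T_zpow_smul N 1 x) z
  simpa using h

end Translates

end Fermat.Agent.S24
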