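import Mathlib
import Fermat.Agent.S24.ANDefs
import Fermat.Agent.S24.BridgeLaurent
import Fermat.Agent.S24.Translate

/-!
# S24, package AN-A: the bridge (`BridgeStatement`)

The ring homomorphism `Θ₀ : Q̄[j(dz) : d ∣ N] → (ℍ → ℂ)` sending a formal Laurent series to the
holomorphic function with this `q`-expansion, and the `Q̄`-linear retraction `π : ℂ → Q̄`.
-/

set_option autoImplicit false

noncomputable section

namespace Fermat.Agent.S24

open UpperHalfPlane ModularFormClass CongruenceSubgroup Matrix.SpecialLinearGroup Function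
open ModularForm Filter Topology
open scoped MatrixGroups ModularForm Manifold

open Fermat.Agent.S22

/-! ### Coefficient maps -/

theorem anA_coeffMap_qExpand {R S : Type*} [CommRing R] [CommRing S] (φ : R →+* S) (d : ℕ)
    [NeZero d] (x : LaurentSeries R) :
    ModularCurve.coeffMap φ (ModularCurve.qExpand R d x) =
      ModularCurve.qExpand S d (ModularCurve.coeffMap φ x) := by
  ext k
  by_cases hk : (d : ℤ) ∣ k
  · obtain ⟨l, rfl⟩ := hk
    rw [ModularCurve.coeffMap_coeff, ModularCurve.qExpand_coeff_mul,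
      ModularCurve.qExpand_coeff_mul, ModularCurve.coeffMap_coeff]
  · rw [ModularCurve.coeffMap_coeff, ModularCurve.qExpand_coeff_of_not_dvd d _ hk,
      ModularCurve.qExpand_coeff_of_not_dvd d _ hk, map_zero]

theorem anA_coeffMap_ofPowerSeries {R S : Type*} [CommRing R] [CommRing S] (φ : R →+* S)
    (P : PowerSeries R) :
    ModularCurve.coeffMap φ (HahnSeries.ofPowerSeries ℤ R P) =
      HahnSeries.ofPowerSeries ℤ S (P.map φ) := by
  ext k
  rw [ModularCurve.coeffMap_coeff]
  rcases lt_or_ge k 0 with hl | hl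
  · rw [ModularCurve.ofPowerSeries_coeff_of_neg _ hl,
      ModularCurve.ofPowerSeries_coeff_of_neg _ hl, map_zero]
  · obtain ⟨n, rfl⟩ := Int.eq_ofNat_of_zero_le hl
    rw [HahnSeries.ofPowerSeries_apply_coeff, HahnSeries.ofPowerSeries_apply_coeff,
      PowerSeries.coeff_map]

theorem anA_coeffMap_jq (φ : ℚ →+* ℂ) : ModularCurve.coeffMap φ ModularCurve.jq = anA_jSeries := by
  rw [ModularCurve.jq, map_mul, ModularCurve.coeffMap_single, map_one,
    anA_coeffMap_ofPowerSeries, anA_jSeries, ModularCurve.jNumQ]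
  congr 2
  ext n
  simp only [PowerSeries.coeff_map]
  simp

theorem anA_coeffMap_jLaurent (d : ℕ) [NeZero d] :
    ModularCurve.coeffMap iota (jLaurent d) = ModularCurve.qExpand ℂ d anA_jSeries := by
  rw [jLaurent, ModularCurve.coeffEmb, ModularCurve.coeffMap_coeffMap, anA_coeffMap_qExpand,
    anA_coeffMap_jq]

theorem anA_coeffMap_algebraMap (c : QBar) :
    ModularCurve.coeffMap iota (algebraMap QBar (LaurentSeries QBar) c) = HahnSeries.C (iota c) := by
  rw [ModularCurve.algebraMap_laurentSeries_eq_single, ModularCurve.coeffMap_single]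
  rfl

/-! ### The series attached to an element of `ringA N` -/

/-- The complex Laurent series of an element of the function field. -/
def anA_ser {N : ℕ} (x : FunField N) : LaurentSeries ℂ :=
  ModularCurve.coeffMap iota (x : LaurentSeries QBar)

theorem anA_ser_add {N : ℕ} (x y : FunField N) : anA_ser (x + y) = anA_ser x + anA_ser y := by
  simp only [anA_ser]
  rw [← map_add]
  rfl

theorem anA_ser_mul {N : ℕ} (x y : FunField N) : anA_ser (x * y) = anA_ser x * anA_ser y := by
  simp only [anA_ser]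
  rw [← map_mul]
  rfl

theorem anA_ser_algebraMap {N : ℕ} (c : QBar) :
    anA_ser (algebraMap QBar (FunField N) c) = HahnSeries.C (iota c) := by
  rw [← anA_coeffMap_algebraMap]
  rfl

theorem anA_ser_one {N : ℕ} : anA_ser (1 : FunField N) = 1 := by
  have := anA_ser_algebraMap (N := N) 1
  simpa using this

theorem anA_ser_zero {N : ℕ} : anA_ser (0 : FunField N) = 0 := by
  have := anA_ser_algebraMap (N := N) 0
  simpa using this

theorem anA_ser_jDiv (N : ℕ) (d : ℕ) [NeZero d] (hd : d ∣ N) :
    anA_ser (jDiv N d hd) = ModularCurve.qExpand ℂ d anA_jSeries :=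
  anA_coeffMap_jLaurent d

theorem anA_ser_coeff {N : ℕ} (x : FunField N) (k : ℤ) :
    (anA_ser x).coeff k = iota ((x : LaurentSeries QBar).coeff k) := rfl

/-- Every element of `ringA N` has a Laurent expansion realised by a function on `ℍ`. -/
theorem anA_exists_fun {N : ℕ} (x : FunField N) (hx : x ∈ ringA N) :
    ∃ f : ℍ → ℂ, anA_HasLaurent (anA_ser x) f := by
  induction hx using Algebra.adjoin_induction with
  | mem x hx =>
    obtain ⟨d, hne, hd, rfl⟩ := hx
    exact ⟨_, anA_ser_jDiv N d hd ▸ anA_hasLaurent_jd d⟩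
  | algebraMap c => exact ⟨_, anA_ser_algebraMap (N := N) c ▸ anA_HasLaurent.const (iota c)⟩
  | add x y _ _ hx hy =>
    obtain ⟨f, hf⟩ := hx
    obtain ⟨g, hg⟩ := hy
    exact ⟨f + g, anA_ser_add x y ▸ hf.add hg⟩
  | mul x y _ _ hx hy =>
    obtain ⟨f, hf⟩ := hx
    obtain ⟨g, hg⟩ := hy
    exact ⟨f * g, anA_ser_mul x y ▸ hf.mul hg⟩

/-- The function attached to an element of `ringA N`. -/
def anA_thetaFun {N : ℕ} (a : ringA N) : ℍ → ℂ := Classical.choose (anA_exists_fun a.1 a.2)

theorem anA_thetaFun_spec {N : ℕ} (a : ringA N) :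
    anA_HasLaurent (anA_ser (a : FunField N)) (anA_thetaFun a) :=
  Classical.choose_spec (anA_exists_fun a.1 a.2)

theorem anA_thetaFun_eq {N : ℕ} (a : ringA N) {f : ℍ → ℂ}
    (hf : anA_HasLaurent (anA_ser (a : FunField N)) f) : anA_thetaFun a = f :=
  (anA_thetaFun_spec a).unique_fun hf

/-- The bridge homomorphism. -/
def anA_theta (N : ℕ) : ringA N →+* (ℍ → ℂ) where
  toFun := anA_thetaFun
  map_one' := anA_thetaFun_eq _ (by
    rw [show ((1 : ringA N) : FunField N) = 1 from rfl, anA_ser_one]
    exact anA_HasLaurent.one)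
  map_zero' := anA_thetaFun_eq _ (by
    rw [show ((0 : ringA N) : FunField N) = 0 from rfl, anA_ser_zero]
    exact anA_HasLaurent.zero)
  map_mul' a b := anA_thetaFun_eq _ (by
    rw [show ((a * b : ringA N) : FunField N) = (a : FunField N) * (b : FunField N) from rfl,
      anA_ser_mul]
    exact (anA_thetaFun_spec a).mul (anA_thetaFun_spec b))
  map_add' a b := anA_thetaFun_eq _ (by
    rw [show ((a + b : ringA N) : FunField N) = (a : FunField N) + (b : FunField N) from rfl,
      anA_ser_add]
    exact (anA_thetaFun_spec a).add (anA_thetaFun_spec b))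

theorem anA_theta_apply {N : ℕ} (a : ringA N) : anA_theta N a = anA_thetaFun a := rfl

theorem anA_theta_spec {N : ℕ} (a : ringA N) :
    anA_HasLaurent (anA_ser (a : FunField N)) (anA_theta N a) :=
  anA_thetaFun_spec a

theorem anA_theta_eq {N : ℕ} (a : ringA N) {f : ℍ → ℂ}
    (hf : anA_HasLaurent (anA_ser (a : FunField N)) f) : anA_theta N a = f :=
  anA_thetaFun_eq a hf

theorem anA_theta_const {N : ℕ} (c : QBar) :
    anA_theta N (algebraMap QBar (ringA N) c) = fun _ => iota c :=
  anA_theta_eq _ (by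
    rw [show ((algebraMap QBar (ringA N) c : ringA N) : FunField N) =
      algebraMap QBar (FunField N) c from rfl, anA_ser_algebraMap]
    exact anA_HasLaurent.const (iota c))

theorem anA_ofComplex_mul (d : ℕ) [NeZero d] (z : ℍ) :
    ofComplex ((d : ℂ) * (z : ℂ)) = heckeDiagMatrix d • z := by
  rw [← coe_heckeDiagMatrix_smul (NeZero.ne d), ofComplex_apply]

theorem anA_jfunMul_eq (d : ℕ) [NeZero d] :
    jfunMul d = fun z => jfun (heckeDiagMatrix d • z) := by
  funext z
  rw [jfunMul, anA_ofComplex_mul]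

theorem anA_theta_jDiv {N : ℕ} (d : ℕ) [NeZero d] (hd : d ∣ N) :
    anA_theta N (jDivA N d hd) = jfunMul d :=
  anA_theta_eq _ (by
    rw [show ((jDivA N d hd : ringA N) : FunField N) = jDiv N d hd from rfl, anA_ser_jDiv,
      anA_jfunMul_eq]
    exact anA_hasLaurent_jd d)

theorem anA_theta_mdiff {N : ℕ} (a : ringA N) : MDiff (anA_theta N a) :=
  (anA_theta_spec a).mdiff

theorem anA_theta_inv {N : ℕ} (a : ringA N) (γ : SL(2, ℤ)) (hγ : γ ∈ Gamma0 N) (z : ℍ) :
    anA_theta N a (γ • z) = anA_theta N a z := by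
  obtain ⟨x, hx⟩ := a
  induction hx using Algebra.adjoin_induction with
  | mem x hx =>
    obtain ⟨d, hne, hd, rfl⟩ := hx
    have h1 : anA_theta N ⟨jDiv N d hd, Algebra.subset_adjoin ⟨d, hne, hd, rfl⟩⟩ = jfunMul d :=
      anA_theta_jDiv d hd
    rw [h1, anA_jfunMul_eq]
    exact anB_jd_smul_of_mem hd hγ z
  | algebraMap c =>
    have h1 : anA_theta N ⟨algebraMap QBar (FunField N) c, Subalgebra.algebraMap_mem _ c⟩ =
        fun _ => iota c := anA_theta_const c
    rw [h1]
  | add x y hx hy hx' hy' =>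
    have h1 : (⟨x + y, add_mem hx hy⟩ : ringA N) = ⟨x, hx⟩ + ⟨y, hy⟩ := rfl
    rw [h1, map_add, Pi.add_apply, Pi.add_apply, hx', hy']
  | mul x y hx hy hx' hy' =>
    have h1 : (⟨x * y, mul_mem hx hy⟩ : ringA N) = ⟨x, hx⟩ * ⟨y, hy⟩ := rfl
    rw [h1, map_mul, Pi.mul_apply, Pi.mul_apply, hx', hy']

/-! ### The retraction and the descent -/

/-- A `Q̄`-linear retraction of `iota`. -/
theorem anA_exists_retraction :
    ∃ π : ℂ →+ QBar, π 1 = 1 ∧ ∀ (c : QBar) (x : ℂ), π (iota c * x) = c * π x := by
  letI : Algebra QBar ℂ := iota.toAlgebra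
  have hinj : LinearMap.ker (Algebra.linearMap QBar ℂ) = ⊥ :=
    LinearMap.ker_eq_bot.mpr iota.injective
  obtain ⟨g, hg⟩ := LinearMap.exists_leftInverse_of_injective (Algebra.linearMap QBar ℂ) hinj
  refine ⟨g.toAddMonoidHom, ?_, ?_⟩
  · have h1 := LinearMap.congr_fun hg 1
    simp only [LinearMap.coe_comp, comp_apply, Algebra.linearMap_apply, map_one,
      LinearMap.id_coe, id_eq] at h1
    exact h1
  · intro c x
    have h1 : iota c * x = c • x := by
      rw [Algebra.smul_def]
      rfl
    show g (iota c * x) = c * g x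
    rw [h1, map_smul, smul_eq_mul]

theorem anA_coe_smul_coeff {N : ℕ} (r : QBar) (a : ringA N) (k : ℤ) :
    (((r • a : ringA N) : FunField N) : LaurentSeries QBar).coeff k =
      r * (((a : ringA N) : FunField N) : LaurentSeries QBar).coeff k := by
  have h1 : (((r • a : ringA N) : FunField N) : LaurentSeries QBar) =
      algebraMap QBar (LaurentSeries QBar) r *
        (((a : ringA N) : FunField N) : LaurentSeries QBar) := by
    rw [Algebra.smul_def]
    rfl
  rw [h1, ModularCurve.algebraMap_laurentSeries_eq_single, HahnSeries.coeff_single_mul, sub_zero]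

theorem anA_coe_sum_smul_coeff {N : ℕ} {ι : Type*} (S : Finset ι) (r : ι → QBar)
    (a : ι → ringA N) (k : ℤ) :
    (((∑ i ∈ S, r i • a i : ringA N) : FunField N) : LaurentSeries QBar).coeff k =
      ∑ i ∈ S, r i * (((a i : ringA N) : FunField N) : LaurentSeries QBar).coeff k := by
  classical
  induction S using Finset.induction_on with
  | empty =>
    rw [Finset.sum_empty, Finset.sum_empty]
    rfl
  | insert j S hj ih =>
    rw [Finset.sum_insert hj, Finset.sum_insert hj, ← ih, ← anA_coe_smul_coeff]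
    rfl

theorem anA_descent {N : ℕ} (π : ℂ →+ QBar)
    (hπ : ∀ (c : QBar) (x : ℂ), π (iota c * x) = c * π x)
    (n : ℕ) (c : Fin n → ℂ) (a : Fin n → ringA N)
    (h : ∀ z : ℍ, ∑ i, c i * anA_theta N (a i) z = 0) : ∑ i, π (c i) • a i = 0 := by
  have h1 : anA_HasLaurent (∑ i, HahnSeries.C (c i) * anA_ser (a i : FunField N))
      (∑ i, fun z => c i * anA_theta N (a i) z) :=
    anA_HasLaurent.sum _ fun i _ => (anA_theta_spec (a i)).smul (c i)
  have h2 : (∑ i, fun z => c i * anA_theta N (a i) z) = 0 := by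
    funext z
    simp only [Finset.sum_apply, Pi.zero_apply]
    exact h z
  rw [h2] at h1
  have h3 := h1.series_eq_zero
  apply Subtype.ext
  apply Subtype.ext
  show (((∑ i, π (c i) • a i : ringA N) : FunField N) : LaurentSeries QBar) = 0
  ext k
  rw [anA_coe_sum_smul_coeff]
  have h4 := congrArg (fun s : LaurentSeries ℂ => s.coeff k) h3
  simp only [HahnSeries.coeff_sum, HahnSeries.coeff_zero, HahnSeries.C_mul_eq_smul,
    HahnSeries.coeff_smul, smul_eq_mul, anA_ser_coeff] at h4
  have h5 := congrArg π h4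
  rw [map_sum, map_zero] at h5
  rw [HahnSeries.coeff_zero, ← h5]
  refine Finset.sum_congr rfl fun i _ => ?_
  rw [mul_comm (c i), hπ, mul_comm]

/-! ### The bridge -/

theorem anA_isBridge (N : ℕ) [NeZero N] (π : ℂ →+ QBar) (h1 : π 1 = 1)
    (h2 : ∀ (c : QBar) (x : ℂ), π (iota c * x) = c * π x) : IsBridge N (anA_theta N) π where
  map_const c z := by rw [anA_theta_const]
  map_jDiv d _ hd z := by rw [anA_theta_jDiv]
  holo := anA_theta_mdiff
  inv := anA_theta_inv
  retract_one := h1
  retract_mul := h2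
  descent := anA_descent π h2

/-- (AN-A) The bridge exists. -/
theorem bridge : BridgeStatement := by
  intro N _
  obtain ⟨π, h1, h2⟩ := anA_exists_retraction
  exact ⟨anA_theta N, π, anA_isBridge N π h1 h2⟩

end Fermat.Agent.S24
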