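import Mathlib

/-!
# S24 (AN-C): invariant holomorphic functions of moderate growth are polynomials in `j`

`f : ℍ → ℂ` holomorphic, `SL(2,ℤ)`-invariant, with `f * Δ ^ M` bounded at `i∞`, is of the form
`P ∘ j` for a polynomial `P` of degree at most `M`, where `j = E₄ ^ 3 / Δ`.
-/

set_option autoImplicit false

open UpperHalfPlane ModularForm SlashInvariantForm SlashInvariantFormClass ModularFormClass
  CuspFormClass MatrixGroups OnePoint Filter EisensteinSeries Asymptotics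

open scoped Topology Manifold

noncomputable section

namespace Fermat.Agent.S24

local notation "Δ" => ModularForm.discriminant

/-- A holomorphic function on `ℍ` which is invariant under the weight `k` slash action of
`SL(2,ℤ)` and bounded at `i∞` is a modular form of level one. -/
def anC_mkForm (k : ℤ) (g : ℍ → ℂ) (hg : MDiff g) (hslash : ∀ γ : SL(2, ℤ), g ∣[k] γ = g)
    (hbd : IsBoundedAtImInfty g) : ModularForm 𝒮ℒ k where
  toFun := g
  slash_action_eq' := fun _ ⟨γ, hγ⟩ => hγ ▸ hslash γ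
  holo' := hg
  bdd_at_cusps' {c} hc := by
    rw [Subgroup.IsArithmetic.isCusp_iff_isCusp_SL2Z] at hc
    rw [isBoundedAt_iff_forall_SL2Z hc]
    intro γ _
    rw [hslash γ]
    exact hbd

@[simp] theorem anC_mkForm_apply (k : ℤ) (g : ℍ → ℂ) (hg : MDiff g)
    (hslash : ∀ γ : SL(2, ℤ), g ∣[k] γ = g) (hbd : IsBoundedAtImInfty g) (z : ℍ) :
    anC_mkForm k g hg hslash hbd z = g z := rfl

theorem anC_discriminant_smul (γ : SL(2, ℤ)) (z : ℍ) :
    Δ (γ • z) = denom γ z ^ (12 : ℤ) * Δ z := by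
  have hγ : (γ : GL (Fin 2) ℝ) ∈ 𝒮ℒ := ⟨γ, rfl⟩
  exact slash_action_eqn'' CuspForm.discriminant hγ z

theorem anC_E₄_smul (γ : SL(2, ℤ)) (z : ℍ) :
    E₄ (γ • z) = denom γ z ^ (4 : ℤ) * E₄ z := by
  have hγ : (γ : GL (Fin 2) ℝ) ∈ 𝒮ℒ := ⟨γ, rfl⟩
  exact slash_action_eqn'' E₄ hγ z

/-- The `j`-function `E₄ ^ 3 / Δ`. -/
def anC_j (z : ℍ) : ℂ := E₄ z ^ 3 / Δ z

theorem anC_j_def (z : ℍ) : anC_j z = E₄ z ^ 3 / Δ z := rfl

theorem anC_j_smul (γ : SL(2, ℤ)) (z : ℍ) : anC_j (γ • z) = anC_j z := by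
  unfold anC_j
  rw [anC_discriminant_smul, anC_E₄_smul]
  have h1 : denom γ z ≠ 0 := denom_ne_zero _ z
  have h2 : Δ z ≠ 0 := discriminant_ne_zero z
  field_simp

theorem anC_E₄_pow_mdiff (n : ℕ) : MDiff (fun z : ℍ => E₄ z ^ n) := by
  have h := ModularFormClass.holo (E₄.pow n)
  have e : (⇑(E₄.pow n) : ℍ → ℂ) = fun z => E₄ z ^ n := by
    ext z; simp [coe_pow]
  rwa [e] at h

theorem anC_discriminant_mdiff : MDiff (fun z : ℍ => Δ z) :=
  ModularFormClass.holo CuspForm.discriminant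

theorem anC_discriminant_pow_mdiff (n : ℕ) : MDiff (fun z : ℍ => Δ z ^ n) := by
  induction n with
  | zero =>
    have h2 : MDiff (fun _ : ℍ => (1 : ℂ)) := mdifferentiable_const
    simpa using h2
  | succ n ih =>
    have h := ih.mul anC_discriminant_mdiff
    have e : (fun z : ℍ => Δ z ^ (n + 1)) = (fun z : ℍ => Δ z ^ n) * fun z : ℍ => Δ z := by
      ext z; simp [pow_succ]
    rwa [e]

theorem anC_j_mdiff : MDiff anC_j :=
  (anC_E₄_pow_mdiff 3).div CuspForm.discriminant.holo' discriminant_ne_zero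

theorem anC_j_pow_eq (n : ℕ) (z : ℍ) : anC_j z ^ n = E₄ z ^ (3 * n) / Δ z ^ n := by
  rw [anC_j_def, div_pow, pow_mul]

theorem anC_j_pow_mdiff (n : ℕ) : MDiff (fun z : ℍ => anC_j z ^ n) := by
  have h := (anC_E₄_pow_mdiff (3 * n)).div (anC_discriminant_pow_mdiff n)
    (fun z => pow_ne_zero n (discriminant_ne_zero z))
  have e : (fun z : ℍ => anC_j z ^ n) =
      (fun z : ℍ => E₄ z ^ (3 * n)) / fun z : ℍ => Δ z ^ n := by
    ext z; simp [anC_j_pow_eq]
  rwa [e]

/-- The weight `12 M` slash invariance of `f * Δ ^ M` for an invariant function `f`. -/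
theorem anC_slash_mul_pow (f : ℍ → ℂ) (hinv : ∀ (γ : SL(2, ℤ)) (z : ℍ), f (γ • z) = f z)
    (M : ℕ) (γ : SL(2, ℤ)) :
    (fun z => f z * Δ z ^ M) ∣[(12 * (M : ℤ))] γ = fun z => f z * Δ z ^ M := by
  ext z
  rw [SL_slash_apply, hinv, anC_discriminant_smul]
  have h1 : denom γ z ≠ 0 := denom_ne_zero _ z
  rw [mul_pow, ← zpow_natCast (denom γ z ^ (12 : ℤ)) M, ← zpow_mul, zpow_neg]
  field_simp

/-- Polynomials in `j` evaluated on `ℍ`. -/
theorem anC_eval_j_smul (P : Polynomial ℂ) (γ : SL(2, ℤ)) (z : ℍ) :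
    P.eval (anC_j (γ • z)) = P.eval (anC_j z) := by
  rw [anC_j_smul]

/-- **AN-C.** A holomorphic `SL(2,ℤ)`-invariant function `f` on `ℍ` such that `f * Δ ^ M` is
bounded at `i∞` is a polynomial of degree at most `M` in `j`. -/
theorem anC_polynomial_of_bounded_mul_pow' (M : ℕ) : ∀ (f : ℍ → ℂ), MDiff f →
    (∀ (γ : SL(2, ℤ)) (z : ℍ), f (γ • z) = f z) →
    IsBoundedAtImInfty (fun z => f z * Δ z ^ M) →
    ∃ P : Polynomial ℂ, P.natDegree ≤ M ∧ ∀ z : ℍ, f z = P.eval (anC_j z) := by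
  induction M with
  | zero =>
    intro f hf hinv hbd
    have hslash : ∀ γ : SL(2, ℤ), f ∣[(0 : ℤ)] γ = f := by
      intro γ
      ext z
      rw [SL_slash_apply, hinv]
      simp
    have hbd' : IsBoundedAtImInfty f := by
      simpa using hbd
    obtain ⟨c, hc⟩ := levelOne_weight_zero_const (anC_mkForm 0 f hf hslash hbd')
    refine ⟨Polynomial.C c, by simp, fun z => ?_⟩
    have := congrFun hc z
    simpa using this
  | succ M ih =>
    intro f hf hinv hbd
    -- the modular form `G = f Δ^(M+1)` of weight `12 (M+1)`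
    set k : ℤ := 12 * ((M + 1 : ℕ) : ℤ) with hk
    let G : ModularForm 𝒮ℒ k := anC_mkForm k (fun z => f z * Δ z ^ (M + 1))
      (hf.mul (anC_discriminant_pow_mdiff (M + 1))) (anC_slash_mul_pow f hinv (M + 1)) hbd
    have hkE : ((3 * (M + 1) : ℕ) : ℤ) * ((4 : ℕ) : ℤ) = k := by
      rw [hk]; push_cast; ring
    let E : ModularForm 𝒮ℒ k := ModularForm.mcast hkE (E₄.pow (3 * (M + 1)))
    have hE : ∀ z, E z = E₄ z ^ (3 * (M + 1)) := fun z => by
      show (E₄.pow (3 * (M + 1))) z = _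
      rw [ModularForm.coe_pow]
      rfl
    have hE0 : (qExpansion 1 E).coeff 0 = 1 := by
      simp only [E, ModularForm.qExpansion_mcast,
        ModularForm.qExpansion_pow one_pos one_mem_strictPeriods_SL]
      rw [PowerSeries.coeff_zero_eq_constantCoeff, map_pow,
        ← PowerSeries.coeff_zero_eq_constantCoeff, E_qExpansion_coeff_zero _ ⟨2, rfl⟩, one_pow]
    set c : ℂ := (qExpansion 1 G).coeff 0 with hc
    let H : ModularForm 𝒮ℒ k := G - c • E
    have hH : (⇑H : ℍ → ℂ) = ⇑G - c • ⇑E := rfl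
    have hH' : (⇑H : ℍ → ℂ) = ⇑G - ⇑(c • E) := rfl
    have hH0 : (qExpansion 1 (⇑H : ℍ → ℂ)).coeff 0 = 0 := by
      rw [hH', ModularForm.qExpansion_sub one_pos one_mem_strictPeriods_SL,
        FunLike.coe_smul, ModularForm.qExpansion_smul one_pos one_mem_strictPeriods_SL, map_sub,
        PowerSeries.coeff_smul, hE0, smul_eq_mul, mul_one, sub_self]
    let h : ModularForm 𝒮ℒ (k - 12) := CuspForm.discriminantEquiv (toCuspForm H hH0)
    have hh : ∀ z, h z = (f z * Δ z ^ (M + 1) - c * E₄ z ^ (3 * (M + 1))) / Δ z := fun z => by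
      show (toCuspForm H hH0) z / Δ z = _
      rw [toCuspForm_apply, hH]
      simp only [Pi.sub_apply, Pi.smul_apply, smul_eq_mul, hE]
      rfl
    -- the new function
    have hf' : MDiff (fun z => f z - c * anC_j z ^ (M + 1)) :=
      hf.sub (mdifferentiable_const.mul (anC_j_pow_mdiff (M + 1)))
    have hinv' : ∀ (γ : SL(2, ℤ)) (z : ℍ),
        (fun z => f z - c * anC_j z ^ (M + 1)) (γ • z) =
          (fun z => f z - c * anC_j z ^ (M + 1)) z := fun γ z => by
      simp only [hinv, anC_j_smul]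
    have hbd' : IsBoundedAtImInfty (fun z => (f z - c * anC_j z ^ (M + 1)) * Δ z ^ M) := by
      have e : (fun z => (f z - c * anC_j z ^ (M + 1)) * Δ z ^ M) = ⇑h := by
        ext z
        rw [hh, anC_j_pow_eq]
        have h2 : Δ z ≠ 0 := discriminant_ne_zero z
        field_simp
        ring
      rw [e]
      exact ModularFormClass.bdd_at_infty h
    obtain ⟨P', hdeg, hP'⟩ := ih _ hf' hinv' hbd'
    refine ⟨P' + Polynomial.C c * Polynomial.X ^ (M + 1), ?_, fun z => ?_⟩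
    · refine (Polynomial.natDegree_add_le _ _).trans (max_le (hdeg.trans (Nat.le_succ M)) ?_)
      exact (Polynomial.natDegree_C_mul_X_pow_le c (M + 1))
    · have := hP' z
      simp only [Polynomial.eval_add, Polynomial.eval_mul, Polynomial.eval_C,
        Polynomial.eval_pow, Polynomial.eval_X]
      rw [← this]
      ring

/-- **AN-C**, stated with the explicit expression `E₄ ^ 3 / Δ` for `j`. -/
theorem anC_polynomial_of_bounded_mul_pow (f : ℍ → ℂ) (hf : MDiff f)
    (hinv : ∀ (γ : SL(2, ℤ)) (z : ℍ), f (γ • z) = f z) (M : ℕ)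
    (hbd : IsBoundedAtImInfty (fun z => f z * Δ z ^ M)) :
    ∃ P : Polynomial ℂ, P.natDegree ≤ M ∧ ∀ z : ℍ, f z = P.eval (E₄ z ^ 3 / Δ z) :=
  anC_polynomial_of_bounded_mul_pow' M f hf hinv hbd

/-- Exponential growth of order `M` at `i∞` implies that `f * Δ ^ M` is bounded at `i∞`. -/
theorem anC_isBoundedAtImInfty_mul_pow_of_growth (f : ℍ → ℂ) (M : ℕ)
    (hgr : ∃ C R : ℝ, ∀ z : ℍ, R ≤ z.im → ‖f z‖ ≤ C * Real.exp (2 * Real.pi * M * z.im)) :
    IsBoundedAtImInfty (fun z => f z * Δ z ^ M) := by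
  obtain ⟨C, R, hCR⟩ := hgr
  have hΔ : (⇑(CuspForm.discriminant) : ℍ → ℂ) =O[atImInfty]
      fun τ : ℍ => Real.exp (-2 * Real.pi * τ.im / 1) :=
    CuspFormClass.exp_decay_atImInfty (h := 1) CuspForm.discriminant one_pos
      one_mem_strictPeriods_SL
  rw [Asymptotics.isBigO_iff] at hΔ
  obtain ⟨c, hc⟩ := hΔ
  rw [Filter.eventually_iff, atImInfty_mem] at hc
  obtain ⟨A, hA⟩ := hc
  rw [isBoundedAtImInfty_iff]
  refine ⟨C * c ^ M, max R A, fun z hz => ?_⟩
  have h1 := hCR z ((le_max_left R A).trans hz)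
  have h2 : ‖Δ z‖ ≤ c * Real.exp (-2 * Real.pi * z.im) := by
    have := hA z ((le_max_right R A).trans hz)
    simpa [Real.norm_eq_abs, abs_of_pos (Real.exp_pos _)] using this
  have h3 : ‖Δ z‖ ^ M ≤ (c * Real.exp (-2 * Real.pi * z.im)) ^ M :=
    pow_le_pow_left₀ (norm_nonneg _) h2 M
  have hC : 0 ≤ C * Real.exp (2 * Real.pi * M * z.im) := (norm_nonneg _).trans h1
  calc ‖f z * Δ z ^ M‖ = ‖f z‖ * ‖Δ z‖ ^ M := by rw [norm_mul, norm_pow]
    _ ≤ (C * Real.exp (2 * Real.pi * M * z.im)) * (c * Real.exp (-2 * Real.pi * z.im)) ^ M :=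
        mul_le_mul h1 h3 (pow_nonneg (norm_nonneg _) M) hC
    _ = C * c ^ M := by
        rw [mul_pow, ← Real.exp_nat_mul]
        have : Real.exp (2 * Real.pi * M * z.im) * Real.exp (M * (-2 * Real.pi * z.im)) = 1 := by
          rw [← Real.exp_add]
          have : 2 * Real.pi * M * z.im + M * (-2 * Real.pi * z.im) = 0 := by ring
          rw [this, Real.exp_zero]
        calc C * Real.exp (2 * Real.pi * M * z.im) * (c ^ M * Real.exp (M * (-2 * Real.pi * z.im)))
            = C * c ^ M * (Real.exp (2 * Real.pi * M * z.im) *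
                Real.exp (M * (-2 * Real.pi * z.im))) := by ring
          _ = C * c ^ M := by rw [this, mul_one]

/-- **AN-C**, growth version: a holomorphic `SL(2,ℤ)`-invariant function on `ℍ` with
`‖f z‖ ≤ C exp (2 π M Im z)` for `Im z ≥ R` is a polynomial of degree at most `M` in `j`. -/
theorem anC_polynomial_of_growth (f : ℍ → ℂ) (hf : MDiff f)
    (hinv : ∀ (γ : SL(2, ℤ)) (z : ℍ), f (γ • z) = f z) (M : ℕ)
    (hgr : ∃ C R : ℝ, ∀ z : ℍ, R ≤ z.im → ‖f z‖ ≤ C * Real.exp (2 * Real.pi * M * z.im)) :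
    ∃ P : Polynomial ℂ, P.natDegree ≤ M ∧ ∀ z : ℍ, f z = P.eval (E₄ z ^ 3 / Δ z) :=
  anC_polynomial_of_bounded_mul_pow f hf hinv M
    (anC_isBoundedAtImInfty_mul_pow_of_growth f M hgr)

end Fermat.Agent.S24

end
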