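import Mathlib
import Fermat.Agent.S24.InvPoly

/-!
# S24 (AN-D, analytic core): symmetric functions of a permuted family are polynomials in `j`

* `anD_ModGrowth f`: `f` has at most exponential growth at `i∞`;
  closed under sums and products.
* `anD_polynomial_of_modGrowth`: AN-C in terms of `anD_ModGrowth`.
* `anD_esymm_eq_polynomial`: for a finite family `F x` (`x : X`) of holomorphic functions of
  moderate growth which is permuted by `SL(2,ℤ)`, every elementary symmetric function of the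
  `F x` is a polynomial in `j`.
* `anD_charPoly`: the characteristic polynomial `∏ₓ (T - F x)` has coefficients in `ℂ[j]`.
-/

set_option autoImplicit false

open UpperHalfPlane ModularForm SlashInvariantForm SlashInvariantFormClass ModularFormClass
  CuspFormClass MatrixGroups OnePoint Filter EisensteinSeries Asymptotics

open scoped Topology Manifold

noncomputable section

namespace Fermat.Agent.S24

local notation "Δ" => ModularForm.discriminant

/-- Moderate growth at `i∞`: `f = O(exp (2 π M Im z))` for some `M : ℕ`. -/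
def anD_ModGrowth (f : ℍ → ℂ) : Prop :=
  ∃ M : ℕ, f =O[atImInfty] fun z : ℍ => Real.exp (2 * Real.pi * M * z.im)

theorem anD_exp_isBigO_exp {M M' : ℕ} (h : M ≤ M') :
    (fun z : ℍ => Real.exp (2 * Real.pi * M * z.im)) =O[atImInfty]
      fun z : ℍ => Real.exp (2 * Real.pi * M' * z.im) := by
  refine IsBigO.of_bound 1 (Filter.Eventually.of_forall fun z => ?_)
  rw [one_mul, Real.norm_eq_abs, Real.norm_eq_abs, abs_of_pos (Real.exp_pos _),
    abs_of_pos (Real.exp_pos _)]
  apply Real.exp_le_exp.2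
  have h1 : (M : ℝ) ≤ M' := by exact_mod_cast h
  have h2 : 0 < z.im := z.im_pos
  have h3 : 0 < Real.pi := Real.pi_pos
  nlinarith [mul_le_mul_of_nonneg_right h1 (le_of_lt (mul_pos h3 h2))]

theorem anD_ModGrowth.mono {f : ℍ → ℂ} {M M' : ℕ} (h : M ≤ M')
    (hf : f =O[atImInfty] fun z : ℍ => Real.exp (2 * Real.pi * M * z.im)) :
    f =O[atImInfty] fun z : ℍ => Real.exp (2 * Real.pi * M' * z.im) :=
  hf.trans (anD_exp_isBigO_exp h)

theorem anD_ModGrowth.const (c : ℂ) : anD_ModGrowth (fun _ => c) := by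
  refine ⟨0, ?_⟩
  simp only [Nat.cast_zero, mul_zero, zero_mul, Real.exp_zero]
  exact isBigO_const_const c one_ne_zero _

theorem anD_ModGrowth.add {f g : ℍ → ℂ} (hf : anD_ModGrowth f) (hg : anD_ModGrowth g) :
    anD_ModGrowth (fun z => f z + g z) := by
  obtain ⟨M, hM⟩ := hf
  obtain ⟨M', hM'⟩ := hg
  exact ⟨max M M', (anD_ModGrowth.mono (le_max_left M M') hM).add
    (anD_ModGrowth.mono (le_max_right M M') hM')⟩

theorem anD_ModGrowth.mul {f g : ℍ → ℂ} (hf : anD_ModGrowth f) (hg : anD_ModGrowth g) :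
    anD_ModGrowth (fun z => f z * g z) := by
  obtain ⟨M, hM⟩ := hf
  obtain ⟨M', hM'⟩ := hg
  refine ⟨M + M', ?_⟩
  have h := hM.mul hM'
  refine h.congr_right fun z => ?_
  rw [← Real.exp_add]
  congr 1
  push_cast
  ring

theorem anD_ModGrowth.neg {f : ℍ → ℂ} (hf : anD_ModGrowth f) :
    anD_ModGrowth (fun z => - f z) := by
  obtain ⟨M, hM⟩ := hf
  exact ⟨M, hM.neg_left⟩

theorem anD_ModGrowth.sum {ι : Type*} (s : Finset ι) {f : ι → ℍ → ℂ}
    (hf : ∀ i ∈ s, anD_ModGrowth (f i)) : anD_ModGrowth (fun z => ∑ i ∈ s, f i z) := by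
  classical
  induction s using Finset.induction_on with
  | empty => simpa using anD_ModGrowth.const 0
  | insert a s ha ih =>
    have h1 := hf a (Finset.mem_insert_self a s)
    have h2 := ih fun i hi => hf i (Finset.mem_insert_of_mem hi)
    have := h1.add h2
    simpa [Finset.sum_insert ha] using this

theorem anD_ModGrowth.prod {ι : Type*} (s : Finset ι) {f : ι → ℍ → ℂ}
    (hf : ∀ i ∈ s, anD_ModGrowth (f i)) : anD_ModGrowth (fun z => ∏ i ∈ s, f i z) := by
  classical
  induction s using Finset.induction_on with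
  | empty => simpa using anD_ModGrowth.const 1
  | insert a s ha ih =>
    have h1 := hf a (Finset.mem_insert_self a s)
    have h2 := ih fun i hi => hf i (Finset.mem_insert_of_mem hi)
    have := h1.mul h2
    simpa [Finset.prod_insert ha] using this

/-- **AN-C** in terms of `anD_ModGrowth`. -/
theorem anD_polynomial_of_modGrowth (f : ℍ → ℂ) (hf : MDiff f)
    (hinv : ∀ (γ : SL(2, ℤ)) (z : ℍ), f (γ • z) = f z) (hg : anD_ModGrowth f) :
    ∃ P : Polynomial ℂ, ∀ z : ℍ, f z = P.eval (E₄ z ^ 3 / Δ z) := by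
  obtain ⟨M, hM⟩ := hg
  rw [Asymptotics.isBigO_iff] at hM
  obtain ⟨c, hc⟩ := hM
  rw [Filter.eventually_iff, atImInfty_mem] at hc
  obtain ⟨A, hA⟩ := hc
  obtain ⟨P, -, hP⟩ := anC_polynomial_of_growth f hf hinv M ⟨c, A, fun z hz => by
    have := hA z hz
    simpa [Real.norm_eq_abs, abs_of_pos (Real.exp_pos _)] using this⟩
  exact ⟨P, hP⟩

section Family

variable {X : Type} [Fintype X] (F : X → ℍ → ℂ)

/-- The `k`-th elementary symmetric function of the family `F`. -/
def anD_esymm (k : ℕ) (z : ℍ) : ℂ :=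
  ∑ t ∈ Finset.powersetCard k (Finset.univ : Finset X), ∏ x ∈ t, F x z

theorem anD_esymm_eq (k : ℕ) (z : ℍ) :
    anD_esymm F k z = ((Finset.univ : Finset X).val.map fun x => F x z).esymm k := by
  rw [anD_esymm, Finset.esymm_map_val]

theorem anD_esymm_mdiff (hF : ∀ x, MDiff (F x)) (k : ℕ) : MDiff (anD_esymm F k) := by
  have h0 : ∀ t : Finset X, MDiff (∏ x ∈ t, F x) := fun t =>
    MDifferentiable.prod fun x _ => hF x
  have h : MDiff (∑ t ∈ Finset.powersetCard k (Finset.univ : Finset X), ∏ x ∈ t, F x) :=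
    MDifferentiable.sum fun t _ => h0 t
  have e : anD_esymm F k = ∑ t ∈ Finset.powersetCard k (Finset.univ : Finset X), ∏ x ∈ t, F x := by
    ext z
    simp [anD_esymm, Finset.sum_apply, Finset.prod_apply]
  rwa [e]

theorem anD_esymm_modGrowth (hF : ∀ x, anD_ModGrowth (F x)) (k : ℕ) :
    anD_ModGrowth (anD_esymm F k) :=
  anD_ModGrowth.sum _ fun _ _ => anD_ModGrowth.prod _ fun x _ => hF x

theorem anD_esymm_smul
    (hperm : ∀ γ : SL(2, ℤ), ∃ σ : Equiv.Perm X, ∀ x z, F x (γ • z) = F (σ x) z)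
    (k : ℕ) (γ : SL(2, ℤ)) (z : ℍ) : anD_esymm F k (γ • z) = anD_esymm F k z := by
  obtain ⟨σ, hσ⟩ := hperm γ
  rw [anD_esymm_eq, anD_esymm_eq]
  congr 1
  have h1 : ((Finset.univ : Finset X).val.map fun x => F x (γ • z)) =
      ((Finset.univ : Finset X).val.map σ).map fun x => F x z := by
    rw [Multiset.map_map]
    exact Multiset.map_congr rfl fun x _ => hσ x z
  rw [h1, Multiset.map_univ_val_equiv]

/-- **AN-D (analytic core).** The elementary symmetric functions of a finite family of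
holomorphic functions of moderate growth which is permuted by `SL(2,ℤ)` are polynomials in
`j`. -/
theorem anD_esymm_eq_polynomial (hF : ∀ x, MDiff (F x)) (hgr : ∀ x, anD_ModGrowth (F x))
    (hperm : ∀ γ : SL(2, ℤ), ∃ σ : Equiv.Perm X, ∀ x z, F x (γ • z) = F (σ x) z) (k : ℕ) :
    ∃ P : Polynomial ℂ, ∀ z : ℍ, anD_esymm F k z = P.eval (E₄ z ^ 3 / Δ z) :=
  anD_polynomial_of_modGrowth _ (anD_esymm_mdiff F hF k) (anD_esymm_smul F hperm k)
    (anD_esymm_modGrowth F hgr k)

/-- Vieta: `∏ₓ (T - F x z) = ∑ₖ (-1)^k eₖ(z) T^(n-k)`. -/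
theorem anD_prod_X_sub_C (z : ℍ) :
    ∏ x : X, (Polynomial.X - Polynomial.C (F x z)) =
      ∑ k ∈ Finset.range (Fintype.card X + 1),
        (-1) ^ k * (Polynomial.C (anD_esymm F k z) * Polynomial.X ^ (Fintype.card X - k)) := by
  have h := Multiset.prod_X_sub_X_eq_sum_esymm ((Finset.univ : Finset X).val.map fun x => F x z)
  rw [Multiset.map_map, Multiset.card_map] at h
  simp only [anD_esymm_eq]
  exact h

/-- Every member of the family is a root of the characteristic polynomial. -/
theorem anD_sum_esymm_mul_pow_eq_zero (x₀ : X) (z : ℍ) :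
    ∑ k ∈ Finset.range (Fintype.card X + 1),
      (-1) ^ k * (anD_esymm F k z * F x₀ z ^ (Fintype.card X - k)) = 0 := by
  have h := congrArg (Polynomial.eval (F x₀ z)) (anD_prod_X_sub_C F z)
  rw [Polynomial.eval_prod, Polynomial.eval_finsetSum] at h
  have h0 : ∏ x : X, Polynomial.eval (F x₀ z) (Polynomial.X - Polynomial.C (F x z)) = 0 := by
    apply Finset.prod_eq_zero (Finset.mem_univ x₀)
    simp
  rw [h0] at h
  rw [h]
  refine Finset.sum_congr rfl fun k _ => ?_
  simp

theorem anD_esymm_zero (z : ℍ) : anD_esymm F 0 z = 1 := by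
  simp [anD_esymm]

/-- **AN-D (analytic core), packaged.** There are polynomials `P k ∈ ℂ[T]` with `P 0 = 1` and
`eₖ(z) = (P k)(j z)` for all `k`; in particular every member `F x₀` of the family satisfies
the monic equation `∑ₖ (-1)^k (P k)(j) (F x₀)^(n-k) = 0`. -/
theorem anD_exists_charPoly (hF : ∀ x, MDiff (F x)) (hgr : ∀ x, anD_ModGrowth (F x))
    (hperm : ∀ γ : SL(2, ℤ), ∃ σ : Equiv.Perm X, ∀ x z, F x (γ • z) = F (σ x) z) :
    ∃ P : ℕ → Polynomial ℂ, P 0 = 1 ∧
      (∀ k (z : ℍ), anD_esymm F k z = (P k).eval (E₄ z ^ 3 / Δ z)) ∧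
      ∀ (x₀ : X) (z : ℍ), ∑ k ∈ Finset.range (Fintype.card X + 1),
        (-1) ^ k * ((P k).eval (E₄ z ^ 3 / Δ z) * F x₀ z ^ (Fintype.card X - k)) = 0 := by
  choose P hP using anD_esymm_eq_polynomial F hF hgr hperm
  refine ⟨fun k => if k = 0 then 1 else P k, by simp, ?_, ?_⟩
  · intro k z
    by_cases hk : k = 0
    · subst hk
      simp [anD_esymm_zero]
    · simp [hk, hP]
  · intro x₀ z
    rw [← anD_sum_esymm_mul_pow_eq_zero F x₀ z]
    refine Finset.sum_congr rfl fun k _ => ?_
    by_cases hk : k = 0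
    · subst hk
      simp [anD_esymm_zero]
    · simp [hk, hP]

end Family

end Fermat.Agent.S24

end
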