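/-
S24, package AN-G (owner: helper24): the degree lower bound `[F : Q̄(j)] ≥ [SL(2,ℤ) : Γ₀(N)]`.

Analytic core:
* `anG_mem_Gamma0_of_jd_eq` : the stabiliser of `z ↦ j(N z)` in `SL(2,ℤ)` is contained in `Γ₀(N)`
* `anG_tr_jd_injective`     : the translates of `j(N z)` by the left cosets are pairwise different
* `anG_exists_forall_ne_zero`: finitely many nonzero holomorphic functions on `ℍ` have a common
                               non-zero
* `anG_card_le_natDegree`   : a nonzero `P(X, Y)` with `P(j(z), j(N z)) = 0` has `Y`-degree at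
                               least `[SL(2,ℤ) : Γ₀(N)]`
-/
import Mathlib
import Fermat.Agent.S24.Translate

set_option autoImplicit false

noncomputable section

namespace Fermat.Agent.S24

open UpperHalfPlane ModularFormClass CongruenceSubgroup Matrix.SpecialLinearGroup Function
open ModularForm Filter Asymptotics
open scoped MatrixGroups ModularForm Manifold Real Topology Polynomial

/-! ### The stabiliser of `j(N z)` -/

theorem anG_im_heckeDiagMatrix_smul {N : ℕ} (hN : N ≠ 0) (τ : ℍ) :
    (heckeDiagMatrix N • τ : ℍ).im = N * τ.im := by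
  have := coe_heckeDiagMatrix_smul hN τ
  have h2 : (heckeDiagMatrix N • τ : ℍ).im = ((N : ℂ) * (τ : ℂ)).im := by
    rw [← this]; rfl
  rw [h2]
  simp

theorem anG_inv_E4_cube_comp_isBigO_one {β : GL (Fin 2) ℝ} (hβ : β 1 0 = 0) :
    (fun τ : ℍ => (E₄ (β • τ) ^ 3)⁻¹) =O[atImInfty] (1 : ℍ → ℝ) := by
  have h1 : Tendsto (fun τ : ℍ => E₄ (β • τ)) atImInfty (𝓝 1) :=
    anE_tendsto_E₄.comp (tendsto_smul_atImInfty hβ)
  have h2 : Tendsto (fun τ : ℍ => (E₄ (β • τ) ^ 3)⁻¹) atImInfty (𝓝 ((1 ^ 3)⁻¹)) :=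
    (h1.pow 3).inv₀ (by norm_num)
  exact h2.isBigO_one ℝ

theorem anG_disc_comp_isBigO {β : GL (Fin 2) ℝ} (hβ : β 1 0 = 0) :
    (fun τ : ℍ => ModularForm.discriminant (β • τ)) =O[atImInfty]
      (fun τ : ℍ => Real.exp (-2 * π * (β • τ).im)) := by
  have h1 : (CuspForm.discriminant : ℍ → ℂ) =O[atImInfty]
      fun τ ↦ Real.exp (-2 * π * τ.im / 1) :=
    CuspFormClass.exp_decay_atImInfty (h := 1) CuspForm.discriminant one_pos
      one_mem_strictPeriods_SL
  have h2 := h1.comp_tendsto (tendsto_smul_atImInfty hβ)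
  refine h2.congr_right fun τ => ?_
  simp

/-- **Key lemma**: if `j(N δ z) = j(N z)` for all `z` then `δ ∈ Γ₀(N)`. -/
theorem anG_mem_Gamma0_of_jd_eq (N : ℕ) [NeZero N] (δ : SL(2, ℤ))
    (h : ∀ z : ℍ, anB_jd N (δ • z) = anB_jd N z) : δ ∈ Gamma0 N := by
  have hN : N ≠ 0 := NeZero.ne N
  obtain ⟨ε, g, N', B, hpos, hgN, -, hN1, hmat⟩ := S22.Indep.exists_hermite N δ
  have hg0 : (0 : ℝ) < g := by
    rcases Nat.eq_zero_or_pos g with h0 | h0
    · simp [h0] at hpos
    · exact_mod_cast h0
  have hN'0 : (0 : ℝ) < N' := by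
    rcases Nat.eq_zero_or_pos N' with h0 | h0
    · simp [h0] at hpos
    · exact_mod_cast h0
  set β := upperTriangularGL (g : ℝ) (B : ℝ) (N' : ℝ) hpos.ne' with hβ
  have hβ10 : β 1 0 = 0 := by simp [hβ, val_upperTriangularGL]
  have hα10 : (heckeDiagMatrix N) 1 0 = 0 := by simp [val_heckeDiagMatrix hN]
  -- pointwise identity
  have hpt : ∀ τ : ℍ, jfun (β • τ) = jfun (heckeDiagMatrix N • τ) := by
    intro τ
    have h1 : β • τ = mapGL ℝ ε • (heckeDiagMatrix N • (δ • τ)) := by
      rw [← hmat, mul_smul, mul_smul]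
      rfl
    rw [h1, anB_jfun_mapGL_smul]
    exact h τ
  have hΔ : ∀ τ : ℍ, ModularForm.discriminant (β • τ) =
      ModularForm.discriminant (heckeDiagMatrix N • τ) * E₄ (β • τ) ^ 3 *
        (E₄ (heckeDiagMatrix N • τ) ^ 3)⁻¹ ∨ E₄ (heckeDiagMatrix N • τ) = 0 := by
    intro τ
    by_cases h0 : E₄ (heckeDiagMatrix N • τ) = 0
    · exact Or.inr h0
    · left
      have h1 := hpt τ
      rw [jfun, jfun] at h1
      have hd1 := discriminant_ne_zero (β • τ)
      have hd2 := discriminant_ne_zero (heckeDiagMatrix N • τ)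
      field_simp at h1 ⊢
      linear_combination -h1
  -- eventually `E₄ (N τ) ≠ 0`
  have hev : ∀ᶠ τ : ℍ in atImInfty, E₄ (heckeDiagMatrix N • τ) ≠ 0 := by
    have h1 : Tendsto (fun τ : ℍ => E₄ (heckeDiagMatrix N • τ)) atImInfty (𝓝 1) :=
      anE_tendsto_E₄.comp (tendsto_smul_atImInfty hα10)
    exact h1.eventually_ne one_ne_zero
  have hO : (fun τ : ℍ => Real.exp (-2 * π * ((g : ℝ) / N') * τ.im)) =O[atImInfty]
      (fun τ : ℍ => Real.exp (-2 * π * (N : ℝ) * τ.im)) := by
    have e1 := exp_isBigO_discriminant.comp_tendsto (tendsto_smul_atImInfty hβ10)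
    have e2 := anG_disc_comp_isBigO hα10
    have e3 := anB_E4_comp_isBigO_one hβ10
    have e4 := anG_inv_E4_cube_comp_isBigO_one hα10
    have e5 : (fun τ : ℍ => ModularForm.discriminant (β • τ)) =O[atImInfty]
        (fun τ : ℍ => Real.exp (-2 * π * (heckeDiagMatrix N • τ).im)) := by
      have e6 := (e2.mul (e3.pow 3)).mul e4
      have e7 : (fun τ : ℍ => ModularForm.discriminant (β • τ)) =ᶠ[atImInfty]
          fun τ : ℍ => ModularForm.discriminant (heckeDiagMatrix N • τ) * E₄ (β • τ) ^ 3 *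
            (E₄ (heckeDiagMatrix N • τ) ^ 3)⁻¹ := by
        filter_upwards [hev] with τ hτ
        rcases hΔ τ with h1 | h1
        · exact h1
        · exact absurd h1 hτ
      refine (e6.congr' e7.symm ?_)
      exact Eventually.of_forall fun τ => by simp
    have e8 := e1.trans e5
    refine (e8.congr_left ?_).congr_right ?_
    · intro τ
      simp only [Function.comp_apply]
      rw [hβ, S22.Indep.im_upperTriangularGL_smul _ _ _ hpos]
      congr 1; ring
    · intro τ
      rw [anG_im_heckeDiagMatrix_smul hN]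
      congr 1; ring
  have hle := S22.Indep.le_of_exp_isBigO _ _ hO
  have hN'1 : N' = 1 := by
    have hNr : (N : ℝ) = g * N' := by exact_mod_cast hgN.symm
    rw [hNr, le_div_iff₀ hN'0] at hle
    have h1 : (N' : ℝ) * N' ≤ 1 := by
      have : (g : ℝ) * (N' * N') ≤ g * 1 := by nlinarith
      exact le_of_mul_le_mul_left this hg0
    have h2 : (1 : ℝ) ≤ N' := by
      have : 0 < N' := by exact_mod_cast hN'0
      exact_mod_cast this
    have h3 : (N' : ℝ) = 1 := by nlinarith
    exact_mod_cast h3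
  rw [Gamma0_mem]
  exact (ZMod.intCast_zmod_eq_zero_iff_dvd _ _).mpr (hN1 hN'1)

/-- The translates of `j(N z)` by the left cosets of `Γ₀(N)` are pairwise different. -/
theorem anG_tr_jd_injective (N : ℕ) [NeZero N] :
    Function.Injective (anB_tr N (anB_jd N)) := by
  have hinv : ∀ γ ∈ Gamma0 N, ∀ z : ℍ, anB_jd N (γ • z) = anB_jd N z :=
    fun γ hγ z => anB_jd_smul_of_mem dvd_rfl hγ z
  intro x y hxy
  induction x using QuotientGroup.induction_on with
  | H γ =>
    induction y using QuotientGroup.induction_on with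
    | H γ' =>
      rw [QuotientGroup.eq]
      apply anG_mem_Gamma0_of_jd_eq
      intro z
      have h1 := congrFun hxy (γ' • z)
      rw [anB_tr_mk hinv, anB_tr_mk hinv, ← mul_smul, ← mul_smul, inv_mul_cancel, one_smul] at h1
      exact h1

/-! ### The identity theorem for finitely many functions -/

theorem anG_exists_mem_of_codiscreteWithin {U : Set ℂ} (hU : IsOpen U) {x₀ : ℂ} (hx₀ : x₀ ∈ U)
    {S : Set ℂ} (hS : S ∈ codiscreteWithin U) : ∃ y ∈ U, y ∈ S := by
  rw [mem_codiscreteWithin] at hS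
  have h1 := hS x₀ hx₀
  rw [Filter.disjoint_principal_right] at h1
  have h2 : U ∈ 𝓝[≠] x₀ := mem_nhdsWithin_of_mem_nhds (hU.mem_nhds hx₀)
  have h3 : (U \ S)ᶜ ∩ U ∈ 𝓝[≠] x₀ := Filter.inter_mem h1 h2
  obtain ⟨y, hy1, hy2⟩ := Filter.nonempty_of_mem h3
  refine ⟨y, hy2, ?_⟩
  by_contra hyS
  exact hy1 ⟨hy2, hyS⟩

/-- Finitely many holomorphic functions on `ℍ`, none identically zero, have a common point
where none of them vanishes. -/
theorem anG_exists_forall_ne_zero {ι : Type*} (s : Finset ι) (f : ι → ℍ → ℂ)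
    (hf : ∀ i ∈ s, MDiff (f i)) (hne : ∀ i ∈ s, f i ≠ 0) : ∃ z : ℍ, ∀ i ∈ s, f i z ≠ 0 := by
  set U : Set ℂ := {z : ℂ | 0 < z.im} with hUdef
  have hUo : IsOpen U := UpperHalfPlane.isOpen_upperHalfPlaneSet
  have hUc : IsPreconnected U := (convex_halfSpace_im_gt 0).isPreconnected
  have hev : ∀ i ∈ s, ∀ᶠ w in codiscreteWithin U, (f i ∘ ofComplex) w ≠ 0 := by
    intro i hi
    have han : AnalyticOnNhd ℂ (f i ∘ ofComplex) U :=
      (UpperHalfPlane.mdifferentiable_iff.mp (hf i hi)).analyticOnNhd hUo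
    rcases han.eqOn_zero_or_eventually_ne_zero_of_preconnected hUc with h0 | h0
    · exfalso
      apply hne i hi
      funext z
      have := h0 z.2
      simpa using this
    · exact h0
  have hall : ∀ᶠ w in codiscreteWithin U, ∀ i ∈ s, (f i ∘ ofComplex) w ≠ 0 :=
    (Filter.eventually_all_finset s).mpr hev
  obtain ⟨y, hyU, hy⟩ := anG_exists_mem_of_codiscreteWithin hUo
    (x₀ := Complex.I) (by simp [hUdef]) hall
  refine ⟨⟨y, hyU⟩, fun i hi => ?_⟩
  have := hy i hi
  rwa [Function.comp_apply, ofComplex_apply_of_im_pos hyU] at this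

/-! ### The analytic core of the degree bound -/

/-- A nonzero polynomial `P(X, Y)` with `P(j(z), j(N z)) = 0` for all `z` has degree at least
`[SL(2,ℤ) : Γ₀(N)]` in `Y`. -/
theorem anG_card_le_natDegree (N : ℕ) [NeZero N] (P : ℂ[X][X]) (hP : P ≠ 0)
    (h : ∀ z : ℍ, P.evalEval (jfun z) (anB_jd N z) = 0) : Nat.card (XN N) ≤ P.natDegree := by
  classical
  rcases finite_or_infinite (XN N) with hfin | hinf
  swap
  · rw [Nat.card_eq_zero_of_infinite]
    exact Nat.zero_le _
  have : Fintype (XN N) := Fintype.ofFinite _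
  rw [Nat.card_eq_fintype_card]
  have hinv : ∀ γ ∈ Gamma0 N, ∀ z : ℍ, anB_jd N (γ • z) = anB_jd N z :=
    fun γ hγ z => anB_jd_smul_of_mem dvd_rfl hγ z
  -- all translates are roots
  have hroot : ∀ (x : XN N) (z : ℍ), P.evalEval (jfun z) (anB_tr N (anB_jd N) x z) = 0 := by
    intro x z
    induction x using QuotientGroup.induction_on with
    | H γ =>
      rw [anB_tr_mk hinv, ← jfun_smul γ⁻¹ z]
      exact h _
  -- the auxiliary functions
  set a : ℂ[X] := P.leadingCoeff with ha
  have ha0 : a ≠ 0 := Polynomial.leadingCoeff_ne_zero.mpr hP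
  let F : Option (XN N × XN N) → ℍ → ℂ := fun o =>
    match o with
    | none => fun z => a.eval (jfun z)
    | some p => anB_tr N (anB_jd N) p.1 - anB_tr N (anB_jd N) p.2
  let s : Finset (Option (XN N × XN N)) :=
    insert none ((Finset.univ.offDiag : Finset (XN N × XN N)).image some)
  have hFd : ∀ i ∈ s, MDiff (F i) := by
    intro i _
    rcases i with _ | p
    · exact ((anB_isModFun_jfun N).polynomial_eval a).holo
    · exact (anB_tr_mdiff (anB_jd_mdiff N) _).sub (anB_tr_mdiff (anB_jd_mdiff N) _)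
  have hFne : ∀ i ∈ s, F i ≠ 0 := by
    intro i hi
    rcases i with _ | p
    · intro h0
      have hfin : {x | a.IsRoot x}.Finite := Polynomial.finite_setOfPred_isRoot ha0
      obtain ⟨c, -, hc⟩ := Set.infinite_univ.exists_notMem_finite hfin
      obtain ⟨z, hz⟩ := jfun_surjective c
      apply hc
      have := congrFun h0 z
      simp only [F, Pi.zero_apply] at this
      rw [hz] at this
      exact this
    · intro h0
      have hp : p.1 ≠ p.2 := by
        simp only [s, Finset.mem_insert, Finset.mem_image, Finset.mem_offDiag] at hi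
        rcases hi with hi | ⟨q, hq, hqp⟩
        · exact absurd hi (by simp)
        · have : q = p := Option.some_injective _ hqp
          subst this
          exact hq.2.2
      apply hp
      apply anG_tr_jd_injective N
      exact sub_eq_zero.mp h0
  obtain ⟨z₀, hz₀⟩ := anG_exists_forall_ne_zero s F hFd hFne
  -- the specialised polynomial
  set Q : ℂ[X] := P.map (Polynomial.evalRingHom (jfun z₀)) with hQ
  have hQ0 : Q ≠ 0 := by
    intro h0
    have h1 : Q.coeff P.natDegree = a.eval (jfun z₀) := by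
      rw [hQ, Polynomial.coeff_map]
      rfl
    rw [h0, Polynomial.coeff_zero] at h1
    exact hz₀ none (Finset.mem_insert_self _ _) h1.symm
  have hinj : Function.Injective (fun x : XN N => anB_tr N (anB_jd N) x z₀) := by
    intro x y hxy
    by_contra hne
    have hmem : some (x, y) ∈ s := by
      simp only [s, Finset.mem_insert, Finset.mem_image, Finset.mem_offDiag]
      exact Or.inr ⟨(x, y), ⟨Finset.mem_univ _, Finset.mem_univ _, hne⟩, rfl⟩
    have := hz₀ (some (x, y)) hmem
    apply this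
    simp only [F, Pi.sub_apply]
    exact sub_eq_zero.mpr hxy
  have hsub : (Finset.univ.image (fun x : XN N => anB_tr N (anB_jd N) x z₀)).val ⊆ Q.roots := by
    intro c hc
    rw [Finset.mem_val, Finset.mem_image] at hc
    obtain ⟨x, -, rfl⟩ := hc
    rw [Polynomial.mem_roots hQ0, Polynomial.IsRoot, hQ, Polynomial.map_evalRingHom_eval]
    exact hroot x z₀
  have hcard := Polynomial.card_le_degree_of_subset_roots hsub
  rw [Finset.card_image_of_injective _ hinj, Finset.card_univ] at hcard
  exact hcard.trans Polynomial.natDegree_map_le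

end Fermat.Agent.S24
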