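import Mathlib
import Fermat.Prelude.Def_AlgebraicCurve_DivisorClassGroup

/-!
# S24 (FF): function-field algebra, part 0

Any normalised discrete valuation on `F` with the same valuation ring as a place `v` computes
`v.ord`.
-/

set_option autoImplicit false

namespace Fermat.Agent.S24

open AlgebraicCurve IsDedekindDomain WithZero

variable {K F : Type*} [Field K] [Field F] [Algebra K F]

/-- A unit of the valuation ring has valuation `1` for any valuation with that valuation ring. -/
theorem ff_val_unit (v : Place K F) (w : Valuation F ℤᵐ⁰)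
    (hw : ∀ x, w x ≤ 1 ↔ x ∈ v.toValuationSubring) (ε : v.toValuationSubringˣ) :
    w ((ε : v.toValuationSubring) : F) = 1 := by
  have h1 : w ((ε : v.toValuationSubring) : F) ≤ 1 := (hw _).mpr (ε : v.toValuationSubring).2
  have h2 : w (((ε⁻¹ : v.toValuationSubringˣ) : v.toValuationSubring) : F) ≤ 1 :=
    (hw _).mpr ((ε⁻¹ : v.toValuationSubringˣ) : v.toValuationSubring).2
  have h3 : w ((ε : v.toValuationSubring) : F)
      * w (((ε⁻¹ : v.toValuationSubringˣ) : v.toValuationSubring) : F) = 1 := by
    rw [← map_mul]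
    have : ((ε : v.toValuationSubring) : F)
        * (((ε⁻¹ : v.toValuationSubringˣ) : v.toValuationSubring) : F) = 1 := by
      have h := congrArg (Subtype.val) (Units.mul_inv ε)
      exact h
    rw [this, map_one]
  exact le_antisymm h1 (by
    by_contra hlt
    rw [not_le] at hlt
    have : w ((ε : v.toValuationSubring) : F)
      * w (((ε⁻¹ : v.toValuationSubringˣ) : v.toValuationSubring) : F) < 1 := by
      calc _ ≤ w ((ε : v.toValuationSubring) : F) * 1 := by gcongr
        _ = w ((ε : v.toValuationSubring) : F) := mul_one _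
        _ < 1 := hlt
    rw [h3] at this
    exact lt_irrefl _ this)

/-- Any normalised discrete valuation on `F` whose valuation ring is that of the place `v`
computes `v.ord`. -/
theorem ff_ord_eq_of_valuation (v : Place K F) (w : Valuation F ℤᵐ⁰)
    (hw : ∀ x, w x ≤ 1 ↔ x ∈ v.toValuationSubring)
    (hϖ : ∃ ϖ : F, w ϖ = exp (-1 : ℤ)) (f : F) :
    v.ord f = -(log (w f)) := by
  obtain ⟨π, hπ⟩ := IsDiscreteValuationRing.exists_irreducible v.toValuationSubring
  have hπ0 : (π : F) ≠ 0 := by
    simpa [ne_eq, ZeroMemClass.coe_eq_zero] using hπ.ne_zero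
  have hwπ0 : w (π : F) ≠ 0 := (Valuation.ne_zero_iff _).mpr hπ0
  -- `w π < 1`
  have hwπ1 : w (π : F) < 1 := by
    refine lt_of_le_of_ne ((hw _).mpr π.2) ?_
    intro h1
    have h2 : w ((π : F)⁻¹) ≤ 1 := by rw [map_inv₀, h1, inv_one]
    have h3 : (π : F)⁻¹ ∈ v.toValuationSubring := (hw _).mp h2
    apply hπ.not_isUnit
    refine IsUnit.of_mul_eq_one ⟨(π : F)⁻¹, h3⟩ ?_
    apply Subtype.ext
    simp [hπ0]
  have hlogπ : log (w (π : F)) < 0 := by
    have : w (π : F) < exp (0 : ℤ) := by simpa using hwπ1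
    rwa [← exp_log hwπ0, exp_lt_exp] at this
  -- general formula
  have key : ∀ g : F, g ≠ 0 → log (w g) = v.ord g * log (w (π : F)) := by
    intro g hg
    obtain ⟨ε, hε⟩ := v.exists_unit_mul_zpow hg hπ
    conv_lhs => rw [hε]
    rw [map_mul, ff_val_unit v w hw ε, one_mul, map_zpow₀, log_zpow, smul_eq_mul]
  obtain ⟨ϖ, hϖ⟩ := hϖ
  have hϖ0 : ϖ ≠ 0 := by
    intro h0
    rw [h0, map_zero] at hϖ
    exact exp_ne_zero hϖ.symm
  have h1 := key ϖ hϖ0
  rw [hϖ, log_exp] at h1
  have hunit : log (w (π : F)) = -1 := by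
    have hdvd : IsUnit (log (w (π : F))) := by
      refine IsUnit.of_mul_eq_one (-(v.ord ϖ)) ?_
      linarith
    rcases Int.isUnit_iff.mp hdvd with h | h
    · rw [h] at hlogπ; exact absurd hlogπ (by norm_num)
    · exact h
  rcases eq_or_ne f 0 with rfl | hf
  · simp
  · rw [key f hf, hunit]; ring

end Fermat.Agent.S24
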