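import Mathlib
import Fermat.Prelude.Def_AlgebraicCurve_DivisorClassGroup
import Fermat.Agent.S24.FFOrd

/-!
# S24 (FF): function-field algebra, part 1

Places of a function field `F / K` at which `u` is integral correspond to the nonzero primes of
the integral closure `B` of `K[u]` in `F`.
-/

set_option autoImplicit false
set_option linter.unusedSectionVars false

namespace Fermat.Agent.S24

open AlgebraicCurve IsDedekindDomain WithZero
open scoped IntermediateField.algebraAdjoinAdjoin

noncomputable section

variable {K F : Type*} [Field K] [Field F] [Algebra K F]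

/-- `K[u]` is a principal ideal domain when `u` is transcendental. -/
theorem ff_isPrincipalIdealRing_adjoin {u : F} (hu : Transcendental K u) :
    IsPrincipalIdealRing (Algebra.adjoin K {u}) :=
  IsPrincipalIdealRing.of_surjective
    (Polynomial.algEquivOfTranscendental K u hu).toRingEquiv.toRingHom
    (Polynomial.algEquivOfTranscendental K u hu).surjective

theorem ff_isDedekindDomain_adjoin {u : F} (hu : Transcendental K u) :
    IsDedekindDomain (Algebra.adjoin K {u}) :=
  have := ff_isPrincipalIdealRing_adjoin hu
  inferInstance

theorem ff_charZero (K F : Type*) [Field K] [Field F] [Algebra K F] [CharZero K] : CharZero F :=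
  charZero_of_injective_algebraMap (algebraMap K F).injective

variable [CharZero K]

variable (u : F) [FiniteDimensional (IntermediateField.adjoin K {u}) F]

example : Algebra (Algebra.adjoin K {u}) F := inferInstance
example : Algebra (IntermediateField.adjoin K {u}) F := inferInstance
example : IsScalarTower (Algebra.adjoin K {u}) (IntermediateField.adjoin K {u}) F := inferInstance
example : IsFractionRing (Algebra.adjoin K {u}) (IntermediateField.adjoin K {u}) := inferInstance

theorem ff_isSeparable : Algebra.IsSeparable (IntermediateField.adjoin K {u}) F := by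
  have : CharZero F := ff_charZero K F
  have : CharZero (IntermediateField.adjoin K {u}) :=
    charZero_of_injective_algebraMap (algebraMap K (IntermediateField.adjoin K {u})).injective
  infer_instance

end

section Dedekind

variable {K F : Type*} [Field K] [Field F] [Algebra K F]
variable {B : Type*} [CommRing B] [IsDedekindDomain B] [Algebra K B] [Algebra B F]
  [IsFractionRing B F] [IsScalarTower K B F]

/-- The place of `F / K` attached to a nonzero prime of a Dedekind domain `B` with fraction
field `F`. -/
noncomputable def ff_placeOfPrime (P : HeightOneSpectrum B) : Place K F where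
  toValuationSubring := (P.valuation F).valuationSubring
  algebraMap_mem' a := by
    rw [Valuation.mem_valuationSubring_iff, IsScalarTower.algebraMap_apply K B F]
    exact P.valuation_le_one _
  ne_top' := by
    obtain ⟨ϖ, hϖ⟩ := P.valuation_exists_uniformizer F
    intro htop
    have h : ϖ⁻¹ ∈ (P.valuation F).valuationSubring := by rw [htop]; trivial
    rw [Valuation.mem_valuationSubring_iff, map_inv₀, hϖ, ← exp_neg, neg_neg,
      ← exp_zero, exp_le_exp] at h
    exact absurd h (by norm_num)
  isPrincipalIdealRing' := by
    rw [← HeightOneSpectrum.valuationSubringAtPrime_eq_valuationSubring]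
    have := IsLocalization.AtPrime.isDiscreteValuationRing_of_dedekind_domain B P.ne_bot
      (HeightOneSpectrum.valuationSubringAtPrime F P)
    infer_instance

theorem ff_mem_placeOfPrime (P : HeightOneSpectrum B) (x : F) :
    x ∈ (ff_placeOfPrime (K := K) P).toValuationSubring ↔ P.valuation F x ≤ 1 :=
  Valuation.mem_valuationSubring_iff _ _

/-- The order function of the place attached to `P` is the `P`-adic valuation. -/
theorem ff_placeOfPrime_ord (P : HeightOneSpectrum B) (f : F) :
    (ff_placeOfPrime (K := K) P).ord f = -(log (P.valuation F f)) :=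
  ff_ord_eq_of_valuation _ (P.valuation F)
    (fun x => (ff_mem_placeOfPrime (K := K) P x).symm) (P.valuation_exists_uniformizer F) f

/-- The ring homomorphism `B → O_v` when `B ⊆ O_v`. -/
noncomputable def ff_toValuationSubring (v : Place K F)
    (hB : ∀ b : B, algebraMap B F b ∈ v.toValuationSubring) : B →+* v.toValuationSubring :=
  (algebraMap B F).codRestrict v.toValuationSubring.toSubring hB

@[simp] theorem ff_toValuationSubring_coe (v : Place K F)
    (hB : ∀ b : B, algebraMap B F b ∈ v.toValuationSubring) (b : B) :
    ((ff_toValuationSubring v hB b : v.toValuationSubring) : F) = algebraMap B F b := rfl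

/-- The centre on `B` of a place whose valuation ring contains `B`. -/
noncomputable def ff_centre (v : Place K F)
    (hB : ∀ b : B, algebraMap B F b ∈ v.toValuationSubring) : Ideal B :=
  (IsLocalRing.maximalIdeal v.toValuationSubring).comap (ff_toValuationSubring v hB)

theorem ff_centre_isPrime (v : Place K F)
    (hB : ∀ b : B, algebraMap B F b ∈ v.toValuationSubring) : (ff_centre v hB).IsPrime :=
  Ideal.comap_isPrime _ _

theorem ff_isUnit_of_notMem_centre (v : Place K F)
    (hB : ∀ b : B, algebraMap B F b ∈ v.toValuationSubring) {b : B} (hb : b ∉ ff_centre v hB) :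
    IsUnit (ff_toValuationSubring v hB b) := by
  rw [ff_centre, Ideal.mem_comap] at hb
  exact IsLocalRing.notMem_maximalIdeal.mp hb

theorem ff_centre_ne_bot (v : Place K F)
    (hB : ∀ b : B, algebraMap B F b ∈ v.toValuationSubring) : ff_centre v hB ≠ ⊥ := by
  intro hbot
  obtain ⟨π, hπ⟩ := IsDiscreteValuationRing.exists_irreducible v.toValuationSubring
  have hπ0 : (π : F) ≠ 0 := by
    simpa [ne_eq, ZeroMemClass.coe_eq_zero] using hπ.ne_zero
  obtain ⟨a, b, hb, hab⟩ := IsFractionRing.div_surjective (A := B) (π : F)
  have hb0 : b ≠ 0 := nonZeroDivisors.ne_zero hb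
  have ha0 : a ≠ 0 := by
    rintro rfl
    rw [map_zero, zero_div] at hab
    exact hπ0 hab.symm
  have hua : IsUnit (ff_toValuationSubring v hB a) :=
    ff_isUnit_of_notMem_centre v hB (by rw [hbot, Ideal.mem_bot]; exact ha0)
  have hub : IsUnit (ff_toValuationSubring v hB b) :=
    ff_isUnit_of_notMem_centre v hB (by rw [hbot, Ideal.mem_bot]; exact hb0)
  apply hπ.not_isUnit
  have hbF : algebraMap B F b ≠ 0 := by
    rw [ne_eq, map_eq_zero_iff _ (IsFractionRing.injective B F)]
    exact hb0
  have : π * ff_toValuationSubring v hB b = ff_toValuationSubring v hB a := by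
    apply Subtype.ext
    simp only [MulMemClass.coe_mul, ff_toValuationSubring_coe]
    rw [← hab]
    field_simp
  have h2 : IsUnit (π * ff_toValuationSubring v hB b) := by rw [this]; exact hua
  exact isUnit_of_mul_isUnit_left h2

/-- Every place whose valuation ring contains `B` comes from a nonzero prime of `B`. -/
theorem ff_exists_prime_of_le (v : Place K F)
    (hB : ∀ b : B, algebraMap B F b ∈ v.toValuationSubring) :
    ∃ P : HeightOneSpectrum B, ff_placeOfPrime (K := K) P = v := by
  let P : HeightOneSpectrum B := ⟨ff_centre v hB, ff_centre_isPrime v hB, ff_centre_ne_bot v hB⟩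
  refine ⟨P, ?_⟩
  apply Place.ext
  show (P.valuation F).valuationSubring = v.toValuationSubring
  rw [← HeightOneSpectrum.valuationSubringAtPrime_eq_valuationSubring]
  refine ValuationSubring.eq_of_le_of_ne_top _ ?_ v.ne_top'
  intro x hx
  have hx' : P.valuation F x ≤ 1 :=
    HeightOneSpectrum.valuationSubringAtPrime_le_valuation P hx
  obtain ⟨n, d, hnd⟩ := P.exists_primeCompl_mul_eq_of_integer x hx'
  have hd : IsUnit (ff_toValuationSubring v hB (d : B)) :=
    ff_isUnit_of_notMem_centre v hB d.2
  obtain ⟨e, he⟩ := hd
  have hdF : algebraMap B F (d : B) ≠ 0 := by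
    intro h0
    have : ((e : v.toValuationSubring) : F) = 0 := by rw [he]; exact h0
    exact e.ne_zero (Subtype.ext this)
  have hxe : x = ((ff_toValuationSubring v hB n * ((e⁻¹ : v.toValuationSubringˣ) :
      v.toValuationSubring) : v.toValuationSubring) : F) := by
    have h1 : (((e⁻¹ : v.toValuationSubringˣ) : v.toValuationSubring) : F)
        = (algebraMap B F (d : B))⁻¹ := by
      have h2 : ((e : v.toValuationSubring) : F)
          * (((e⁻¹ : v.toValuationSubringˣ) : v.toValuationSubring) : F) = 1 := by
        have h := congrArg (Subtype.val) (Units.mul_inv e)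
        exact h
      rw [he, ff_toValuationSubring_coe] at h2
      exact eq_inv_of_mul_eq_one_right h2
    simp only [MulMemClass.coe_mul, ff_toValuationSubring_coe]
    rw [h1, ← hnd]
    field_simp
  rw [hxe]
  exact Subtype.mem _

/-- `b ∈ P` iff `b` vanishes at the place attached to `P`. -/
theorem ff_mem_nonunits_placeOfPrime (P : HeightOneSpectrum B) (b : B) :
    algebraMap B F b ∈ (ff_placeOfPrime (K := K) P).toValuationSubring.nonunits
      ↔ b ∈ P.asIdeal := by
  rw [← P.valuation_lt_one_iff_mem (K := F), ValuationSubring.mem_nonunits_iff_or,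
    ff_mem_placeOfPrime]
  rcases eq_or_ne (algebraMap B F b) 0 with h0 | h0
  · simp [h0]
  · have hv : P.valuation F (algebraMap B F b) ≠ 0 := (Valuation.ne_zero_iff _).mpr h0
    rw [map_inv₀, not_le, one_lt_inv₀ (zero_lt_iff.mpr hv)]
    simp [h0]

theorem ff_placeOfPrime_injective :
    Function.Injective (ff_placeOfPrime (K := K) (F := F) (B := B)) := by
  intro P Q h
  apply HeightOneSpectrum.ext
  ext b
  rw [← ff_mem_nonunits_placeOfPrime (K := K) (F := F) P b,
    ← ff_mem_nonunits_placeOfPrime (K := K) (F := F) Q b, h]

end Dedekind

end Fermat.Agent.S24
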