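import Mathlib
import Fermat.Agent.S24.Defs
import Fermat.Agent.S24.FFBridge

/-!
# S24 (FF): function-field algebra, part 2

The integral closure `B` of `K[u]` in `F`, for a coordinate `u`.
-/

set_option autoImplicit false
set_option linter.unusedSectionVars false
set_option linter.style.haveILetI false

namespace Fermat.Agent.S24

open AlgebraicCurve IsDedekindDomain WithZero IntermediateField
open scoped IntermediateField.algebraAdjoinAdjoin

noncomputable section

variable {K F : Type*} [Field K] [Field F] [Algebra K F]

/-- The integral closure of `K[u]` in `F`. -/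
abbrev ffB (K : Type*) {F : Type*} [Field K] [Field F] [Algebra K F] (u : F) :
    Subalgebra (Algebra.adjoin K {u}) F :=
  integralClosure (Algebra.adjoin K {u}) F

example (u : F) : Algebra K (ffB K u) := inferInstance
example (u : F) : IsScalarTower K (ffB K u) F := inferInstance
example (u : F) : Algebra (ffB K u) F := inferInstance

variable [CharZero K] {u : F}

theorem ff_isDedekindDomain_B (hu : IsCoordinate K u) : IsDedekindDomain (ffB K u) := by
  have := hu.finite
  have := ff_isSeparable (K := K) u
  have := ff_isDedekindDomain_adjoin hu.transcendental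
  exact integralClosure.isDedekindDomain (Algebra.adjoin K {u}) K⟮u⟯ F

theorem ff_isFractionRing_B (hu : IsCoordinate K u) : IsFractionRing (ffB K u) F := by
  have := hu.finite
  exact integralClosure.isFractionRing_of_finite_extension K⟮u⟯ F

theorem ff_finite_B (hu : IsCoordinate K u) : Module.Finite (Algebra.adjoin K {u}) (ffB K u) := by
  have := hu.finite
  have := ff_isSeparable (K := K) u
  have := ff_isDedekindDomain_adjoin hu.transcendental
  exact IsIntegralClosure.finite (Algebra.adjoin K {u}) K⟮u⟯ F (ffB K u)

omit [CharZero K] in
/-- `K[u] ⊆ O_v` when `u` is regular at `v`. -/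
theorem ff_adjoin_le (v : Place K F) (hv : u ∈ v.toValuationSubring)
    (a : Algebra.adjoin K {u}) : (a : F) ∈ v.toValuationSubring := by
  obtain ⟨a, ha⟩ := a
  show a ∈ v.toValuationSubring
  induction ha using Algebra.adjoin_induction with
  | mem x hx =>
    rw [Set.mem_singleton_iff] at hx
    subst hx; exact hv
  | algebraMap r => exact v.algebraMap_mem' r
  | add x y _ _ hx hy => exact add_mem hx hy
  | mul x y _ _ hx hy => exact mul_mem hx hy

omit [CharZero K] in
/-- An element of `F` integral over `K[u]` is regular at every place at which `u` is. -/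
theorem ff_mem_of_isIntegral (v : Place K F) (hv : u ∈ v.toValuationSubring) {b : F}
    (hb : IsIntegral (Algebra.adjoin K {u}) b) : b ∈ v.toValuationSubring := by
  let ι : Algebra.adjoin K {u} →+* v.toValuationSubring :=
    (algebraMap (Algebra.adjoin K {u}) F).codRestrict v.toValuationSubring.toSubring
      (ff_adjoin_le v hv)
  obtain ⟨p, hp, hpb⟩ := hb
  have hint : IsIntegral v.toValuationSubring b := by
    refine ⟨p.map ι, hp.map ι, ?_⟩
    rw [Polynomial.eval₂_map]
    exact hpb
  obtain ⟨y, hy⟩ := IsIntegrallyClosed.isIntegral_iff.mp hint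
  rw [← hy]
  exact y.2

omit [CharZero K] in
theorem ff_B_le (v : Place K F) (hv : u ∈ v.toValuationSubring) (b : ffB K u) :
    algebraMap (ffB K u) F b ∈ v.toValuationSubring :=
  ff_mem_of_isIntegral v hv b.2

/-- The place of `F / K` attached to a nonzero prime of the integral closure of `K[u]`. -/
def ff_place (hu : IsCoordinate K u) (P : HeightOneSpectrum (ffB K u)) : Place K F :=
  haveI := ff_isDedekindDomain_B hu
  haveI := ff_isFractionRing_B hu
  ff_placeOfPrime P

/-- Elements integral over `K[u]` are regular at the places `ff_place hu P`. -/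
theorem ff_place_regular (hu : IsCoordinate K u) (P : HeightOneSpectrum (ffB K u))
    (b : ffB K u) : (b : F) ∈ (ff_place hu P).toValuationSubring := by
  haveI := ff_isDedekindDomain_B hu
  haveI := ff_isFractionRing_B hu
  show (b : F) ∈ (ff_placeOfPrime (K := K) P).toValuationSubring
  rw [ff_mem_placeOfPrime]
  exact P.valuation_le_one b

/-- `b ∈ P` iff `b` vanishes at `ff_place hu P`. -/
theorem ff_place_mem_nonunits (hu : IsCoordinate K u) (P : HeightOneSpectrum (ffB K u))
    (b : ffB K u) : (b : F) ∈ (ff_place hu P).toValuationSubring.nonunits ↔ b ∈ P.asIdeal := by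
  haveI := ff_isDedekindDomain_B hu
  haveI := ff_isFractionRing_B hu
  exact ff_mem_nonunits_placeOfPrime (K := K) (F := F) P b

theorem ff_place_injective (hu : IsCoordinate K u) :
    Function.Injective (ff_place hu) := by
  haveI := ff_isDedekindDomain_B hu
  haveI := ff_isFractionRing_B hu
  exact ff_placeOfPrime_injective (K := K) (F := F) (B := ffB K u)

/-- Every place at which `u` is regular is of the form `ff_place hu P`. -/
theorem ff_place_surjective (hu : IsCoordinate K u) (v : Place K F)
    (hv : u ∈ v.toValuationSubring) : ∃ P : HeightOneSpectrum (ffB K u), ff_place hu P = v := by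
  haveI := ff_isDedekindDomain_B hu
  haveI := ff_isFractionRing_B hu
  exact ff_exists_prime_of_le (K := K) v (ff_B_le v hv)

/-- The order at `ff_place hu P` is the `P`-adic valuation. -/
theorem ff_place_ord (hu : IsCoordinate K u) (P : HeightOneSpectrum (ffB K u)) (f : F) :
    (ff_place hu P).ord f =
      -(log (@HeightOneSpectrum.valuation (ffB K u) _ (ff_isDedekindDomain_B hu) F _ _
        (ff_isFractionRing_B hu) P f)) := by
  haveI := ff_isDedekindDomain_B hu
  haveI := ff_isFractionRing_B hu
  exact ff_placeOfPrime_ord (K := K) P f

end

end Fermat.Agent.S24
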