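import Mathlib
import Fermat.Agent.S24.Defs
import Fermat.Agent.S24.FFCoord

/-!
# S24 (FF2): the fundamental identity `∑_{v ∣ u} ord_v(u) = [F : K(u)]`
-/

set_option autoImplicit false
set_option linter.unusedSectionVars false
set_option linter.style.haveILetI false
set_option linter.deprecated false

namespace Fermat.Agent.S24

open AlgebraicCurve IsDedekindDomain WithZero IntermediateField
open scoped IntermediateField.algebraAdjoinAdjoin

noncomputable section

variable {K F : Type*} [Field K] [Field F] [Algebra K F]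

/-- `u` as an element of `K[u]`. -/
def ffGen (K : Type*) {F : Type*} [Field K] [Field F] [Algebra K F] (u : F) :
    Algebra.adjoin K {u} :=
  ⟨u, Algebra.self_mem_adjoin_singleton K u⟩

@[simp] theorem ffGen_coe (u : F) : ((ffGen K u : Algebra.adjoin K {u}) : F) = u := rfl

/-- The ideal `(u)` of `K[u]`. -/
def ffIdeal (K : Type*) {F : Type*} [Field K] [Field F] [Algebra K F] (u : F) :
    Ideal (Algebra.adjoin K {u}) :=
  Ideal.span {ffGen K u}

variable {u : F}

theorem ffGen_ne_zero (hu : Transcendental K u) : ffGen K u ≠ 0 := by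
  intro h
  have : u = 0 := congrArg Subtype.val h
  rw [this] at hu
  exact hu (isAlgebraic_zero)

theorem ffGen_irreducible (hu : Transcendental K u) : Irreducible (ffGen K u) := by
  have h := (MulEquiv.irreducible_iff
    (Polynomial.algEquivOfTranscendental K u hu).toMulEquiv (x := Polynomial.X)).mpr
    Polynomial.irreducible_X
  have e : (Polynomial.algEquivOfTranscendental K u hu).toMulEquiv Polynomial.X = ffGen K u :=
    Polynomial.algEquivOfTranscendental_apply_X K u hu
  rwa [e] at h

theorem ffIdeal_ne_bot (hu : Transcendental K u) : ffIdeal K u ≠ ⊥ := by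
  rw [ffIdeal, ne_eq, Ideal.span_singleton_eq_bot]
  exact ffGen_ne_zero hu

theorem ffIdeal_isMaximal (hu : Transcendental K u) : (ffIdeal K u).IsMaximal := by
  haveI := ff_isPrincipalIdealRing_adjoin hu
  exact PrincipalIdealRing.isMaximal_of_irreducible (ffGen_irreducible hu)

/-- The prime `(u)` of `K[u]` as a point of the height one spectrum. -/
def ffPrime (hu : Transcendental K u) : HeightOneSpectrum (Algebra.adjoin K {u}) :=
  ⟨ffIdeal K u, (ffIdeal_isMaximal hu).isPrime, ffIdeal_ne_bot hu⟩

variable [CharZero K]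

/-- `ord_v(u)` is the ramification index, for the place `v` attached to a prime over `(u)`. -/
theorem ff_ord_eq_ramificationIdx (hu : IsCoordinate K u)
    (P : HeightOneSpectrum (ffB K u)) [hP : P.asIdeal.LiesOver (ffIdeal K u)] :
    (ff_place hu P).ord u = (Ideal.ramificationIdx' (ffIdeal K u) P.asIdeal : ℤ) := by
  haveI := ff_isDedekindDomain_adjoin hu.transcendental
  haveI := ff_isDedekindDomain_B hu
  haveI := ff_isFractionRing_B hu
  haveI : P.asIdeal.LiesOver (ffPrime hu.transcendental).asIdeal := hP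
  rw [ff_place_ord]
  have h := HeightOneSpectrum.valuation_liesOver (K := K⟮u⟯) F (ffPrime hu.transcendental) P
    (algebraMap (Algebra.adjoin K {u}) K⟮u⟯ (ffGen K u))
  rw [HeightOneSpectrum.valuation_of_algebraMap,
    HeightOneSpectrum.intValuation_singleton _ (ffGen_ne_zero hu.transcendental) rfl] at h
  have h2 : algebraMap K⟮u⟯ F (algebraMap (Algebra.adjoin K {u}) K⟮u⟯ (ffGen K u)) = u := rfl
  rw [h2] at h
  rw [← h, ← exp_nsmul, log_exp]
  show -((Ideal.ramificationIdx' (ffIdeal K u) P.asIdeal) • (-1 : ℤ)) = _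
  simp

omit [CharZero K] in
theorem ff_finiteType_adjoin (u : F) : Algebra.FiniteType K (Algebra.adjoin K {u}) :=
  Algebra.FiniteType.adjoin_of_finite (Set.finite_singleton u)

theorem ff_finiteType_B (hu : IsCoordinate K u) : Algebra.FiniteType K (ffB K u) := by
  haveI := ff_finite_B hu
  haveI := ff_finiteType_adjoin (K := K) u
  exact Algebra.FiniteType.trans (R := K) (S := Algebra.adjoin K {u}) (A := ffB K u)
    inferInstance inferInstance

/-- The residue field of a nonzero prime of the integral closure of `K[u]` is `K`. -/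
theorem ff_residue_bijective [IsAlgClosed K] (hu : IsCoordinate K u)
    (P : HeightOneSpectrum (ffB K u)) :
    Function.Bijective (algebraMap K (ffB K u ⧸ P.asIdeal)) := by
  haveI := ff_isDedekindDomain_B hu
  haveI := ff_finiteType_B hu
  haveI : P.asIdeal.IsMaximal := P.isMaximal
  letI : Field (ffB K u ⧸ P.asIdeal) := Ideal.Quotient.field P.asIdeal
  haveI : Algebra.FiniteType K (ffB K u ⧸ P.asIdeal) :=
    Algebra.FiniteType.of_surjective (Ideal.Quotient.mkₐ K P.asIdeal)
      (Ideal.Quotient.mkₐ_surjective K P.asIdeal)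
  haveI : Module.Finite K (ffB K u ⧸ P.asIdeal) :=
    finite_of_finite_type_of_isJacobsonRing K (ffB K u ⧸ P.asIdeal)
  haveI : Algebra.IsIntegral K (ffB K u ⧸ P.asIdeal) := Algebra.IsIntegral.of_finite K _
  exact IsAlgClosed.algebraMap_bijective_of_isIntegral

set_option synthInstance.maxHeartbeats 400000 in
/-- The inertia degree of a prime over `(u)` is `1`. -/
theorem ff_inertiaDeg_eq_one [IsAlgClosed K] (hu : IsCoordinate K u)
    (P : HeightOneSpectrum (ffB K u)) [hP : P.asIdeal.LiesOver (ffIdeal K u)] :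
    Ideal.inertiaDeg' (ffIdeal K u) P.asIdeal = 1 := by
  haveI := ff_isDedekindDomain_B hu
  haveI : P.asIdeal.IsMaximal := P.isMaximal
  haveI : (ffIdeal K u).IsMaximal := ffIdeal_isMaximal hu.transcendental
  rw [Ideal.inertiaDeg'_algebraMap]
  letI : Field (Algebra.adjoin K {u} ⧸ ffIdeal K u) := Ideal.Quotient.field _
  letI : Field (ffB K u ⧸ P.asIdeal) := Ideal.Quotient.field _
  letI := Ideal.Quotient.algebraOfLiesOver P.asIdeal (ffIdeal K u)
  haveI := Ideal.Quotient.isScalarTower_of_liesOver K P.asIdeal (ffIdeal K u)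
  have hbij : Function.Bijective
      (algebraMap (Algebra.adjoin K {u} ⧸ ffIdeal K u) (ffB K u ⧸ P.asIdeal)) := by
    refine ⟨RingHom.injective _, fun x => ?_⟩
    obtain ⟨c, hc⟩ := (ff_residue_bijective hu P).2 x
    refine ⟨algebraMap K _ c, ?_⟩
    rw [← hc, ← IsScalarTower.algebraMap_apply]
  rw [← Module.finrank_self (Algebra.adjoin K {u} ⧸ ffIdeal K u)]
  exact ((LinearEquiv.ofBijective
    (Algebra.linearMap (Algebra.adjoin K {u} ⧸ ffIdeal K u) (ffB K u ⧸ P.asIdeal))
    hbij).finrank_eq).symm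

/-- `u` as an element of the integral closure of `K[u]`. -/
def ffGenB (K : Type*) {F : Type*} [Field K] [Field F] [Algebra K F] (u : F) : ffB K u :=
  algebraMap (Algebra.adjoin K {u}) (ffB K u) (ffGen K u)

omit [CharZero K] in
@[simp] theorem ffGenB_coe (u : F) : ((ffGenB K u : ffB K u) : F) = u := rfl

omit [CharZero K] in
theorem ffGenB_mem_of_liesOver (P : Ideal (ffB K u)) [hP : P.LiesOver (ffIdeal K u)] :
    ffGenB K u ∈ P := by
  have h1 : ffGen K u ∈ ffIdeal K u := Ideal.subset_span (Set.mem_singleton _)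
  rw [hP.over, Ideal.under_def, Ideal.mem_comap] at h1
  exact h1

omit [CharZero K] in
theorem ff_liesOver_of_mem (hu : Transcendental K u) (P : Ideal (ffB K u)) [hP : P.IsPrime]
    (h : ffGenB K u ∈ P) : P.LiesOver (ffIdeal K u) := by
  have hmax := ffIdeal_isMaximal hu
  refine ⟨hmax.eq_of_le ?_ ?_⟩
  · exact (Ideal.IsPrime.under (Algebra.adjoin K {u}) P).ne_top
  · rw [ffIdeal, Ideal.span_le, Set.singleton_subset_iff]
    exact h

/-- **The fundamental identity**: `∑_{v ∣ u} ord_v(u) = [F : K(u)]`. -/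
theorem ff_fundamentalIdentity : FundamentalIdentityStatement := by
  intro K F _ _ _ _ _ u hu
  classical
  haveI : FaithfulSMul (Algebra.adjoin K {u}) (ffB K u) := by
    rw [faithfulSMul_iff_algebraMap_injective]
    intro a b hab
    have h := congrArg (fun x : ffB K u => (x : F)) hab
    exact Subtype.ext h
  haveI := ff_isDedekindDomain_adjoin hu.transcendental
  haveI := ff_isDedekindDomain_B hu
  haveI := ff_isFractionRing_B hu
  haveI := ff_finite_B hu
  haveI := hu.finite
  haveI : (ffIdeal K u).IsMaximal := ffIdeal_isMaximal hu.transcendental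
  have hp0 := ffIdeal_ne_bot hu.transcendental
  have hsum := Ideal.sum_ramification_inertia (R := Algebra.adjoin K {u}) (ffB K u) K⟮u⟯ F
    (p := ffIdeal K u) hp0
  have hmem : ∀ P ∈ IsDedekindDomain.primesOverFinset (ffIdeal K u) (ffB K u),
      P.IsPrime ∧ P.LiesOver (ffIdeal K u) :=
    fun P hP => (IsDedekindDomain.mem_primesOverFinset_iff hp0 _).mp hP
  let ψ : {P // P ∈ IsDedekindDomain.primesOverFinset (ffIdeal K u) (ffB K u)} → HeightOneSpectrum (ffB K u) :=
    fun P => ⟨P.1, (hmem P.1 P.2).1,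
      @Ideal.ne_bot_of_liesOver_of_ne_bot _ _ _ _ _ _ _ hp0 P.1 (hmem P.1 P.2).2⟩
  let φ : {P // P ∈ IsDedekindDomain.primesOverFinset (ffIdeal K u) (ffB K u)} → Place K F :=
    fun P => ff_place hu (ψ P)
  have hφinj : Function.Injective φ := by
    intro P Q h
    have h1 := ff_place_injective hu h
    exact Subtype.ext (congrArg HeightOneSpectrum.asIdeal h1)
  have hrange : placesOver K u = Set.range φ := by
    ext v
    constructor
    · intro hv
      have hv' : u ∈ v.toValuationSubring := ValuationSubring.nonunits_subset hv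
      obtain ⟨𝔓, h𝔓⟩ := ff_place_surjective hu v hv'
      have hu𝔓 : ffGenB K u ∈ 𝔓.asIdeal := by
        rw [← ff_place_mem_nonunits hu 𝔓, h𝔓]
        exact hv
      haveI := 𝔓.isPrime
      have hlo : 𝔓.asIdeal.LiesOver (ffIdeal K u) :=
        ff_liesOver_of_mem hu.transcendental 𝔓.asIdeal hu𝔓
      have hT : 𝔓.asIdeal ∈ IsDedekindDomain.primesOverFinset (ffIdeal K u) (ffB K u) :=
        (IsDedekindDomain.mem_primesOverFinset_iff hp0 _).mpr ⟨𝔓.isPrime, hlo⟩
      exact ⟨⟨𝔓.asIdeal, hT⟩, h𝔓⟩
    · rintro ⟨P, rfl⟩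
      show u ∈ (ff_place hu (ψ P)).toValuationSubring.nonunits
      have := (ff_place_mem_nonunits hu (ψ P) (ffGenB K u)).mpr
        (@ffGenB_mem_of_liesOver _ _ _ _ _ _ P.1 (hmem P.1 P.2).2)
      exact this
  have hfin : (placesOver K u).Finite := by rw [hrange]; exact Set.finite_range φ
  refine ⟨hfin, ?_⟩
  have hfs : hfin.toFinset = Finset.univ.image φ := by
    ext v
    rw [Set.Finite.mem_toFinset, hrange]
    simp
  rw [hfs, Finset.sum_image (fun x _ y _ h => hφinj h), ← hsum]
  rw [Nat.cast_sum, ← Finset.sum_attach (IsDedekindDomain.primesOverFinset (ffIdeal K u) (ffB K u))]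
  rw [Finset.univ_eq_attach]
  refine Finset.sum_congr rfl (fun P _ => ?_)
  haveI : (ψ P).asIdeal.LiesOver (ffIdeal K u) := (hmem P.1 P.2).2
  have h1 := ff_ord_eq_ramificationIdx hu (ψ P)
  have h2 := ff_inertiaDeg_eq_one hu (ψ P)
  show (ff_place hu (ψ P)).ord u = _
  rw [h1]
  show _ = ((Ideal.ramificationIdx' (ffIdeal K u) (ψ P).asIdeal
    * Ideal.inertiaDeg' (ffIdeal K u) (ψ P).asIdeal : ℕ) : ℤ)
  rw [h2, mul_one]

end

end Fermat.Agent.S24
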