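import Mathlib

/-!
# S24, block (C): counting the orbits of a cyclic group acting through a quotient of prime order

If `g ^ n` acts trivially on a finite set `X` (`n` prime), then
`n * #(X / ⟨g⟩) = #X + (n - 1) * #X^g`  (Burnside's lemma).
-/

set_option autoImplicit false

namespace Fermat.Agent.S24.Comb

open MulAction

/-- Burnside count for a cyclic group acting through a quotient of prime order `n`. -/
theorem card_orbits_zpowers_of_prime {G X : Type*} [Group G] [MulAction G X] [Finite X] (g : G)
    {n : ℕ} (hn : n.Prime) (hg : ∀ x : X, g ^ n • x = x) :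
    n * Nat.card (MulAction.orbitRel.Quotient (Subgroup.zpowers g) X) =
      Nat.card X + (n - 1) * Nat.card (MulAction.fixedBy X g) := by
  classical
  have : Fact n.Prime := ⟨hn⟩
  set σ : Equiv.Perm X := MulAction.toPerm g with hσ
  have hσk : ∀ (k : ℤ) (x : X), (σ ^ k) x = g ^ k • x := by
    intro k x
    have h1 : σ ^ k = MulAction.toPermHom G X (g ^ k) := by
      rw [map_zpow]; rfl
    rw [h1]; rfl
  have hσn : σ ^ n = 1 := by
    ext x
    have := hσk n x
    rw [zpow_natCast, zpow_natCast] at this
    rw [this, hg]; rfl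
  -- the two orbit relations agree
  have hsetoid : MulAction.orbitRel (Subgroup.zpowers g) X =
      MulAction.orbitRel (Subgroup.zpowers σ) X := by
    ext x y
    rw [MulAction.orbitRel_apply, MulAction.orbitRel_apply]
    constructor
    · rintro ⟨⟨h, hh⟩, rfl⟩
      obtain ⟨k, rfl⟩ := Subgroup.mem_zpowers_iff.mp hh
      exact ⟨⟨σ ^ k, Subgroup.zpow_mem_zpowers σ k⟩, hσk k y⟩
    · rintro ⟨⟨h, hh⟩, rfl⟩
      obtain ⟨k, rfl⟩ := Subgroup.mem_zpowers_iff.mp hh
      exact ⟨⟨g ^ k, Subgroup.zpow_mem_zpowers g k⟩, (hσk k y).symm⟩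
  have hQ : Nat.card (MulAction.orbitRel.Quotient (Subgroup.zpowers g) X) =
      Nat.card (MulAction.orbitRel.Quotient (Subgroup.zpowers σ) X) := by
    unfold MulAction.orbitRel.Quotient
    rw [hsetoid]
  rw [hQ]
  -- fixed points
  have hfix : ∀ x : X, x ∈ MulAction.fixedBy X g ↔ x ∈ MulAction.fixedBy X σ := fun x => Iff.rfl
  have hF : ∀ a : Subgroup.zpowers σ, a ≠ 1 →
      Nat.card (MulAction.fixedBy X a) = Nat.card (MulAction.fixedBy X g) := by
    intro a ha
    by_cases hσ1 : σ = 1
    · exfalso
      apply ha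
      obtain ⟨k, hk⟩ := Subgroup.mem_zpowers_iff.mp a.2
      have h1 : (a : Equiv.Perm X) = 1 := by
        rw [← hk, hσ1, one_zpow]
      exact Subtype.ext h1
    · have hcard : Nat.card (Subgroup.zpowers σ) = n := by
        rw [Nat.card_zpowers, orderOf_eq_prime hσn hσ1]
      have hmem : (⟨σ, Subgroup.mem_zpowers σ⟩ : Subgroup.zpowers σ) ∈ Subgroup.zpowers a :=
        mem_zpowers_of_prime_card hcard ha
      obtain ⟨j, hj⟩ := Subgroup.mem_zpowers_iff.mp hmem
      obtain ⟨k, hk⟩ := Subgroup.mem_zpowers_iff.mp a.2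
      have hset : MulAction.fixedBy X a = MulAction.fixedBy X g := by
        ext x
        rw [hfix]
        constructor
        · intro hx
          have h2 := MulAction.fixedBy_subset_fixedBy_zpow X a j hx
          rw [hj] at h2
          exact h2
        · intro hx
          have h2 := MulAction.fixedBy_subset_fixedBy_zpow X σ k hx
          rw [hk] at h2
          exact h2
      rw [hset]
  -- Burnside
  let : Fintype X := Fintype.ofFinite X
  let : Fintype (Subgroup.zpowers σ) := Fintype.ofFinite _
  let : ∀ a : Subgroup.zpowers σ, Fintype (MulAction.fixedBy X a) := fun a => Fintype.ofFinite _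
  let : Fintype (Quotient (MulAction.orbitRel (Subgroup.zpowers σ) X)) := Fintype.ofFinite _
  have hB := MulAction.sum_card_fixedBy_eq_card_orbits_mul_card_group (Subgroup.zpowers σ) X
  simp only [Fintype.card_eq_nat_card] at hB
  rw [← Finset.add_sum_erase _ _ (Finset.mem_univ (1 : Subgroup.zpowers σ)),
    Finset.sum_congr rfl (fun a ha => hF a (Finset.ne_of_mem_erase ha)), Finset.sum_const,
    Finset.card_erase_of_mem (Finset.mem_univ _), Finset.card_univ, Fintype.card_eq_nat_card,
    smul_eq_mul, MulAction.fixedBy_one_eq_univ, Nat.card_congr (Equiv.Set.univ X)] at hB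
  have hB' : Nat.card X + (Nat.card (Subgroup.zpowers σ) - 1) * Nat.card (MulAction.fixedBy X g) =
      Nat.card (MulAction.orbitRel.Quotient (Subgroup.zpowers σ) X) *
        Nat.card (Subgroup.zpowers σ) := hB
  by_cases hσ1 : σ = 1
  · have hcard : Nat.card (Subgroup.zpowers σ) = 1 := by
      rw [Nat.card_zpowers, hσ1, orderOf_one]
    have hall : Nat.card (MulAction.fixedBy X g) = Nat.card X := by
      have : MulAction.fixedBy X g = Set.univ := by
        ext x
        simp only [Set.mem_univ, iff_true]
        rw [hfix, MulAction.mem_fixedBy, hσ1]; rfl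
      rw [this, Nat.card_congr (Equiv.Set.univ X)]
    rw [hcard] at hB'
    rw [hall]
    obtain ⟨m, rfl⟩ : ∃ m, n = m + 1 := ⟨n - 1, by have := hn.pos; omega⟩
    simp only [Nat.sub_self, zero_mul, add_zero, mul_one] at hB'
    rw [← hB']
    simp only [Nat.add_sub_cancel]
    ring
  · have hcard : Nat.card (Subgroup.zpowers σ) = n := by
      rw [Nat.card_zpowers, orderOf_eq_prime hσn hσ1]
    rw [hcard] at hB'
    rw [hB', mul_comm]

end Fermat.Agent.S24.Comb
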