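import Mathlib
import Fermat.Prelude.Def_ModularCurve_GenusNumerics
import Fermat.Agent.S24.CombBasic

/-!
# S24, block (C): orbits of `T` on `SL(2,ℤ) ⧸ Γ₀(N)` (cusps)

`card_orbits_T : #(⟨T⟩ \ SL(2,ℤ) ⧸ Γ₀(N)) = cuspCount N = ∑ d ∣ N, φ(gcd(d, N/d))`.
-/

set_option autoImplicit false

namespace Fermat.Agent.S24.Comb

open scoped MatrixGroups
open CongruenceSubgroup Matrix Matrix.SpecialLinearGroup

/-- Solvability of a linear congruence. -/
theorem exists_dvd_add_mul {A B M : ℤ} (h : (Int.gcd B M : ℤ) ∣ A) : ∃ k : ℤ, M ∣ A + k * B := by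
  obtain ⟨t, ht⟩ := h
  refine ⟨-t * Int.gcdA B M, t * Int.gcdB B M, ?_⟩
  have hb := Int.gcd_eq_gcd_ab B M
  rw [ht, hb]
  ring

variable {N : ℕ}

/-- The level of a matrix: the gcd of its lower left entry with `N`. -/
def lev (N : ℕ) (g : SL(2, ℤ)) : ℕ := Int.gcd (g 1 0) N

/-- `gcd(d, N/d)`. -/
def cGcd (N d : ℕ) : ℕ := Nat.gcd d (N / d)

theorem lev_dvd (g : SL(2, ℤ)) : lev N g ∣ N := by
  have := Int.gcd_dvd_right (g 1 0) (N : ℤ)
  exact Int.natCast_dvd_natCast.mp this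

theorem lev_pos (hN : N ≠ 0) (g : SL(2, ℤ)) : 0 < lev N g :=
  Nat.pos_of_ne_zero fun h => hN (Nat.eq_zero_of_zero_dvd (h ▸ lev_dvd g))

theorem lev_dvd_apply (g : SL(2, ℤ)) : (lev N g : ℤ) ∣ g 1 0 := Int.gcd_dvd_left _ _

theorem cGcd_dvd_left (N d : ℕ) : cGcd N d ∣ d := Nat.gcd_dvd_left _ _

theorem cGcd_dvd_right (N d : ℕ) : cGcd N d ∣ N / d := Nat.gcd_dvd_right _ _

theorem cGcd_pos {d : ℕ} (hd : 0 < d) : 0 < cGcd N d := Nat.gcd_pos_of_pos_left _ hd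

/-- The basic factorisation data attached to the level. -/
theorem lev_data (hN : N ≠ 0) (g : SL(2, ℤ)) :
    g 1 0 = (lev N g : ℤ) * (g 1 0 / (lev N g : ℤ)) ∧
    (N : ℤ) = (lev N g : ℤ) * ((N / lev N g : ℕ) : ℤ) ∧
    IsCoprime (g 1 0 / (lev N g : ℤ)) ((N / lev N g : ℕ) : ℤ) := by
  have hd : (lev N g : ℤ) ≠ 0 := by exact_mod_cast (lev_pos hN g).ne'
  have h1 : g 1 0 = (lev N g : ℤ) * (g 1 0 / (lev N g : ℤ)) :=
    (Int.mul_ediv_cancel' (lev_dvd_apply g)).symm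
  have h2 : (N : ℤ) = (lev N g : ℤ) * ((N / lev N g : ℕ) : ℤ) := by
    exact_mod_cast (Nat.mul_div_cancel' (lev_dvd g)).symm
  refine ⟨h1, h2, ?_⟩
  have hb := Int.gcd_eq_gcd_ab (g 1 0) (N : ℤ)
  refine ⟨Int.gcdA (g 1 0) N, Int.gcdB (g 1 0) N, ?_⟩
  apply mul_left_cancel₀ hd
  have hb' : (lev N g : ℤ) = g 1 0 * Int.gcdA (g 1 0) N + N * Int.gcdB (g 1 0) N := hb
  calc (lev N g : ℤ) * (Int.gcdA (g 1 0) N * (g 1 0 / (lev N g : ℤ)) +
        Int.gcdB (g 1 0) N * ((N / lev N g : ℕ) : ℤ))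
      = ((lev N g : ℤ) * (g 1 0 / (lev N g : ℤ))) * Int.gcdA (g 1 0) N +
        ((lev N g : ℤ) * ((N / lev N g : ℕ) : ℤ)) * Int.gcdB (g 1 0) N := by ring
    _ = g 1 0 * Int.gcdA (g 1 0) N + N * Int.gcdB (g 1 0) N := by rw [← h1, ← h2]
    _ = (lev N g : ℤ) * 1 := by rw [mul_one]; exact hb'.symm

/-- `a` is coprime to `gcd(d, N/d)`. -/
theorem isCoprime_apply_cGcd (g : SL(2, ℤ)) :
    IsCoprime (g 0 0) ((cGcd N (lev N g) : ℕ) : ℤ) := by
  have h1 : IsCoprime (g 0 0) (g 1 0) := isCoprime_col g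
  have h2 : ((cGcd N (lev N g) : ℕ) : ℤ) ∣ g 1 0 :=
    (Int.natCast_dvd_natCast.mpr (cGcd_dvd_left N _)).trans (lev_dvd_apply g)
  exact h1.of_isCoprime_of_dvd_right h2

/-- `c / d` is coprime to `gcd(d, N/d)`. -/
theorem isCoprime_div_cGcd (hN : N ≠ 0) (g : SL(2, ℤ)) :
    IsCoprime (g 1 0 / (lev N g : ℤ)) ((cGcd N (lev N g) : ℕ) : ℤ) :=
  (lev_data hN g).2.2.of_isCoprime_of_dvd_right
    (Int.natCast_dvd_natCast.mpr (cGcd_dvd_right N _))

theorem cross_T (k : ℤ) (g g' : SL(2, ℤ)) :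
    cross (ModularGroup.T ^ k * g) g' =
      g 0 0 * g' 1 0 - g 1 0 * g' 0 0 + k * g 1 0 * g' 1 0 := by
  rw [cross, T_zpow_mul_apply_zero, T_zpow_mul_apply_one]; ring

theorem lev_dvd_of_cross (g g' : SL(2, ℤ)) (k : ℤ)
    (h : (N : ℤ) ∣ cross (ModularGroup.T ^ k * g) g') : lev N g ∣ lev N g' := by
  have hdN : (lev N g : ℤ) ∣ (N : ℤ) := Int.natCast_dvd_natCast.mpr (lev_dvd g)
  have hdc : (lev N g : ℤ) ∣ g 1 0 := lev_dvd_apply g
  have h1 : (lev N g : ℤ) ∣ (g 0 0 + k * g 1 0) * g' 1 0 := by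
    have h2 := hdN.trans h
    rw [cross, T_zpow_mul_apply_zero, T_zpow_mul_apply_one] at h2
    have h3 : (lev N g : ℤ) ∣ g 1 0 * g' 0 0 := Dvd.dvd.mul_right hdc _
    have := dvd_add h2 h3
    rwa [sub_add_cancel] at this
  have hcop : IsCoprime (g 0 0 + k * g 1 0) (lev N g : ℤ) := by
    have : IsCoprime (g 0 0 + k * g 1 0) (g 1 0) := (isCoprime_col g).add_mul_right_left k
    exact this.of_isCoprime_of_dvd_right hdc
  have h4 : (lev N g : ℤ) ∣ g' 1 0 := hcop.symm.dvd_of_dvd_mul_left h1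
  exact Int.natCast_dvd_natCast.mp (Int.dvd_coe_gcd h4 hdN)

/-- The orbit criterion: `g'` lies in the `⟨T⟩`-orbit of `g` modulo `Γ₀(N)` iff the levels agree
and the residues agree modulo `gcd(d, N/d)`. -/
theorem exists_T_iff (hN : N ≠ 0) (g g' : SL(2, ℤ)) :
    (∃ k : ℤ, (N : ℤ) ∣ cross (ModularGroup.T ^ k * g) g') ↔
      lev N g = lev N g' ∧ ((cGcd N (lev N g) : ℕ) : ℤ) ∣
        g 0 0 * (g' 1 0 / (lev N g' : ℤ)) - g' 0 0 * (g 1 0 / (lev N g : ℤ)) := by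
  constructor
  · rintro ⟨k, hk⟩
    have h1 : lev N g ∣ lev N g' := lev_dvd_of_cross g g' k hk
    have h2 : lev N g' ∣ lev N g := by
      refine lev_dvd_of_cross g' g (-k) ?_
      rw [cross_T] at hk ⊢
      have : g' 0 0 * g 1 0 - g' 1 0 * g 0 0 + -k * g' 1 0 * g 1 0 =
          -(g 0 0 * g' 1 0 - g 1 0 * g' 0 0 + k * g 1 0 * g' 1 0) := by ring
      rw [this]
      exact (dvd_neg).mpr hk
    have hd : lev N g = lev N g' := Nat.dvd_antisymm h1 h2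
    refine ⟨hd, ?_⟩
    obtain ⟨hc, hNd, -⟩ := lev_data hN g
    obtain ⟨hc', -, -⟩ := lev_data hN g'
    rw [← hd] at hc' ⊢
    set d : ℤ := (lev N g : ℤ) with hd_def
    set c₁ : ℤ := g 1 0 / d with hc₁
    set c₁' : ℤ := g' 1 0 / d with hc₁'
    set N₁ : ℤ := ((N / lev N g : ℕ) : ℤ) with hN₁
    have hd0 : d ≠ 0 := by
      rw [hd_def]; exact_mod_cast (lev_pos hN g).ne'
    rw [cross_T, hNd] at hk
    have h3 : d * N₁ ∣ d * (g 0 0 * c₁' - c₁ * g' 0 0 + k * d * c₁ * c₁') := by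
      have : d * (g 0 0 * c₁' - c₁ * g' 0 0 + k * d * c₁ * c₁') =
          g 0 0 * (d * c₁') - (d * c₁) * g' 0 0 + k * (d * c₁) * (d * c₁') := by ring
      rw [this, ← hc, ← hc']
      exact hk
    have h4 : N₁ ∣ g 0 0 * c₁' - c₁ * g' 0 0 + k * d * c₁ * c₁' :=
      (mul_dvd_mul_iff_left hd0).mp h3
    have hG1 : ((cGcd N (lev N g) : ℕ) : ℤ) ∣ N₁ :=
      Int.natCast_dvd_natCast.mpr (cGcd_dvd_right N _)
    have hG2 : ((cGcd N (lev N g) : ℕ) : ℤ) ∣ d :=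
      Int.natCast_dvd_natCast.mpr (cGcd_dvd_left N _)
    have h5 := hG1.trans h4
    have h6 : ((cGcd N (lev N g) : ℕ) : ℤ) ∣ k * d * c₁ * c₁' :=
      Dvd.dvd.mul_right (Dvd.dvd.mul_right (Dvd.dvd.mul_left hG2 k) _) _
    have h7 := (dvd_add_left h6).mp h5
    have : g 0 0 * c₁' - g' 0 0 * c₁ = g 0 0 * c₁' - c₁ * g' 0 0 := by ring
    rw [this]
    exact h7
  · rintro ⟨hd, hdiv⟩
    obtain ⟨hc, hNd, hcop⟩ := lev_data hN g
    obtain ⟨hc', -, hcop'⟩ := lev_data hN g'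
    rw [← hd] at hc' hcop' hdiv
    set d : ℤ := (lev N g : ℤ) with hd_def
    set c₁ : ℤ := g 1 0 / d with hc₁
    set c₁' : ℤ := g' 1 0 / d with hc₁'
    set N₁ : ℤ := ((N / lev N g : ℕ) : ℤ) with hN₁
    -- solve the congruence
    have hgcd : (Int.gcd (d * c₁ * c₁') N₁ : ℤ) ∣ g 0 0 * c₁' - c₁ * g' 0 0 := by
      set e : ℤ := (Int.gcd (d * c₁ * c₁') N₁ : ℤ) with he
      have he1 : e ∣ d * c₁ * c₁' := Int.gcd_dvd_left _ _
      have he2 : e ∣ N₁ := Int.gcd_dvd_right _ _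
      have hcc : IsCoprime (c₁ * c₁') N₁ := hcop.mul_left hcop'
      have hec : IsCoprime e (c₁ * c₁') := (hcc.symm).of_isCoprime_of_dvd_left he2
      have he3 : e ∣ d := by
        rw [mul_assoc] at he1
        exact hec.dvd_of_dvd_mul_right he1
      have he4 : e ∣ ((cGcd N (lev N g) : ℕ) : ℤ) := by
        have := Int.dvd_coe_gcd he3 he2
        rwa [hd_def, hN₁, Int.gcd_natCast_natCast] at this
      have : g 0 0 * c₁' - c₁ * g' 0 0 = g 0 0 * c₁' - g' 0 0 * c₁ := by ring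
      rw [this]
      exact he4.trans hdiv
    obtain ⟨k, hk⟩ := exists_dvd_add_mul hgcd
    refine ⟨k, ?_⟩
    rw [cross_T, hNd]
    have : g 0 0 * g' 1 0 - g 1 0 * g' 0 0 + k * g 1 0 * g' 1 0 =
        d * (g 0 0 * c₁' - c₁ * g' 0 0 + k * (d * c₁ * c₁')) := by
      linear_combination (-(g' 0 0) + k * g' 1 0) * hc + (g 0 0 + k * d * c₁) * hc'
    rw [this]
    exact mul_dvd_mul_left d hk

/-- The residue `a * c₁⁻¹ mod G`, as a natural number. -/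
def resAt (G : ℕ) (a c₁ : ℤ) : ℕ := (((a : ℤ) : ZMod G) * ((c₁ : ℤ) : ZMod G)⁻¹).val

theorem isUnit_intCast_of_isCoprime {G : ℕ} {a : ℤ} (h : IsCoprime a (G : ℤ)) :
    IsUnit ((a : ℤ) : ZMod G) := by
  rw [← ZMod.coe_unitOfIsCoprime a h]
  exact Units.isUnit _

theorem resAt_eq_iff {G : ℕ} (hG : 0 < G) {a a' c₁ c₁' : ℤ}
    (hc : IsCoprime c₁ (G : ℤ)) (hc' : IsCoprime c₁' (G : ℤ)) :
    resAt G a c₁ = resAt G a' c₁' ↔ (G : ℤ) ∣ a * c₁' - a' * c₁ := by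
  have : NeZero G := ⟨hG.ne'⟩
  have hu := isUnit_intCast_of_isCoprime hc
  have hu' := isUnit_intCast_of_isCoprime hc'
  have e1 : ((c₁ : ℤ) : ZMod G) * ((c₁ : ℤ) : ZMod G)⁻¹ = 1 := ZMod.mul_inv_of_unit _ hu
  have e2 : ((c₁' : ℤ) : ZMod G) * ((c₁' : ℤ) : ZMod G)⁻¹ = 1 := ZMod.mul_inv_of_unit _ hu'
  rw [resAt, resAt, (ZMod.val_injective G).eq_iff, ← ZMod.intCast_zmod_eq_zero_iff_dvd]
  push_cast
  constructor
  · intro h
    linear_combination ((c₁ : ℤ) : ZMod G) * ((c₁' : ℤ) : ZMod G) * h -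
      ((a : ℤ) : ZMod G) * ((c₁' : ℤ) : ZMod G) * e1 +
      ((a' : ℤ) : ZMod G) * ((c₁ : ℤ) : ZMod G) * e2
  · intro h
    linear_combination ((c₁ : ℤ) : ZMod G)⁻¹ * ((c₁' : ℤ) : ZMod G)⁻¹ * h -
      ((a : ℤ) : ZMod G) * ((c₁ : ℤ) : ZMod G)⁻¹ * e2 +
      ((a' : ℤ) : ZMod G) * ((c₁' : ℤ) : ZMod G)⁻¹ * e1

theorem resAt_lt {G : ℕ} (hG : 0 < G) (a c₁ : ℤ) : resAt G a c₁ < G := by
  have : NeZero G := ⟨hG.ne'⟩
  exact ZMod.val_lt _

theorem coprime_resAt {G : ℕ} {a c₁ : ℤ} (ha : IsCoprime a (G : ℤ))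
    (hc : IsCoprime c₁ (G : ℤ)) : Nat.Coprime G (resAt G a c₁) := by
  have hu := isUnit_intCast_of_isCoprime ha
  have hu' := isUnit_intCast_of_isCoprime hc
  have h1 : IsUnit (((a : ℤ) : ZMod G) * ((c₁ : ℤ) : ZMod G)⁻¹) := by
    refine hu.mul ?_
    have e1 : ((c₁ : ℤ) : ZMod G) * ((c₁ : ℤ) : ZMod G)⁻¹ = 1 := ZMod.mul_inv_of_unit _ hu'
    exact IsUnit.of_mul_eq_one _ (by rw [mul_comm]; exact e1)
  obtain ⟨u, hu⟩ := h1
  rw [resAt, ← hu]
  exact (ZMod.val_coe_unit_coprime u).symm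

/-- The invariant of a matrix: its level and its residue. -/
def cuspInv (N : ℕ) (g : SL(2, ℤ)) : Σ _ : ℕ, ℕ :=
  ⟨lev N g, resAt (cGcd N (lev N g)) (g 0 0) (g 1 0 / (lev N g : ℤ))⟩

/-- The index set of the cusps. -/
def cuspIndex (N : ℕ) : Finset (Σ _ : ℕ, ℕ) :=
  N.divisors.sigma fun d => (Finset.range (cGcd N d)).filter fun r => (cGcd N d).Coprime r

theorem card_cuspIndex (N : ℕ) : (cuspIndex N).card = ModularCurve.cuspCount N := by
  rw [cuspIndex, Finset.card_sigma, ModularCurve.cuspCount]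
  rfl

theorem cuspInv_mem (hN : N ≠ 0) (g : SL(2, ℤ)) : cuspInv N g ∈ cuspIndex N := by
  rw [cuspIndex, Finset.mem_sigma]
  refine ⟨Nat.mem_divisors.mpr ⟨lev_dvd g, hN⟩, Finset.mem_filter.mpr ⟨?_, ?_⟩⟩
  · exact Finset.mem_range.mpr (resAt_lt (cGcd_pos (lev_pos hN g)) _ _)
  · exact coprime_resAt (isCoprime_apply_cGcd g) (isCoprime_div_cGcd hN g)

/-- The orbit criterion in terms of the invariant. -/
theorem exists_T_iff_cuspInv (hN : N ≠ 0) (g g' : SL(2, ℤ)) :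
    (∃ k : ℤ, (N : ℤ) ∣ cross (ModularGroup.T ^ k * g) g') ↔ cuspInv N g = cuspInv N g' := by
  rw [exists_T_iff hN]
  constructor
  · rintro ⟨hd, hdiv⟩
    have hG : cGcd N (lev N g') = cGcd N (lev N g) := by rw [hd]
    have hcop' : IsCoprime (g' 1 0 / (lev N g' : ℤ)) ((cGcd N (lev N g) : ℕ) : ℤ) := by
      rw [← hG]; exact isCoprime_div_cGcd hN g'
    rw [cuspInv, cuspInv]
    refine Sigma.ext hd (heq_of_eq ?_)
    show resAt (cGcd N (lev N g)) (g 0 0) (g 1 0 / (lev N g : ℤ)) =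
        resAt (cGcd N (lev N g')) (g' 0 0) (g' 1 0 / (lev N g' : ℤ))
    rw [hG, resAt_eq_iff (cGcd_pos (lev_pos hN g)) (isCoprime_div_cGcd hN g) hcop']
    exact hdiv
  · intro h
    have hd : lev N g = lev N g' := congrArg Sigma.fst h
    have hG : cGcd N (lev N g') = cGcd N (lev N g) := by rw [hd]
    have hcop' : IsCoprime (g' 1 0 / (lev N g' : ℤ)) ((cGcd N (lev N g) : ℕ) : ℤ) := by
      rw [← hG]; exact isCoprime_div_cGcd hN g'
    refine ⟨hd, ?_⟩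
    have hres : resAt (cGcd N (lev N g)) (g 0 0) (g 1 0 / (lev N g : ℤ)) =
        resAt (cGcd N (lev N g')) (g' 0 0) (g' 1 0 / (lev N g' : ℤ)) := by
      have := h
      rw [cuspInv, cuspInv] at this
      exact eq_of_heq (Sigma.mk.inj this).2
    rw [hG] at hres
    rwa [resAt_eq_iff (cGcd_pos (lev_pos hN g)) (isCoprime_div_cGcd hN g) hcop'] at hres

/-- Every index is the invariant of some matrix. -/
theorem exists_cuspInv_eq (hN : N ≠ 0) {p : Σ _ : ℕ, ℕ} (hp : p ∈ cuspIndex N) :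
    ∃ g : SL(2, ℤ), cuspInv N g = p := by
  obtain ⟨d, r⟩ := p
  rw [cuspIndex, Finset.mem_sigma] at hp
  obtain ⟨hd, hr⟩ := hp
  have hdN : d ∣ N := (Nat.mem_divisors.mp hd).1
  have hd0 : d ≠ 0 := fun h => hN (Nat.eq_zero_of_zero_dvd (h ▸ hdN))
  obtain ⟨hr1, hr2⟩ := Finset.mem_filter.mp hr
  have hr1 : r < cGcd N d := Finset.mem_range.mp hr1
  have hr2 : (cGcd N d).Coprime r := hr2
  have hG0 : 0 < cGcd N d := cGcd_pos (Nat.pos_of_ne_zero hd0)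
  have : NeZero d := ⟨hd0⟩
  have : NeZero (cGcd N d) := ⟨hG0.ne'⟩
  -- lift the unit `r mod G` to a unit modulo `d`
  obtain ⟨v, hv⟩ := ZMod.unitsMap_surjective (cGcd_dvd_left N d) (ZMod.unitOfCoprime r hr2.symm)
  set a : ℕ := (v : ZMod d).val with ha
  have hacop : Nat.Coprime a d := ZMod.val_coe_unit_coprime v
  have haG : ((a : ℕ) : ZMod (cGcd N d)) = (r : ZMod (cGcd N d)) := by
    have h1 := congrArg (fun u : (ZMod (cGcd N d))ˣ => (u : ZMod (cGcd N d))) hv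
    simp only [ZMod.unitsMap_val, ZMod.coe_unitOfCoprime] at h1
    rw [← h1, ha, ZMod.natCast_val]
  have hcop : IsCoprime (a : ℤ) (d : ℤ) := Nat.isCoprime_iff_coprime.mpr hacop
  obtain ⟨g, hg0, hg1⟩ := exists_col hcop
  refine ⟨g, ?_⟩
  have hlev : lev N g = d := by
    rw [lev, hg1, Int.gcd_natCast_natCast]
    exact Nat.gcd_eq_left hdN
  rw [cuspInv, hlev, hg0, hg1]
  have hdiv : (d : ℤ) / (d : ℤ) = 1 := Int.ediv_self (by exact_mod_cast hd0)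
  rw [hdiv]
  congr 1
  rw [resAt]
  push_cast
  rw [haG]
  rw [ZMod.inv_one, mul_one]
  exact ZMod.val_cast_of_lt hr1

/-- Membership in an orbit of `⟨T⟩` in terms of integers. -/
theorem orbitRel_T_iff (x y : X N) :
    MulAction.orbitRel (Subgroup.zpowers ModularGroup.T) (X N) x y ↔
      ∃ k : ℤ, (ModularGroup.T ^ k) • y = x := by
  rw [MulAction.orbitRel_apply, MulAction.mem_orbit_iff]
  constructor
  · rintro ⟨⟨t, ht⟩, rfl⟩
    obtain ⟨k, rfl⟩ := Subgroup.mem_zpowers_iff.mp ht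
    exact ⟨k, rfl⟩
  · rintro ⟨k, rfl⟩
    exact ⟨⟨ModularGroup.T ^ k, Subgroup.mem_zpowers_iff.mpr ⟨k, rfl⟩⟩, rfl⟩

/-- (C4) The number of `⟨T⟩`-orbits on `SL(2,ℤ) ⧸ Γ₀(N)` is the number of cusps of `X₀(N)`. -/
theorem card_orbits_T (N : ℕ) [NeZero N] :
    Nat.card (MulAction.orbitRel.Quotient (Subgroup.zpowers ModularGroup.T) (X N)) =
      ModularCurve.cuspCount N := by
  classical
  have hN : N ≠ 0 := NeZero.ne N
  rw [← card_cuspIndex, ← Nat.card_eq_finsetCard]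
  -- representatives
  let rep : MulAction.orbitRel.Quotient (Subgroup.zpowers ModularGroup.T) (X N) → SL(2, ℤ) :=
    fun ω => Quotient.out (Quotient.out ω)
  have hrep : ∀ ω, (Quotient.mk'' (QuotientGroup.mk (rep ω) : X N) :
      MulAction.orbitRel.Quotient (Subgroup.zpowers ModularGroup.T) (X N)) = ω := by
    intro ω
    have h1 : (QuotientGroup.mk (rep ω) : X N) = Quotient.out ω := Quotient.out_eq _
    rw [h1]
    exact Quotient.out_eq ω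
  let f : MulAction.orbitRel.Quotient (Subgroup.zpowers ModularGroup.T) (X N) →
      {p : Σ _ : ℕ, ℕ // p ∈ cuspIndex N} := fun ω => ⟨cuspInv N (rep ω), cuspInv_mem hN _⟩
  refine Nat.card_congr (Equiv.ofBijective f ⟨?_, ?_⟩)
  · intro ω ω' h
    have h1 : cuspInv N (rep ω) = cuspInv N (rep ω') := congrArg Subtype.val h
    obtain ⟨k, hk⟩ := (exists_T_iff_cuspInv hN _ _).mpr h1
    have h2 : (ModularGroup.T ^ k) • (QuotientGroup.mk (rep ω) : X N) =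
        QuotientGroup.mk (rep ω') := by
      rw [smul_mk]
      exact (mk_eq_mk_iff _ _).mpr hk
    rw [← hrep ω, ← hrep ω']
    refine Quotient.sound' ?_
    exact (orbitRel_T_iff _ _).mpr ⟨-k, by rw [← h2, ← mul_smul]; simp⟩
  · rintro ⟨p, hp⟩
    obtain ⟨g, hg⟩ := exists_cuspInv_eq hN hp
    refine ⟨Quotient.mk'' (QuotientGroup.mk g : X N), Subtype.ext ?_⟩
    show cuspInv N (rep (Quotient.mk'' (QuotientGroup.mk g : X N))) = p
    rw [← hg]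
    set ω : MulAction.orbitRel.Quotient (Subgroup.zpowers ModularGroup.T) (X N) :=
      Quotient.mk'' (QuotientGroup.mk g : X N) with hω
    have h1 := hrep ω
    rw [hω] at h1
    have h2 := Quotient.exact' h1
    obtain ⟨k, hk⟩ := (orbitRel_T_iff _ _).mp h2
    rw [smul_mk] at hk
    have h3 := (mk_eq_mk_iff _ _).mp hk
    exact ((exists_T_iff_cuspInv hN _ _).mp ⟨k, h3⟩).symm

end Fermat.Agent.S24.Comb
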