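import Mathlib
import Fermat.Prelude.Def_ModularCurve_GenusNumerics
import Fermat.Agent.S24.CombBasic

/-!
# S24, block (C): fixed points of the elliptic elements on `SL(2,ℤ) ⧸ Γ₀(N)`

* `card_fixedBy_S`  : `#Fix(S)  = nuTwo N`   (solutions of `x² + 1 = 0` in `ℤ/N`),
* `card_fixedBy_ST` : `#Fix(ST) = nuThree N` (solutions of `x² + x + 1 = 0` in `ℤ/N`).
-/

set_option autoImplicit false

namespace Fermat.Agent.S24.Comb

open scoped MatrixGroups
open CongruenceSubgroup Matrix Matrix.SpecialLinearGroup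

variable {N : ℕ}

/-- If the first column `(a, c)` of `g` satisfies `a² + β a c + c² ≡ 0 (mod N)`, then `c` is a
unit modulo `N`. -/
theorem isUnit_of_quadratic (β : ℤ) (g : SL(2, ℤ))
    (h : (N : ℤ) ∣ g 0 0 ^ 2 + β * g 0 0 * g 1 0 + g 1 0 ^ 2) :
    IsUnit ((g 1 0 : ℤ) : ZMod N) := by
  have hdet := det_eq g
  have h0 : (((g 0 0 ^ 2 + β * g 0 0 * g 1 0 + g 1 0 ^ 2 : ℤ)) : ZMod N) = 0 :=
    (ZMod.intCast_zmod_eq_zero_iff_dvd _ N).mpr h
  have h1 : (((g 0 0 * g 1 1 - g 0 1 * g 1 0 : ℤ)) : ZMod N) = 1 := by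
    rw [hdet]; simp
  push_cast at h0 h1
  set a : ZMod N := ((g 0 0 : ℤ) : ZMod N)
  set b : ZMod N := ((g 0 1 : ℤ) : ZMod N)
  set c : ZMod N := ((g 1 0 : ℤ) : ZMod N)
  set d : ZMod N := ((g 1 1 : ℤ) : ZMod N)
  refine IsUnit.of_mul_eq_one (-((β : ZMod N) * a + c) * d ^ 2 - 2 * a * b * d + b ^ 2 * c) ?_
  have h2 : (a * d - b * c) ^ 2 = 1 := by rw [h1]; ring
  linear_combination h2 - d ^ 2 * h0

/-- The number of fixed points of an element `h` acting on `SL(2,ℤ) ⧸ Γ₀(N)` such that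
`cross (h g) g = -(a² + β a c + c²)` is the number of solutions of `x² + β x + 1 = 0`
in `ℤ/N`. -/
theorem card_fixedBy_of_quadratic (N : ℕ) (h : SL(2, ℤ)) (β : ℤ)
    (hcross : ∀ g : SL(2, ℤ), cross (h * g) g = -(g 0 0 ^ 2 + β * g 0 0 * g 1 0 + g 1 0 ^ 2)) :
    Nat.card (MulAction.fixedBy (X N) h) =
      Nat.card {x : ZMod N // x ^ 2 + (β : ZMod N) * x + 1 = 0} := by
  classical
  -- the data attached to a fixed point
  have key : ∀ q : MulAction.fixedBy (X N) h,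
      (N : ℤ) ∣ (Quotient.out q.1) 0 0 ^ 2 + β * (Quotient.out q.1) 0 0 * (Quotient.out q.1) 1 0
        + (Quotient.out q.1) 1 0 ^ 2 := by
    intro q
    have h1 : h • q.1 = q.1 := q.2
    have h2 : (QuotientGroup.mk (Quotient.out q.1) : X N) = q.1 := Quotient.out_eq q.1
    rw [← h2, smul_mk, mk_eq_mk_iff, hcross] at h1
    exact (dvd_neg.mp h1)
  have hunit : ∀ q : MulAction.fixedBy (X N) h,
      IsUnit (((Quotient.out q.1) 1 0 : ℤ) : ZMod N) := fun q => isUnit_of_quadratic β _ (key q)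
  let f : MulAction.fixedBy (X N) h → {x : ZMod N // x ^ 2 + (β : ZMod N) * x + 1 = 0} :=
    fun q => ⟨(((Quotient.out q.1) 0 0 : ℤ) : ZMod N) * ((hunit q).unit⁻¹ : (ZMod N)ˣ), by
      have h0 : ((((Quotient.out q.1) 0 0 ^ 2 + β * (Quotient.out q.1) 0 0 * (Quotient.out q.1) 1 0
        + (Quotient.out q.1) 1 0 ^ 2 : ℤ)) : ZMod N) = 0 :=
        (ZMod.intCast_zmod_eq_zero_iff_dvd _ N).mpr (key q)
      push_cast at h0
      have hu : (((Quotient.out q.1) 1 0 : ℤ) : ZMod N) * ((hunit q).unit⁻¹ : (ZMod N)ˣ) = 1 :=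
        (hunit q).mul_val_inv
      set a : ZMod N := (((Quotient.out q.1) 0 0 : ℤ) : ZMod N)
      set c : ZMod N := (((Quotient.out q.1) 1 0 : ℤ) : ZMod N)
      set u : ZMod N := (((hunit q).unit⁻¹ : (ZMod N)ˣ) : ZMod N)
      linear_combination u ^ 2 * h0 - (c * u + 1 + (β : ZMod N) * a * u) * hu⟩
  refine Nat.card_congr (Equiv.ofBijective f ⟨?_, ?_⟩)
  · -- injective
    intro q q' hqq
    have h1 : (((Quotient.out q.1) 0 0 : ℤ) : ZMod N) * ((hunit q).unit⁻¹ : (ZMod N)ˣ) =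
        (((Quotient.out q'.1) 0 0 : ℤ) : ZMod N) * ((hunit q').unit⁻¹ : (ZMod N)ˣ) :=
      congrArg Subtype.val hqq
    have hu : (((Quotient.out q.1) 1 0 : ℤ) : ZMod N) * ((hunit q).unit⁻¹ : (ZMod N)ˣ) = 1 :=
      (hunit q).mul_val_inv
    have hu' : (((Quotient.out q'.1) 1 0 : ℤ) : ZMod N) * ((hunit q').unit⁻¹ : (ZMod N)ˣ) = 1 :=
      (hunit q').mul_val_inv
    apply Subtype.ext
    rw [← Quotient.out_eq q.1, ← Quotient.out_eq q'.1]
    refine (mk_eq_mk_iff _ _).mpr ((ZMod.intCast_zmod_eq_zero_iff_dvd _ N).mp ?_)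
    rw [cross]
    push_cast
    set a : ZMod N := (((Quotient.out q.1) 0 0 : ℤ) : ZMod N)
    set c : ZMod N := (((Quotient.out q.1) 1 0 : ℤ) : ZMod N)
    set u : ZMod N := (((hunit q).unit⁻¹ : (ZMod N)ˣ) : ZMod N)
    set a' : ZMod N := (((Quotient.out q'.1) 0 0 : ℤ) : ZMod N)
    set c' : ZMod N := (((Quotient.out q'.1) 1 0 : ℤ) : ZMod N)
    set u' : ZMod N := (((hunit q').unit⁻¹ : (ZMod N)ˣ) : ZMod N)
    linear_combination c * c' * h1 - a * c' * hu + a' * c * hu'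
  · -- surjective
    rintro ⟨x, hx⟩
    obtain ⟨g₀, hg0, hg1⟩ := exists_col (a := (x.cast : ℤ)) (c := 1) isCoprime_one_right
    have hxc : (((x.cast : ℤ)) : ZMod N) = x := ZMod.intCast_zmod_cast x
    have hfix : h • (QuotientGroup.mk g₀ : X N) = QuotientGroup.mk g₀ := by
      rw [smul_mk, mk_eq_mk_iff, hcross, dvd_neg, ← ZMod.intCast_zmod_eq_zero_iff_dvd, hg0, hg1]
      push_cast
      linear_combination hx
    refine ⟨⟨QuotientGroup.mk g₀, hfix⟩, Subtype.ext ?_⟩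
    set q : MulAction.fixedBy (X N) h := ⟨QuotientGroup.mk g₀, hfix⟩ with hq
    have hout : (QuotientGroup.mk (Quotient.out q.1) : X N) = QuotientGroup.mk g₀ :=
      Quotient.out_eq q.1
    have h1 := (ZMod.intCast_zmod_eq_zero_iff_dvd _ N).mpr ((mk_eq_mk_iff _ _).mp hout)
    rw [cross, hg0, hg1] at h1
    push_cast at h1
    have hu : (((Quotient.out q.1) 1 0 : ℤ) : ZMod N) * ((hunit q).unit⁻¹ : (ZMod N)ˣ) = 1 :=
      (hunit q).mul_val_inv
    show (((Quotient.out q.1) 0 0 : ℤ) : ZMod N) * ((hunit q).unit⁻¹ : (ZMod N)ˣ) = x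
    set a : ZMod N := (((Quotient.out q.1) 0 0 : ℤ) : ZMod N)
    set c : ZMod N := (((Quotient.out q.1) 1 0 : ℤ) : ZMod N)
    set u : ZMod N := (((hunit q).unit⁻¹ : (ZMod N)ˣ) : ZMod N)
    linear_combination u * h1 + x * hu

theorem cross_S_mul (g : SL(2, ℤ)) :
    cross (ModularGroup.S * g) g = -(g 0 0 ^ 2 + 0 * g 0 0 * g 1 0 + g 1 0 ^ 2) := by
  rw [cross, S_mul_apply_zero, S_mul_apply_one]; ring

theorem cross_ST_mul (g : SL(2, ℤ)) :
    cross (ModularGroup.S * ModularGroup.T * g) g =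
      -(g 0 0 ^ 2 + 1 * g 0 0 * g 1 0 + g 1 0 ^ 2) := by
  rw [cross, ST_mul_apply_zero, ST_mul_apply_one]; ring

/-- (C2) The number of fixed points of `S` on `SL(2,ℤ) ⧸ Γ₀(N)` is `ν₂(N)`. -/
theorem card_fixedBy_S (N : ℕ) :
    Nat.card (MulAction.fixedBy (X N) ModularGroup.S) = ModularCurve.nuTwo N := by
  rw [card_fixedBy_of_quadratic N ModularGroup.S 0 cross_S_mul, ModularCurve.nuTwo]
  refine Nat.card_congr (Equiv.subtypeEquivRight fun x => ?_)
  simp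

/-- (C3) The number of fixed points of `S T` on `SL(2,ℤ) ⧸ Γ₀(N)` is `ν₃(N)`. -/
theorem card_fixedBy_ST (N : ℕ) :
    Nat.card (MulAction.fixedBy (X N) (ModularGroup.S * ModularGroup.T)) =
      ModularCurve.nuThree N := by
  rw [card_fixedBy_of_quadratic N (ModularGroup.S * ModularGroup.T) 1 cross_ST_mul,
    ModularCurve.nuThree]
  refine Nat.card_congr (Equiv.subtypeEquivRight fun x => ?_)
  simp

end Fermat.Agent.S24.Comb
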