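import Mathlib
import Fermat.Agent.S24.Defs
import Fermat.Agent.S24.CombBasic
import Fermat.Agent.S24.CombFixed
import Fermat.Agent.S24.CombCusp
import Fermat.Agent.S24.CombPsi
import Fermat.Agent.S24.CombIndex
import Fermat.Agent.S24.CombBurnside

/-!
# S24, block (C): the combinatorial package COMB

Proofs of the five statements (C0)–(C4) of `Fermat.Agent.S24.Defs`:

* `comb_cosetFinite : CosetFiniteStatement`  — `Γ₀(N)` has finite index,
* `comb_cosetCard   : CosetCardStatement`    — the index is `ψ(N)`,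
* `comb_orbitsS     : OrbitsSStatement`      — `2 · #(⟨S⟩ \ X) = ψ(N) + ν₂(N)`,
* `comb_orbitsST    : OrbitsSTStatement`     — `3 · #(⟨ST⟩ \ X) = ψ(N) + 2 ν₃(N)`,
* `comb_orbitsT     : OrbitsTStatement`      — `#(⟨T⟩ \ X) = cuspCount N`.
-/

set_option autoImplicit false

namespace Fermat.Agent.S24.Comb

open scoped MatrixGroups
open CongruenceSubgroup Matrix Matrix.SpecialLinearGroup

theorem pow_two_mul' {G : Type*} [Group G] (h g : G) : h ^ 2 * g = h * (h * g) := by
  rw [pow_two, mul_assoc]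

theorem pow_three_mul' {G : Type*} [Group G] (h g : G) : h ^ 3 * g = h * (h * (h * g)) := by
  rw [pow_succ, pow_two, mul_assoc, mul_assoc]

/-- `S ^ 2 = -1` acts trivially on `SL(2,ℤ) ⧸ Γ₀(N)`. -/
theorem S_sq_smul (N : ℕ) (x : X N) : ModularGroup.S ^ 2 • x = x := by
  induction x using QuotientGroup.induction_on with
  | H g =>
    rw [smul_mk, mk_eq_mk_iff, cross, pow_two_mul']
    simp only [S_mul_apply_zero, S_mul_apply_one]
    exact ⟨0, by ring⟩

/-- `(S T) ^ 3 = -1` acts trivially on `SL(2,ℤ) ⧸ Γ₀(N)`. -/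
theorem ST_cube_smul (N : ℕ) (x : X N) : (ModularGroup.S * ModularGroup.T) ^ 3 • x = x := by
  induction x using QuotientGroup.induction_on with
  | H g =>
    rw [smul_mk, mk_eq_mk_iff, cross, pow_three_mul']
    simp only [ST_mul_apply_zero, ST_mul_apply_one]
    exact ⟨0, by ring⟩

/-- (C0) `Γ₀(N)` has finite index. -/
theorem comb_cosetFinite : CosetFiniteStatement :=
  fun N _ => finite_X N (NeZero.ne N)

/-- (C1) The index of `Γ₀(N)` is `ψ(N)`. -/
theorem comb_cosetCard : CosetCardStatement :=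
  fun N _ => card_X N (NeZero.ne N)

/-- (C2) `2 · #(⟨S⟩ \ X) = ψ(N) + ν₂(N)`. -/
theorem comb_orbitsS : OrbitsSStatement := by
  intro N _
  have hfin : Finite (X N) := finite_X N (NeZero.ne N)
  have h := card_orbits_zpowers_of_prime (X := X N) ModularGroup.S Nat.prime_two (S_sq_smul N)
  rw [card_fixedBy_S, card_X N (NeZero.ne N)] at h
  rw [orbitCount, h]
  norm_num

/-- (C3) `3 · #(⟨ST⟩ \ X) = ψ(N) + 2 ν₃(N)`. -/
theorem comb_orbitsST : OrbitsSTStatement := by
  intro N _
  have hfin : Finite (X N) := finite_X N (NeZero.ne N)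
  have h := card_orbits_zpowers_of_prime (X := X N) (ModularGroup.S * ModularGroup.T)
    Nat.prime_three (ST_cube_smul N)
  rw [card_fixedBy_ST, card_X N (NeZero.ne N)] at h
  rw [orbitCount, elST, h]

/-- (C4) The `T`-orbits are the cusps. -/
theorem comb_orbitsT : OrbitsTStatement :=
  fun N _ => card_orbits_T N

end Fermat.Agent.S24.Comb
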