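/-
S24: dictionary between `Place.ord` and membership in the valuation ring / its maximal ideal.
Owner: helper22.  Imports only Mathlib + the prelude definition of places.
-/
import Mathlib
import Fermat.Prelude.Def_AlgebraicCurve_DivisorClassGroup

set_option autoImplicit false

noncomputable section

namespace Fermat.Agent.S24

open AlgebraicCurve IsDedekindDomain

variable {K F : Type*} [Field K] [Field F] [Algebra K F]

/-- An irreducible element (uniformizer) of the valuation ring of a place. -/
theorem place_exists_irreducible (v : Place K F) :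
    ∃ π : v.toValuationSubring, Irreducible π :=
  IsDiscreteValuationRing.exists_irreducible v.toValuationSubring

theorem place_ord_nonneg_of_mem (v : Place K F) {f : F} (hf : f ∈ v.toValuationSubring) :
    0 ≤ v.ord f := by
  rcases eq_or_ne f 0 with rfl | hf0
  · simp
  have h1 : v.adicValuation f ≤ 1 := by
    have := v.adicValuation_coe ⟨f, hf⟩
    rw [show ((⟨f, hf⟩ : v.toValuationSubring) : F) = f from rfl] at this
    rw [this]
    exact HeightOneSpectrum.intValuation_le_one _ _
  have h2 : WithZero.log (v.adicValuation f) ≤ 0 := by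
    have := (WithZero.log_le_log (v.adicValuation_ne_zero hf0) one_ne_zero).mpr h1
    simpa using this
  unfold Place.ord
  omega

theorem place_mem_of_ord_nonneg (v : Place K F) {f : F} (hf : 0 ≤ v.ord f) :
    f ∈ v.toValuationSubring := by
  rcases eq_or_ne f 0 with rfl | hf0
  · exact zero_mem _
  obtain ⟨π, hπ⟩ := place_exists_irreducible v
  obtain ⟨u, hu⟩ := v.exists_unit_mul_zpow hf0 hπ
  rw [hu]
  refine mul_mem (u : v.toValuationSubring).2 ?_
  obtain ⟨n, hn⟩ := Int.eq_ofNat_of_zero_le hf
  rw [hn, zpow_natCast]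
  exact pow_mem π.2 n

/-- `f` is regular at `v` iff `ord_v f ≥ 0` (also true for `f = 0`). -/
theorem place_mem_iff (v : Place K F) {f : F} :
    f ∈ v.toValuationSubring ↔ 0 ≤ v.ord f :=
  ⟨place_ord_nonneg_of_mem v, place_mem_of_ord_nonneg v⟩

theorem place_zero_mem_nonunits (v : Place K F) : (0 : F) ∈ v.toValuationSubring.nonunits :=
  zero_mem _

/-- For `f ≠ 0`: `f` vanishes at `v` iff `ord_v f > 0`. -/
theorem place_mem_nonunits_iff (v : Place K F) {f : F} (hf0 : f ≠ 0) :
    f ∈ v.toValuationSubring.nonunits ↔ 0 < v.ord f := by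
  obtain ⟨π, hπ⟩ := place_exists_irreducible v
  obtain ⟨u, hu⟩ := v.exists_unit_mul_zpow hf0 hπ
  constructor
  · intro h
    rw [ValuationSubring.mem_nonunits_iff_exists_mem_maximalIdeal] at h
    obtain ⟨hmem, hmax⟩ := h
    have h0 := place_ord_nonneg_of_mem v hmem
    rcases h0.lt_or_eq with h1 | h1
    · exact h1
    · exfalso
      rw [← h1, zpow_zero, mul_one] at hu
      have : (⟨f, hmem⟩ : v.toValuationSubring) = u := Subtype.ext hu
      rw [this] at hmax
      exact (IsLocalRing.mem_maximalIdeal _).mp hmax u.isUnit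
  · intro h
    rw [ValuationSubring.mem_nonunits_iff_exists_mem_maximalIdeal]
    have hmem : f ∈ v.toValuationSubring := place_mem_of_ord_nonneg v h.le
    refine ⟨hmem, ?_⟩
    rw [IsLocalRing.mem_maximalIdeal, mem_nonunits_iff]
    intro hunit
    obtain ⟨w, hw⟩ := hunit
    have hw' : ((w : v.toValuationSubring) : F) = f := congrArg Subtype.val hw
    have := v.ord_coe_unit w
    rw [hw'] at this
    omega

/-- `f` vanishes at `v` iff `f = 0` or `ord_v f > 0`. -/
theorem place_mem_nonunits_iff' (v : Place K F) {f : F} :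
    f ∈ v.toValuationSubring.nonunits ↔ f = 0 ∨ 0 < v.ord f := by
  rcases eq_or_ne f 0 with rfl | hf0
  · simp
  · rw [place_mem_nonunits_iff v hf0]
    simp [hf0]

theorem place_nonunits_subset (v : Place K F) {f : F}
    (hf : f ∈ v.toValuationSubring.nonunits) : f ∈ v.toValuationSubring := by
  rw [ValuationSubring.mem_nonunits_iff_exists_mem_maximalIdeal] at hf
  exact hf.1

/-- A nonzero `f` is a unit at `v` iff `ord_v f = 0`. -/
theorem place_ord_eq_zero_iff (v : Place K F) {f : F} (hf0 : f ≠ 0) :
    v.ord f = 0 ↔ f ∈ v.toValuationSubring ∧ f ∉ v.toValuationSubring.nonunits := by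
  rw [place_mem_iff, place_mem_nonunits_iff v hf0]
  omega

/-- Exactly one of: `f` regular, or `f⁻¹` vanishes. -/
theorem place_mem_or_inv_mem_nonunits (v : Place K F) (f : F) :
    f ∈ v.toValuationSubring ∨ f⁻¹ ∈ v.toValuationSubring.nonunits := by
  rcases eq_or_ne f 0 with rfl | hf0
  · exact Or.inl (zero_mem _)
  rw [place_mem_iff, place_mem_nonunits_iff v (inv_ne_zero hf0), v.ord_inv]
  omega

theorem place_not_mem_of_inv_mem_nonunits (v : Place K F) {f : F} (hf0 : f ≠ 0)
    (h : f⁻¹ ∈ v.toValuationSubring.nonunits) : f ∉ v.toValuationSubring := by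
  rw [place_mem_nonunits_iff v (inv_ne_zero hf0), v.ord_inv] at h
  rw [place_mem_iff]
  omega

/-- Nonzero constants have order `0`. -/
theorem place_ord_algebraMap (v : Place K F) (c : K) : v.ord (algebraMap K F c) = 0 := by
  rcases eq_or_ne c 0 with rfl | hc
  · simp
  have h1 : algebraMap K F c ≠ 0 := by simpa using hc
  have h2 := place_ord_nonneg_of_mem v (v.algebraMap_mem' c)
  have h3 := place_ord_nonneg_of_mem v (v.algebraMap_mem' c⁻¹)
  rw [map_inv₀, v.ord_inv] at h3
  omega

theorem place_algebraMap_not_mem_nonunits (v : Place K F) {c : K} (hc : c ≠ 0) :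
    algebraMap K F c ∉ v.toValuationSubring.nonunits := by
  have h1 : algebraMap K F c ≠ 0 := by simpa using hc
  rw [place_mem_nonunits_iff v h1, place_ord_algebraMap]
  omega

theorem place_ord_pow (v : Place K F) (f : F) (n : ℕ) : v.ord (f ^ n) = n * v.ord f := by
  have := v.ord_zpow f n
  simpa using this

theorem place_ord_neg (v : Place K F) (f : F) : v.ord (-f) = v.ord f := by
  unfold Place.ord
  rw [Valuation.map_neg]

/-- The ultrametric inequality. -/
theorem place_ord_add_ge (v : Place K F) {f g : F} (hf : f ≠ 0) (hg : g ≠ 0)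
    (hfg : f + g ≠ 0) : min (v.ord f) (v.ord g) ≤ v.ord (f + g) := by
  have h := v.adicValuation.map_add f g
  have hf' := v.adicValuation_ne_zero hf
  have hg' := v.adicValuation_ne_zero hg
  have hfg' := v.adicValuation_ne_zero hfg
  unfold Place.ord
  rcases le_max_iff.mp h with h1 | h1
  · have := (WithZero.log_le_log hfg' hf').mpr h1
    have h2 : min (-WithZero.log (v.adicValuation f)) (-WithZero.log (v.adicValuation g))
        ≤ -WithZero.log (v.adicValuation f) := min_le_left _ _
    omega
  · have := (WithZero.log_le_log hfg' hg').mpr h1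
    have h2 : min (-WithZero.log (v.adicValuation f)) (-WithZero.log (v.adicValuation g))
        ≤ -WithZero.log (v.adicValuation g) := min_le_right _ _
    omega

/-- If `ord f < ord g` then `ord (f + g) = ord f`. -/
theorem place_ord_add_eq_of_lt (v : Place K F) {f g : F} (hf : f ≠ 0) (hg : g ≠ 0)
    (h : v.ord f < v.ord g) : v.ord (f + g) = v.ord f := by
  have hfg : f + g ≠ 0 := by
    intro h0
    have : f = -g := eq_neg_of_add_eq_zero_left h0
    rw [this, place_ord_neg] at h
    exact lt_irrefl _ h
  have h1 := place_ord_add_ge v hf hg hfg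
  have h2 : min (v.ord (f + g)) (v.ord (-g)) ≤ v.ord (f + g + -g) :=
    place_ord_add_ge v hfg (neg_ne_zero.mpr hg) (by simpa using hf)
  rw [place_ord_neg] at h2
  simp only [add_neg_cancel_right] at h2
  rcases le_total (v.ord f) (v.ord g) with h3 | h3
  · rw [min_eq_left h3] at h1
    rcases le_total (v.ord (f + g)) (v.ord g) with h4 | h4
    · rw [min_eq_left h4] at h2
      omega
    · rw [min_eq_right h4] at h2
      omega
  · omega

/-- There are no inclusions between (the valuation rings of) distinct places. -/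
theorem place_eq_of_le {v w : Place K F} (h : v.toValuationSubring ≤ w.toValuationSubring) :
    v = w := by
  apply Place.ext
  apply le_antisymm h
  intro f hf
  by_contra hfv
  have hf0 : f ≠ 0 := fun h0 => hfv (h0 ▸ zero_mem _)
  -- `ord_v f < 0`
  have hneg : v.ord f < 0 := by
    by_contra hcon
    exact hfv (place_mem_of_ord_nonneg v (not_lt.mp hcon))
  obtain ⟨π, hπ⟩ := place_exists_irreducible v
  have hπ0 : (π : F) ≠ 0 := by
    simpa [ne_eq, ZeroMemClass.coe_eq_zero] using hπ.ne_zero
  -- `π⁻¹ ∈ O_w`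
  have hπinv : (π : F)⁻¹ ∈ w.toValuationSubring := by
    obtain ⟨u, hu⟩ := v.exists_unit_mul_zpow hf0 hπ
    obtain ⟨k, hk⟩ : ∃ k : ℕ, v.ord f = -((k : ℤ) + 1) :=
      ⟨(-(v.ord f) - 1).toNat, by omega⟩
    have h1 : (π : F)⁻¹ = ((u⁻¹ : v.toValuationSubringˣ) : v.toValuationSubring) * f * (π : F) ^ k := by
      rw [hu, hk]
      have hu0 : ((u : v.toValuationSubring) : F) ≠ 0 := by
        simp [ne_eq, ZeroMemClass.coe_eq_zero]
      have huinv : (((u⁻¹ : v.toValuationSubringˣ) : v.toValuationSubring) : F)
          * ((u : v.toValuationSubring) : F) = 1 := by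
        rw [← MulMemClass.coe_mul, Units.inv_mul]
        rfl
      rw [← mul_assoc, huinv, one_mul, zpow_neg, zpow_add₀ hπ0, zpow_natCast, zpow_one]
      field_simp
    rw [h1]
    exact mul_mem (mul_mem (h (u⁻¹ : v.toValuationSubringˣ).1.2) hf) (pow_mem (h π.2) k)
  -- hence `O_w = F`
  apply w.ne_top'
  refine SetLike.ext fun x => ⟨fun _ => ValuationSubring.mem_top x, fun _ => ?_⟩
  rcases eq_or_ne x 0 with rfl | hx0
  · exact zero_mem _
  obtain ⟨u, hu⟩ := v.exists_unit_mul_zpow hx0 hπ
  rw [hu]
  refine mul_mem (h u.1.2) ?_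
  rcases le_total 0 (v.ord x) with h0 | h0
  · obtain ⟨n, hn⟩ := Int.eq_ofNat_of_zero_le h0
    rw [hn, zpow_natCast]
    exact pow_mem (h π.2) n
  · obtain ⟨n, hn⟩ : ∃ n : ℕ, v.ord x = -(n : ℤ) := ⟨(-(v.ord x)).toNat, by omega⟩
    rw [hn, zpow_neg, zpow_natCast, ← inv_pow]
    exact pow_mem hπinv n

/-- Two places with the same maximal ideal... in the weak form: same valuation ring. -/
theorem place_eq_iff {v w : Place K F} :
    v = w ↔ ∀ f : F, f ∈ v.toValuationSubring → f ∈ w.toValuationSubring :=
  ⟨fun h _ hf => h ▸ hf, fun h => place_eq_of_le h⟩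

end Fermat.Agent.S24
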