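/-
S24 package (VAL): a place from an order function.
Owner: helper2.  Imports only Mathlib + the prelude definition of places + helper22's dictionary.

Given `w : F → ℤ` with `w (f g) = w f + w g`, `w (f + g) ≥ min (w f) (w g)` (on nonzero
arguments), `w c = 0` for nonzero constants and `w` not identically zero on `F \ 0`, there is a
place `v` of `F / K` and `m > 0` with `w f = m * v.ord f` for all `f ≠ 0`.
-/
import Mathlib
import Fermat.Prelude.Def_AlgebraicCurve_DivisorClassGroup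
import Fermat.Agent.S24.PlaceBasic

set_option autoImplicit false

noncomputable section

namespace Fermat.Agent.S24

open AlgebraicCurve

variable {K F : Type*} [Field K] [Field F] [Algebra K F]

section basic

variable (w : F → ℤ)
  (hmul : ∀ f g : F, f ≠ 0 → g ≠ 0 → w (f * g) = w f + w g)

include hmul

theorem val_map_one : w 1 = 0 := by
  have := hmul 1 1 one_ne_zero one_ne_zero
  rw [mul_one] at this
  omega

theorem val_map_neg_one : w (-1) = 0 := by
  have := hmul (-1) (-1) (by simp) (by simp)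
  rw [neg_mul_neg, mul_one, val_map_one w hmul] at this
  omega

theorem val_map_neg {f : F} (hf : f ≠ 0) : w (-f) = w f := by
  have := hmul (-1) f (by simp) hf
  rw [neg_one_mul, val_map_neg_one w hmul] at this
  omega

theorem val_map_inv {f : F} (hf : f ≠ 0) : w f⁻¹ = -w f := by
  have := hmul f f⁻¹ hf (inv_ne_zero hf)
  rw [mul_inv_cancel₀ hf, val_map_one w hmul] at this
  omega

theorem val_map_div {f g : F} (hf : f ≠ 0) (hg : g ≠ 0) : w (f / g) = w f - w g := by
  rw [div_eq_mul_inv, hmul f g⁻¹ hf (inv_ne_zero hg), val_map_inv w hmul hg]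
  ring

theorem val_map_pow {f : F} (hf : f ≠ 0) (n : ℕ) : w (f ^ n) = n * w f := by
  induction n with
  | zero => simp [val_map_one w hmul]
  | succ n ih =>
    rw [pow_succ, hmul _ _ (pow_ne_zero n hf) hf, ih]
    push_cast
    ring

theorem val_map_zpow {f : F} (hf : f ≠ 0) (n : ℤ) : w (f ^ n) = n * w f := by
  obtain ⟨k, rfl | rfl⟩ := n.eq_nat_or_neg
  · rw [zpow_natCast, val_map_pow w hmul hf]
  · rw [zpow_neg, zpow_natCast, val_map_inv w hmul (pow_ne_zero k hf), val_map_pow w hmul hf]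
    ring

end basic

/-- The valuation ring `{f | f = 0 ∨ 0 ≤ w f}` of an order function. -/
def val_subring (w : F → ℤ)
    (hmul : ∀ f g : F, f ≠ 0 → g ≠ 0 → w (f * g) = w f + w g)
    (hadd : ∀ f g : F, f ≠ 0 → g ≠ 0 → f + g ≠ 0 → min (w f) (w g) ≤ w (f + g)) :
    ValuationSubring F where
  carrier := {f | f = 0 ∨ 0 ≤ w f}
  mul_mem' := by
    rintro a b (rfl | ha) (rfl | hb)
    · exact Or.inl (by simp)
    · exact Or.inl (by simp)
    · exact Or.inl (by simp)
    · rcases eq_or_ne a 0 with rfl | ha0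
      · exact Or.inl (by simp)
      rcases eq_or_ne b 0 with rfl | hb0
      · exact Or.inl (by simp)
      right
      rw [hmul a b ha0 hb0]
      omega
  one_mem' := Or.inr (by rw [val_map_one w hmul])
  add_mem' := by
    rintro a b ha hb
    rcases eq_or_ne a 0 with rfl | ha0
    · simpa using hb
    rcases eq_or_ne b 0 with rfl | hb0
    · simpa using ha
    rcases eq_or_ne (a + b) 0 with hab | hab
    · exact Or.inl hab
    right
    have ha' : 0 ≤ w a := ha.resolve_left ha0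
    have hb' : 0 ≤ w b := hb.resolve_left hb0
    exact le_trans (le_min ha' hb') (hadd a b ha0 hb0 hab)
  zero_mem' := Or.inl rfl
  neg_mem' := by
    rintro a (rfl | ha)
    · exact Or.inl (by simp)
    · rcases eq_or_ne a 0 with rfl | ha0
      · exact Or.inl (by simp)
      right
      rw [val_map_neg w hmul ha0]
      exact ha
  mem_or_inv_mem' := by
    intro a
    rcases eq_or_ne a 0 with rfl | ha0
    · exact Or.inl (Or.inl rfl)
    rcases le_total 0 (w a) with h | h
    · exact Or.inl (Or.inr h)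
    · refine Or.inr (Or.inr ?_)
      rw [val_map_inv w hmul ha0]
      omega

theorem val_mem_subring_iff (w : F → ℤ)
    (hmul : ∀ f g : F, f ≠ 0 → g ≠ 0 → w (f * g) = w f + w g)
    (hadd : ∀ f g : F, f ≠ 0 → g ≠ 0 → f + g ≠ 0 → min (w f) (w g) ≤ w (f + g)) (f : F) :
    f ∈ val_subring w hmul hadd ↔ f = 0 ∨ 0 ≤ w f := Iff.rfl

section main

variable (w : F → ℤ)
  (hmul : ∀ f g : F, f ≠ 0 → g ≠ 0 → w (f * g) = w f + w g)
  (hadd : ∀ f g : F, f ≠ 0 → g ≠ 0 → f + g ≠ 0 → min (w f) (w g) ≤ w (f + g))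

/-- Units of the valuation ring have order `0`. -/
theorem val_map_unit (u : (val_subring w hmul hadd)ˣ) :
    w ((u : val_subring w hmul hadd) : F) = 0 := by
  have h1 : ((u : val_subring w hmul hadd) : F) * (((u⁻¹ : (val_subring w hmul hadd)ˣ) :
      val_subring w hmul hadd) : F) = 1 := by
    rw [← MulMemClass.coe_mul, ← Units.val_mul, mul_inv_cancel]
    rfl
  have hu0 : ((u : val_subring w hmul hadd) : F) ≠ 0 := left_ne_zero_of_mul_eq_one h1
  have hv0 : (((u⁻¹ : (val_subring w hmul hadd)ˣ) : val_subring w hmul hadd) : F) ≠ 0 :=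
    right_ne_zero_of_mul_eq_one h1
  have h2 := hmul _ _ hu0 hv0
  rw [h1, val_map_one w hmul] at h2
  have h3 : 0 ≤ w ((u : val_subring w hmul hadd) : F) :=
    ((val_mem_subring_iff w hmul hadd _).mp (u : val_subring w hmul hadd).2).resolve_left hu0
  have h4 : 0 ≤ w (((u⁻¹ : (val_subring w hmul hadd)ˣ) : val_subring w hmul hadd) : F) :=
    ((val_mem_subring_iff w hmul hadd _).mp
      ((u⁻¹ : (val_subring w hmul hadd)ˣ) : val_subring w hmul hadd).2).resolve_left hv0
  omega

/-- An element of order `0` is a unit of the valuation ring. -/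
theorem val_isUnit_of_map_eq_zero (a : val_subring w hmul hadd) (ha0 : (a : F) ≠ 0)
    (ha : w (a : F) = 0) : IsUnit a := by
  have hinv : (a : F)⁻¹ ∈ val_subring w hmul hadd := by
    refine Or.inr ?_
    rw [val_map_inv w hmul ha0, ha]
    simp
  refine IsUnit.of_mul_eq_one ⟨(a : F)⁻¹, hinv⟩ ?_
  apply Subtype.ext
  simp [mul_inv_cancel₀ ha0]

include hmul in
/-- The least positive value of `w`. -/
theorem val_exists_min_pos (hne : ∃ f : F, f ≠ 0 ∧ w f ≠ 0) :
    ∃ (m : ℕ) (π : F), 0 < m ∧ π ≠ 0 ∧ w π = (m : ℤ) ∧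
      ∀ f : F, f ≠ 0 → 0 < w f → (m : ℤ) ≤ w f := by
  classical
  have hex : ∃ k : ℕ, 0 < k ∧ ∃ f : F, f ≠ 0 ∧ w f = (k : ℤ) := by
    obtain ⟨f, hf0, hf⟩ := hne
    rcases lt_or_gt_of_ne hf with h | h
    · refine ⟨(-(w f)).toNat, by omega, f⁻¹, inv_ne_zero hf0, ?_⟩
      rw [val_map_inv w hmul hf0]
      omega
    · exact ⟨(w f).toNat, by omega, f, hf0, by omega⟩
  obtain ⟨hpos, π, hπ0, hπ⟩ := Nat.find_spec hex
  refine ⟨Nat.find hex, π, hpos, hπ0, hπ, ?_⟩
  intro f hf0 hf
  have := Nat.find_min' hex (m := (w f).toNat) ⟨by omega, f, hf0, by omega⟩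
  omega

include hmul in
/-- Every value of `w` is a multiple of the least positive value. -/
theorem val_dvd_of_min {m : ℕ} {π : F} (hm : 0 < m) (hπ0 : π ≠ 0) (hπ : w π = (m : ℤ))
    (hmin : ∀ f : F, f ≠ 0 → 0 < w f → (m : ℤ) ≤ w f) {f : F} (hf : f ≠ 0) :
    (m : ℤ) ∣ w f := by
  have hm' : (0 : ℤ) < m := by exact_mod_cast hm
  set q := w f / (m : ℤ)
  set r := w f % (m : ℤ)
  have hqr : (m : ℤ) * q + r = w f := Int.mul_ediv_add_emod _ _
  have hr0 : 0 ≤ r := Int.emod_nonneg _ hm'.ne'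
  have hr1 : r < m := Int.emod_lt_of_pos _ hm'
  have hg0 : f * π ^ (-q) ≠ 0 := mul_ne_zero hf (zpow_ne_zero _ hπ0)
  have hg : w (f * π ^ (-q)) = r := by
    rw [hmul _ _ hf (zpow_ne_zero _ hπ0), val_map_zpow w hmul hπ0, hπ]
    linarith
  rcases hr0.lt_or_eq with h | h
  · have := hmin _ hg0 (by rw [hg]; exact h)
    rw [hg] at this
    omega
  · exact Int.dvd_of_emod_eq_zero h.symm

end main

/-- **(VAL)** A nontrivial order function `w` on `F`, trivial on the constants, comes from a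
place `v` of `F / K`: `w = m * v.ord` for some `m > 0`.  Moreover the valuation ring of `v` is
`{f | f = 0 ∨ 0 ≤ w f}`. -/
theorem val_exists_place_strong (w : F → ℤ)
    (hmul : ∀ f g : F, f ≠ 0 → g ≠ 0 → w (f * g) = w f + w g)
    (hadd : ∀ f g : F, f ≠ 0 → g ≠ 0 → f + g ≠ 0 → min (w f) (w g) ≤ w (f + g))
    (hK : ∀ c : K, c ≠ 0 → w (algebraMap K F c) = 0) (hne : ∃ f : F, f ≠ 0 ∧ w f ≠ 0) :
    ∃ (v : AlgebraicCurve.Place K F) (m : ℕ), 0 < m ∧
      v.toValuationSubring = val_subring w hmul hadd ∧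
      ∀ f : F, f ≠ 0 → w f = (m : ℤ) * v.ord f := by
  classical
  obtain ⟨m, π, hm, hπ0, hπ, hmin⟩ := val_exists_min_pos w hmul hne
  have hm' : (0 : ℤ) < m := by exact_mod_cast hm
  set A := val_subring w hmul hadd with hA
  have hπA : π ∈ A := Or.inr (by rw [hπ]; omega)
  -- `π` is irreducible in `A`
  have hirr : Irreducible (⟨π, hπA⟩ : A) := by
    refine ⟨?_, ?_⟩
    · rintro ⟨u, hu⟩
      have := val_map_unit w hmul hadd u
      rw [hu] at this
      change w π = 0 at this
      omega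
    · intro a b hab
      have hab' : π = (a : F) * (b : F) := congrArg Subtype.val hab
      have ha0 : (a : F) ≠ 0 := by
        rintro h
        rw [h, zero_mul] at hab'
        exact hπ0 hab'
      have hb0 : (b : F) ≠ 0 := by
        rintro h
        rw [h, mul_zero] at hab'
        exact hπ0 hab'
      have h1 : w (a : F) + w (b : F) = m := by
        rw [← hmul _ _ ha0 hb0, ← hab', hπ]
      have ha1 : 0 ≤ w (a : F) := (a.2).resolve_left ha0
      have hb1 : 0 ≤ w (b : F) := (b.2).resolve_left hb0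
      rcases ha1.lt_or_eq with h | h
      · right
        have := hmin _ ha0 h
        exact val_isUnit_of_map_eq_zero w hmul hadd b hb0 (by omega)
      · left
        exact val_isUnit_of_map_eq_zero w hmul hadd a ha0 h.symm
  -- unit * power factorisation
  have hfact : IsDiscreteValuationRing.HasUnitMulPowIrreducibleFactorization A := by
    refine ⟨⟨π, hπA⟩, hirr, ?_⟩
    intro x hx
    have hx0 : (x : F) ≠ 0 := by simpa using hx
    have hx1 : 0 ≤ w (x : F) := (x.2).resolve_left hx0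
    obtain ⟨k, hk⟩ := val_dvd_of_min w hmul hm hπ0 hπ hmin hx0
    have hk0 : 0 ≤ k := by
      by_contra hcon
      have hcon' : k < 0 := not_le.mp hcon
      have : (m : ℤ) * k < 0 := mul_neg_of_pos_of_neg hm' hcon'
      omega
    obtain ⟨n, rfl⟩ := Int.eq_ofNat_of_zero_le hk0
    refine ⟨n, ?_⟩
    have hu0 : (x : F) / π ^ n ≠ 0 := div_ne_zero hx0 (pow_ne_zero n hπ0)
    have hu1 : w ((x : F) / π ^ n) = 0 := by
      rw [val_map_div w hmul hx0 (pow_ne_zero n hπ0), val_map_pow w hmul hπ0, hπ, hk]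
      ring
    have huA : (x : F) / π ^ n ∈ A := Or.inr hu1.ge
    obtain ⟨u, hu⟩ := val_isUnit_of_map_eq_zero w hmul hadd ⟨_, huA⟩ hu0 hu1
    refine ⟨u, ?_⟩
    apply Subtype.ext
    rw [hu]
    push_cast
    field_simp
  have hdvr : IsDiscreteValuationRing A :=
    IsDiscreteValuationRing.ofHasUnitMulPowIrreducibleFactorization hfact
  have hPIR : IsPrincipalIdealRing A := inferInstance
  have hKmem : ∀ a : K, algebraMap K F a ∈ A := by
    intro a
    rcases eq_or_ne a 0 with rfl | ha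
    · exact Or.inl (by simp)
    · exact Or.inr (by rw [hK a ha])
  have htop : A ≠ ⊤ := by
    intro h
    have : π⁻¹ ∈ A := by rw [h]; exact ValuationSubring.mem_top _
    rcases this with h0 | h0
    · exact inv_ne_zero hπ0 h0
    · rw [val_map_inv w hmul hπ0, hπ] at h0
      omega
  let v : AlgebraicCurve.Place K F := ⟨A, hKmem, htop, hPIR⟩
  refine ⟨v, m, hm, rfl, ?_⟩
  intro f hf
  have hirr' : Irreducible (⟨π, hπA⟩ : v.toValuationSubring) := hirr
  obtain ⟨u, hu⟩ := v.exists_unit_mul_zpow hf hirr'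
  have hu0 : ((u : v.toValuationSubring) : F) ≠ 0 := by
    intro h
    rw [h, zero_mul] at hu
    exact hf hu
  have hwu : w ((u : v.toValuationSubring) : F) = 0 := val_map_unit w hmul hadd u
  conv_lhs => rw [hu]
  rw [hmul _ _ hu0 (zpow_ne_zero _ hπ0), hwu, val_map_zpow w hmul hπ0, hπ]
  ring

/-- **(VAL)**, the announced shape. -/
theorem val_exists_place (w : F → ℤ)
    (hmul : ∀ f g : F, f ≠ 0 → g ≠ 0 → w (f * g) = w f + w g)
    (hadd : ∀ f g : F, f ≠ 0 → g ≠ 0 → f + g ≠ 0 → min (w f) (w g) ≤ w (f + g))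
    (hK : ∀ c : K, c ≠ 0 → w (algebraMap K F c) = 0) (hne : ∃ f : F, f ≠ 0 ∧ w f ≠ 0) :
    ∃ (v : AlgebraicCurve.Place K F) (m : ℕ), 0 < m ∧
      ∀ f : F, f ≠ 0 → w f = (m : ℤ) * v.ord f := by
  obtain ⟨v, m, hm, -, h⟩ := val_exists_place_strong (K := K) w hmul hadd hK hne
  exact ⟨v, m, hm, h⟩

/-- **(VAL)** with all by-products: membership in the valuation ring and in its maximal ideal
in terms of `w`, and the sign dictionary between `w` and `v.ord`. -/
theorem val_exists_place_full (w : F → ℤ)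
    (hmul : ∀ f g : F, f ≠ 0 → g ≠ 0 → w (f * g) = w f + w g)
    (hadd : ∀ f g : F, f ≠ 0 → g ≠ 0 → f + g ≠ 0 → min (w f) (w g) ≤ w (f + g))
    (hK : ∀ c : K, c ≠ 0 → w (algebraMap K F c) = 0) (hne : ∃ f : F, f ≠ 0 ∧ w f ≠ 0) :
    ∃ (v : AlgebraicCurve.Place K F) (m : ℕ), 0 < m ∧
      (∀ f : F, f ≠ 0 → w f = (m : ℤ) * v.ord f) ∧
      (∀ f : F, f ∈ v.toValuationSubring ↔ f = 0 ∨ 0 ≤ w f) ∧
      (∀ f : F, f ∈ v.toValuationSubring.nonunits ↔ f = 0 ∨ 0 < w f) ∧
      (∀ f : F, f ≠ 0 → (0 < w f ↔ 0 < v.ord f)) ∧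
      (∀ f : F, f ≠ 0 → (0 ≤ w f ↔ 0 ≤ v.ord f)) ∧
      (∀ f : F, f ≠ 0 → (w f = 0 ↔ v.ord f = 0)) := by
  obtain ⟨v, m, hm, hv, h⟩ := val_exists_place_strong (K := K) w hmul hadd hK hne
  have hm' : (0 : ℤ) < m := by exact_mod_cast hm
  have hpos : ∀ f : F, f ≠ 0 → (0 < w f ↔ 0 < v.ord f) := by
    intro f hf
    rw [h f hf]
    constructor
    · intro h1
      exact (pos_iff_pos_of_mul_pos h1).mp hm'
    · intro h1
      exact mul_pos hm' h1
  have hzero : ∀ f : F, f ≠ 0 → (w f = 0 ↔ v.ord f = 0) := by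
    intro f hf
    rw [h f hf]
    constructor
    · intro h1
      rcases mul_eq_zero.mp h1 with h2 | h2
      · omega
      · exact h2
    · intro h1
      rw [h1, mul_zero]
  have hnonneg : ∀ f : F, f ≠ 0 → (0 ≤ w f ↔ 0 ≤ v.ord f) := by
    intro f hf
    have h1 := hpos f hf
    have h2 := hzero f hf
    omega
  refine ⟨v, m, hm, h, ?_, ?_, hpos, hnonneg, hzero⟩
  · intro f
    rw [hv]
    exact Iff.rfl
  · intro f
    rw [place_mem_nonunits_iff' v]
    rcases eq_or_ne f 0 with rfl | hf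
    · simp
    · rw [hpos f hf]

end Fermat.Agent.S24
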