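/-
S24, pure algebra around the coordinate `j` (owner: helper10):
* `coord_jTranscendental : JTranscendentalStatement` — the formal `j` is transcendental over `Q̄`,
* `coord_jCoordinate` — `j` is a coordinate on `X₀(N)` (given integrality of `ringA N` over `Q̄[j]`).
-/
import Mathlib
import Fermat.Agent.S24.ANDefs
import Fermat.Agent.S24.FracRingA

set_option autoImplicit false

noncomputable section

namespace Fermat.Agent.S24

open AlgebraicCurve IntermediateField
open scoped MatrixGroups

/-! ### `j` is transcendental -/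

/-- The coefficient of `q^(-n)` in the `i`-th power of the Laurent series of `j`. -/
theorem coord_coeff_jLaurent_pow_self (n : ℕ) :
    ((jLaurent 1) ^ n).coeff (-(n : ℤ)) = 1 := by
  rw [jLaurent, ModularCurve.qExpand_one_apply, ← map_pow, ModularCurve.coeffEmb_coeff,
    ModularCurve.coeff_jq_pow_self, map_one]

theorem coord_coeff_jLaurent_pow_of_lt {n : ℕ} {m : ℤ} (hm : m < -(n : ℤ)) :
    ((jLaurent 1) ^ n).coeff m = 0 := by
  rw [jLaurent, ModularCurve.qExpand_one_apply, ← map_pow, ModularCurve.coeffEmb_coeff,
    ModularCurve.coeff_jq_pow_of_lt hm, map_zero]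

/-- The coefficient of `q^(-n)` of `p(j)` for a polynomial `p` of degree `≤ n` is the `n`-th
coefficient of `p`. -/
theorem coord_coeff_algebraMap_mul (c : QBar) (x : LaurentSeries QBar) (k : ℤ) :
    (algebraMap QBar (LaurentSeries QBar) c * x).coeff k = c * x.coeff k := by
  rw [ModularCurve.algebraMap_laurentSeries_eq_single, HahnSeries.coeff_single_zero_mul]

theorem coord_coeff_aeval_jLaurent (p : Polynomial QBar) :
    (Polynomial.aeval (jLaurent 1) p).coeff (-(p.natDegree : ℤ)) = p.leadingCoeff := by
  rw [Polynomial.aeval_eq_sum_range, HahnSeries.coeff_sum, Finset.sum_range_succ]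
  rw [Finset.sum_eq_zero, zero_add, Algebra.smul_def, coord_coeff_algebraMap_mul,
    coord_coeff_jLaurent_pow_self, mul_one, Polynomial.leadingCoeff]
  intro i hi
  have hi' : i < p.natDegree := Finset.mem_range.mp hi
  rw [Algebra.smul_def, coord_coeff_algebraMap_mul, coord_coeff_jLaurent_pow_of_lt (by omega),
    mul_zero]

theorem coord_transcendental_jLaurent : Transcendental QBar (jLaurent 1) := by
  intro halg
  obtain ⟨p, hp0, hp⟩ := halg
  have h := coord_coeff_aeval_jLaurent p
  rw [hp, HahnSeries.coeff_zero] at h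
  exact hp0 (Polynomial.leadingCoeff_eq_zero.mp h.symm)

/-- (AN-G0) The formal `j` is transcendental over `Q̄`. -/
theorem coord_jTranscendental : JTranscendentalStatement := by
  intro N _ halg
  have h2 : IsAlgebraic QBar ((jF N : FunField N) : LaurentSeries QBar) :=
    (IntermediateField.isAlgebraic_iff).mp halg
  exact coord_transcendental_jLaurent h2


/-! ### `j` is a coordinate -/

section Finite

variable {K F : Type*} [Field K] [Field F] [Algebra K F]

/-- Integrality over `K[u]` implies integrality over `K(u)`. -/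
theorem coord_isIntegral_adjoin_field {u x : F} (hx : IsIntegral (Algebra.adjoin K {u}) x) :
    IsIntegral K⟮u⟯ x := by
  obtain ⟨p, hp, hpx⟩ := hx
  have hle : Algebra.adjoin K {u} ≤ K⟮u⟯.toSubalgebra :=
    IntermediateField.algebra_adjoin_le_adjoin K {u}
  let φ : Algebra.adjoin K {u} →+* K⟮u⟯ := (Subalgebra.inclusion hle).toRingHom
  refine ⟨p.map φ, hp.map φ, ?_⟩
  rw [Polynomial.eval₂_map]
  exact hpx

/-- If `F` is the field of fractions of a subalgebra `A = K[S]` generated by a finite set `S`
of elements integral over `K[u]`, then `F` is finite over `K(u)`. -/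
theorem coord_finite_of_integral (u : F) (S : Set F) (hS : S.Finite)
    (hint : ∀ x ∈ S, IsIntegral (Algebra.adjoin K {u}) x)
    (hfrac : ∀ f : F, ∃ a ∈ Algebra.adjoin K S, ∃ b ∈ Algebra.adjoin K S, f = a / b) :
    FiniteDimensional K⟮u⟯ F := by
  have : Finite S := hS
  have hfd : FiniteDimensional K⟮u⟯ (IntermediateField.adjoin K⟮u⟯ S) :=
    IntermediateField.finiteDimensional_adjoin
      (fun x hx => coord_isIntegral_adjoin_field (hint x hx))
  have hsub : ∀ a ∈ Algebra.adjoin K S, a ∈ IntermediateField.adjoin K⟮u⟯ S := by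
    intro a ha
    induction ha using Algebra.adjoin_induction with
    | mem x hx => exact IntermediateField.subset_adjoin _ _ hx
    | algebraMap c =>
      have : algebraMap K F c = algebraMap K⟮u⟯ F (algebraMap K K⟮u⟯ c) := rfl
      rw [this]
      exact (IntermediateField.adjoin K⟮u⟯ S).algebraMap_mem _
    | add x y _ _ hx hy => exact add_mem hx hy
    | mul x y _ _ hx hy => exact mul_mem hx hy
  have htop : IntermediateField.adjoin K⟮u⟯ S = ⊤ := by
    rw [eq_top_iff]
    intro f _
    obtain ⟨a, ha, b, hb, rfl⟩ := hfrac f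
    exact div_mem (hsub a ha) (hsub b hb)
  rw [htop] at hfd
  exact (IntermediateField.topEquiv (F := K⟮u⟯) (E := F)).toLinearEquiv.finiteDimensional

end Finite

theorem coord_jDivSet_finite (N : ℕ) [NeZero N] : (jDivSet N).Finite := by
  classical
  have hN : N ≠ 0 := NeZero.ne N
  let g : {d : ℕ // d ∈ N.divisors} → FunField N := fun d =>
    haveI : NeZero d.1 := ⟨fun h => hN (by
      have := Nat.dvd_of_mem_divisors d.2
      rw [h] at this
      exact Nat.eq_zero_of_zero_dvd this)⟩
    jDiv N d.1 (Nat.dvd_of_mem_divisors d.2)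
  refine (Set.finite_range g).subset ?_
  rintro x ⟨d, hd0, hd, rfl⟩
  exact ⟨⟨d, Nat.mem_divisors.mpr ⟨hd, hN⟩⟩, rfl⟩

/-- (AN-coord) `j` is a coordinate on `X₀(N)`. -/
theorem coord_jCoordinate (hint : RingAIntegralStatement) (hB : BridgeStatement)
    (htr : JTranscendentalStatement) : JCoordinateStatement := by
  intro N _
  obtain ⟨Θ₀, π, hΘ⟩ := hB N
  refine ⟨htr N, ?_⟩
  refine coord_finite_of_integral (jF N) (jDivSet N) (coord_jDivSet_finite N) ?_ ?_
  · rintro x hx
    exact hint N Θ₀ π hΘ ⟨x, Algebra.subset_adjoin hx⟩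
  · intro f
    obtain ⟨a, b, _, hab⟩ := fracA_exists_div N f
    exact ⟨a, a.2, b, b.2, hab⟩

/-- (AN-coord), with the transcendence of `j` plugged in. -/
theorem coord_jCoordinate' (hint : RingAIntegralStatement) (hB : BridgeStatement) :
    JCoordinateStatement :=
  coord_jCoordinate hint hB coord_jTranscendental

end Fermat.Agent.S24
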