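import Mathlib.RingTheory.PowerSeries.Trunc
import Mathlib.RingTheory.PowerSeries.Derivative
import Mathlib.RingTheory.PowerSeries.Inverse
import Mathlib.Algebra.Polynomial.AlgebraMap
import Mathlib.Tactic

/-!
# Taylor expansion at a "rational point" of a domain

`R` is a domain containing a field `K`, `t : R` a nonzero non-unit such that every element of `R`
is congruent modulo `t` to a constant of `K`.  We construct the Taylor expansion
`taylor : R →ₐ[K] K⟦X⟧` with `taylor t = X` and `constantCoeff (taylor f) = res f`.
-/

set_option autoImplicit false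

open PowerSeries

namespace Fermat.Agent.S24.Taylor

/-- The data needed for a Taylor expansion. -/
structure Datum (K R : Type*) [Field K] [CommRing R] [IsDomain R] [Algebra K R] where
  t : R
  ne_zero : t ≠ 0
  not_isUnit : ¬ IsUnit t
  exists_res : ∀ f : R, ∃ c : K, t ∣ f - algebraMap K R c

variable {K R : Type*} [Field K] [CommRing R] [IsDomain R] [Algebra K R]

namespace Datum

variable (d : Datum K R)

theorem eq_zero_of_dvd_algebraMap {c : K} (h : d.t ∣ algebraMap K R c) : c = 0 := by
  by_contra hc
  apply d.not_isUnit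
  have hu : IsUnit (algebraMap K R c) := (IsUnit.mk0 c hc).map (algebraMap K R)
  exact isUnit_of_dvd_unit h hu

theorem res_unique {f : R} {a b : K} (ha : d.t ∣ f - algebraMap K R a)
    (hb : d.t ∣ f - algebraMap K R b) : a = b := by
  have h : d.t ∣ algebraMap K R (b - a) := by
    have := dvd_sub ha hb
    rw [map_sub]
    convert this using 1
    ring
  have := d.eq_zero_of_dvd_algebraMap h
  exact (sub_eq_zero.mp this).symm

/-- The residue (value at the point) of `f`. -/
noncomputable def res (f : R) : K := (d.exists_res f).choose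

theorem res_spec (f : R) : d.t ∣ f - algebraMap K R (d.res f) := (d.exists_res f).choose_spec

theorem res_eq {f : R} {a : K} (ha : d.t ∣ f - algebraMap K R a) : d.res f = a :=
  d.res_unique (d.res_spec f) ha

@[simp] theorem res_algebraMap (a : K) : d.res (algebraMap K R a) = a :=
  d.res_eq (by simp)

@[simp] theorem res_zero : d.res 0 = 0 := by
  simpa using d.res_algebraMap 0

@[simp] theorem res_one : d.res 1 = 1 := by
  simpa using d.res_algebraMap 1

theorem res_add (f g : R) : d.res (f + g) = d.res f + d.res g :=
  d.res_eq (by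
    have := dvd_add (d.res_spec f) (d.res_spec g)
    rw [map_add]; convert this using 1; ring)

theorem res_mul (f g : R) : d.res (f * g) = d.res f * d.res g :=
  d.res_eq (by
    obtain ⟨a, ha⟩ := d.res_spec f
    obtain ⟨b, hb⟩ := d.res_spec g
    refine ⟨a * g + algebraMap K R (d.res f) * b, ?_⟩
    rw [map_mul]
    linear_combination g * ha + algebraMap K R (d.res f) * hb)

theorem res_eq_zero_iff {f : R} : d.res f = 0 ↔ d.t ∣ f := by
  constructor
  · intro h
    have := d.res_spec f
    rwa [h, map_zero, sub_zero] at this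
  · intro h
    exact d.res_eq (by simpa using h)

theorem res_t : d.res d.t = 0 := d.res_eq_zero_iff.mpr dvd_rfl

/-- The shift `(f - f(0)) / t`. -/
noncomputable def shift (f : R) : R := (d.res_spec f).choose

theorem shift_spec (f : R) : f = algebraMap K R (d.res f) + d.t * d.shift f := by
  have := (d.res_spec f).choose_spec
  rw [shift]
  linear_combination this

theorem shift_eq {f g : R} {a : K} (h : f = algebraMap K R a + d.t * g) : d.shift f = g := by
  have ha : d.res f = a := d.res_eq ⟨g, by rw [h]; ring⟩
  have h2 := d.shift_spec f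
  rw [ha] at h2
  have : d.t * d.shift f = d.t * g := by
    have := h2.symm.trans h
    exact add_left_cancel this
  exact mul_left_cancel₀ d.ne_zero this

/-- The Taylor coefficients. -/
noncomputable def coeff (n : ℕ) (f : R) : K := d.res (d.shift^[n] f)

@[simp] theorem coeff_zero (f : R) : d.coeff 0 f = d.res f := rfl

theorem coeff_succ (n : ℕ) (f : R) : d.coeff (n + 1) f = d.coeff n (d.shift f) := by
  simp [coeff, Function.iterate_succ_apply]

/-- The partial Taylor sums. -/
noncomputable def partialSum (a : ℕ → K) (n : ℕ) : R :=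
  ∑ i ∈ Finset.range n, algebraMap K R (a i) * d.t ^ i

theorem partialSum_succ' (a : ℕ → K) (n : ℕ) :
    d.partialSum a (n + 1) = algebraMap K R (a 0) + d.t * d.partialSum (fun i => a (i + 1)) n := by
  rw [partialSum, Finset.sum_range_succ', partialSum, Finset.mul_sum]
  simp only [pow_zero, mul_one]
  rw [add_comm]
  congr 1
  refine Finset.sum_congr rfl fun i _ => ?_
  ring

theorem dvd_sub_partialSum (n : ℕ) (f : R) :
    d.t ^ n ∣ f - d.partialSum (fun i => d.coeff i f) n := by
  induction n generalizing f with
  | zero => simp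
  | succ n ih =>
    rw [partialSum_succ']
    have h := d.shift_spec f
    have h2 : (fun i => d.coeff (i + 1) f) = fun i => d.coeff i (d.shift f) := by
      funext i; exact d.coeff_succ i f
    rw [h2, coeff_zero]
    obtain ⟨c, hc⟩ := ih (d.shift f)
    refine ⟨c, ?_⟩
    rw [pow_succ]
    linear_combination h + d.t * hc

theorem eq_zero_of_dvd_partialSum (n : ℕ) (a : ℕ → K) (h : d.t ^ n ∣ d.partialSum a n) :
    ∀ i < n, a i = 0 := by
  induction n generalizing a with
  | zero => intro i hi; omega
  | succ n ih =>
    rw [partialSum_succ'] at h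
    have h0 : a 0 = 0 := by
      apply d.eq_zero_of_dvd_algebraMap
      have h1 : d.t ∣ algebraMap K R (a 0) + d.t * d.partialSum (fun i => a (i + 1)) n :=
        dvd_trans (dvd_pow_self d.t (Nat.succ_ne_zero n)) h
      exact (dvd_add_left (dvd_mul_right _ _)).mp h1
    rw [h0, map_zero, zero_add, pow_succ, mul_comm] at h
    have h1 : d.t ^ n ∣ d.partialSum (fun i => a (i + 1)) n :=
      (mul_dvd_mul_iff_left d.ne_zero).mp h
    intro i hi
    rcases Nat.eq_zero_or_pos i with rfl | hpos
    · exact h0
    · have := ih (fun i => a (i + 1)) h1 (i - 1) (by omega)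
      simpa [Nat.sub_add_cancel hpos] using this

theorem partialSum_sub (a b : ℕ → K) (n : ℕ) :
    d.partialSum a n - d.partialSum b n = d.partialSum (fun i => a i - b i) n := by
  simp only [partialSum, ← Finset.sum_sub_distrib, map_sub, sub_mul]

/-- Characterisation of the Taylor coefficients. -/
theorem coeff_eq_of_dvd {f : R} {a : ℕ → K}
    (h : ∀ n, d.t ^ n ∣ f - d.partialSum a n) (i : ℕ) : d.coeff i f = a i := by
  have h1 : d.t ^ (i + 1) ∣ d.partialSum (fun j => d.coeff j f - a j) (i + 1) := by
    rw [← partialSum_sub]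
    have := dvd_sub (h (i + 1)) (d.dvd_sub_partialSum (i + 1) f)
    convert this using 1
    ring
  have := d.eq_zero_of_dvd_partialSum (i + 1) _ h1 i (Nat.lt_succ_self i)
  exact sub_eq_zero.mp this

theorem partialSum_eq_aeval (P : K⟦X⟧) (n : ℕ) :
    d.partialSum (fun i => PowerSeries.coeff i P) n = Polynomial.aeval d.t (trunc n P) := by
  rw [Polynomial.aeval_def, eval₂_trunc_eq_sum_range, partialSum]

theorem X_pow_dvd_sub_trunc (p : Polynomial K) (n : ℕ) :
    (Polynomial.X : Polynomial K) ^ n ∣ p - trunc n (p : K⟦X⟧) := by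
  rw [Polynomial.X_pow_dvd_iff]
  intro i hi
  rw [Polynomial.coeff_sub, coeff_trunc, if_pos hi, Polynomial.coeff_coe, sub_self]

/-- The Taylor expansion as a function. -/
noncomputable def taylorFun (f : R) : K⟦X⟧ := PowerSeries.mk fun n => d.coeff n f

@[simp] theorem coeff_taylorFun (n : ℕ) (f : R) :
    PowerSeries.coeff n (d.taylorFun f) = d.coeff n f := by
  simp [taylorFun]

theorem dvd_sub_aeval_trunc (n : ℕ) (f : R) :
    d.t ^ n ∣ f - Polynomial.aeval d.t (trunc n (d.taylorFun f)) := by
  rw [← partialSum_eq_aeval]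
  simpa using d.dvd_sub_partialSum n f

theorem taylorFun_eq_of_dvd {f : R} {P : K⟦X⟧}
    (h : ∀ n, d.t ^ n ∣ f - Polynomial.aeval d.t (trunc n P)) : d.taylorFun f = P := by
  ext i
  rw [coeff_taylorFun]
  exact d.coeff_eq_of_dvd (a := fun i => PowerSeries.coeff i P)
    (fun n => by rw [partialSum_eq_aeval]; exact h n) i

/-- The Taylor expansion as an algebra homomorphism. -/
noncomputable def taylor : R →ₐ[K] K⟦X⟧ where
  toFun := d.taylorFun
  map_one' := by
    apply d.taylorFun_eq_of_dvd
    intro n
    rcases n with _ | n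
    · simp
    · simp [trunc_one]
  map_mul' f g := by
    apply d.taylorFun_eq_of_dvd
    intro n
    obtain ⟨a, ha⟩ := d.dvd_sub_aeval_trunc n f
    obtain ⟨b, hb⟩ := d.dvd_sub_aeval_trunc n g
    rw [← trunc_trunc_mul_trunc]
    obtain ⟨q, hq⟩ := X_pow_dvd_sub_trunc
      (trunc n (d.taylorFun f) * trunc n (d.taylorFun g)) n
    have hq' := congrArg (Polynomial.aeval d.t) hq
    simp only [map_sub, map_mul, map_pow, Polynomial.aeval_X] at hq'
    push_cast at hq' ⊢
    refine ⟨a * g + Polynomial.aeval d.t (trunc n (d.taylorFun f)) * b +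
      Polynomial.aeval d.t q, ?_⟩
    linear_combination g * ha + Polynomial.aeval d.t (trunc n (d.taylorFun f)) * hb + hq'
  map_zero' := by
    apply d.taylorFun_eq_of_dvd
    intro n
    simp
  map_add' f g := by
    apply d.taylorFun_eq_of_dvd
    intro n
    rw [map_add, map_add]
    have := dvd_add (d.dvd_sub_aeval_trunc n f) (d.dvd_sub_aeval_trunc n g)
    convert this using 1
    ring
  commutes' a := by
    apply d.taylorFun_eq_of_dvd
    intro n
    rcases n with _ | n
    · simp
    · have h : algebraMap K K⟦X⟧ a = PowerSeries.C a := by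
        simp
      rw [h, trunc_C]
      simp

@[simp] theorem coeff_taylor (n : ℕ) (f : R) :
    PowerSeries.coeff n (d.taylor f) = d.coeff n f := d.coeff_taylorFun n f

@[simp] theorem constantCoeff_taylor (f : R) :
    PowerSeries.constantCoeff (d.taylor f) = d.res f := by
  rw [← PowerSeries.coeff_zero_eq_constantCoeff_apply, coeff_taylor, coeff_zero]

theorem taylor_t : d.taylor d.t = PowerSeries.X := by
  show d.taylorFun d.t = _
  apply d.taylorFun_eq_of_dvd
  intro n
  rcases n with _ | _ | n
  · simp
  · simp
  · simp [trunc_X]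

theorem dvd_of_taylor_eq_zero {f : R} (h : d.taylor f = 0) (n : ℕ) : d.t ^ n ∣ f := by
  have := d.dvd_sub_aeval_trunc n f
  have h' : d.taylorFun f = 0 := h
  rwa [h', map_zero, map_zero, sub_zero] at this

theorem taylor_injective (hsep : ∀ f : R, (∀ n, d.t ^ n ∣ f) → f = 0) :
    Function.Injective d.taylor := by
  rw [injective_iff_map_eq_zero]
  intro f hf
  exact hsep f (d.dvd_of_taylor_eq_zero hf)

theorem isUnit_taylor_iff {f : R} : IsUnit (d.taylor f) ↔ ¬ d.t ∣ f := by
  rw [PowerSeries.isUnit_iff_constantCoeff, constantCoeff_taylor, isUnit_iff_ne_zero, ne_eq,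
    d.res_eq_zero_iff]

end Datum

end Fermat.Agent.S24.Taylor
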