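import Fermat.Prelude.Def_AlgebraicCurve_CanonicalDivisor
import Fermat.Agent.S24.Taylor

/-!
# S24, package DIFFERENTIALS

Function fields of transcendence degree one over an algebraically closed field of
characteristic zero: residue fields of places, Kähler differentials, and the order of `dx`
at a place.
-/

set_option autoImplicit false

open KaehlerDifferential AlgebraicCurve IntermediateField

namespace Fermat.Agent.S24

variable {K F : Type*} [Field K] [Field F] [Algebra K F]

/-! ## Access to the (private) uniformizer of the prelude -/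

theorem diff_exists_irreducible_dCoord (v : Place K F) :
    ∃ π : v.toValuationSubring, Irreducible π ∧ v.dCoord = KaehlerDifferential.D K F (π : F) :=
  ⟨(IsDiscreteValuationRing.exists_irreducible v.toValuationSubring).choose,
    (IsDiscreteValuationRing.exists_irreducible v.toValuationSubring).choose_spec, rfl⟩

/-! ## Transcendence degree one -/

open IntermediateField.algebraAdjoinAdjoin in
theorem diff_isAlgebraic_algebraAdjoin {x : F}
    (halg : Algebra.IsAlgebraic K⟮x⟯ F) : Algebra.IsAlgebraic (Algebra.adjoin K ({x} : Set F)) F :=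
  Algebra.IsAlgebraic.trans (Algebra.adjoin K ({x} : Set F)) K⟮x⟯ F

/-- Exchange: in a field of transcendence degree one, `F` is algebraic over `K(f)` for every
transcendental `f`. -/
theorem diff_isAlgebraic_adjoin_of_transcendental {x : F}
    (halg : Algebra.IsAlgebraic K⟮x⟯ F) {f : F} (hf : Transcendental K f) :
    Algebra.IsAlgebraic K⟮f⟯ F := by
  classical
  have h1 := diff_isAlgebraic_algebraAdjoin halg
  have h2 : Algebra.trdeg K F ≤ 1 := by
    have := Algebra.IsAlgebraic.trdeg_le_cardinalMk K ({x} : Set F)
    simpa using this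
  have h3 : AlgebraicIndependent K (fun _ : Unit => f) :=
    algebraicIndependent_unique_type_iff.mpr hf
  have h4 : IsTranscendenceBasis K (fun _ : Unit => f) :=
    h3.isTranscendenceBasis_of_lift_trdeg_le_of_finite (by
      simpa using h2)
  have h5 := h4.isAlgebraic_field
  have h6 : (Set.range fun _ : Unit => f) = {f} := Set.range_const
  rw [h6] at h5
  exact h5

/-! ## Valuation subrings containing a large subfield are trivial -/

theorem diff_valuationSubring_eq_top (A : ValuationSubring F) (E : IntermediateField K F)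
    [Algebra.IsAlgebraic E F] (h : ∀ y ∈ E, y ∈ A) : A = ⊤ := by
  refine SetLike.ext fun y => ⟨fun _ => ValuationSubring.mem_top y, fun _ => ?_⟩
  have hy : IsIntegral E y := (Algebra.IsAlgebraic.isAlgebraic (R := E) y).isIntegral
  let φ : E →+* A := (algebraMap E F).codRestrict A.toSubring (fun e => h _ e.2)
  have hy' : IsIntegral A y := by
    have := hy.map_of_comp_eq φ (RingHom.id F) (by ext e; rfl)
    simpa using this
  obtain ⟨a, ha⟩ := IsIntegrallyClosed.isIntegral_iff.mp hy'
  rw [← ha]
  exact a.2

/-! ## The residue field of a place is the constant field -/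

section Residue

variable [IsAlgClosed K]

/-- Every element of the valuation ring of a place is congruent to a constant. -/
theorem diff_exists_residue {x : F} (halg : Algebra.IsAlgebraic K⟮x⟯ F) (v : Place K F)
    (f : v.toValuationSubring) :
    ∃ c : K, f - algebraMap K v.toValuationSubring c ∈
      IsLocalRing.maximalIdeal v.toValuationSubring := by
  classical
  set fbar : v.ResidueField := IsLocalRing.residue v.toValuationSubring f with hfbar
  by_cases halgf : IsAlgebraic K fbar
  · -- `fbar` is a constant
    have hint := halgf.isIntegral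
    have hdeg := IsAlgClosed.degree_eq_one_of_irreducible K (minpoly.irreducible hint)
    obtain ⟨c, hc⟩ := minpoly.mem_range_of_degree_eq_one K fbar hdeg
    refine ⟨c, ?_⟩
    rw [← IsLocalRing.residue_eq_zero_iff, map_sub, sub_eq_zero]
    calc IsLocalRing.residue v.toValuationSubring f = fbar := rfl
      _ = algebraMap K v.ResidueField c := hc.symm
      _ = IsLocalRing.residue v.toValuationSubring (algebraMap K v.toValuationSubring c) := rfl
  · -- `fbar` transcendental: then `K(f) ⊆ v.toValuationSubring`, so `v.toValuationSubring = ⊤`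
    exfalso
    have hres : ∀ p : Polynomial K, IsLocalRing.residue v.toValuationSubring (Polynomial.aeval f p) =
        Polynomial.aeval fbar p := by
      intro p
      exact (Polynomial.aeval_algHom_apply
        (IsScalarTower.toAlgHom K v.toValuationSubring v.ResidueField) f p).symm
    have hcoe : ∀ p : Polynomial K, ((Polynomial.aeval f p : v.toValuationSubring) : F) =
        Polynomial.aeval (f : F) p := by
      intro p
      exact (Polynomial.aeval_algHom_apply (IsScalarTower.toAlgHom K v.toValuationSubring F) f p).symm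
    have hunit : ∀ p : Polynomial K, p ≠ 0 → IsUnit (Polynomial.aeval f p : v.toValuationSubring) := by
      intro p hp
      rw [← IsLocalRing.notMem_maximalIdeal, ← IsLocalRing.residue_eq_zero_iff, hres]
      intro h0
      exact halgf ⟨p, hp, h0⟩
    have hftr : Transcendental K (f : F) := by
      intro ⟨p, hp, h0⟩
      have := hunit p hp
      rw [← hcoe] at h0
      have h1 : (Polynomial.aeval f p : v.toValuationSubring) = 0 := Subtype.ext h0
      rw [h1] at this
      exact not_isUnit_zero this
    have hle : ∀ y ∈ K⟮(f : F)⟯, y ∈ v.toValuationSubring := by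
      intro y hy
      obtain ⟨r, s, rfl⟩ := (IntermediateField.mem_adjoin_simple_iff K y).mp hy
      by_cases hs : s = 0
      · simp [hs]
      · obtain ⟨u, hu⟩ := hunit s hs
        have h1 : Polynomial.aeval (f : F) s = ((u : v.toValuationSubring) : F) := by
          rw [← hcoe, hu]
        have h2 : (Polynomial.aeval (f : F) r) / (Polynomial.aeval (f : F) s) =
            (((Polynomial.aeval f r : v.toValuationSubring) * ((u⁻¹ : (v.toValuationSubring)ˣ) : v.toValuationSubring) : v.toValuationSubring) : F) := by
          rw [h1, ← hcoe]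
          have hu0 : ((u : v.toValuationSubring) : F) ≠ 0 := by
            simp
          have : ((u : v.toValuationSubring) : F) * (((u⁻¹ : (v.toValuationSubring)ˣ) : v.toValuationSubring) : F) = 1 := by
            rw [← MulMemClass.coe_mul, Units.mul_inv]
            rfl
          push_cast
          rw [div_eq_iff hu0, mul_assoc, mul_comm _ ((u : v.toValuationSubring) : F), this, mul_one]
        rw [h2]
        exact Subtype.mem _
    have := diff_isAlgebraic_adjoin_of_transcendental halg hftr
    exact v.ne_top' (diff_valuationSubring_eq_top v.toValuationSubring K⟮(f : F)⟯ hle)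

end Residue

/-! ## The Taylor expansion at a place and integrality of `d/dπ` -/

section Derivative

variable [IsAlgClosed K]

omit [IsAlgClosed K] in
theorem diff_eq_zero_of_forall_pow_dvd (v : Place K F) {π : v.toValuationSubring}
    (hπ : Irreducible π) (f : v.toValuationSubring) (h : ∀ n : ℕ, π ^ n ∣ f) : f = 0 := by
  by_contra hf
  obtain ⟨n, hn⟩ := IsDiscreteValuationRing.associated_pow_irreducible hf hπ
  obtain ⟨u, hu⟩ := hn.symm
  have h1 := h (n + 1)
  rw [← hu, pow_succ] at h1
  have h2 : π ∣ (u : v.toValuationSubring) :=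
    (mul_dvd_mul_iff_left (pow_ne_zero n hπ.ne_zero)).mp h1
  exact hπ.not_isUnit (isUnit_of_dvd_unit h2 u.isUnit)

/-- The Taylor datum of a place with a chosen uniformizer. -/
noncomputable def diff_datum {x : F} (halg : Algebra.IsAlgebraic K⟮x⟯ F) (v : Place K F)
    (π : v.toValuationSubring) (hπ : Irreducible π) :
    Taylor.Datum K v.toValuationSubring where
  t := π
  ne_zero := hπ.ne_zero
  not_isUnit := hπ.not_isUnit
  exists_res f := by
    obtain ⟨c, hc⟩ := diff_exists_residue halg v f
    refine ⟨c, ?_⟩
    rw [hπ.maximalIdeal_eq, Ideal.mem_span_singleton] at hc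
    exact hc

/-- Key local fact: if `du = g dπ` for `u` in the valuation ring, then `g` is in the valuation
ring. -/
theorem diff_mem_of_D_eq_smul {x : F} (halg : Algebra.IsAlgebraic K⟮x⟯ F) (v : Place K F)
    (π : v.toValuationSubring) (hπ : Irreducible π) (u : v.toValuationSubring) (g : F)
    (h : KaehlerDifferential.D K F (u : F) = g • KaehlerDifferential.D K F (π : F)) :
    g ∈ v.toValuationSubring := by
  classical
  set d := diff_datum halg v π hπ with hd
  by_contra hg
  have hg0 : g ≠ 0 := fun h0 => hg (h0 ▸ zero_mem _)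
  have hginv : g⁻¹ ∈ v.toValuationSubring :=
    (v.toValuationSubring.mem_or_inv_mem g).resolve_left hg
  set w : v.toValuationSubring := ⟨g⁻¹, hginv⟩ with hw
  -- `w` is not a unit
  have hwnu : ¬ IsUnit w := by
    intro hu
    obtain ⟨u', hu'⟩ := hu
    apply hg
    have : g = (((u'⁻¹ : (v.toValuationSubring)ˣ) : v.toValuationSubring) : F) := by
      have h1 : ((u' : v.toValuationSubring) : F) * (((u'⁻¹ : (v.toValuationSubring)ˣ) :
          v.toValuationSubring) : F) = 1 := by
        rw [← MulMemClass.coe_mul, Units.mul_inv]; rfl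
      rw [hu'] at h1
      have h2 : (w : F) = g⁻¹ := rfl
      rw [h2] at h1
      field_simp at h1
      exact h1.symm
    rw [this]
    exact Subtype.mem _
  -- the module structure on power series
  let : Algebra v.toValuationSubring (PowerSeries K) := d.taylor.toRingHom.toAlgebra
  have : IsScalarTower K v.toValuationSubring (PowerSeries K) :=
    IsScalarTower.of_algebraMap_eq fun a => (d.taylor.commutes a).symm
  let δ : Derivation K v.toValuationSubring (PowerSeries K) :=
    (PowerSeries.derivative K).compAlgebraMap v.toValuationSubring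
  let Ψ : Ω[v.toValuationSubring⁄K] →ₗ[v.toValuationSubring] PowerSeries K :=
    δ.liftKaehlerDifferential
  have hΨ : ∀ a : v.toValuationSubring,
      Ψ (KaehlerDifferential.D K v.toValuationSubring a) =
        PowerSeries.derivative K (d.taylor a) := fun a =>
    Derivation.liftKaehlerDifferential_comp_D δ a
  -- the element killed by localisation
  set ξ : Ω[v.toValuationSubring⁄K] :=
    w • KaehlerDifferential.D K v.toValuationSubring u -
      KaehlerDifferential.D K v.toValuationSubring π with hξ
  have hmap : KaehlerDifferential.map K K v.toValuationSubring F ξ = 0 := by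
    rw [hξ, map_sub, map_smul, KaehlerDifferential.map_D, KaehlerDifferential.map_D]
    show w • KaehlerDifferential.D K F (u : F) - KaehlerDifferential.D K F (π : F) = 0
    rw [h]
    have : w • (g • KaehlerDifferential.D K F (π : F)) =
        ((w : F) * g) • KaehlerDifferential.D K F (π : F) := by
      rw [mul_smul]; rfl
    rw [this]
    have : (w : F) * g = 1 := by
      show g⁻¹ * g = 1
      exact inv_mul_cancel₀ hg0
    rw [this, one_smul, sub_self]
  obtain ⟨s, hs⟩ := (IsLocalizedModule.eq_zero_iff (nonZeroDivisors v.toValuationSubring)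
    (KaehlerDifferential.map K K v.toValuationSubring F)).mp hmap
  have hs' : (s : v.toValuationSubring) • ξ = 0 := hs
  have h1 : d.taylor (s : v.toValuationSubring) * Ψ ξ = 0 := by
    have := congrArg Ψ hs'
    rw [map_smul, map_zero] at this
    exact this
  have hinj : Function.Injective d.taylor :=
    d.taylor_injective (fun f hf => diff_eq_zero_of_forall_pow_dvd v hπ f hf)
  have hs0 : d.taylor (s : v.toValuationSubring) ≠ 0 := by
    intro h0
    have := hinj (h0.trans (map_zero _).symm)
    exact nonZeroDivisors.coe_ne_zero s this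
  have h2 : Ψ ξ = 0 := (mul_eq_zero.mp h1).resolve_left hs0
  have h3 : d.taylor w * PowerSeries.derivative K (d.taylor u) = 1 := by
    have : Ψ ξ = d.taylor w * PowerSeries.derivative K (d.taylor u) -
        PowerSeries.derivative K (d.taylor π) := by
      rw [hξ, map_sub, map_smul, hΨ, hΨ]; rfl
    rw [this, sub_eq_zero] at h2
    rw [h2]
    have : d.taylor π = PowerSeries.X := d.taylor_t
    rw [this]
    simp
  have h4 : IsUnit (d.taylor w) := IsUnit.of_mul_eq_one _ h3
  rw [d.isUnit_taylor_iff] at h4
  apply hwnu
  have h5 : w ∉ IsLocalRing.maximalIdeal v.toValuationSubring := by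
    rw [hπ.maximalIdeal_eq, Ideal.mem_span_singleton]
    exact h4
  exact IsLocalRing.notMem_maximalIdeal.mp h5

end Derivative

/-! ## `Ω[F/K]` is spanned by `dx` -/

section Span

theorem diff_D_mem_span_of_mem_adjoin (x : F) {a : F} (ha : a ∈ K⟮x⟯) :
    KaehlerDifferential.D K F a ∈ Submodule.span F {KaehlerDifferential.D K F x} := by
  induction ha using IntermediateField.adjoin_induction with
  | mem y hy =>
    rw [Set.mem_singleton_iff] at hy
    rw [hy]
    exact Submodule.subset_span rfl
  | algebraMap c =>
    rw [Derivation.map_algebraMap]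
    exact zero_mem _
  | add y z _ _ hy hz =>
    rw [map_add]
    exact add_mem hy hz
  | inv y _ hy =>
    rw [Derivation.leibniz_inv]
    exact Submodule.smul_mem _ _ hy
  | mul y z _ _ hy hz =>
    rw [Derivation.leibniz]
    exact add_mem (Submodule.smul_mem _ _ hz) (Submodule.smul_mem _ _ hy)

variable [CharZero K]

theorem diff_span_D_eq_top {x : F} (halg : Algebra.IsAlgebraic K⟮x⟯ F) :
    Submodule.span F {KaehlerDifferential.D K F x} = ⊤ := by
  have : CharZero K⟮x⟯ := charZero_of_injective_algebraMap (algebraMap K K⟮x⟯).injective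
  have : Algebra.FormallyUnramified K⟮x⟯ F := Algebra.FormallyUnramified.of_isSeparable K⟮x⟯ F
  have hsurj : Function.Surjective (KaehlerDifferential.mapBaseChange K K⟮x⟯ F) := by
    rw [← LinearMap.range_eq_top, KaehlerDifferential.range_mapBaseChange]
    ext ω
    simp only [LinearMap.mem_ker, Submodule.mem_top, iff_true]
    exact Subsingleton.elim _ _
  have hmap : ∀ y : Ω[↥K⟮x⟯⁄K], (KaehlerDifferential.map K K (↥K⟮x⟯) F) y ∈
      Submodule.span F {KaehlerDifferential.D K F x} := by
    intro y
    have hy : y ∈ Submodule.span K⟮x⟯ (Set.range (KaehlerDifferential.D K K⟮x⟯)) := by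
      rw [KaehlerDifferential.span_range_derivation]; trivial
    induction hy using Submodule.span_induction with
    | mem y hy =>
      obtain ⟨a, rfl⟩ := hy
      rw [KaehlerDifferential.map_D]
      exact diff_D_mem_span_of_mem_adjoin x a.2
    | zero => simp
    | add y z _ _ hy hz => rw [map_add]; exact add_mem hy hz
    | smul c y _ hy =>
      rw [map_smul]
      have : c • (KaehlerDifferential.map K K (↥K⟮x⟯) F) y =
          (c : F) • (KaehlerDifferential.map K K (↥K⟮x⟯) F) y := rfl
      rw [this]
      exact Submodule.smul_mem _ _ hy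
  have key : ∀ z, KaehlerDifferential.mapBaseChange K K⟮x⟯ F z ∈
      Submodule.span F {KaehlerDifferential.D K F x} := by
    intro z
    induction z using TensorProduct.induction_on with
    | zero => simp
    | tmul b y =>
      rw [KaehlerDifferential.mapBaseChange_tmul]
      exact Submodule.smul_mem _ _ (hmap y)
    | add y z hy hz => rw [map_add]; exact add_mem hy hz
  rw [eq_top_iff]
  intro ω _
  obtain ⟨z, rfl⟩ := hsurj ω
  exact key z

theorem diff_exists_smul {x : F} (halg : Algebra.IsAlgebraic K⟮x⟯ F) (ω : Ω[F⁄K]) :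
    ∃ h : F, ω = h • KaehlerDifferential.D K F x := by
  have : ω ∈ Submodule.span F {KaehlerDifferential.D K F x} := by
    rw [diff_span_D_eq_top halg]; trivial
  obtain ⟨h, hh⟩ := Submodule.mem_span_singleton.mp this
  exact ⟨h, hh.symm⟩

end Span

/-! ## Differentials at a place -/

section Local

variable [IsAlgClosed K]

theorem diff_D_uniformizer_ne_zero {x : F} (halg : Algebra.IsAlgebraic K⟮x⟯ F) (v : Place K F)
    (π : v.toValuationSubring) (hπ : Irreducible π) :
    KaehlerDifferential.D K F (π : F) ≠ 0 := by
  intro h0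
  apply v.ne_top'
  refine SetLike.ext fun g => ⟨fun _ => ValuationSubring.mem_top g, fun _ => ?_⟩
  exact diff_mem_of_D_eq_smul halg v π hπ π g (by rw [h0, smul_zero])

theorem diff_nontrivial {x : F} (halg : Algebra.IsAlgebraic K⟮x⟯ F) (v : Place K F) :
    Nontrivial Ω[F⁄K] := by
  obtain ⟨π, hπ⟩ := IsDiscreteValuationRing.exists_irreducible v.toValuationSubring
  exact ⟨⟨_, 0, diff_D_uniformizer_ne_zero halg v π hπ⟩⟩

variable [CharZero K]

theorem diff_D_ne_zero {x : F} (halg : Algebra.IsAlgebraic K⟮x⟯ F) (v : Place K F) :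
    KaehlerDifferential.D K F x ≠ 0 := by
  obtain ⟨π, hπ⟩ := IsDiscreteValuationRing.exists_irreducible v.toValuationSubring
  obtain ⟨c, hc⟩ := diff_exists_smul halg (KaehlerDifferential.D K F (π : F))
  intro h0
  rw [h0, smul_zero] at hc
  exact diff_D_uniformizer_ne_zero halg v π hπ hc

theorem diff_span_D_uniformizer {x : F} (halg : Algebra.IsAlgebraic K⟮x⟯ F) (v : Place K F)
    (π : v.toValuationSubring) (hπ : Irreducible π) :
    Submodule.span F {KaehlerDifferential.D K F (π : F)} = ⊤ := by
  obtain ⟨c, hc⟩ := diff_exists_smul halg (KaehlerDifferential.D K F (π : F))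
  have hc0 : c ≠ 0 := by
    intro h0
    rw [h0, zero_smul] at hc
    exact diff_D_uniformizer_ne_zero halg v π hπ hc
  rw [eq_top_iff, ← diff_span_D_eq_top halg, Submodule.span_singleton_le_iff_mem,
    Submodule.mem_span_singleton]
  refine ⟨c⁻¹, ?_⟩
  rw [hc, smul_smul, inv_mul_cancel₀ hc0, one_smul]

/-- (D2) the prelude's `dCoord` generates `Ω[F/K]`. -/
theorem diff_dCoordGenerates {x : F} (halg : Algebra.IsAlgebraic K⟮x⟯ F) (v : Place K F) :
    v.DCoordGenerates := by
  obtain ⟨π, hπ, hd⟩ := diff_exists_irreducible_dCoord v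
  exact ⟨by rw [hd]; exact diff_span_D_uniformizer halg v π hπ⟩

theorem diff_exists_smul_uniformizer {x : F} (halg : Algebra.IsAlgebraic K⟮x⟯ F) (v : Place K F)
    (π : v.toValuationSubring) (hπ : Irreducible π) (ω : Ω[F⁄K]) :
    ∃ h : F, ω = h • KaehlerDifferential.D K F (π : F) := by
  have : ω ∈ Submodule.span F {KaehlerDifferential.D K F (π : F)} := by
    rw [diff_span_D_uniformizer halg v π hπ]; trivial
  obtain ⟨h, hh⟩ := Submodule.mem_span_singleton.mp this
  exact ⟨h, hh.symm⟩

/-- For a unit (or any element) `u` of the valuation ring, `du = g dπ` with `g` in the valuation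
ring. -/
theorem diff_exists_mem_smul {x : F} (halg : Algebra.IsAlgebraic K⟮x⟯ F) (v : Place K F)
    (π : v.toValuationSubring) (hπ : Irreducible π) (u : v.toValuationSubring) :
    ∃ g : v.toValuationSubring,
      KaehlerDifferential.D K F (u : F) = (g : F) • KaehlerDifferential.D K F (π : F) := by
  obtain ⟨g, hg⟩ := diff_exists_smul_uniformizer halg v π hπ (KaehlerDifferential.D K F (u : F))
  exact ⟨⟨g, diff_mem_of_D_eq_smul halg v π hπ u g hg⟩, hg⟩

/-- The main local computation: if `ord_v f = n ≠ 0` then `df = c dπ` with `ord_v c = n - 1`. -/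
theorem diff_exists_coeff_of_ord_ne_zero {x : F} (halg : Algebra.IsAlgebraic K⟮x⟯ F)
    (v : Place K F) (π : v.toValuationSubring) (hπ : Irreducible π) (f : F)
    (hn : v.ord f ≠ 0) :
    ∃ c : F, KaehlerDifferential.D K F f = c • KaehlerDifferential.D K F (π : F) ∧
      v.ord c = v.ord f - 1 := by
  have hf : f ≠ 0 := by
    rintro rfl
    exact hn v.ord_zero
  obtain ⟨u, hu⟩ := v.exists_unit_mul_zpow hf hπ
  set n := v.ord f with hndef
  obtain ⟨g, hg⟩ := diff_exists_mem_smul halg v π hπ (u : v.toValuationSubring)
  -- the unit `n u + π g`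
  have hnK : (n : K) ≠ 0 := by exact_mod_cast hn
  set e : v.toValuationSubring :=
    algebraMap K v.toValuationSubring (n : K) * (u : v.toValuationSubring) + π * g with he
  have heu : IsUnit e := by
    rw [← IsLocalRing.notMem_maximalIdeal]
    intro hmem
    have h1 : π * g ∈ IsLocalRing.maximalIdeal v.toValuationSubring := by
      rw [hπ.maximalIdeal_eq]
      exact Ideal.mul_mem_right _ _ (Ideal.mem_span_singleton_self π)
    have h2 : algebraMap K v.toValuationSubring (n : K) * (u : v.toValuationSubring) ∈
        IsLocalRing.maximalIdeal v.toValuationSubring := by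
      have := Ideal.sub_mem _ hmem h1
      rwa [he, add_sub_cancel_right] at this
    have h3 : IsUnit (algebraMap K v.toValuationSubring (n : K) * (u : v.toValuationSubring)) :=
      ((IsUnit.mk0 _ hnK).map (algebraMap K v.toValuationSubring)).mul u.isUnit
    exact (IsLocalRing.notMem_maximalIdeal.mpr h3) h2
  refine ⟨(e : F) * (π : F) ^ (n - 1), ?_, ?_⟩
  · have hπ0 : (π : F) ≠ 0 := by
      simpa using hπ.ne_zero
    have hpow : (π : F) ^ n = (π : F) ^ (n - 1) * (π : F) := by
      rw [← zpow_add_one₀ hπ0, sub_add_cancel]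
    have hcast : ((algebraMap K v.toValuationSubring (n : K) : v.toValuationSubring) : F) =
        (n : F) := by
      rw [Place.coe_algebraMap]
      simp
    conv_lhs => rw [hu]
    rw [Derivation.leibniz, Derivation.leibniz_zpow, hg, ← Int.cast_smul_eq_zsmul F n,
      smul_smul, smul_smul, smul_smul, ← add_smul]
    congr 1
    rw [he]
    push_cast
    rw [hcast, hpow]
    ring
  · obtain ⟨e', he'⟩ := heu
    rw [← he']
    exact v.ord_unit_smul_zpow e' hπ (n - 1)

/-- `ord_v(df) = ord_v(f) - 1` whenever `ord_v(f) ≠ 0`. -/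
theorem diff_ordDifferential_D {x : F} (halg : Algebra.IsAlgebraic K⟮x⟯ F)
    (v : Place K F) (f : F) (hn : v.ord f ≠ 0) :
    v.ordDifferential (KaehlerDifferential.D K F f) = v.ord f - 1 := by
  obtain ⟨π, hπ, hd⟩ := diff_exists_irreducible_dCoord v
  obtain ⟨c, hc, hord⟩ := diff_exists_coeff_of_ord_ne_zero halg v π hπ f hn
  have i1 : v.DCoordGenerates := diff_dCoordGenerates halg v
  have i2 : Nontrivial Ω[F⁄K] := diff_nontrivial halg v
  rw [Place.ordDifferential, v.differentialCoeff_unique (f := c) (by rw [hd]; exact hc), hord]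

/-- (D6) `ord_v(h ω) = ord_v(h) + ord_v(ω)`. -/
theorem diff_ordDifferential_smul {x : F} (halg : Algebra.IsAlgebraic K⟮x⟯ F)
    (v : Place K F) {h : F} (hh : h ≠ 0) {ω : Ω[F⁄K]} (hω : ω ≠ 0) :
    v.ordDifferential (h • ω) = v.ord h + v.ordDifferential ω := by
  have i1 : v.DCoordGenerates := diff_dCoordGenerates halg v
  have i2 : Nontrivial Ω[F⁄K] := diff_nontrivial halg v
  refine v.ordDifferential_smul hh ?_
  intro h0
  apply hω
  rw [← v.differentialCoeff_smul_dCoord ω, h0, zero_smul]

end Local

/-! ## Orders and the maximal ideal -/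

section Ord

theorem diff_mem_of_ord_nonneg (v : Place K F) {f : F} (hf : f ≠ 0) (h : 0 ≤ v.ord f) :
    f ∈ v.toValuationSubring := by
  obtain ⟨π, hπ⟩ := IsDiscreteValuationRing.exists_irreducible v.toValuationSubring
  obtain ⟨u, hu⟩ := v.exists_unit_mul_zpow hf hπ
  rw [hu]
  obtain ⟨n, hn⟩ := Int.eq_ofNat_of_zero_le h
  rw [hn, zpow_natCast]
  exact mul_mem (u : v.toValuationSubring).2 (pow_mem π.2 n)

theorem diff_ord_pos_of_mem_nonunits (v : Place K F) {f : F} (hf : f ≠ 0)
    (h : f ∈ v.toValuationSubring.nonunits) : 0 < v.ord f := by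
  by_contra hle
  rw [not_lt] at hle
  have h1 : f⁻¹ ∈ v.toValuationSubring :=
    diff_mem_of_ord_nonneg v (inv_ne_zero hf) (by rw [v.ord_inv]; omega)
  have h2 := (ValuationSubring.valuation_le_one_iff v.toValuationSubring f⁻¹).mpr h1
  have h3 := (ValuationSubring.mem_nonunits_iff v.toValuationSubring).mp h
  rw [map_inv₀] at h2
  have h4 : v.toValuationSubring.valuation f ≠ 0 := (Valuation.ne_zero_iff _).mpr hf
  have h5 := (one_lt_inv₀ (zero_lt_iff.mpr h4)).mpr h3
  exact absurd h2 (not_le.mpr h5)

end Ord

/-! ## The order of `dx` -/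

section OrdD

variable [IsAlgClosed K] [CharZero K]

/-- (D5a) `ord_v(dx) = ord_v(x - c) - 1` at a zero of `x - c`. -/
theorem diff_ord_of_zero {x : F} (hx : Transcendental K x)
    (halg : Algebra.IsAlgebraic K⟮x⟯ F) (v : Place K F) (c : K)
    (h : x - algebraMap K F c ∈ v.toValuationSubring.nonunits) :
    v.ordDifferential (KaehlerDifferential.D K F x) = v.ord (x - algebraMap K F c) - 1 := by
  have hne : x - algebraMap K F c ≠ 0 := by
    intro h0
    apply hx
    rw [sub_eq_zero.mp h0]
    exact isAlgebraic_algebraMap c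
  have hpos := diff_ord_pos_of_mem_nonunits v hne h
  have := diff_ordDifferential_D halg v (x - algebraMap K F c) (by omega)
  rwa [map_sub, Derivation.map_algebraMap, sub_zero] at this

/-- (D5b) `ord_v(dx) = -ord_v(x⁻¹) - 1` at a pole of `x`. -/
theorem diff_ord_of_pole {x : F} (hx : Transcendental K x)
    (halg : Algebra.IsAlgebraic K⟮x⟯ F) (v : Place K F)
    (h : x⁻¹ ∈ v.toValuationSubring.nonunits) :
    v.ordDifferential (KaehlerDifferential.D K F x) = - v.ord x⁻¹ - 1 := by
  have hne : x ≠ 0 := by
    rintro rfl
    apply hx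
    exact isAlgebraic_zero
  have hpos := diff_ord_pos_of_mem_nonunits v (inv_ne_zero hne) h
  rw [v.ord_inv] at hpos
  rw [diff_ordDifferential_D halg v x (by omega), v.ord_inv, neg_neg]

end OrdD

/-! ## Unconditional non-vanishing of `dx` -/

section Global

open TensorProduct Polynomial in
/-- Unconditional non-vanishing of `dx` for a transcendental `x` (characteristic zero):
`F` is formally étale over `K[X]`. -/
theorem diff_D_ne_zero_of_transcendental [CharZero K] {x : F} (hx : Transcendental K x)
    (halg : Algebra.IsAlgebraic K⟮x⟯ F) :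
    KaehlerDifferential.D K F x ≠ 0 := by
  classical
  let x' : K⟮x⟯ := ⟨x, mem_adjoin_simple_self K x⟩
  have hcoe : ∀ p : K[X], ((Polynomial.aeval x' p : K⟮x⟯) : F) = Polynomial.aeval x p := by
    intro p
    exact (Polynomial.aeval_algHom_apply (IntermediateField.val K⟮x⟯) x' p).symm
  let a1 : Algebra K[X] K⟮x⟯ := (Polynomial.aeval x').toRingHom.toAlgebra
  let a2 : Algebra K[X] F := (Polynomial.aeval x).toRingHom.toAlgebra
  have t1 : IsScalarTower K[X] K⟮x⟯ F := IsScalarTower.of_algebraMap_eq fun p => by
    change Polynomial.aeval x p = algebraMap K⟮x⟯ F (Polynomial.aeval x' p)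
    exact (hcoe p).symm
  have t2 : IsScalarTower K K[X] F := IsScalarTower.of_algebraMap_eq fun c => by
    change algebraMap K F c = Polynomial.aeval x (Polynomial.C c)
    rw [Polynomial.aeval_C]
  have t3 : IsScalarTower K K[X] K⟮x⟯ := IsScalarTower.of_algebraMap_eq fun c => by
    change algebraMap K K⟮x⟯ c = Polynomial.aeval x' (Polynomial.C c)
    rw [Polynomial.aeval_C]
  have hx' : Transcendental K x' := by
    intro h
    apply hx
    have := h.algebraMap (A := F)
    exact this
  have i1 : FaithfulSMul K[X] K⟮x⟯ := by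
    rw [faithfulSMul_iff_algebraMap_injective]
    exact transcendental_iff_injective.mp hx'
  have i2 : IsFractionRing K[X] K⟮x⟯ := by
    apply IsFractionRing.of_field
    intro z
    obtain ⟨r, s, hrs⟩ := (IntermediateField.mem_adjoin_simple_iff K z.1).mp z.2
    refine ⟨r, s, ?_⟩
    apply Subtype.ext
    rw [hrs]
    change _ = ((Polynomial.aeval x' r / Polynomial.aeval x' s : K⟮x⟯) : F)
    push_cast
    rw [hcoe, hcoe]
  have i3 : Algebra.FormallyEtale K[X] K⟮x⟯ :=
    Algebra.FormallyEtale.of_isLocalization (nonZeroDivisors K[X])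
  have i4 : CharZero K⟮x⟯ := charZero_of_injective_algebraMap (algebraMap K K⟮x⟯).injective
  have i5 : Algebra.FormallyEtale K⟮x⟯ F := Algebra.FormallyEtale.of_isSeparable K⟮x⟯ F
  have i6 : Algebra.FormallyEtale K[X] F := Algebra.FormallyEtale.comp K[X] K⟮x⟯ F
  let l : Ω[K[X]⁄K] →ₗ[K[X]] F :=
    (Algebra.linearMap K[X] F) ∘ₗ (KaehlerDifferential.polynomialEquiv K).toLinearMap
  let L : F ⊗[K[X]] Ω[K[X]⁄K] →ₗ[F] F := LinearMap.liftBaseChange F l
  intro h0
  have h1 := KaehlerDifferential.tensorKaehlerEquivOfFormallyEtale_symm_D_algebraMap K K[X] F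
    (Polynomial.X)
  have h2 : algebraMap K[X] F Polynomial.X = x := by
    change Polynomial.aeval x Polynomial.X = x
    exact Polynomial.aeval_X x
  rw [h2, h0, map_zero] at h1
  have h3 : L (1 ⊗ₜ KaehlerDifferential.D K K[X] Polynomial.X) = 1 := by
    simp [L, l, LinearMap.liftBaseChange_tmul, KaehlerDifferential.polynomialEquiv_D]
  rw [← h1, map_zero] at h3
  exact zero_ne_one h3

end Global

/-! ## Residue field and centre of a place -/

section ResidueWrappers

variable [IsAlgClosed K]

/-- (D3) The residue field of every place is `K`. -/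
theorem diff_residue_bijective {x : F} (halg : Algebra.IsAlgebraic K⟮x⟯ F) (v : Place K F) :
    Function.Bijective (algebraMap K v.ResidueField) := by
  refine ⟨(algebraMap K v.ResidueField).injective, fun r => ?_⟩
  obtain ⟨f, rfl⟩ := IsLocalRing.residue_surjective r
  obtain ⟨c, hc⟩ := diff_exists_residue halg v f
  refine ⟨c, ?_⟩
  have h0 : IsLocalRing.residue v.toValuationSubring
      (f - algebraMap K v.toValuationSubring c) = 0 :=
    (IsLocalRing.residue_eq_zero_iff _).mpr hc
  rw [map_sub, sub_eq_zero] at h0
  rw [h0]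
  rfl

/-- (D3) Every place has degree one. -/
theorem diff_deg_eq_one {x : F} (halg : Algebra.IsAlgebraic K⟮x⟯ F) (v : Place K F) :
    v.deg = 1 := by
  have e : K ≃ₗ[K] v.ResidueField :=
    LinearEquiv.ofBijective (Algebra.linearMap K v.ResidueField)
      (diff_residue_bijective halg v)
  rw [Place.deg, ← e.finrank_eq, Module.finrank_self]

/-- Every place is centred at a point `x = c` or at `x = ∞`. -/
theorem diff_centre {x : F} (halg : Algebra.IsAlgebraic K⟮x⟯ F) (v : Place K F) :
    (∃ c : K, x - algebraMap K F c ∈ v.toValuationSubring.nonunits) ∨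
      x⁻¹ ∈ v.toValuationSubring.nonunits := by
  by_cases hx : x ∈ v.toValuationSubring
  · left
    obtain ⟨c, hc⟩ := diff_exists_residue halg v ⟨x, hx⟩
    refine ⟨c, ?_⟩
    rw [ValuationSubring.mem_nonunits_iff_exists_mem_maximalIdeal]
    exact ⟨_, hc⟩
  · right
    exact (ValuationSubring.inv_mem_nonunits_iff v.toValuationSubring).mpr (Or.inr hx)

end ResidueWrappers

/-! ## The genus from the divisor of `dx` -/

section Genus

variable [IsAlgClosed K] [CharZero K]

/-- (D7) If `div(dx)` has degree `2g - 2` then the genus (in the sense of the prelude) is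
`g`. -/
theorem diff_genus_eq {x : F} (hx : Transcendental K x)
    (halg : Algebra.IsAlgebraic K⟮x⟯ F) [HasCanonicalDivisor (K := K) (F := F)]
    (hP : HasPrincipalDivisors K F) (D : Divisor K F) (g : ℕ)
    (hD : ∀ v : Place K F, D v = v.ordDifferential (KaehlerDifferential.D K F x))
    (hdeg : Divisor.degree D = 2 * (g : ℤ) - 2) : genus K F = g := by
  classical
  have hdx : KaehlerDifferential.D K F x ≠ 0 := diff_D_ne_zero_of_transcendental hx halg
  have hex : ∃ ω : Ω[F⁄K], ω ≠ 0 := ⟨_, hdx⟩
  obtain ⟨c, hc⟩ := diff_exists_smul halg hex.choose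
  have hc0 : c ≠ 0 := by
    intro h0
    apply hex.choose_spec
    rw [hc, h0, zero_smul]
  obtain ⟨E, hE, hE0⟩ := hP.exists_divisor c hc0
  have hsum : canonicalDivisorOf hex.choose_spec = E + D := by
    ext v
    rw [canonicalDivisorOf_apply, Finsupp.add_apply, hE, hD]
    conv_lhs => rw [hc]
    exact diff_ordDifferential_smul halg v hc0 hdx
  have hdegK : Divisor.degree (canonicalDivisorOf hex.choose_spec) = 2 * (g : ℤ) - 2 := by
    rw [hsum, map_add, hE0, hdeg, zero_add]
  unfold genus
  rw [dif_pos hex, hdegK]
  omega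

end Genus

end Fermat.Agent.S24
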