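import Fermat.Agent.S24.Defs
import Fermat.Agent.S24.Differentials

/-!
# S24, package DIFFERENTIALS: the exports in the shape of `Defs.lean`

All statements of the (DIFF) block of `Fermat/Agent/S24/Defs.lean`, and the three
residue-field statements (FF-res), (FF-deg), (FF-val) of the (FF) block.
-/

set_option autoImplicit false

open KaehlerDifferential AlgebraicCurve IntermediateField

namespace Fermat.Agent.S24

theorem diff_isAlgebraic_of_isCoordinate {K F : Type*} [Field K] [Field F] [Algebra K F]
    {u : F} (hu : IsCoordinate K u) : Algebra.IsAlgebraic K⟮u⟯ F :=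
  have := hu.finite
  Algebra.IsAlgebraic.of_finite K⟮u⟯ F

/-- (FF-res) -/
theorem diff_residueFieldStatement : ResidueFieldStatement := by
  intro K F _ _ _ _ u hu v
  exact diff_residue_bijective (diff_isAlgebraic_of_isCoordinate hu) v

/-- (FF-deg) -/
theorem diff_degOneStatement : DegOneStatement := by
  intro K F _ _ _ _ u hu v
  exact diff_deg_eq_one (diff_isAlgebraic_of_isCoordinate hu) v

/-- (FF-val) -/
theorem diff_centreStatement : CentreStatement := by
  intro K F _ _ _ _ u hu v
  exact diff_centre (diff_isAlgebraic_of_isCoordinate hu) v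

/-- (D1) -/
theorem diff_diffGeneratorStatement : DiffGeneratorStatement := by
  intro K F _ _ _ _ _ u hu
  exact ⟨diff_D_ne_zero_of_transcendental hu.transcendental (diff_isAlgebraic_of_isCoordinate hu),
    diff_exists_smul (diff_isAlgebraic_of_isCoordinate hu)⟩

/-- (D2) -/
theorem diff_dCoordGeneratesStatement : DCoordGeneratesStatement := by
  intro K F _ _ _ _ _ u hu v
  exact diff_dCoordGenerates (diff_isAlgebraic_of_isCoordinate hu) v

/-- (D5a) -/
theorem diff_ordDiffZeroStatement : OrdDiffZeroStatement := by
  intro K F _ _ _ _ _ u hu v c h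
  exact diff_ord_of_zero hu.transcendental (diff_isAlgebraic_of_isCoordinate hu) v c h

/-- (D5b) -/
theorem diff_ordDiffPoleStatement : OrdDiffPoleStatement := by
  intro K F _ _ _ _ _ u hu v h
  exact diff_ord_of_pole hu.transcendental (diff_isAlgebraic_of_isCoordinate hu) v h

/-- (D6) -/
theorem diff_ordDiffSMulStatement : OrdDiffSMulStatement := by
  intro K F _ _ _ _ _ u hu v h ω hh hω
  exact diff_ordDifferential_smul (diff_isAlgebraic_of_isCoordinate hu) v hh hω

/-- (D7) -/
theorem diff_genusOfDivisorStatement : GenusOfDivisorStatement := by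
  intro K F _ _ _ _ _ _ u hu hP D g hD hdeg
  exact diff_genus_eq hu.transcendental (diff_isAlgebraic_of_isCoordinate hu) hP D g hD hdeg

end Fermat.Agent.S24
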