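/-
S24 (GLUE, part 1): changes of coordinate `j ↦ j - c`, `j ↦ j⁻¹`, and uniqueness of the
centre of a place.  Owner: helper22.
-/
import Mathlib
import Fermat.Agent.S24.Defs
import Fermat.Agent.S24.PlaceBasic

set_option autoImplicit false
set_option linter.unusedSectionVars false

noncomputable section

namespace Fermat.Agent.S24

open AlgebraicCurve IntermediateField

variable {K F : Type*} [Field K] [Field F] [Algebra K F]

theorem glue_adjoin_sub (j : F) (c : K) : K⟮j - algebraMap K F c⟯ = K⟮j⟯ := by
  apply le_antisymm
  · rw [adjoin_simple_le_iff]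
    exact sub_mem (mem_adjoin_simple_self K j) (IntermediateField.algebraMap_mem _ c)
  · rw [adjoin_simple_le_iff]
    have h : j = (j - algebraMap K F c) + algebraMap K F c := by ring
    have h2 : (j - algebraMap K F c) + algebraMap K F c ∈ K⟮j - algebraMap K F c⟯ :=
      add_mem (mem_adjoin_simple_self K _) (IntermediateField.algebraMap_mem _ c)
    rwa [← h] at h2

theorem glue_adjoin_inv (j : F) : K⟮j⁻¹⟯ = K⟮j⟯ := by
  apply le_antisymm
  · rw [adjoin_simple_le_iff]
    exact inv_mem (mem_adjoin_simple_self K j)
  · rw [adjoin_simple_le_iff]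
    have h2 : (j⁻¹)⁻¹ ∈ K⟮j⁻¹⟯ := inv_mem (mem_adjoin_simple_self K _)
    rwa [inv_inv] at h2

theorem glue_transcendental_sub {j : F} (hj : Transcendental K j) (c : K) :
    Transcendental K (j - algebraMap K F c) := by
  intro h
  apply hj
  have h2 : IsAlgebraic K (algebraMap K F c) := isAlgebraic_algebraMap c
  have := h.add h2
  simpa using this

theorem glue_transcendental_inv {j : F} (hj : Transcendental K j) :
    Transcendental K j⁻¹ := by
  intro h
  apply hj
  have := h.inv
  simpa using this

theorem glue_finite_of_eq {E E' : IntermediateField K F} (h : E = E')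
    (hfin : FiniteDimensional E F) : FiniteDimensional E' F := by
  subst h
  exact hfin

theorem glue_finrank_of_eq {E E' : IntermediateField K F} (h : E = E') :
    Module.finrank E F = Module.finrank E' F := by
  subst h
  rfl

theorem glue_isCoordinate_sub {j : F} (hj : IsCoordinate K j) (c : K) :
    IsCoordinate K (j - algebraMap K F c) :=
  ⟨glue_transcendental_sub hj.transcendental c,
    glue_finite_of_eq (glue_adjoin_sub j c).symm hj.finite⟩

theorem glue_isCoordinate_inv {j : F} (hj : IsCoordinate K j) : IsCoordinate K j⁻¹ :=
  ⟨glue_transcendental_inv hj.transcendental,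
    glue_finite_of_eq (glue_adjoin_inv j).symm hj.finite⟩

theorem glue_finrank_sub (j : F) (c : K) :
    Module.finrank K⟮j - algebraMap K F c⟯ F = Module.finrank K⟮j⟯ F :=
  glue_finrank_of_eq (glue_adjoin_sub j c)

theorem glue_finrank_inv (j : F) :
    Module.finrank K⟮j⁻¹⟯ F = Module.finrank K⟮j⟯ F :=
  glue_finrank_of_eq (glue_adjoin_inv j)

/-- The centre of a place on the `j`-line is unique. -/
theorem glue_centre_unique (v : Place K F) {j : F} {c c' : K}
    (h : j - algebraMap K F c ∈ v.toValuationSubring.nonunits)
    (h' : j - algebraMap K F c' ∈ v.toValuationSubring.nonunits) : c = c' := by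
  by_contra hne
  have h1 : algebraMap K F (c' - c) ∈ v.toValuationSubring.nonunits := by
    have : algebraMap K F (c' - c) = (j - algebraMap K F c) - (j - algebraMap K F c') := by
      rw [map_sub]; ring
    rw [this]
    exact sub_mem h h'
  exact place_algebraMap_not_mem_nonunits v (sub_ne_zero.mpr (Ne.symm hne)) h1

/-- A place cannot be centred both at a finite point and at infinity. -/
theorem glue_centre_not_pole (v : Place K F) {j : F} (hj0 : j ≠ 0) {c : K}
    (h : j - algebraMap K F c ∈ v.toValuationSubring.nonunits)
    (h' : j⁻¹ ∈ v.toValuationSubring.nonunits) : False := by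
  have h1 : j ∈ v.toValuationSubring := by
    have : j = (j - algebraMap K F c) + algebraMap K F c := by ring
    rw [this]
    exact add_mem (place_nonunits_subset v h) (v.algebraMap_mem' c)
  exact place_not_mem_of_inv_mem_nonunits v hj0 h' h1

end Fermat.Agent.S24
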