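/-
S24, pure algebra (owner: helper10): principal divisors from the fundamental identity.
* `coord_isCoordinate_of_transcendental` — exchange: every transcendental element of a function
  field in one variable is a coordinate,
* `coord_principalDivisor : FundamentalIdentityStatement → PrincipalDivisorStatement`.
-/
import Mathlib
import Fermat.Agent.S24.Defs
import Fermat.Agent.S24.PlaceBasic
import Fermat.Agent.S24.GlueCoord
import Fermat.Agent.S24.DiffFinal

set_option autoImplicit false

noncomputable section

namespace Fermat.Agent.S24

open AlgebraicCurve IntermediateField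

section Exchange

variable {K F : Type*} [Field K] [Field F] [Algebra K F]

/-- If `F` is algebraic over `K(f)` and finite over `K(u)`, then `F` is finite over `K(f)`. -/
theorem coord_finite_of_isAlgebraic {u f : F} (hu : FiniteDimensional K⟮u⟯ F)
    (hf : Algebra.IsAlgebraic K⟮f⟯ F) : FiniteDimensional K⟮f⟯ F := by
  classical
  obtain ⟨s, hs⟩ := Module.finite_def.mp hu
  let T : Set F := insert u (↑s : Set F)
  have hTfin : T.Finite := (Finset.finite_toSet s).insert u
  have : Finite T := hTfin
  have hfd : FiniteDimensional K⟮f⟯ (IntermediateField.adjoin K⟮f⟯ T) :=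
    IntermediateField.finiteDimensional_adjoin
      (fun x _ => (Algebra.IsAlgebraic.isAlgebraic (R := K⟮f⟯) x).isIntegral)
  have hKu : ∀ e ∈ K⟮u⟯, e ∈ IntermediateField.adjoin K⟮f⟯ T := by
    intro e he
    induction he using IntermediateField.adjoin_induction with
    | mem x hx =>
      have hx' : x = u := hx
      rw [hx']
      exact IntermediateField.subset_adjoin _ _ (Set.mem_insert _ _)
    | algebraMap c =>
      have : algebraMap K F c = algebraMap K⟮f⟯ F (algebraMap K K⟮f⟯ c) := rfl
      rw [this]
      exact (IntermediateField.adjoin K⟮f⟯ T).algebraMap_mem _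
    | add x y _ _ hx hy => exact add_mem hx hy
    | inv x _ hx => exact inv_mem hx
    | mul x y _ _ hx hy => exact mul_mem hx hy
  have htop : IntermediateField.adjoin K⟮f⟯ T = ⊤ := by
    have key : ∀ x ∈ Submodule.span K⟮u⟯ (↑s : Set F),
        x ∈ IntermediateField.adjoin K⟮f⟯ T := by
      intro x hx
      induction hx using Submodule.span_induction with
      | mem y hy => exact IntermediateField.subset_adjoin _ _ (Set.mem_insert_of_mem _ hy)
      | zero => exact zero_mem _
      | add x y _ _ hx hy => exact add_mem hx hy
      | smul e y _ hy => exact mul_mem (hKu e e.2) hy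
    rw [eq_top_iff]
    intro x _
    exact key x (by rw [hs]; exact Submodule.mem_top)
  rw [htop] at hfd
  exact (IntermediateField.topEquiv (F := K⟮f⟯) (E := F)).toLinearEquiv.finiteDimensional

/-- **Exchange.**  In a function field in one variable every transcendental element is a
coordinate. -/
theorem coord_isCoordinate_of_transcendental {u f : F} (hu : IsCoordinate K u)
    (hf : Transcendental K f) : IsCoordinate K f := by
  have halg : Algebra.IsAlgebraic K⟮u⟯ F := diff_isAlgebraic_of_isCoordinate hu
  exact ⟨hf, coord_finite_of_isAlgebraic hu.finite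
    (diff_isAlgebraic_adjoin_of_transcendental halg hf)⟩

/-- Over an algebraically closed field, algebraic elements are constants. -/
theorem coord_exists_const_of_isAlgebraic [IsAlgClosed K] {f : F} (hf : IsAlgebraic K f) :
    ∃ c : K, algebraMap K F c = f := by
  have hdeg := IsAlgClosed.degree_eq_one_of_irreducible K (minpoly.irreducible hf.isIntegral)
  exact minpoly.mem_range_of_degree_eq_one K f hdeg

end Exchange

/-- (FF4) Principal divisors exist and have degree `0`. -/
theorem coord_principalDivisor (hFI : FundamentalIdentityStatement) :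
    PrincipalDivisorStatement := by
  classical
  intro K F _ _ _ _ _ u hu
  refine ⟨fun f hf0 => ?_⟩
  by_cases hf : IsAlgebraic K f
  · obtain ⟨c, rfl⟩ := coord_exists_const_of_isAlgebraic hf
    refine ⟨0, fun v => ?_, map_zero _⟩
    rw [place_ord_algebraMap]
    rfl
  · have hfc : IsCoordinate K f := coord_isCoordinate_of_transcendental hu hf
    have hfc' : IsCoordinate K f⁻¹ := glue_isCoordinate_inv hfc
    obtain ⟨hZ, hsumZ⟩ := hFI K F f hfc
    obtain ⟨hP, hsumP⟩ := hFI K F f⁻¹ hfc'
    have hfi0 : f⁻¹ ≠ 0 := inv_ne_zero hf0
    have hmemZ : ∀ v : Place K F, v ∈ hZ.toFinset ↔ 0 < v.ord f := by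
      intro v
      rw [Set.Finite.mem_toFinset]
      exact place_mem_nonunits_iff v hf0
    have hmemP : ∀ v : Place K F, v ∈ hP.toFinset ↔ v.ord f < 0 := by
      intro v
      rw [Set.Finite.mem_toFinset]
      have := place_mem_nonunits_iff v hfi0
      rw [v.ord_inv] at this
      exact this.trans (by omega)
    let D : Divisor K F := Finsupp.onFinset (hZ.toFinset ∪ hP.toFinset) (fun v => v.ord f) (by
      intro v hv
      rw [Finset.mem_union, hmemZ, hmemP]
      omega)
    refine ⟨D, fun v => rfl, ?_⟩
    have hdisj : Disjoint hZ.toFinset hP.toFinset := by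
      rw [Finset.disjoint_left]
      intro v hv hv'
      rw [hmemZ] at hv
      rw [hmemP] at hv'
      omega
    have hdeg : Divisor.degree D = ∑ v ∈ hZ.toFinset ∪ hP.toFinset, v.ord f * (v.deg : ℤ) := by
      rw [Divisor.degree, Finsupp.liftAddHom_apply]
      exact Finsupp.onFinset_sum _ (fun v => by simp)
    rw [hdeg, Finset.sum_union hdisj]
    have h1 : ∀ v : Place K F, v.ord f * (v.deg : ℤ) = v.ord f := by
      intro v
      rw [diff_degOneStatement K F u hu v]
      simp
    simp only [h1]
    rw [hsumZ]
    have h2 : ∑ v ∈ hP.toFinset, v.ord f = - ∑ v ∈ hP.toFinset, v.ord f⁻¹ := by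
      rw [← Finset.sum_neg_distrib]
      refine Finset.sum_congr rfl fun v _ => ?_
      rw [v.ord_inv, neg_neg]
    rw [h2, hsumP, glue_finrank_inv]
    ring

end Fermat.Agent.S24
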