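/-
S24, package AN-G (owner: helper24): the statements of `ANDefs.lean` / `Defs.lean` about the
degree.

* `anG_stabilizer`        : `StabilizerStatement`
* `anG_jTranscendental`   : `JTranscendentalStatement`
* `anG_exists_poly`       : a nonzero two-variable polynomial relation of `Y`-degree at most
                            `[F : K(u)]` between `u` and any `v ∈ F`
* `anG_degreeLowerBound`  : `BridgeStatement → JCoordinateStatement → DegreeLowerBoundStatement`
-/
import Mathlib
import Fermat.Agent.S24.ANDefs
import Fermat.Agent.S24.TranslateAN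
import Fermat.Agent.S24.Degree

set_option autoImplicit false

noncomputable section

namespace Fermat.Agent.S24

open UpperHalfPlane CongruenceSubgroup Function IntermediateField
open scoped MatrixGroups Manifold Topology Polynomial

/-! ### (AN-G1) the stabiliser -/

theorem anG_stabilizer : StabilizerStatement := by
  intro N _ δ h
  apply anG_mem_Gamma0_of_jd_eq N δ
  intro z
  rw [← anB_jfunMul_eq]
  exact h z

/-! ### (AN-G0) the formal `j` is transcendental -/

theorem anG_jLaurent_one : jLaurent 1 = ModularCurve.coeffEmb QBar ModularCurve.jq := by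
  rw [jLaurent, ModularCurve.qExpand_one_apply]

theorem anG_coeff_jLaurent_pow (i : ℕ) (m : ℤ) :
    ((jLaurent 1) ^ i).coeff m = algebraMap ℚ QBar ((ModularCurve.jq ^ i).coeff m) := by
  rw [anG_jLaurent_one, ← map_pow]
  rfl

theorem anG_coeff_smul (c : QBar) (x : LaurentSeries QBar) (m : ℤ) :
    (HSMul.hSMul (self := @instHSMul _ _ Algebra.toSMul) c x).coeff m = c * x.coeff m := by
  rw [Algebra.smul_def, ModularCurve.algebraMap_laurentSeries_eq_single]
  simp

theorem anG_aeval_jLaurent_ne_zero (p : QBar[X]) (hp : p ≠ 0) :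
    Polynomial.aeval (jLaurent 1) p ≠ 0 := by
  intro h0
  have h1 : (Polynomial.aeval (jLaurent 1) p).coeff (-(p.natDegree : ℤ)) = p.leadingCoeff := by
    rw [Polynomial.aeval_eq_sum_range, HahnSeries.coeff_sum]
    rw [Finset.sum_eq_single p.natDegree]
    · rw [anG_coeff_smul, anG_coeff_jLaurent_pow, ModularCurve.coeff_jq_pow_self]
      simp
    · intro i hi hne
      rw [anG_coeff_smul, anG_coeff_jLaurent_pow, ModularCurve.coeff_jq_pow_of_lt]
      · simp
      · have : i < p.natDegree := by
          have := Finset.mem_range.mp hi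
          omega
        omega
    · intro hn
      exact absurd (Finset.mem_range.mpr (Nat.lt_succ_self _)) hn
  rw [h0, HahnSeries.coeff_zero] at h1
  exact Polynomial.leadingCoeff_ne_zero.mpr hp h1.symm

theorem anG_coe_aeval (N : ℕ) (x : FunField N) (p : QBar[X]) :
    ((Polynomial.aeval x p : FunField N) : LaurentSeries QBar) =
      Polynomial.aeval (x : LaurentSeries QBar) p := by
  have := Polynomial.aeval_algebraMap_apply (LaurentSeries QBar) x p
  exact this.symm

theorem anG_jTranscendental : JTranscendentalStatement := by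
  intro N _
  rw [transcendental_iff]
  intro p hp
  by_contra hne
  apply anG_aeval_jLaurent_ne_zero p hne
  have h1 := anG_coe_aeval N (jF N) p
  rw [hp] at h1
  exact h1.symm

/-! ### Algebra: a polynomial relation of small degree -/

open scoped IntermediateField.algebraAdjoinAdjoin in
/-- If `F` is finite over `K(u)` then every `v ∈ F` satisfies a nonzero polynomial relation
`P(u, v) = 0` with `P ∈ K[X][Y]` of `Y`-degree at most `[F : K(u)]`. -/
theorem anG_exists_poly {K F : Type*} [Field K] [Field F] [Algebra K F] (u v : F)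
    [FiniteDimensional K⟮u⟯ F] :
    ∃ P : K[X][X], P ≠ 0 ∧ P.natDegree ≤ Module.finrank K⟮u⟯ F ∧
      P.eval₂ (Polynomial.aeval u : K[X] →ₐ[K] F).toRingHom v = 0 := by
  classical
  have hint : IsIntegral K⟮u⟯ v := IsIntegral.of_finite K⟮u⟯ v
  have hm0 : minpoly K⟮u⟯ v ≠ 0 := minpoly.ne_zero hint
  have hmdeg : (minpoly K⟮u⟯ v).natDegree ≤ Module.finrank K⟮u⟯ F := minpoly.natDegree_le v
  set Q : (Algebra.adjoin K ({u} : Set F))[X] :=
    IsLocalization.integerNormalization (nonZeroDivisors (Algebra.adjoin K ({u} : Set F)))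
      (minpoly K⟮u⟯ v) with hQdef
  have hQ0 : Q ≠ 0 := fun h => hm0 (IsFractionRing.integerNormalization_eq_zero_iff.mp h)
  have hQv : Polynomial.aeval v Q = 0 :=
    IsLocalization.integerNormalization_aeval_eq_zero _ _ (minpoly.aeval K⟮u⟯ v)
  have hQdeg : Q.natDegree ≤ (minpoly K⟮u⟯ v).natDegree := by
    obtain ⟨b, -, hspec⟩ := IsLocalization.integerNormalization_spec
      (nonZeroDivisors (Algebra.adjoin K ({u} : Set F))) (minpoly K⟮u⟯ v)
    have h1 : (Q.map (algebraMap (Algebra.adjoin K ({u} : Set F)) K⟮u⟯)).natDegree =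
        Q.natDegree :=
      Polynomial.natDegree_map_eq_of_injective (FaithfulSMul.algebraMap_injective _ _) Q
    rw [← h1, hQdef, hspec]
    exact Polynomial.natDegree_smul_le b _
  have hA : ∀ a : Algebra.adjoin K ({u} : Set F), ∃ c : K[X], Polynomial.aeval u c = (a : F) := by
    intro a
    have h1 : (a : F) ∈ (Polynomial.aeval u : K[X] →ₐ[K] F).range := by
      rw [← Algebra.adjoin_singleton_eq_range_aeval]
      exact a.2
    exact h1
  choose c hc using hA
  refine ⟨∑ i ∈ Q.support, Polynomial.monomial i (c (Q.coeff i)), ?_, ?_, ?_⟩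
  · intro h0
    have h1 : (∑ i ∈ Q.support, Polynomial.monomial i (c (Q.coeff i))).coeff Q.natDegree =
        c (Q.coeff Q.natDegree) := by
      rw [Polynomial.finsetSum_coeff, Finset.sum_eq_single Q.natDegree]
      · rw [Polynomial.coeff_monomial, if_pos rfl]
      · intro i _ hne
        rw [Polynomial.coeff_monomial, if_neg hne]
      · intro hn
        exact absurd (Polynomial.natDegree_mem_support_of_nonzero hQ0) hn
    rw [h0, Polynomial.coeff_zero] at h1
    have h2 := hc (Q.coeff Q.natDegree)
    rw [← h1, map_zero] at h2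
    have h3 : Q.coeff Q.natDegree = 0 := Subtype.ext h2.symm
    exact hQ0 (Polynomial.leadingCoeff_eq_zero.mp h3)
  · refine le_trans ?_ (hQdeg.trans hmdeg)
    refine Polynomial.natDegree_sum_le_of_forall_le _ _ fun i hi => ?_
    exact (Polynomial.natDegree_monomial_le _).trans (Polynomial.le_natDegree_of_mem_supp _ hi)
  · rw [Polynomial.eval₂_finsetSum]
    rw [Polynomial.aeval_def, Polynomial.eval₂_eq_sum, Polynomial.sum] at hQv
    rw [← hQv]
    refine Finset.sum_congr rfl fun i _ => ?_
    rw [Polynomial.eval₂_monomial]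
    congr 1
    exact hc _

/-! ### (AN-G) the degree lower bound -/

/-- The evaluation `P ↦ P(j, j(N z))` of two-variable polynomials in `ringA N`. -/
def anG_evalA (N : ℕ) [NeZero N] : QBar[X][X] →+* ringA N :=
  Polynomial.eval₂RingHom
    (Polynomial.eval₂RingHom (algebraMap QBar (ringA N)) (jA N)) (jDivA N N dvd_rfl)

theorem anG_coe_evalA_C (N : ℕ) [NeZero N] (a : QBar[X]) :
    ((Polynomial.eval₂ (algebraMap QBar (ringA N)) (jA N) a : ringA N) : FunField N) =
      Polynomial.eval₂ (algebraMap QBar (FunField N)) (jF N) a := by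
  have h := Polynomial.hom_eval₂ a (algebraMap QBar (ringA N)) ((ringA N).val.toRingHom) (jA N)
  exact h

theorem anG_coe_evalA (N : ℕ) [NeZero N] (P : QBar[X][X]) :
    ((anG_evalA N P : ringA N) : FunField N) =
      P.eval₂ (Polynomial.aeval (jF N) : QBar[X] →ₐ[QBar] FunField N).toRingHom
        (jDiv N N dvd_rfl) := by
  have h := Polynomial.hom_eval₂ P
    (Polynomial.eval₂RingHom (algebraMap QBar (ringA N)) (jA N)) ((ringA N).val.toRingHom)
    (jDivA N N dvd_rfl)
  have h2 : ((ringA N).val.toRingHom).comp
      (Polynomial.eval₂RingHom (algebraMap QBar (ringA N)) (jA N)) =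
      (Polynomial.aeval (jF N) : QBar[X] →ₐ[QBar] FunField N).toRingHom := by
    apply RingHom.ext
    intro a
    exact anG_coe_evalA_C N a
  rw [h2] at h
  exact h

theorem anG_bridge_evalA {N : ℕ} [NeZero N] {Θ₀ : ringA N →+* (ℍ → ℂ)} {ρ : ℂ →+ QBar}
    (hB : IsBridge N Θ₀ ρ) (P : QBar[X][X]) (z : ℍ) :
    Θ₀ (anG_evalA N P) z =
      (P.map (Polynomial.mapRingHom iota)).evalEval (jfun z) (anB_jd N z) := by
  have h : ((Pi.evalRingHom (fun _ : ℍ => ℂ) z).comp Θ₀).comp (anG_evalA N) =
      (Polynomial.evalEvalRingHom (jfun z) (anB_jd N z)).comp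
        (Polynomial.mapRingHom (Polynomial.mapRingHom iota)) := by
    apply Polynomial.ringHom_ext
    · intro a
      have h1 : ((Pi.evalRingHom (fun _ : ℍ => ℂ) z).comp Θ₀).comp
          ((anG_evalA N).comp Polynomial.C) =
          ((Polynomial.evalEvalRingHom (jfun z) (anB_jd N z)).comp
            (Polynomial.mapRingHom (Polynomial.mapRingHom iota))).comp Polynomial.C := by
        apply Polynomial.ringHom_ext
        · intro c
          have e1 : Θ₀ (anG_evalA N (Polynomial.C (Polynomial.C c))) z = iota c := by
            simp only [anG_evalA, Polynomial.coe_eval₂RingHom, Polynomial.eval₂_C]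
            exact hB.map_const c z
          have e2 : (Polynomial.map (Polynomial.mapRingHom iota)
              (Polynomial.C (Polynomial.C c))).evalEval (jfun z) (anB_jd N z) = iota c := by
            simp [Polynomial.evalEval]
          exact e1.trans e2.symm
        · have e1 : Θ₀ (anG_evalA N (Polynomial.C Polynomial.X)) z = jfun z := by
            simp only [anG_evalA, Polynomial.coe_eval₂RingHom, Polynomial.eval₂_C,
              Polynomial.eval₂_X]
            have h2 := hB.map_jDiv 1 (one_dvd N) z
            rw [anB_jfunMul_eq, anB_jd_one] at h2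
            exact h2
          have e2 : (Polynomial.map (Polynomial.mapRingHom iota)
              (Polynomial.C Polynomial.X)).evalEval (jfun z) (anB_jd N z) = jfun z := by
            simp [Polynomial.evalEval]
          exact e1.trans e2.symm
      exact congrArg (fun f => f a) h1
    · have e1 : Θ₀ (anG_evalA N Polynomial.X) z = anB_jd N z := by
        simp only [anG_evalA, Polynomial.coe_eval₂RingHom, Polynomial.eval₂_X]
        have h2 := hB.map_jDiv N dvd_rfl z
        rw [anB_jfunMul_eq] at h2
        exact h2
      have e2 : (Polynomial.map (Polynomial.mapRingHom iota)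
          Polynomial.X).evalEval (jfun z) (anB_jd N z) = anB_jd N z := by
        simp [Polynomial.evalEval]
      exact e1.trans e2.symm
  exact congrArg (fun f => f P) h

/-- (AN-G) `[F : Q̄(j)] ≥ [SL(2,ℤ) : Γ₀(N)]`, from the bridge and the finiteness of `F / Q̄(j)`. -/
theorem anG_degreeLowerBound (hB : BridgeStatement) (hJ : JCoordinateStatement) :
    DegreeLowerBoundStatement := by
  intro N _
  obtain ⟨Θ₀, ρ, hΘ⟩ := hB N
  have : FiniteDimensional QBar⟮jF N⟯ (FunField N) := (hJ N).finite
  obtain ⟨P, hP0, hPdeg, hPv⟩ := anG_exists_poly (K := QBar) (jF N) (jDiv N N dvd_rfl)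
  refine le_trans ?_ hPdeg
  have hinj : Function.Injective (Polynomial.mapRingHom iota) :=
    Polynomial.map_injective _ iota.injective
  have hP'0 : P.map (Polynomial.mapRingHom iota) ≠ 0 :=
    (Polynomial.map_ne_zero_iff hinj).mpr hP0
  refine le_trans (anG_card_le_natDegree N _ hP'0 ?_) Polynomial.natDegree_map_le
  intro z
  rw [← anG_bridge_evalA hΘ P z]
  have h0 : anG_evalA N P = 0 := by
    apply Subtype.ext
    rw [anG_coe_evalA, hPv]
    rfl
  rw [h0, map_zero]
  rfl

end Fermat.Agent.S24
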