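/-
S24, package (FF3): weak approximation over the `u`-line.
Owner: helper13.  Prefix `ff3_`.

For a coordinate `u` on a function field `F/K`, `A := K[u]`, `B :=` integral closure of `A` in
`F` (a Dedekind domain with fraction field `F`).  Every place `w` with `u ∈ O_w` has a centre
`P_w := B ∩ m_w` on `B`, a nonzero prime, and `O_w` is the localisation of `B` at `P_w`; hence
`w ↦ P_w` is injective, and prime avoidance in `B` gives weak approximation.
-/
import Mathlib
import Fermat.Agent.S24.Defs

set_option autoImplicit false

noncomputable section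

namespace Fermat.Agent.S24

open AlgebraicCurve IntermediateField IsDedekindDomain
open scoped IntermediateField.algebraAdjoinAdjoin

section FF3

variable {K F : Type*} [Field K] [Field F] [Algebra K F]

/-- The valuation ring of a place, as a `K`-subalgebra of `F`. -/
def ff3_subalgebra (w : Place K F) : Subalgebra K F :=
  { w.toValuationSubring.toSubring with
    algebraMap_mem' := w.algebraMap_mem' }

theorem ff3_mem_subalgebra (w : Place K F) (x : F) :
    x ∈ ff3_subalgebra w ↔ x ∈ w.toValuationSubring := Iff.rfl

/-- `K[u] ⊆ O_w` if `u ∈ O_w`. -/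
theorem ff3_adjoin_le (w : Place K F) {u : F} (hu : u ∈ w.toValuationSubring) :
    Algebra.adjoin K {u} ≤ ff3_subalgebra w :=
  Algebra.adjoin_le (by
    intro x hx
    rw [Set.mem_singleton_iff] at hx
    subst hx
    exact hu)

/-- A function integral over `K[u]` is regular at every place where `u` is regular. -/
theorem ff3_integral_mem (w : Place K F) {u : F} (hu : u ∈ w.toValuationSubring) {g : F}
    (hg : IsIntegral (Algebra.adjoin K {u}) g) : g ∈ w.toValuationSubring := by
  obtain ⟨p, hp, hpg⟩ := hg
  let φ : Algebra.adjoin K {u} →+* w.toValuationSubring :=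
    (algebraMap (Algebra.adjoin K {u}) F).codRestrict w.toValuationSubring.toSubring
      (fun a => ff3_adjoin_le w hu a.2)
  have hint : IsIntegral w.toValuationSubring g := by
    refine ⟨p.map φ, hp.map φ, ?_⟩
    rw [Polynomial.eval₂_map]
    exact hpg
  obtain ⟨y, hy⟩ := (IsIntegrallyClosed.isIntegral_iff (R := w.toValuationSubring) (K := F)).mp hint
  rw [← hy]
  exact y.2

theorem ff3_isPrincipalIdealRing_adjoin {u : F} (hu : Transcendental K u) :
    IsPrincipalIdealRing (Algebra.adjoin K {u}) :=
  IsPrincipalIdealRing.of_surjective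
    (Polynomial.algEquivOfTranscendental K u hu : Polynomial K →+* Algebra.adjoin K {u})
    (Polynomial.algEquivOfTranscendental K u hu).surjective

theorem ff3_isDedekindDomain_adjoin {u : F} (hu : Transcendental K u) :
    IsDedekindDomain (Algebra.adjoin K {u}) := by
  have := ff3_isPrincipalIdealRing_adjoin hu
  infer_instance

theorem ff3_isDedekindDomain [CharZero K] {u : F} (hu : IsCoordinate K u) :
    IsDedekindDomain (integralClosure (Algebra.adjoin K {u}) F) := by
  have := ff3_isDedekindDomain_adjoin hu.transcendental
  have := hu.finite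
  exact integralClosure.isDedekindDomain (Algebra.adjoin K {u}) K⟮u⟯ F

theorem ff3_isFractionRing {u : F} (hu : IsCoordinate K u) :
    IsFractionRing (integralClosure (Algebra.adjoin K {u}) F) F := by
  have := hu.finite
  exact integralClosure.isFractionRing_of_finite_extension K⟮u⟯ F

/-- The inclusion of the integral closure `B` of `K[u]` into the valuation ring of a place at
which `u` is regular. -/
def ff3_incl (w : Place K F) {u : F} (hu : u ∈ w.toValuationSubring) :
    integralClosure (Algebra.adjoin K {u}) F →+* w.toValuationSubring :=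
  (algebraMap (integralClosure (Algebra.adjoin K {u}) F) F).codRestrict
    w.toValuationSubring.toSubring (fun b => ff3_integral_mem w hu b.2)

@[simp]
theorem ff3_incl_coe (w : Place K F) {u : F} (hu : u ∈ w.toValuationSubring)
    (b : integralClosure (Algebra.adjoin K {u}) F) : ((ff3_incl w hu b : w.toValuationSubring) : F) = b :=
  rfl

/-- The centre of a place on `B`, as an ideal. -/
def ff3_centreIdeal (w : Place K F) {u : F} (hu : u ∈ w.toValuationSubring) :
    Ideal (integralClosure (Algebra.adjoin K {u}) F) :=
  (IsLocalRing.maximalIdeal w.toValuationSubring).comap (ff3_incl w hu)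

theorem ff3_mem_centreIdeal (w : Place K F) {u : F} (hu : u ∈ w.toValuationSubring)
    (b : integralClosure (Algebra.adjoin K {u}) F) :
    b ∈ ff3_centreIdeal w hu ↔ (b : F) ∈ w.toValuationSubring.nonunits := by
  rw [ff3_centreIdeal, Ideal.mem_comap, ← ValuationSubring.coe_mem_nonunits_iff, ff3_incl_coe]

instance ff3_centreIdeal_isPrime (w : Place K F) {u : F} (hu : u ∈ w.toValuationSubring) :
    (ff3_centreIdeal w hu).IsPrime :=
  Ideal.comap_isPrime _ _

/-- An element of `O_w` that is not in the maximal ideal has its inverse in `O_w`. -/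
theorem ff3_inv_mem (w : Place K F) {x : F} (hx : x ∈ w.toValuationSubring)
    (hx' : x ∉ w.toValuationSubring.nonunits) : x⁻¹ ∈ w.toValuationSubring := by
  rw [ValuationSubring.mem_nonunits_iff, not_lt] at hx'
  rw [← ValuationSubring.valuation_le_one_iff] at hx ⊢
  have h1 : w.toValuationSubring.valuation x = 1 := le_antisymm hx hx'
  rw [map_inv₀, h1, inv_one]

theorem ff3_centreIdeal_ne_bot (w : Place K F) {u : F} (hu : u ∈ w.toValuationSubring)
    [IsFractionRing (integralClosure (Algebra.adjoin K {u}) F) F] :
    ff3_centreIdeal w hu ≠ ⊥ := by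
  intro hbot
  apply w.ne_top'
  refine SetLike.ext fun x => ⟨fun _ => ValuationSubring.mem_top x, fun _ => ?_⟩
  obtain ⟨a, b, hb, rfl⟩ :=
    IsFractionRing.div_surjective (A := integralClosure (Algebra.adjoin K {u}) F) x
  have hb0 : b ≠ 0 := nonZeroDivisors.ne_zero hb
  have hbP : b ∉ ff3_centreIdeal w hu := by
    rw [hbot, Ideal.mem_bot]
    exact hb0
  rw [ff3_mem_centreIdeal] at hbP
  have hbmem : (b : F) ∈ w.toValuationSubring := ff3_integral_mem w hu b.2
  have hamem : (a : F) ∈ w.toValuationSubring := ff3_integral_mem w hu a.2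
  have := ff3_inv_mem w hbmem hbP
  rw [div_eq_mul_inv]
  exact w.toValuationSubring.mul_mem _ _ hamem this

/-- The centre of a place on `B`, as a height-one prime. -/
def ff3_centre (w : Place K F) {u : F} (hu : u ∈ w.toValuationSubring)
    [IsFractionRing (integralClosure (Algebra.adjoin K {u}) F) F] :
    HeightOneSpectrum (integralClosure (Algebra.adjoin K {u}) F) :=
  ⟨ff3_centreIdeal w hu, inferInstance, ff3_centreIdeal_ne_bot w hu⟩

/-- The valuation ring of a place is the localisation of `B` at its centre. -/
theorem ff3_valuationSubring_eq (w : Place K F) {u : F} (hu : u ∈ w.toValuationSubring)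
    [IsDedekindDomain (integralClosure (Algebra.adjoin K {u}) F)]
    [IsFractionRing (integralClosure (Algebra.adjoin K {u}) F) F] :
    HeightOneSpectrum.valuationSubringAtPrime F (ff3_centre w hu) = w.toValuationSubring := by
  refine ValuationSubring.eq_of_le_of_ne_top _ ?_ w.ne_top'
  intro x hx
  rw [HeightOneSpectrum.valuationSubringAtPrime_eq_valuationSubring,
    Valuation.mem_valuationSubring_iff] at hx
  obtain ⟨n, d, hnd⟩ := HeightOneSpectrum.exists_primeCompl_mul_eq_of_integer (ff3_centre w hu) x hx
  have hdP : (d : integralClosure (Algebra.adjoin K {u}) F) ∉ ff3_centreIdeal w hu := d.2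
  rw [ff3_mem_centreIdeal] at hdP
  have hdmem : ((d : integralClosure (Algebra.adjoin K {u}) F) : F) ∈ w.toValuationSubring :=
    ff3_integral_mem w hu (d : integralClosure (Algebra.adjoin K {u}) F).2
  have hnmem : (n : F) ∈ w.toValuationSubring := ff3_integral_mem w hu n.2
  have hinv := ff3_inv_mem w hdmem hdP
  have hd0 : ((d : integralClosure (Algebra.adjoin K {u}) F) : F) ≠ 0 := by
    intro h0
    apply hdP
    rw [h0]
    exact w.toValuationSubring.nonunits.zero_mem
  have hx' : x = (n : F) * ((d : integralClosure (Algebra.adjoin K {u}) F) : F)⁻¹ := by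
    have h1 : x * ((d : integralClosure (Algebra.adjoin K {u}) F) : F) = (n : F) := hnd
    field_simp
    exact h1
  rw [hx']
  exact w.toValuationSubring.mul_mem _ _ hnmem hinv

/-- Two places (regular at `u`) with the same centre on `B` are equal. -/
theorem ff3_centre_injective (v w : Place K F) {u : F} (hv : u ∈ v.toValuationSubring)
    (hw : u ∈ w.toValuationSubring)
    [IsDedekindDomain (integralClosure (Algebra.adjoin K {u}) F)]
    [IsFractionRing (integralClosure (Algebra.adjoin K {u}) F) F]
    (h : ff3_centreIdeal v hv = ff3_centreIdeal w hw) : v = w := by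
  apply Place.ext
  have hc : ff3_centre v hv = ff3_centre w hw := HeightOneSpectrum.ext h
  rw [← ff3_valuationSubring_eq v hv, ← ff3_valuationSubring_eq w hw, hc]

/-- Weak approximation, in terms of the integral closure `B` of `K[u]`. -/
theorem ff3_exists_separating (S : Finset (Place K F)) (v : Place K F) {u : F}
    [IsDedekindDomain (integralClosure (Algebra.adjoin K {u}) F)]
    [IsFractionRing (integralClosure (Algebra.adjoin K {u}) F) F]
    (hS : ∀ w ∈ S, u ∈ w.toValuationSubring) (hv : u ∈ v.toValuationSubring) (hvS : v ∉ S) :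
    ∃ g : integralClosure (Algebra.adjoin K {u}) F,
      (∀ w ∈ S, (g : F) ∈ w.toValuationSubring.nonunits) ∧
        (g : F) ∉ v.toValuationSubring.nonunits := by
  classical
  -- the centres of the places in `S`
  let Q : Place K F → Ideal (integralClosure (Algebra.adjoin K {u}) F) := fun w =>
    if h : u ∈ w.toValuationSubring then ff3_centreIdeal w h else ⊤
  have hQ : ∀ w (h : u ∈ w.toValuationSubring), Q w = ff3_centreIdeal w h := fun w h => dif_pos h
  have hnot : ¬ (∏ w ∈ S, Q w) ≤ ff3_centreIdeal v hv := by
    intro hle
    obtain ⟨w, hwS, hwle⟩ := (Ideal.IsPrime.prod_le inferInstance).mp hle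
    rw [hQ w (hS w hwS)] at hwle
    have hmax : (ff3_centreIdeal w (hS w hwS)).IsMaximal :=
      Ideal.IsPrime.isMaximal inferInstance (ff3_centreIdeal_ne_bot w (hS w hwS))
    have heq : ff3_centreIdeal w (hS w hwS) = ff3_centreIdeal v hv :=
      hmax.eq_of_le (Ideal.IsPrime.ne_top inferInstance) hwle
    have : w = v := ff3_centre_injective w v (hS w hwS) hv heq
    exact hvS (this ▸ hwS)
  obtain ⟨g, hgprod, hgv⟩ := SetLike.not_le_iff_exists.mp hnot
  refine ⟨g, fun w hwS => ?_, ?_⟩
  · rw [← ff3_mem_centreIdeal w (hS w hwS), ← hQ w (hS w hwS)]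
    exact (Ideal.prod_le_inf.trans (Finset.inf_le hwS)) hgprod
  · rw [← ff3_mem_centreIdeal v hv]
    exact hgv

end FF3

/-- **(FF3) Weak approximation** over the `u`-line. -/
theorem ff3_weakApproximation : WeakApproximationStatement := by
  intro K F _ _ _ _ _ u hu S v hS hv hvS
  have := ff3_isDedekindDomain hu
  have := ff3_isFractionRing hu
  obtain ⟨g, hgS, hgv⟩ := ff3_exists_separating S v hS hv hvS
  exact ⟨(g : F), g.2, hgS, hgv⟩


end Fermat.Agent.S24
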