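/-
S24 (COUNT): the squeeze.  If `u` is uniformized by a family of places `P x` (`x ∈ X`) and
`|X| ≤ [F : K(u)]`, then the places over `u = 0` are exactly the `P x`, they correspond to
the `H`-orbits on `X`, and the ramification index is the orbit length.
Owner: helper22.
-/
import Mathlib
import Fermat.Agent.S24.Defs
import Fermat.Agent.S24.PlaceBasic
import Fermat.Agent.S24.FFApprox

set_option autoImplicit false
set_option linter.style.haveILetI false
set_option linter.unusedSectionVars false

noncomputable section

namespace Fermat.Agent.S24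

open AlgebraicCurve IntermediateField

section Basic

variable {K F : Type*} [Field K] [Field F] [Algebra K F]

/-- The maximal ideal is stable under multiplication by regular elements. -/
theorem count_mul_mem_nonunits (v : Place K F) {a b : F}
    (ha : a ∈ v.toValuationSubring.nonunits) (hb : b ∈ v.toValuationSubring) :
    a * b ∈ v.toValuationSubring.nonunits := by
  rcases eq_or_ne a 0 with rfl | ha0
  · simp
  rcases eq_or_ne b 0 with rfl | hb0
  · simp
  rw [place_mem_nonunits_iff v (mul_ne_zero ha0 hb0), v.ord_mul ha0 hb0]
  have h1 := (place_mem_nonunits_iff v ha0).mp ha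
  have h2 := (place_mem_iff v).mp hb
  omega

/-- The maximal ideal is radical. -/
theorem count_mem_nonunits_of_pow (v : Place K F) {g : F} {n : ℕ}
    (h : g ^ n ∈ v.toValuationSubring.nonunits) : g ∈ v.toValuationSubring.nonunits := by
  rcases eq_or_ne g 0 with rfl | hg0
  · exact place_zero_mem_nonunits v
  rw [place_mem_nonunits_iff v (pow_ne_zero n hg0), place_ord_pow] at h
  rw [place_mem_nonunits_iff v hg0]
  by_contra hcon
  have h1 : v.ord g ≤ 0 := not_lt.mp hcon
  have h2 : (n : ℤ) * v.ord g ≤ 0 := mul_nonpos_of_nonneg_of_nonpos (Int.natCast_nonneg n) h1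
  omega

end Basic

section Main

variable {K F : Type} [Field K] [Field F] [Algebra K F] [IsAlgClosed K] [CharZero K]
variable {G X : Type} [Group G] [MulAction G X] [Finite X]
variable {u : F} {H : Subgroup G} {P : X → Place K F}

/-- Step 1: every place over `u = 0` is one of the `P x`. -/
theorem count_exists_of_mem_placesOver (hu : IsCoordinate K u) (hP : IsUniformized u H P)
    (v : Place K F) (hv : v ∈ placesOver K u) : ∃ x, P x = v := by
  classical
  letI : Fintype X := Fintype.ofFinite X
  by_contra hcon
  rw [not_exists] at hcon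
  set S : Finset (Place K F) := Finset.univ.image P with hS
  have hvS : v ∉ S := by
    intro hmem
    obtain ⟨x, -, hx⟩ := Finset.mem_image.mp hmem
    exact hcon x hx
  have hSu : ∀ w ∈ S, u ∈ w.toValuationSubring := by
    intro w hw
    obtain ⟨x, -, rfl⟩ := Finset.mem_image.mp hw
    exact place_nonunits_subset _ (hP.vanishes x)
  have hvu : u ∈ v.toValuationSubring := place_nonunits_subset _ hv
  obtain ⟨g, hgint, hgS, hgv⟩ := ff3_weakApproximation K F u hu S v hSu hvu hvS
  obtain ⟨b, hbint, hb⟩ := hP.sym g hgint (fun x => hgS _ (Finset.mem_image_of_mem P (Finset.mem_univ x)))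
  have hbv : b ∈ v.toValuationSubring := ff3_integral_mem v hvu hbint
  have h1 : g ^ Nat.card X ∈ v.toValuationSubring.nonunits := by
    rw [hb]
    exact count_mul_mem_nonunits v hv hbv
  exact hgv (count_mem_nonunits_of_pow v h1)

/-- The orbit of `x` is contained in the fibre of `P` through `x`. -/
theorem count_orbit_subset (hP : IsUniformized u H P) (x : X) :
    MulAction.orbit H x ⊆ {y | P y = P x} := by
  rintro y ⟨h, rfl⟩
  exact hP.invariant h x

/-- The squeeze, in terms of the fundamental identity (FF2). -/
theorem count_main (hFI : FundamentalIdentityStatement) (hu : IsCoordinate K u)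
    (hP : IsUniformized u H P) (hdeg : Nat.card X ≤ Module.finrank K⟮u⟯ F) :
    (∀ v ∈ placesOver K u, ∃ x, P x = v) ∧
      (∀ x y, P x = P y → ∃ h : H, h • x = y) ∧
        (∀ x, (P x).ord u = (Nat.card (MulAction.orbit H x) : ℤ)) ∧
          Module.finrank K⟮u⟯ F = Nat.card X := by
  classical
  letI : Fintype X := Fintype.ofFinite X
  have hsurj := count_exists_of_mem_placesOver hu hP
  obtain ⟨hfin, hsum⟩ := hFI K F u hu
  set S : Finset (Place K F) := Finset.univ.image P with hS
  have hSeq : hfin.toFinset = S := by
    ext v
    simp only [Set.Finite.mem_toFinset, hS, Finset.mem_image, Finset.mem_univ, true_and]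
    constructor
    · intro hv
      exact hsurj v hv
    · rintro ⟨x, rfl⟩
      exact hP.vanishes x
  rw [hSeq] at hsum
  -- fibres
  let fib : Place K F → Finset X := fun v => Finset.univ.filter (fun y => P y = v)
  have hfibsum : ∑ v ∈ S, ((fib v).card : ℤ) = (Nat.card X : ℤ) := by
    rw [Nat.card_eq_fintype_card, ← Finset.card_univ, ← Nat.cast_sum]
    congr 1
    exact (Finset.card_eq_sum_card_image P Finset.univ).symm
  have horb_le : ∀ x, (Nat.card (MulAction.orbit H x) : ℤ) ≤ ((fib (P x)).card : ℤ) := by
    intro x
    have h1 : MulAction.orbit H x ⊆ ((fib (P x) : Finset X) : Set X) := by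
      intro y hy
      have := count_orbit_subset hP x hy
      simpa [fib] using this
    have h2 := Set.ncard_le_ncard h1 (Finset.finite_toSet _)
    rw [Set.ncard_coe_finset] at h2
    rw [Nat.card_coe_set_eq]
    exact_mod_cast h2
  have hle : ∀ v ∈ S, v.ord u ≤ ((fib v).card : ℤ) := by
    intro v hv
    obtain ⟨x, -, rfl⟩ := Finset.mem_image.mp hv
    exact (hP.ram_le x).trans (horb_le x)
  have hsumle : ∑ v ∈ S, v.ord u ≤ ∑ v ∈ S, ((fib v).card : ℤ) := Finset.sum_le_sum hle
  have hdeg' : (Nat.card X : ℤ) ≤ (Module.finrank K⟮u⟯ F : ℤ) := by exact_mod_cast hdeg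
  have heq : ∑ v ∈ S, v.ord u = ∑ v ∈ S, ((fib v).card : ℤ) := by
    apply le_antisymm hsumle
    rw [hfibsum, hsum]
    exact hdeg'
  have hterm : ∀ v ∈ S, v.ord u = ((fib v).card : ℤ) :=
    (Finset.sum_eq_sum_iff_of_le hle).mp heq
  have hord : ∀ x, (P x).ord u = (Nat.card (MulAction.orbit H x) : ℤ) := by
    intro x
    have h1 := hterm (P x) (Finset.mem_image_of_mem P (Finset.mem_univ x))
    have h2 := horb_le x
    have h3 := hP.ram_le x
    omega
  have hfibeq : ∀ x, MulAction.orbit H x = ((fib (P x) : Finset X) : Set X) := by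
    intro x
    have h1 : MulAction.orbit H x ⊆ ((fib (P x) : Finset X) : Set X) := by
      intro y hy
      have := count_orbit_subset hP x hy
      simpa [fib] using this
    apply Set.eq_of_subset_of_ncard_le h1 _ (Finset.finite_toSet _)
    rw [Set.ncard_coe_finset]
    have h2 := hterm (P x) (Finset.mem_image_of_mem P (Finset.mem_univ x))
    have h3 := hord x
    rw [Nat.card_coe_set_eq] at h3
    have : ((fib (P x)).card : ℤ) = ((MulAction.orbit H x).ncard : ℤ) := by omega
    exact_mod_cast this.le
  refine ⟨hsurj, ?_, hord, ?_⟩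
  · intro x y hxy
    have hy : y ∈ ((fib (P x) : Finset X) : Set X) := by
      simp [fib, hxy]
    rw [← hfibeq x] at hy
    obtain ⟨h, hh⟩ := hy
    exact ⟨h, hh⟩
  · have : (Module.finrank K⟮u⟯ F : ℤ) = (Nat.card X : ℤ) := by
      rw [← hsum, heq, hfibsum]
    exact_mod_cast this

/-- (COUNT) from (FF2). -/
theorem count_of_fundamentalIdentity (hFI : FundamentalIdentityStatement) : CountStatement := by
  intro K F _ _ _ _ _ G X _ _ _ u H P hu hP hdeg
  exact count_main hFI hu hP hdeg

/-- (COUNT') from (FF2): the number of places over `u = 0` is the number of orbits, and the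
ramification indices add up to `|X|`. -/
theorem count_ramificationSum (hFI : FundamentalIdentityStatement) :
    RamificationSumStatement := by
  intro K F _ _ _ _ _ G X _ _ _ u H P hu hP hdeg
  classical
  letI : Fintype X := Fintype.ofFinite X
  obtain ⟨hsurj, hinj, hord, hfinrank⟩ := count_main hFI hu hP hdeg
  obtain ⟨hfin, hsum⟩ := hFI K F u hu
  refine ⟨hfin, ?_, ?_⟩
  · -- bijection orbits ≃ places over `u`
    let Φ : MulAction.orbitRel.Quotient H X → hfin.toFinset :=
      Quotient.lift (s := MulAction.orbitRel H X)
        (fun x => (⟨P x, by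
          rw [Set.Finite.mem_toFinset]
          exact hP.vanishes x⟩ : hfin.toFinset))
        (by
          rintro x y ⟨h, rfl⟩
          exact Subtype.ext (hP.invariant h y))
    have hΦ : Function.Bijective Φ := by
      constructor
      · intro q q'
        induction q using Quotient.inductionOn' with
        | h x =>
          induction q' using Quotient.inductionOn' with
          | h y =>
            intro h
            have h' : P x = P y := congrArg Subtype.val h
            obtain ⟨g, hg⟩ := hinj x y h'
            apply Quotient.sound'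
            exact ⟨g⁻¹, by rw [← hg]; exact inv_smul_smul g x⟩
      · rintro ⟨v, hv⟩
        rw [Set.Finite.mem_toFinset] at hv
        obtain ⟨x, rfl⟩ := hsurj v hv
        exact ⟨Quotient.mk'' x, rfl⟩
    have := Nat.card_eq_of_bijective Φ hΦ
    rw [this, Nat.card_eq_fintype_card, Fintype.card_coe]
  · rw [hsum, hfinrank]

end Main

end Fermat.Agent.S24
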