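/-
S24 (GLUE, part 2): the divisor of `dj` from the ramification over three points.
Owner: helper22.
-/
import Mathlib
import Fermat.Agent.S24.Defs
import Fermat.Agent.S24.PlaceBasic
import Fermat.Agent.S24.GlueCoord

set_option autoImplicit false
set_option linter.unusedSectionVars false

noncomputable section

namespace Fermat.Agent.S24

open AlgebraicCurve IntermediateField

variable {K F : Type} [Field K] [Field F] [Algebra K F] [IsAlgClosed K] [CharZero K]

/-- The divisor of `dj`, when `j` is ramified only over `c₁`, `c₀` and `∞`. -/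
theorem glue_divisor (hdeg1 : DegOneStatement) (hcentre : CentreStatement)
    (hD5a : OrdDiffZeroStatement) (hD5b : OrdDiffPoleStatement)
    (j : F) (hj : IsCoordinate K j) (c₁ c₀ : K) (hne : c₁ ≠ c₀)
    (Z₁ Z₀ Zi : Finset (Place K F))
    (hZ₁ : ∀ v, v ∈ Z₁ ↔ j - algebraMap K F c₁ ∈ v.toValuationSubring.nonunits)
    (hZ₀ : ∀ v, v ∈ Z₀ ↔ j - algebraMap K F c₀ ∈ v.toValuationSubring.nonunits)
    (hZi : ∀ v, v ∈ Zi ↔ j⁻¹ ∈ v.toValuationSubring.nonunits)
    (hgen : ∀ c : K, c ≠ c₁ → c ≠ c₀ → ∀ v : Place K F,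
      j - algebraMap K F c ∈ v.toValuationSubring.nonunits →
        v.ord (j - algebraMap K F c) = 1) :
    ∃ D : Divisor K F,
      (∀ v, D v = v.ordDifferential (KaehlerDifferential.D K F j)) ∧
        Divisor.degree D =
          ∑ v ∈ Z₁, (v.ord (j - algebraMap K F c₁) - 1) +
            ∑ v ∈ Z₀, (v.ord (j - algebraMap K F c₀) - 1) +
              ∑ v ∈ Zi, (-v.ord j⁻¹ - 1) := by
  classical
  have hj0 : j ≠ 0 := by
    rintro rfl
    exact hj.transcendental (isAlgebraic_zero)
  refine ⟨∑ v ∈ Z₁, Finsupp.single v (v.ord (j - algebraMap K F c₁) - 1) +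
      ∑ v ∈ Z₀, Finsupp.single v (v.ord (j - algebraMap K F c₀) - 1) +
        ∑ v ∈ Zi, Finsupp.single v (-v.ord j⁻¹ - 1), ?_, ?_⟩
  · intro w
    have hval : ∀ (Z : Finset (Place K F)) (n : Place K F → ℤ),
        (∑ v ∈ Z, Finsupp.single v (n v)) w = if w ∈ Z then n w else 0 := by
      intro Z n
      rw [Finsupp.finsetSum_apply]
      simp only [Finsupp.single_apply]
      rw [Finset.sum_ite_eq' Z w]
    rw [Finsupp.add_apply, Finsupp.add_apply, hval, hval, hval]
    rcases hcentre K F j hj w with ⟨c, hc⟩ | hpole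
    · have hnotpole : w ∉ Zi := fun h => glue_centre_not_pole w hj0 hc ((hZi w).mp h)
      rw [if_neg hnotpole, add_zero, hD5a K F j hj w c hc]
      by_cases h1 : c = c₁
      · subst h1
        have hw1 : w ∈ Z₁ := (hZ₁ w).mpr hc
        have hw0 : w ∉ Z₀ := fun h => hne (glue_centre_unique w hc ((hZ₀ w).mp h))
        rw [if_pos hw1, if_neg hw0, add_zero]
      · by_cases h0 : c = c₀
        · subst h0
          have hw0 : w ∈ Z₀ := (hZ₀ w).mpr hc
          have hw1 : w ∉ Z₁ := fun h => h1 (glue_centre_unique w hc ((hZ₁ w).mp h))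
          rw [if_pos hw0, if_neg hw1, zero_add]
        · have hw1 : w ∉ Z₁ := fun h => h1 (glue_centre_unique w hc ((hZ₁ w).mp h))
          have hw0 : w ∉ Z₀ := fun h => h0 (glue_centre_unique w hc ((hZ₀ w).mp h))
          rw [if_neg hw1, if_neg hw0, hgen c h1 h0 w hc]
          norm_num
    · have hwi : w ∈ Zi := (hZi w).mpr hpole
      have hw1 : w ∉ Z₁ := fun h => glue_centre_not_pole w hj0 ((hZ₁ w).mp h) hpole
      have hw0 : w ∉ Z₀ := fun h => glue_centre_not_pole w hj0 ((hZ₀ w).mp h) hpole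
      rw [if_pos hwi, if_neg hw1, if_neg hw0, zero_add, zero_add, hD5b K F j hj w hpole]
  · have hd : ∀ v : Place K F, ((v.deg : ℕ) : ℤ) = 1 := by
      intro v
      rw [hdeg1 K F j hj v]
      rfl
    simp only [map_add, map_sum, Divisor.degree_single, hd, mul_one]

end Fermat.Agent.S24
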