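import Mathlib

/-!
# S24 (PERM): orbit counting for two generators of a transitive group

Let a group `G` act transitively on a finite set `X`, and let `g₀, g₁` generate `G`.  Writing
`c g` for the number of orbits of the cyclic group generated by `g`, we prove
`c g₀ + c g₁ + c (g₀ * g₁) ≤ card X + 2` (non-negativity of the genus of the associated dessin)
and that `card X + c g₀ + c g₁ + c (g₀ * g₁)` is even.
-/

set_option autoImplicit false
set_option linter.style.haveILetI false
set_option linter.unusedSectionVars false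

noncomputable section

namespace Fermat.Agent.S24

open MulAction Module

section LinearAlgebra

variable {G X : Type*} [Group G] [MulAction G X]

/-- The pull-back operator `f ↦ f (g • ·)` on rational functions on `X`. -/
def perm_pull (g : G) : (X → ℚ) →ₗ[ℚ] (X → ℚ) := LinearMap.funLeft ℚ ℚ (fun x => g • x)

@[simp] theorem perm_pull_apply (g : G) (f : X → ℚ) (x : X) : perm_pull g f x = f (g • x) := rfl

theorem perm_pull_mul (g h : G) : perm_pull (X := X) (g * h) = perm_pull h ∘ₗ perm_pull g := by
  ext f x
  simp [mul_smul]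

theorem perm_pull_one : perm_pull (X := X) (1 : G) = LinearMap.id := by
  ext f x
  simp

/-- The space of functions invariant under `g`. -/
def perm_fix (g : G) : Submodule ℚ (X → ℚ) := LinearMap.ker (LinearMap.id - perm_pull g)

theorem perm_mem_fix {g : G} {f : X → ℚ} : f ∈ perm_fix g ↔ ∀ x, f (g • x) = f x := by
  rw [perm_fix, LinearMap.mem_ker, LinearMap.sub_apply, sub_eq_zero, LinearMap.id_apply]
  constructor
  · intro h x
    exact (congrFun h x).symm
  · intro h
    funext x
    exact (h x).symm

theorem perm_fix_zpow {g : G} {f : X → ℚ} (hf : f ∈ perm_fix g) (k : ℤ) (x : X) :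
    f ((g ^ k) • x) = f x := by
  rw [perm_mem_fix] at hf
  induction k using Int.induction_on generalizing x with
  | zero => simp
  | succ n ih => rw [zpow_add_one, mul_smul, ih, hf]
  | pred n ih =>
    rw [zpow_sub_one, mul_smul, ih]
    have := hf (g⁻¹ • x)
    rw [smul_inv_smul] at this
    exact this.symm

/-- The invariant functions are the functions on the orbit space. -/
def perm_fixEquiv (g : G) :
    (orbitRel.Quotient (Subgroup.zpowers g) X → ℚ) ≃ₗ[ℚ] perm_fix (X := X) g where
  toFun φ := ⟨fun x => φ (Quotient.mk'' x), by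
    rw [perm_mem_fix]
    intro x
    congr 1
    apply Quotient.sound'
    refine ⟨⟨g, Subgroup.mem_zpowers g⟩, rfl⟩⟩
  map_add' φ ψ := rfl
  map_smul' c φ := rfl
  invFun f := Quotient.lift (s := orbitRel (Subgroup.zpowers g) X) (f : X → ℚ) (by
    rintro x y ⟨⟨h, hh⟩, rfl⟩
    obtain ⟨k, rfl⟩ := Subgroup.mem_zpowers_iff.mp hh
    exact perm_fix_zpow f.2 k y)
  left_inv φ := by
    funext q
    induction q using Quotient.inductionOn' with
    | h x => rfl
  right_inv f := rfl

theorem perm_finrank_fix [Finite X] (g : G) :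
    finrank ℚ (perm_fix (X := X) g) = Nat.card (orbitRel.Quotient (Subgroup.zpowers g) X) := by
  classical
  haveI : Fintype X := Fintype.ofFinite X
  haveI : Fintype (orbitRel.Quotient (Subgroup.zpowers g) X) := Fintype.ofFinite _
  rw [← (perm_fixEquiv g).finrank_eq, Module.finrank_fintype_fun_eq_card, Nat.card_eq_fintype_card]

/-- The space of "coboundaries" `f - f (g • ·)`. -/
def perm_cob (g : G) : Submodule ℚ (X → ℚ) := LinearMap.range (LinearMap.id - perm_pull g)

theorem perm_finrank_cob_add [Finite X] (g : G) :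
    finrank ℚ (perm_cob (X := X) g) + finrank ℚ (perm_fix (X := X) g) = Nat.card X := by
  classical
  haveI : Fintype X := Fintype.ofFinite X
  rw [perm_cob, perm_fix, LinearMap.finrank_range_add_finrank_ker,
    Module.finrank_fintype_fun_eq_card, Nat.card_eq_fintype_card]

section Delta

variable [DecidableEq X]

/-- `δ_x - δ_(g • x)` is a coboundary for `g`. -/
theorem perm_single_sub_mem_cob (g : G) (x : X) :
    (Pi.single x (1 : ℚ) - Pi.single (g • x) (1 : ℚ) : X → ℚ) ∈ perm_cob g := by
  refine ⟨-(Pi.single (g • x) (1 : ℚ)), ?_⟩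
  funext y
  simp only [LinearMap.sub_apply, LinearMap.id_apply, Pi.sub_apply, Pi.neg_apply,
    perm_pull_apply, Pi.single_apply, smul_left_cancel_iff]
  ring

end Delta

end LinearAlgebra

section Main

variable {G X : Type*} [Group G] [MulAction G X] [Finite X]

/-- With two generators of a transitive group, the coboundaries span a subspace of
codimension at most one. -/
theorem perm_card_le_finrank_sup [Nonempty X] (g₀ g₁ : G)
    (htrans : ∀ x y : X, ∃ g ∈ Subgroup.closure {g₀, g₁}, g • x = y) :
    Nat.card X ≤ finrank ℚ ↥(perm_cob (X := X) g₀ ⊔ perm_cob g₁) + 1 := by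
  classical
  haveI : Fintype X := Fintype.ofFinite X
  set U : Submodule ℚ (X → ℚ) := perm_cob g₀ ⊔ perm_cob g₁ with hU
  -- differences of delta functions along the group
  have h1 : ∀ g ∈ Subgroup.closure {g₀, g₁}, ∀ x : X,
      (Pi.single x (1 : ℚ) - Pi.single (g • x) (1 : ℚ) : X → ℚ) ∈ U := by
    intro g hg
    induction hg using Subgroup.closure_induction with
    | mem g hg =>
      intro x
      rcases hg with rfl | hg
      · exact (le_sup_left : perm_cob g ≤ U) (perm_single_sub_mem_cob g x)
      · rw [Set.mem_singleton_iff] at hg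
        subst hg
        exact (le_sup_right : perm_cob g ≤ U) (perm_single_sub_mem_cob g x)
    | one =>
      intro x
      simp
    | mul g h _ _ ihg ihh =>
      intro x
      have e : (Pi.single x (1 : ℚ) - Pi.single ((g * h) • x) (1 : ℚ) : X → ℚ) =
          (Pi.single x (1 : ℚ) - Pi.single (h • x) (1 : ℚ)) +
            (Pi.single (h • x) (1 : ℚ) - Pi.single (g • h • x) (1 : ℚ)) := by
        rw [mul_smul]
        abel
      rw [e]
      exact U.add_mem (ihh x) (ihg (h • x))
    | inv g _ ihg =>
      intro x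
      have e : (Pi.single x (1 : ℚ) - Pi.single (g⁻¹ • x) (1 : ℚ) : X → ℚ) =
          -(Pi.single (g⁻¹ • x) (1 : ℚ) - Pi.single (g • g⁻¹ • x) (1 : ℚ)) := by
        rw [smul_inv_smul]
        abel
      rw [e]
      exact U.neg_mem (ihg (g⁻¹ • x))
  have h2 : ∀ x y : X, (Pi.single x (1 : ℚ) - Pi.single y (1 : ℚ) : X → ℚ) ∈ U := by
    intro x y
    obtain ⟨g, hg, rfl⟩ := htrans x y
    exact h1 g hg x
  -- the sum functional
  let φ : (X → ℚ) →ₗ[ℚ] ℚ := ∑ x : X, LinearMap.proj x
  have hφ : ∀ f : X → ℚ, φ f = ∑ x, f x := by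
    intro f
    simp [φ, LinearMap.sum_apply]
  obtain ⟨x₀⟩ := ‹Nonempty X›
  have h3 : LinearMap.ker φ ≤ U := by
    intro f hf
    rw [LinearMap.mem_ker, hφ] at hf
    have e : f = ∑ x, f x • (Pi.single x (1 : ℚ) - Pi.single x₀ (1 : ℚ) : X → ℚ) := by
      funext y
      simp only [Finset.sum_apply, Pi.smul_apply, Pi.sub_apply, Pi.single_apply, smul_eq_mul,
        mul_sub, Finset.sum_sub_distrib, mul_ite, mul_one, mul_zero]
      rw [Finset.sum_ite_eq Finset.univ y f]
      simp only [Finset.mem_univ, if_true]
      by_cases hy : y = x₀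
      · simp [hy, hf]
      · simp [hy]
    rw [e]
    exact U.sum_mem fun x _ => U.smul_mem _ (h2 x x₀)
  have h4 : finrank ℚ ↥(LinearMap.ker φ) + 1 = Nat.card X := by
    have hsurj : Function.Surjective φ := by
      intro c
      refine ⟨Pi.single x₀ c, ?_⟩
      rw [hφ]
      simp
    have hr := LinearMap.finrank_range_add_finrank_ker φ
    rw [LinearMap.range_eq_top.mpr hsurj, finrank_top, Module.finrank_self,
      Module.finrank_fintype_fun_eq_card] at hr
    rw [Nat.card_eq_fintype_card]
    omega
  have h5 := Submodule.finrank_mono h3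
  omega

/-- Functions invariant under two generators of a transitive group are constant. -/
theorem perm_const_of_fix (g₀ g₁ : G)
    (htrans : ∀ x y : X, ∃ g ∈ Subgroup.closure {g₀, g₁}, g • x = y)
    {f : X → ℚ} (h₀ : f ∈ perm_fix g₀) (h₁ : f ∈ perm_fix g₁) (x y : X) : f x = f y := by
  have h1 : ∀ g ∈ Subgroup.closure {g₀, g₁}, ∀ x : X, f (g • x) = f x := by
    intro g hg
    induction hg using Subgroup.closure_induction with
    | mem g hg =>
      rcases hg with rfl | hg
      · exact perm_mem_fix.mp h₀
      · rw [Set.mem_singleton_iff] at hg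
        subst hg
        exact perm_mem_fix.mp h₁
    | one => intro x; simp
    | mul g h _ _ ihg ihh => intro x; rw [mul_smul, ihg, ihh]
    | inv g _ ihg =>
      intro x
      have := ihg (g⁻¹ • x)
      rw [smul_inv_smul] at this
      exact this.symm
  obtain ⟨g, hg, rfl⟩ := htrans x y
  exact (h1 g hg x).symm

theorem perm_finrank_fix_mul_le [Nonempty X] (g₀ g₁ : G)
    (htrans : ∀ x y : X, ∃ g ∈ Subgroup.closure {g₀, g₁}, g • x = y) :
    finrank ℚ ↥(perm_fix (X := X) (g₀ * g₁)) ≤
      1 + finrank ℚ ↥(perm_cob (X := X) g₀ ⊓ perm_cob g₁) := by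
  classical
  haveI : Fintype X := Fintype.ofFinite X
  let T : ↥(perm_fix (X := X) (g₀ * g₁)) →ₗ[ℚ] (X → ℚ) :=
    (LinearMap.id - perm_pull g₀).domRestrict (perm_fix (g₀ * g₁))
  have hT : ∀ f : ↥(perm_fix (X := X) (g₀ * g₁)), T f = fun x => (f : X → ℚ) x - (f : X → ℚ) (g₀ • x) := by
    intro f
    rfl
  have hrange : LinearMap.range T ≤ perm_cob g₀ ⊓ perm_cob g₁ := by
    rintro _ ⟨f, rfl⟩
    refine ⟨⟨(f : X → ℚ), rfl⟩, ⟨-(perm_pull g₀ (f : X → ℚ)), ?_⟩⟩
    rw [hT]
    funext x
    have hf := perm_mem_fix.mp f.2 x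
    rw [mul_smul] at hf
    simp only [LinearMap.sub_apply, LinearMap.id_apply, Pi.sub_apply, Pi.neg_apply,
      perm_pull_apply, hf]
    ring
  have hker : finrank ℚ ↥(LinearMap.ker T) ≤ 1 := by
    obtain ⟨x₀⟩ := ‹Nonempty X›
    have hc : (fun _ => (1 : ℚ) : X → ℚ) ∈ perm_fix (X := X) (g₀ * g₁) :=
      perm_mem_fix.mpr fun _ => rfl
    have hc' : (⟨_, hc⟩ : ↥(perm_fix (X := X) (g₀ * g₁))) ∈ LinearMap.ker T := by
      rw [LinearMap.mem_ker, hT]
      funext x
      simp
    refine finrank_le_one (⟨⟨_, hc⟩, hc'⟩ : ↥(LinearMap.ker T)) fun w => ?_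
    refine ⟨(w : ↥(perm_fix (X := X) (g₀ * g₁))).1 x₀, ?_⟩
    apply Subtype.ext
    apply Subtype.ext
    funext x
    have hw := w.2
    rw [LinearMap.mem_ker, hT] at hw
    have hw0 : (w : ↥(perm_fix (X := X) (g₀ * g₁))).1 ∈ perm_fix g₀ := by
      rw [perm_mem_fix]
      intro y
      have := congrFun hw y
      simp only [Pi.zero_apply] at this
      linarith
    have hw1 : (w : ↥(perm_fix (X := X) (g₀ * g₁))).1 ∈ perm_fix g₁ := by
      rw [perm_mem_fix]
      intro y
      have h1 := perm_mem_fix.mp (w : ↥(perm_fix (X := X) (g₀ * g₁))).2 y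
      rw [mul_smul] at h1
      rw [← h1]
      exact (perm_mem_fix.mp hw0 (g₁ • y)).symm
    have := perm_const_of_fix g₀ g₁ htrans hw0 hw1 x₀ x
    simp [this]
  have h1 := LinearMap.finrank_range_add_finrank_ker T
  have h2 := Submodule.finrank_mono hrange
  omega

/-- **(PERM a)** For two generators `g₀, g₁` of a group acting transitively on a finite set `X`,
the numbers of orbits of `g₀`, `g₁` and `g₀ * g₁` add up to at most `card X + 2`. -/
theorem perm_orbits_le_of_closure (g₀ g₁ : G)
    (htrans : ∀ x y : X, ∃ g ∈ Subgroup.closure {g₀, g₁}, g • x = y) :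
    Nat.card (orbitRel.Quotient (Subgroup.zpowers g₀) X) +
      Nat.card (orbitRel.Quotient (Subgroup.zpowers g₁) X) +
      Nat.card (orbitRel.Quotient (Subgroup.zpowers (g₀ * g₁)) X) ≤ Nat.card X + 2 := by
  classical
  rcases isEmpty_or_nonempty X with hX | hX
  · haveI : IsEmpty (orbitRel.Quotient (Subgroup.zpowers g₀) X) :=
      ⟨fun q => Quotient.inductionOn' q fun x => hX.false x⟩
    haveI : IsEmpty (orbitRel.Quotient (Subgroup.zpowers g₁) X) :=
      ⟨fun q => Quotient.inductionOn' q fun x => hX.false x⟩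
    haveI : IsEmpty (orbitRel.Quotient (Subgroup.zpowers (g₀ * g₁)) X) :=
      ⟨fun q => Quotient.inductionOn' q fun x => hX.false x⟩
    simp
  · haveI : Fintype X := Fintype.ofFinite X
    rw [← perm_finrank_fix g₀, ← perm_finrank_fix g₁, ← perm_finrank_fix (g₀ * g₁)]
    have a0 := perm_finrank_cob_add (X := X) g₀
    have a1 := perm_finrank_cob_add (X := X) g₁
    have a2 := perm_card_le_finrank_sup g₀ g₁ htrans
    have a3 := perm_finrank_fix_mul_le g₀ g₁ htrans
    have a4 := Submodule.finrank_sup_add_finrank_inf_eq (perm_cob (X := X) g₀) (perm_cob g₁)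
    omega

/-- **(PERM a)**, for a transitive action of a group generated by `g₀` and `g₁`. -/
theorem perm_orbits_le [IsPretransitive G X] (g₀ g₁ : G)
    (hgen : Subgroup.closure {g₀, g₁} = ⊤) :
    Nat.card (orbitRel.Quotient (Subgroup.zpowers g₀) X) +
      Nat.card (orbitRel.Quotient (Subgroup.zpowers g₁) X) +
      Nat.card (orbitRel.Quotient (Subgroup.zpowers (g₀ * g₁)) X) ≤ Nat.card X + 2 := by
  refine perm_orbits_le_of_closure g₀ g₁ fun x y => ?_
  obtain ⟨g, hg⟩ := exists_smul_eq G x y
  exact ⟨g, hgen ▸ Subgroup.mem_top g, hg⟩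

end Main

section Parity

open Equiv Equiv.Perm

variable {G X : Type*} [Group G] [MulAction G X]

theorem perm_toPerm_zpow (g : G) (k : ℤ) :
    (MulAction.toPerm g : Perm X) ^ k = MulAction.toPerm (g ^ k) :=
  (map_zpow (MulAction.toPermHom G X) g k).symm

theorem perm_toPerm_mul (g h : G) :
    (MulAction.toPerm (g * h) : Perm X) = MulAction.toPerm g * MulAction.toPerm h :=
  map_mul (MulAction.toPermHom G X) g h

theorem perm_orbitRel_iff_sameCycle (g : G) (x y : X) :
    orbitRel (Subgroup.zpowers g) X x y ↔ (MulAction.toPerm g : Perm X).SameCycle y x := by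
  rw [orbitRel_apply, mem_orbit_iff]
  constructor
  · rintro ⟨⟨h, hh⟩, rfl⟩
    obtain ⟨k, rfl⟩ := Subgroup.mem_zpowers_iff.mp hh
    refine ⟨k, ?_⟩
    rw [perm_toPerm_zpow]
    rfl
  · rintro ⟨k, hk⟩
    refine ⟨⟨g ^ k, Subgroup.zpow_mem_zpowers g k⟩, ?_⟩
    rw [← hk, perm_toPerm_zpow]
    rfl

variable [Fintype X] [DecidableEq X]

/-- The classifying map of the orbits of a permutation: fixed points and non-trivial cycles. -/
def perm_classify (σ : Perm X) (x : X) : Function.fixedPoints σ ⊕ σ.cycleFactorsFinset :=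
  if h : σ x = x then Sum.inl ⟨x, h⟩
  else Sum.inr ⟨σ.cycleOf x, cycleOf_mem_cycleFactorsFinset_iff.mpr (mem_support.mpr h)⟩

theorem perm_classify_eq_iff (σ : Perm X) (x y : X) :
    perm_classify σ x = perm_classify σ y ↔ σ.SameCycle x y := by
  unfold perm_classify
  by_cases hx : σ x = x
  · by_cases hy : σ y = y
    · rw [dif_pos hx, dif_pos hy]
      constructor
      · intro h
        have : x = y := congrArg Subtype.val (Sum.inl.inj h)
        subst this
        exact SameCycle.refl _ _
      · intro h
        have : x = y := (sameCycle_comm.mp h).eq_of_left hy |>.symm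
        subst this
        rfl
    · rw [dif_pos hx, dif_neg hy]
      constructor
      · intro h
        cases h
      · intro h
        exact absurd (h.apply_eq_self_iff.mp hx) hy
  · by_cases hy : σ y = y
    · rw [dif_neg hx, dif_pos hy]
      constructor
      · intro h
        cases h
      · intro h
        exact absurd (h.apply_eq_self_iff.mpr hy) hx
    · rw [dif_neg hx, dif_neg hy]
      rw [sameCycle_iff_cycleOf_eq_of_mem_support (mem_support.mpr hx) (mem_support.mpr hy)]
      constructor
      · intro h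
        have := congrArg (fun z => match z with
          | Sum.inl _ => (1 : Perm X)
          | Sum.inr c => (c : Perm X)) h
        exact this
      · intro h
        congr 1
        exact Subtype.ext h

theorem perm_classify_surjective (σ : Perm X) : Function.Surjective (perm_classify σ) := by
  rintro (⟨x, hx⟩ | ⟨c, hc⟩)
  · refine ⟨x, ?_⟩
    unfold perm_classify
    exact dif_pos (show σ x = x from hx)
  · obtain ⟨a, ha⟩ := (mem_cycleFactorsFinset_iff.mp hc).1.nonempty_support
    have h1 : c = σ.cycleOf a := cycle_is_cycleOf ha hc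
    have h2 : σ a ≠ a := by
      have := mem_cycleFactorsFinset_support_le hc ha
      exact mem_support.mp this
    refine ⟨a, ?_⟩
    unfold perm_classify
    rw [dif_neg h2]
    congr 1
    exact Subtype.ext h1.symm

/-- The number of orbits of `g` is the number of fixed points plus the number of non-trivial
cycles. -/
theorem perm_card_orbits (g : G) :
    Nat.card (orbitRel.Quotient (Subgroup.zpowers g) X) =
      Multiset.card (MulAction.toPerm g : Perm X).cycleType +
        (Fintype.card X - (MulAction.toPerm g : Perm X).cycleType.sum) := by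
  set σ : Perm X := MulAction.toPerm g with hσ
  let Φ : orbitRel.Quotient (Subgroup.zpowers g) X → Function.fixedPoints σ ⊕ σ.cycleFactorsFinset :=
    Quotient.lift (s := orbitRel (Subgroup.zpowers g) X) (perm_classify σ) (by
      intro x y h
      rw [perm_classify_eq_iff]
      exact sameCycle_comm.mp ((perm_orbitRel_iff_sameCycle g x y).mp h))
  have hΦ : Function.Bijective Φ := by
    constructor
    · intro q q'
      induction q using Quotient.inductionOn' with
      | h x =>
        induction q' using Quotient.inductionOn' with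
        | h y =>
          intro h
          apply Quotient.sound'
          have h' : perm_classify σ x = perm_classify σ y := h
          rw [perm_classify_eq_iff] at h'
          exact (perm_orbitRel_iff_sameCycle g x y).mpr (sameCycle_comm.mp h')
    · intro t
      obtain ⟨x, rfl⟩ := perm_classify_surjective σ t
      exact ⟨Quotient.mk'' x, rfl⟩
  rw [Nat.card_eq_of_bijective Φ hΦ, Nat.card_eq_fintype_card, Fintype.card_sum,
    card_fixedPoints, Fintype.card_coe, cycleType_def, Multiset.card_map, add_comm]
  rfl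

theorem perm_sign_toPerm (g : G) :
    Perm.sign (MulAction.toPerm g : Perm X) =
      (-1 : ℤˣ) ^ (Fintype.card X + Nat.card (orbitRel.Quotient (Subgroup.zpowers g) X)) := by
  rw [sign_of_cycleType, perm_card_orbits]
  have hle := sum_cycleType_le (MulAction.toPerm g : Perm X)
  set a := (MulAction.toPerm g : Perm X).cycleType.sum
  set b := Multiset.card (MulAction.toPerm g : Perm X).cycleType
  set n := Fintype.card X
  have e : n + (b + (n - a)) = (a + b) + 2 * (n - a) := by omega
  have e2 : (-1 : ℤˣ) ^ (a + b + 2 * (n - a)) = (-1 : ℤˣ) ^ (a + b) := by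
    rw [pow_add, pow_mul]
    simp
  rw [e, e2]

/-- Parity, `Fintype` version. -/
theorem perm_orbits_parity_aux (g₀ g₁ : G) :
    Even (Nat.card X + Nat.card (orbitRel.Quotient (Subgroup.zpowers g₀) X) +
      Nat.card (orbitRel.Quotient (Subgroup.zpowers g₁) X) +
      Nat.card (orbitRel.Quotient (Subgroup.zpowers (g₀ * g₁)) X)) := by
  have h := perm_sign_toPerm (X := X) (g₀ * g₁)
  rw [perm_toPerm_mul, Perm.sign_mul, perm_sign_toPerm, perm_sign_toPerm, ← pow_add] at h
  rw [Nat.card_eq_fintype_card]
  set n := Fintype.card X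
  set c0 := Nat.card (orbitRel.Quotient (Subgroup.zpowers g₀) X)
  set c1 := Nat.card (orbitRel.Quotient (Subgroup.zpowers g₁) X)
  set c2 := Nat.card (orbitRel.Quotient (Subgroup.zpowers (g₀ * g₁)) X)
  have h2 : (-1 : ℤˣ) ^ (n + c0 + (n + c1) + (n + c2)) = 1 := by
    rw [pow_add _ _ (n + c2), h, ← pow_add, ← two_mul, pow_mul]
    simp
  have h3 : Even (n + c0 + (n + c1) + (n + c2)) := by
    by_contra hodd
    rw [Nat.not_even_iff_odd] at hodd
    rw [hodd.neg_one_pow] at h2
    exact absurd h2 (by decide)
  have e : n + c0 + (n + c1) + (n + c2) = (n + c0 + c1 + c2) + 2 * n := by ring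
  rw [e] at h3
  exact (Nat.even_add.mp h3).mpr (even_two_mul n)

end Parity

section Final

variable {G X : Type*} [Group G] [MulAction G X] [Finite X]

/-- **(PERM b)** For any two elements `g₀, g₁` of a group acting on a finite set `X`, the number
`card X + c g₀ + c g₁ + c (g₀ * g₁)` is even, where `c g` is the number of orbits of `g`. -/
theorem perm_orbits_parity (g₀ g₁ : G) :
    Even (Nat.card X + Nat.card (orbitRel.Quotient (Subgroup.zpowers g₀) X) +
      Nat.card (orbitRel.Quotient (Subgroup.zpowers g₁) X) +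
      Nat.card (orbitRel.Quotient (Subgroup.zpowers (g₀ * g₁)) X)) := by
  classical
  haveI : Fintype X := Fintype.ofFinite X
  exact perm_orbits_parity_aux g₀ g₁

/-- **(PERM)** The genus of the dessin: for two generators `g₀, g₁` of a group acting
transitively on a finite set `X` there is a natural number `γ` with
`card X + 2 = c g₀ + c g₁ + c (g₀ * g₁) + 2 * γ`. -/
theorem perm_exists_genus [IsPretransitive G X] (g₀ g₁ : G)
    (hgen : Subgroup.closure {g₀, g₁} = ⊤) :
    ∃ γ : ℕ, Nat.card X + 2 =
      Nat.card (orbitRel.Quotient (Subgroup.zpowers g₀) X) +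
        Nat.card (orbitRel.Quotient (Subgroup.zpowers g₁) X) +
        Nat.card (orbitRel.Quotient (Subgroup.zpowers (g₀ * g₁)) X) + 2 * γ := by
  have h1 := perm_orbits_le (X := X) g₀ g₁ hgen
  obtain ⟨m, hm⟩ := perm_orbits_parity (X := X) g₀ g₁
  refine ⟨m + 1 - (Nat.card (orbitRel.Quotient (Subgroup.zpowers g₀) X) +
    Nat.card (orbitRel.Quotient (Subgroup.zpowers g₁) X) +
    Nat.card (orbitRel.Quotient (Subgroup.zpowers (g₀ * g₁)) X)), ?_⟩
  omega

end Final

end Fermat.Agent.S24
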