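/-
S24 (GLUE, part 3): the genus formula from the package statements.
Owner: helper22.
-/
import Mathlib
import Fermat.Agent.S24.Defs
import Fermat.Agent.S24.PlaceBasic
import Fermat.Agent.S24.Perm
import Fermat.Agent.S24.Count
import Fermat.Agent.S24.GlueCoord
import Fermat.Agent.S24.GlueDivisor

set_option autoImplicit false
set_option linter.unusedSectionVars false
set_option linter.style.haveILetI false

noncomputable section

namespace Fermat.Agent.S24

open AlgebraicCurve IntermediateField
open scoped MatrixGroups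

/-- Orbits of the trivial subgroup are singletons. -/
theorem glue_card_orbit_bot {G X : Type*} [Group G] [MulAction G X] (x : X) :
    Nat.card (MulAction.orbit (⊥ : Subgroup G) x) = 1 := by
  have h : MulAction.orbit (⊥ : Subgroup G) x = {x} := by
    ext y
    constructor
    · rintro ⟨⟨g, hg⟩, rfl⟩
      rw [Subgroup.mem_bot] at hg
      subst hg
      simp
    · rintro rfl
      exact MulAction.mem_orbit_self _
  rw [h]
  simp

/-- The ramification sum `∑ (e_v - 1)` over a uniformized point. -/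
theorem glue_ramSum (hFI : FundamentalIdentityStatement)
    {K F : Type} [Field K] [Field F] [Algebra K F] [IsAlgClosed K] [CharZero K]
    {G X : Type} [Group G] [MulAction G X] [Finite X] {u : F} {H : Subgroup G}
    {P : X → Place K F} (hu : IsCoordinate K u) (hP : IsUniformized u H P)
    (hdeg : Nat.card X ≤ Module.finrank K⟮u⟯ F) :
    ∃ Z : Finset (Place K F), (∀ v, v ∈ Z ↔ u ∈ v.toValuationSubring.nonunits) ∧
      (∑ v ∈ Z, (v.ord u - 1) =
        (Nat.card X : ℤ) - (Nat.card (MulAction.orbitRel.Quotient H X) : ℤ)) ∧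
      (∑ v ∈ Z, (-v.ord u - 1) =
        -(Nat.card X : ℤ) - (Nat.card (MulAction.orbitRel.Quotient H X) : ℤ)) := by
  obtain ⟨hfin, hcard, hsum⟩ := count_ramificationSum hFI K F G X u H P hu hP hdeg
  refine ⟨hfin.toFinset, fun v => ?_, ?_, ?_⟩
  · rw [Set.Finite.mem_toFinset]
    rfl
  · rw [Finset.sum_sub_distrib, hsum, Finset.sum_const, hcard]
    simp
  · rw [Finset.sum_sub_distrib, Finset.sum_neg_distrib, hsum, Finset.sum_const, hcard]
    simp

/-- **GLUE**: the genus formula for `X₀(N)` from the package statements. -/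
theorem glue_target
    (hJ : JCoordinateStatement) (hDeg : DegreeLowerBoundStatement)
    (hGen : UniformizedGenericStatement) (hI : UniformizedIStatement)
    (hRho : UniformizedRhoStatement) (hCusp : UniformizedCuspStatement)
    (hFI : FundamentalIdentityStatement) (hPD : PrincipalDivisorStatement)
    (hdeg1 : DegOneStatement) (hcentre : CentreStatement)
    (hD5a : OrdDiffZeroStatement) (hD5b : OrdDiffPoleStatement)
    (hD7 : GenusOfDivisorStatement)
    (hC0 : CosetFiniteStatement) (hC1 : CosetCardStatement) (hC2 : OrbitsSStatement)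
    (hC3 : OrbitsSTStatement) (hC4 : OrbitsTStatement) : TargetStatement := by
  intro N _ _
  haveI : Finite (XN N) := hC0 N
  have hj : IsCoordinate QBar (jF N) := hJ N
  have hdeg : Nat.card (XN N) ≤ Module.finrank QBar⟮jF N⟯ (FunField N) := hDeg N
  have h1728 : (1728 : QBar) ≠ 0 := by norm_num
  -- generic points: unramified
  have hgen : ∀ c : QBar, c ≠ 1728 → c ≠ 0 → ∀ v : Place QBar (FunField N),
      jF N - algebraMap QBar (FunField N) c ∈ v.toValuationSubring.nonunits →
        v.ord (jF N - algebraMap QBar (FunField N) c) = 1 := by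
    intro c hc1 hc0 v hv
    obtain ⟨P, hP⟩ := hGen N c hc0 hc1
    have hu := glue_isCoordinate_sub hj c
    have hdeg' : Nat.card (XN N) ≤
        Module.finrank QBar⟮jF N - algebraMap QBar (FunField N) c⟯ (FunField N) := by
      rw [glue_finrank_sub]
      exact hdeg
    obtain ⟨hsurj, -, hord, -⟩ := count_main hFI hu hP hdeg'
    obtain ⟨x, rfl⟩ := hsurj v hv
    rw [hord x, glue_card_orbit_bot]
    rfl
  -- `j = 1728`
  obtain ⟨P₁, hP₁⟩ := hI N
  obtain ⟨Z₁, hZ₁, hsum₁, -⟩ := glue_ramSum hFI (glue_isCoordinate_sub hj 1728) hP₁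
    (by rw [glue_finrank_sub]; exact hdeg)
  -- `j = 0`
  obtain ⟨P₀, hP₀⟩ := hRho N
  obtain ⟨Z₀, hZ₀, hsum₀, -⟩ := glue_ramSum hFI hj hP₀ hdeg
  have hsub0 : jF N - algebraMap QBar (FunField N) 0 = jF N := by
    rw [map_zero, sub_zero]
  -- `j = ∞`
  obtain ⟨Pi, hPi⟩ := hCusp N
  obtain ⟨Zi, hZi, -, hsumi⟩ := glue_ramSum hFI (glue_isCoordinate_inv hj) hPi
    (by rw [glue_finrank_inv]; exact hdeg)
  -- the divisor of `dj`
  obtain ⟨D, hD, hDdeg⟩ := glue_divisor hdeg1 hcentre hD5a hD5b (jF N) hj 1728 0 h1728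
    Z₁ Z₀ Zi hZ₁ (by rw [hsub0]; exact hZ₀) hZi hgen
  rw [hsub0, hsum₁, hsum₀, hsumi] at hDdeg
  -- the permutation count
  obtain ⟨γ, hγ⟩ := perm_exists_genus (G := SL(2, ℤ)) (X := XN N) ModularGroup.S ModularGroup.T
    SpecialLinearGroup.SL2Z_generators
  have hc1 := hC1 N
  have hc2 := hC2 N
  have hc3 := hC3 N
  have hc4 := hC4 N
  unfold orbitCount at hc2 hc3 hc4
  unfold elST at hc3 hDdeg
  have hDdeg' : Divisor.degree D = 2 * (γ : ℤ) - 2 := by
    rw [hDdeg]
    have : ((Nat.card (XN N) + 2 : ℕ) : ℤ) = _ := congrArg (Nat.cast (R := ℤ)) hγ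
    push_cast at this
    linarith
  haveI : HasPrincipalDivisors QBar (FunField N) := hPD QBar (FunField N) (jF N) hj
  have hgenus := hD7 QBar (FunField N) (jF N) hj inferInstance D γ hD hDdeg'
  show ((AlgebraicCurve.genus QBar (FunField N) : ℕ) : ℚ) = ModularCurve.genusFormula N
  rw [hgenus]
  unfold ModularCurve.genusFormula
  have e1 : ((Nat.card (XN N) + 2 : ℕ) : ℚ) = _ := congrArg (Nat.cast (R := ℚ)) hγ
  have e2 := congrArg (Nat.cast (R := ℚ)) hc1
  have e3 := congrArg (Nat.cast (R := ℚ)) hc2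
  have e4 := congrArg (Nat.cast (R := ℚ)) hc3
  have e5 := congrArg (Nat.cast (R := ℚ)) hc4
  push_cast at e1 e2 e3 e4 e5
  linarith

end Fermat.Agent.S24
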