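/-
S24 package AN-E (helper7): Möbius maps on `ℂ`, the order of a holomorphic function on `ℍ`
under the modular group, and the order function `ringA N → ℤ` at a point of `ℍ`.
-/
import Mathlib
import Fermat.Agent.S24.ANDefs
import Fermat.Agent.S24.FracRingA

set_option autoImplicit false

namespace Fermat.Agent.S24

open UpperHalfPlane hiding I
open Complex Filter Function
open scoped Topology Manifold MatrixGroups

/-! ### Möbius maps as functions on `ℂ` -/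

/-- The Möbius map of `γ` as a function on `ℂ` (junk outside the upper half plane). -/
noncomputable def anE_mob (γ : SL(2, ℤ)) (w : ℂ) : ℂ := ((γ • ofComplex w : ℍ) : ℂ)

lemma anE_mob_coe (γ : SL(2, ℤ)) (z : ℍ) : anE_mob γ (z : ℂ) = ((γ • z : ℍ) : ℂ) := by
  simp [anE_mob]

lemma anE_mdiff_smul (γ : SL(2, ℤ)) : MDiff (fun τ : ℍ => γ • τ) := by
  have h : 0 < ((γ : GL (Fin 2) ℝ)).det.val := by simp
  exact mdifferentiable_smul h

lemma anE_mdiff_comp_smul {f : ℍ → ℂ} (hf : MDiff f) (γ : SL(2, ℤ)) :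
    MDiff (fun τ : ℍ => f (γ • τ)) :=
  hf.comp (anE_mdiff_smul γ)

lemma anE_mob_analyticAt (γ : SL(2, ℤ)) (z : ℍ) : AnalyticAt ℂ (anE_mob γ) (z : ℂ) :=
  anE_analyticAt (F := fun τ : ℍ => ((γ • τ : ℍ) : ℂ))
    (mdifferentiable_coe.comp (anE_mdiff_smul γ)) z

lemma anE_mob_comp (γ δ : SL(2, ℤ)) (w : ℂ) :
    anE_mob γ (anE_mob δ w) = anE_mob (γ * δ) w := by
  simp [anE_mob, mul_smul]

lemma anE_mob_one {w : ℂ} (hw : 0 < w.im) : anE_mob 1 w = w := by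
  simp [anE_mob, ofComplex_apply_of_im_pos hw]

lemma anE_mob_deriv_ne_zero (γ : SL(2, ℤ)) (z : ℍ) : deriv (anE_mob γ) (z : ℂ) ≠ 0 := by
  have h1 : (anE_mob γ⁻¹ ∘ anE_mob γ) =ᶠ[𝓝 (z : ℂ)] id := by
    filter_upwards [isOpen_upperHalfPlaneSet.mem_nhds z.im_pos] with w hw
    simp only [Function.comp_apply, anE_mob_comp, inv_mul_cancel, id]
    exact anE_mob_one hw
  have hd1 : HasDerivAt (anE_mob γ) (deriv (anE_mob γ) (z : ℂ)) (z : ℂ) :=
    (anE_mob_analyticAt γ z).differentiableAt.hasDerivAt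
  have hd2 : HasDerivAt (anE_mob γ⁻¹) (deriv (anE_mob γ⁻¹) (anE_mob γ (z : ℂ)))
      (anE_mob γ (z : ℂ)) := by
    rw [anE_mob_coe]
    exact (anE_mob_analyticAt γ⁻¹ (γ • z)).differentiableAt.hasDerivAt
  have hcomp := hd2.comp (z : ℂ) hd1
  have hid : HasDerivAt (anE_mob γ⁻¹ ∘ anE_mob γ) 1 (z : ℂ) :=
    (hasDerivAt_id _).congr_of_eventuallyEq h1
  have hu := hcomp.unique hid
  intro h0
  rw [h0, mul_zero] at hu
  exact zero_ne_one hu

/-- The order of `f ∘ γ` at `z` is the order of `f` at `γ z`. -/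
lemma anE_ordAt_comp_smul (f : ℍ → ℂ) (γ : SL(2, ℤ)) (z : ℍ) :
    ordAt (fun τ => f (γ • τ)) z = ordAt f (γ • z) := by
  have e : ((fun τ => f (γ • τ)) ∘ ofComplex) = (f ∘ ofComplex) ∘ anE_mob γ := by
    funext w
    simp [anE_mob]
  unfold ordAt
  rw [e, analyticOrderAt_comp_of_deriv_ne_zero (anE_mob_analyticAt γ z)
    (anE_mob_deriv_ne_zero γ z), anE_mob_coe]

/-- The order of a function invariant under `γ` is the same at `z` and at `γ z`. -/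
lemma anE_ordAt_smul_of_invariant {f : ℍ → ℂ} {γ : SL(2, ℤ)} (h : ∀ z : ℍ, f (γ • z) = f z)
    (z : ℍ) : ordAt f (γ • z) = ordAt f z := by
  rw [← anE_ordAt_comp_smul]
  congr 1
  funext τ
  exact h τ

/-! ### Finiteness of orders -/

lemma anE_ordAt_ne_top {f : ℍ → ℂ} (hf : MDiff f) (hne : ∃ z, f z ≠ 0) (z : ℍ) :
    ordAt f z ≠ ⊤ := by
  intro htop
  obtain ⟨z', hz'⟩ := hne
  have hev : (f ∘ ofComplex) =ᶠ[𝓝 (z : ℂ)] 0 := analyticOrderAt_eq_top.mp htop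
  have han : AnalyticOnNhd ℂ (f ∘ ofComplex) {w : ℂ | 0 < w.im} :=
    (UpperHalfPlane.mdifferentiable_iff.mp hf).analyticOnNhd isOpen_upperHalfPlaneSet
  have hpc : IsPreconnected {w : ℂ | 0 < w.im} := (convex_halfSpace_im_gt 0).isPreconnected
  have h0 := han.eqOn_zero_of_preconnected_of_eventuallyEq_zero hpc z.im_pos hev
  have := h0 z'.im_pos
  apply hz'
  simpa using this

lemma anE_ordAt_zero (z : ℍ) : ordAt (0 : ℍ → ℂ) z = ⊤ := by
  unfold ordAt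
  rw [analyticOrderAt_eq_top]
  exact Eventually.of_forall fun w => rfl

lemma anE_ordAt_const {c : ℂ} (hc : c ≠ 0) (z : ℍ) : ordAt (fun _ : ℍ => c) z = 0 := by
  unfold ordAt
  rw [analyticOrderAt_eq_zero]
  right
  simpa using hc

lemma anE_ordAt_mul {f g : ℍ → ℂ} (hf : MDiff f) (hg : MDiff g) (z : ℍ) :
    ordAt (f * g) z = ordAt f z + ordAt g z := by
  unfold ordAt
  have e : (f * g) ∘ ofComplex = (f ∘ ofComplex) * (g ∘ ofComplex) := rfl
  rw [e, analyticOrderAt_mul (anE_analyticAt hf z) (anE_analyticAt hg z)]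

lemma anE_ordAt_add (f g : ℍ → ℂ) (z : ℍ) :
    min (ordAt f z) (ordAt g z) ≤ ordAt (f + g) z := by
  unfold ordAt
  have e : (f + g) ∘ ofComplex = (f ∘ ofComplex) + (g ∘ ofComplex) := rfl
  rw [e]
  exact le_analyticOrderAt_add

lemma anE_ordAt_pos_iff {f : ℍ → ℂ} (hf : MDiff f) (z : ℍ) : ordAt f z ≠ 0 ↔ f z = 0 := by
  unfold ordAt
  rw [(anE_analyticAt hf z).analyticOrderAt_ne_zero]
  simp

/-! ### The order function on `ringA N` -/

section Bridge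

variable {N : ℕ} {Θ₀ : ringA N →+* (ℍ → ℂ)} {π : ℂ →+ QBar}

lemma anE_ordAt_bridge_ne_top (hΘ : IsBridge N Θ₀ π) {a : ringA N} (ha : a ≠ 0) (z : ℍ) :
    ordAt (Θ₀ a) z ≠ ⊤ :=
  anE_ordAt_ne_top (hΘ.holo a) (fracA_bridge_ne_zero hΘ ha) z

/-- The order of `a ∈ ringA N` at `z`, as an integer (junk value `0` for `a = 0`). -/
noncomputable def anE_ord (Θ₀ : ringA N →+* (ℍ → ℂ)) (z : ℍ) (a : ringA N) : ℤ :=
  ((ordAt (Θ₀ a) z).toNat : ℤ)

lemma anE_ord_nonneg (z : ℍ) (a : ringA N) : 0 ≤ anE_ord Θ₀ z a := by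
  unfold anE_ord
  exact Int.natCast_nonneg _

lemma anE_ordAt_eq_coe (hΘ : IsBridge N Θ₀ π) {a : ringA N} (ha : a ≠ 0) (z : ℍ) :
    ordAt (Θ₀ a) z = (((ordAt (Θ₀ a) z).toNat : ℕ) : ℕ∞) :=
  (ENat.natCast_toNat (anE_ordAt_bridge_ne_top hΘ ha z)).symm

lemma anE_ord_le_iff (hΘ : IsBridge N Θ₀ π) {a b : ringA N} (ha : a ≠ 0) (hb : b ≠ 0) (z : ℍ) :
    anE_ord Θ₀ z b ≤ anE_ord Θ₀ z a ↔ ordAt (Θ₀ b) z ≤ ordAt (Θ₀ a) z := by
  unfold anE_ord
  rw [Int.ofNat_le]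
  conv_rhs => rw [anE_ordAt_eq_coe hΘ ha, anE_ordAt_eq_coe hΘ hb]
  exact Nat.cast_le.symm

lemma anE_ord_mul (hΘ : IsBridge N Θ₀ π) {a b : ringA N} (ha : a ≠ 0) (hb : b ≠ 0) (z : ℍ) :
    anE_ord Θ₀ z (a * b) = anE_ord Θ₀ z a + anE_ord Θ₀ z b := by
  unfold anE_ord
  rw [map_mul, anE_ordAt_mul (hΘ.holo a) (hΘ.holo b),
    ENat.toNat_add (anE_ordAt_bridge_ne_top hΘ ha z) (anE_ordAt_bridge_ne_top hΘ hb z)]
  push_cast
  rfl

lemma anE_ord_add (hΘ : IsBridge N Θ₀ π) {a b : ringA N} (ha : a ≠ 0) (hb : b ≠ 0)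
    (hab : a + b ≠ 0) (z : ℍ) :
    min (anE_ord Θ₀ z a) (anE_ord Θ₀ z b) ≤ anE_ord Θ₀ z (a + b) := by
  have h := anE_ordAt_add (Θ₀ a) (Θ₀ b) z
  rw [← map_add, anE_ordAt_eq_coe hΘ ha, anE_ordAt_eq_coe hΘ hb, anE_ordAt_eq_coe hΘ hab] at h
  unfold anE_ord
  rcases le_total (ordAt (Θ₀ a) z).toNat (ordAt (Θ₀ b) z).toNat with h1 | h1
  · rw [min_eq_left (by exact_mod_cast h1)] at h
    rw [min_eq_left (by exact_mod_cast h1)]
    exact_mod_cast h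
  · rw [min_eq_right (by exact_mod_cast h1)] at h
    rw [min_eq_right (by exact_mod_cast h1)]
    exact_mod_cast h

lemma anE_iota_ne_zero {c : QBar} (hc : c ≠ 0) : iota c ≠ 0 :=
  (map_ne_zero iota).mpr hc

lemma anE_iota_injective : Function.Injective iota := iota.injective

lemma anE_ord_const (hΘ : IsBridge N Θ₀ π) {c : QBar} (hc : c ≠ 0) (z : ℍ) :
    anE_ord Θ₀ z (algebraMap QBar (ringA N) c) = 0 := by
  unfold anE_ord
  have e : Θ₀ (algebraMap QBar (ringA N) c) = fun _ : ℍ => iota c := by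
    funext z'
    exact hΘ.map_const c z'
  rw [e, anE_ordAt_const (anE_iota_ne_zero hc)]
  rfl

lemma anE_ord_one (hΘ : IsBridge N Θ₀ π) (z : ℍ) : anE_ord Θ₀ z (1 : ringA N) = 0 := by
  have := anE_ord_const hΘ (c := 1) one_ne_zero z
  simpa using this

/-- The order of an element of `ringA N` is constant on `Γ₀(N)`-orbits. -/
lemma anE_ordAt_bridge_smul (hΘ : IsBridge N Θ₀ π) (a : ringA N) {δ : SL(2, ℤ)}
    (hδ : δ ∈ CongruenceSubgroup.Gamma0 N) (z : ℍ) :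
    ordAt (Θ₀ a) (δ • z) = ordAt (Θ₀ a) z :=
  anE_ordAt_smul_of_invariant (fun z' => hΘ.inv a δ hδ z') z

end Bridge

end Fermat.Agent.S24
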