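/-
S24 package AN-E (helper7): places of the function field at the points of `ℍ` with algebraic
`j`-invariant: existence (AN-E1), uniqueness, and the point families (AN-E2).
-/
import Mathlib
import Fermat.Agent.S24.ANDefs
import Fermat.Agent.S24.FracRingA
import Fermat.Agent.S24.PointOrd

set_option autoImplicit false

namespace Fermat.Agent.S24

open AlgebraicCurve CongruenceSubgroup
open UpperHalfPlane hiding I
open Complex Filter Function
open scoped Topology Manifold MatrixGroups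

/-! ### Wrappers of the level one facts -/

/-- (AN-E5) -/
theorem jSurjective : JSurjectiveStatement := jfun_surjective

/-- (AN-E4) -/
theorem jOrder : JOrderStatement := by
  intro z₀
  unfold ordAt
  have e : ((fun z => jfun z - jfun z₀) ∘ ofComplex) =
      fun w : ℂ => jfun (ofComplex w) - jfun z₀ := rfl
  rw [e]
  by_cases h0 : jfun z₀ = 0
  · rw [if_pos h0]
    exact anE_order_jfun_of_zero h0
  · rw [if_neg h0]
    by_cases h1 : jfun z₀ = 1728
    · rw [if_pos h1]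
      exact anE_order_jfun_of_1728 h1
    · rw [if_neg h1]
      exact anE_order_jfun_of_generic h0 h1

section Bridge

variable {N : ℕ} {Θ₀ : ringA N →+* (ℍ → ℂ)} {π : ℂ →+ QBar}

/-! ### The element `j - c` of `ringA N` -/

/-- The element `j - c` of `ringA N`. -/
noncomputable def anE_jSub (N : ℕ) (c : QBar) : ringA N :=
  jA N - algebraMap QBar (ringA N) c

lemma anE_coe_jSub (N : ℕ) (c : QBar) :
    ((anE_jSub N c : ringA N) : FunField N) = jF N - algebraMap QBar (FunField N) c := rfl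

lemma anE_coe_jA (N : ℕ) : ((jA N : ringA N) : FunField N) = jF N := rfl

lemma anE_bridge_jA (hΘ : IsBridge N Θ₀ π) (z : ℍ) : Θ₀ (jA N) z = jfun z := by
  have h := hΘ.map_jDiv 1 (one_dvd N) z
  have e : jfunMul 1 z = jfun z := by
    unfold jfunMul
    simp
  rw [← e, ← h]
  rfl

lemma anE_bridge_jSub (hΘ : IsBridge N Θ₀ π) (c : QBar) (z : ℍ) :
    Θ₀ (anE_jSub N c) z = jfun z - iota c := by
  unfold anE_jSub
  rw [map_sub, Pi.sub_apply, anE_bridge_jA hΘ, hΘ.map_const]

lemma anE_bridge_jSub_fun (hΘ : IsBridge N Θ₀ π) {c : QBar} {z₀ : ℍ} (hz : jfun z₀ = iota c) :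
    Θ₀ (anE_jSub N c) = fun z => jfun z - jfun z₀ := by
  funext z
  rw [anE_bridge_jSub hΘ, hz]

lemma anE_ordAt_jSub (hΘ : IsBridge N Θ₀ π) {c : QBar} {z₀ : ℍ} (hz : jfun z₀ = iota c) :
    ordAt (Θ₀ (anE_jSub N c)) z₀ =
      if jfun z₀ = 0 then 3 else if jfun z₀ = 1728 then 2 else 1 := by
  rw [anE_bridge_jSub_fun hΘ hz]
  exact jOrder z₀

lemma anE_ordAt_jSub_ne_top (hΘ : IsBridge N Θ₀ π) {c : QBar} {z₀ : ℍ} (hz : jfun z₀ = iota c) :
    ordAt (Θ₀ (anE_jSub N c)) z₀ ≠ ⊤ := by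
  rw [anE_ordAt_jSub hΘ hz]
  split_ifs <;> simp

lemma anE_jSub_ne_zero (hΘ : IsBridge N Θ₀ π) {c : QBar} {z₀ : ℍ} (hz : jfun z₀ = iota c) :
    anE_jSub N c ≠ 0 := by
  intro h0
  apply anE_ordAt_jSub_ne_top hΘ hz
  rw [h0, map_zero]
  exact anE_ordAt_zero z₀

lemma anE_ord_jSub (hΘ : IsBridge N Θ₀ π) {c : QBar} {z₀ : ℍ} (hz : jfun z₀ = iota c) :
    anE_ord Θ₀ z₀ (anE_jSub N c) =
      if jfun z₀ = 0 then 3 else if jfun z₀ = 1728 then 2 else 1 := by
  unfold anE_ord
  rw [anE_ordAt_jSub hΘ hz]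
  split_ifs <;> rfl

lemma anE_ord_jSub_pos (hΘ : IsBridge N Θ₀ π) {c : QBar} {z₀ : ℍ} (hz : jfun z₀ = iota c) :
    0 < anE_ord Θ₀ z₀ (anE_jSub N c) := by
  rw [anE_ord_jSub hΘ hz]
  split_ifs <;> norm_num

/-! ### Existence and uniqueness of the place at a point -/

/-- The place at a point `z` with algebraic `j`-invariant, together with the comparison of
its order function with the analytic order at `z`. -/
theorem anE_exists_place (hΘ : IsBridge N Θ₀ π) (z : ℍ) (hz : ∃ c : QBar, jfun z = iota c) :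
    ∃ (v : Place QBar (FunField N)) (m : ℕ), 0 < m ∧ IsPlaceAt Θ₀ z v ∧
      (∀ a b : ringA N, a ≠ 0 → b ≠ 0 →
        anE_ord Θ₀ z a - anE_ord Θ₀ z b =
          (m : ℤ) * v.ord ((a : FunField N) / (b : FunField N))) ∧
      (∀ a : ringA N, a ≠ 0 → anE_ord Θ₀ z a = (m : ℤ) * v.ord (a : FunField N)) := by
  obtain ⟨c, hc⟩ := hz
  obtain ⟨v, m, hm, h1, -, h3, h4⟩ := fracA_exists_place (K := QBar) (F := FunField N)
    (ringA N) (fracA_exists_div N) (anE_ord Θ₀ z)
    (fun a b ha hb => anE_ord_mul hΘ ha hb z)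
    (fun a b ha hb hab => anE_ord_add hΘ ha hb hab z)
    (fun c hc => anE_ord_const hΘ hc z)
    ⟨anE_jSub N c, anE_jSub_ne_zero hΘ hc, (anE_ord_jSub_pos hΘ hc).ne'⟩
  refine ⟨v, m, hm, ?_, h3, h4⟩
  intro a b hb
  by_cases ha : a = 0
  · subst ha
    simp only [ZeroMemClass.coe_zero, zero_div, map_zero]
    rw [anE_ordAt_zero]
    simp only [le_top, iff_true]
    exact zero_mem _
  · rw [h1 a b ha hb, anE_ord_le_iff hΘ ha hb]

/-- (AN-E1) -/
theorem pointPlace : PointPlaceStatement := by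
  intro N _ Θ₀ π hΘ z hz
  obtain ⟨v, m, -, hv, -⟩ := anE_exists_place hΘ z hz
  exact ⟨v, hv⟩

/-- The place at a point is unique. -/
theorem anE_place_unique {z : ℍ} {v v' : Place QBar (FunField N)}
    (h : IsPlaceAt Θ₀ z v) (h' : IsPlaceAt Θ₀ z v') : v = v' :=
  fracA_place_ext (ringA N) (fracA_exists_div N)
    (fun a b _ hb => (h a b hb).trans (h' a b hb).symm)

/-- The place at `z` is also the place at `δ z`, for `δ ∈ Γ₀(N)`. -/
lemma anE_isPlaceAt_smul (hΘ : IsBridge N Θ₀ π) {δ : SL(2, ℤ)} (hδ : δ ∈ Gamma0 N) {z : ℍ}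
    {v : Place QBar (FunField N)} (h : IsPlaceAt Θ₀ z v) : IsPlaceAt Θ₀ (δ • z) v := by
  intro a b hb
  rw [anE_ordAt_bridge_smul hΘ a hδ, anE_ordAt_bridge_smul hΘ b hδ]
  exact h a b hb

/-- An element of `ringA N` vanishing at `z` lies in the maximal ideal of the place at `z`. -/
lemma anE_mem_nonunits (hΘ : IsBridge N Θ₀ π) {z : ℍ} {v : Place QBar (FunField N)}
    (h : IsPlaceAt Θ₀ z v) {a : ringA N} (ha : a ≠ 0) (hz : Θ₀ a z = 0) :
    (a : FunField N) ∈ v.toValuationSubring.nonunits := by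
  have ha' : (a : FunField N) ≠ 0 := by
    simpa using ha
  have h1 := h 1 a ha
  have hord1 : ordAt (Θ₀ (1 : ringA N)) z = 0 := by
    rw [map_one]
    exact anE_ordAt_const one_ne_zero z
  have hord : ¬ ordAt (Θ₀ a) z ≤ ordAt (Θ₀ (1 : ringA N)) z := by
    rw [hord1]
    intro hle
    have : ordAt (Θ₀ a) z = 0 := le_antisymm hle zero_le
    exact (anE_ordAt_pos_iff (hΘ.holo a) z).mpr hz this
  have h2 : ¬ ((1 : FunField N) / (a : FunField N) ∈ v.toValuationSubring) := by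
    intro hmem
    apply hord
    apply h1.mp
    simpa using hmem
  rw [place_mem_nonunits_iff v ha']
  rw [place_mem_iff, one_div, v.ord_inv] at h2
  omega

/-! ### Point families -/

/-- (AN-E2) -/
theorem pointFamily : PointFamilyStatement := by
  intro N _ Θ₀ π hΘ c z₀ hz₀
  have hex : ∀ x : XN N, ∃ v : Place QBar (FunField N),
      IsPlaceAt Θ₀ ((Quotient.out x : SL(2, ℤ))⁻¹ • z₀) v := by
    intro x
    obtain ⟨v, m, -, hv, -⟩ := anE_exists_place hΘ ((Quotient.out x : SL(2, ℤ))⁻¹ • z₀)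
      ⟨c, by rw [jfun_smul]; exact hz₀⟩
    exact ⟨v, hv⟩
  have hfam : IsPointFamily Θ₀ z₀ (fun x => (hex x).choose) := by
    intro γ
    have hspec := (hex (γ : XN N)).choose_spec
    obtain ⟨δ, hδ⟩ := QuotientGroup.mk_out_eq_mul (Gamma0 N) γ
    have e : γ⁻¹ • z₀ = (δ : SL(2, ℤ)) • ((Quotient.out (γ : XN N) : SL(2, ℤ))⁻¹ • z₀) := by
      rw [hδ, mul_inv_rev, ← mul_smul, ← mul_assoc, mul_inv_cancel, one_mul]
    rw [e]
    exact anE_isPlaceAt_smul hΘ δ.2 hspec
  refine ⟨fun x => (hex x).choose, hfam, ?_, ?_⟩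
  · intro x
    induction x using QuotientGroup.induction_on with
    | H γ =>
      have hv := hfam γ
      rw [← anE_coe_jSub]
      refine anE_mem_nonunits hΘ hv (anE_jSub_ne_zero hΘ hz₀) ?_
      rw [anE_bridge_jSub hΘ, jfun_smul, hz₀, sub_self]
  · intro h x hh
    induction x using QuotientGroup.induction_on with
    | H γ =>
      have hv := hfam γ
      have hv' := hfam (h * γ)
      have e : (h * γ)⁻¹ • z₀ = γ⁻¹ • z₀ := by
        rw [mul_inv_rev, mul_smul]
        congr 1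
        rw [inv_smul_eq_iff, hh]
      rw [e] at hv'
      exact anE_place_unique hv' hv

end Bridge

end Fermat.Agent.S24
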