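/-
S24 helper library (helper7), package AN-E: local invariance forces divisibility of orders.
If `f` is meromorphic at a fixed point `z₀` of an analytic map `φ` and `f ∘ φ = f` near `z₀`,
then `(φ' z₀) ^ (ord f) = 1`.  Applied to `S` at `i` (orders are even) and to `S T` at `ρ`
(orders are divisible by `3`).
-/
import Mathlib
import Fermat.Agent.S24.JOrder

set_option autoImplicit false

namespace Fermat.Agent.S24

open Filter Topology
open UpperHalfPlane hiding I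
open scoped MatrixGroups

/-- Local factorisation of an analytic map at a fixed point with non-vanishing derivative. -/
lemma anE_exists_factor_fixed {φ : ℂ → ℂ} {z₀ : ℂ} (hφ : AnalyticAt ℂ φ z₀) (hφ0 : φ z₀ = z₀)
    (hφ' : deriv φ z₀ ≠ 0) :
    ∃ ψ : ℂ → ℂ, AnalyticAt ℂ ψ z₀ ∧ ψ z₀ = deriv φ z₀ ∧
      ∀ᶠ z in 𝓝 z₀, φ z - z₀ = (z - z₀) * ψ z := by
  have h1 := hφ.analyticOrderAt_sub_eq_one_of_deriv_ne_zero hφ'
  have han : AnalyticAt ℂ (fun z => φ z - φ z₀) z₀ := hφ.sub analyticAt_const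
  obtain ⟨ψ, hψ, hψ0, hev⟩ := (han.analyticOrderAt_eq_natCast (n := 1)).mp (by simpa using h1)
  simp only [pow_one, smul_eq_mul, hφ0] at hev
  refine ⟨ψ, hψ, ?_, hev⟩
  -- compare derivatives at `z₀`
  have hd1 : HasDerivAt (fun z => φ z - z₀) (deriv φ z₀) z₀ := by
    simpa using hφ.differentiableAt.hasDerivAt.sub_const z₀
  have hd2 : HasDerivAt (fun z => (z - z₀) * ψ z) (1 * ψ z₀ + (z₀ - z₀) * deriv ψ z₀) z₀ :=
    ((hasDerivAt_id z₀).sub_const z₀).mul hψ.differentiableAt.hasDerivAt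
  have hd3 := hd2.congr_of_eventuallyEq hev
  have := hd1.unique hd3
  rw [this]; ring

/-- **Local invariance lemma.**  If `f` has finite meromorphic order `n` at a fixed point `z₀` of
the analytic map `φ` (with `φ' z₀ ≠ 0`) and `f ∘ φ = f` on a punctured neighbourhood of `z₀`,
then `(φ' z₀) ^ n = 1`. -/
theorem anE_deriv_zpow_order_eq_one {f φ : ℂ → ℂ} {z₀ : ℂ} {n : ℤ}
    (hf : MeromorphicAt f z₀) (hn : meromorphicOrderAt f z₀ = n)
    (hφ : AnalyticAt ℂ φ z₀) (hφ0 : φ z₀ = z₀) (hφ' : deriv φ z₀ ≠ 0)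
    (hinv : ∀ᶠ z in 𝓝[≠] z₀, f (φ z) = f z) : deriv φ z₀ ^ n = 1 := by
  obtain ⟨g, hg, hg0, hgev⟩ := (meromorphicOrderAt_eq_int_iff hf).mp hn
  obtain ⟨ψ, hψ, hψ0, hψev⟩ := anE_exists_factor_fixed hφ hφ0 hφ'
  simp only [smul_eq_mul] at hgev
  have hnc : ¬ EventuallyConst φ (𝓝 z₀) := by
    rw [eventuallyConst_iff_analyticOrderAt_sub_eq_top]
    rw [hφ.analyticOrderAt_sub_eq_one_of_deriv_ne_zero hφ']
    simp
  have htend : Tendsto φ (𝓝[≠] z₀) (𝓝[≠] z₀) := by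
    have := hφ.map_nhdsNE hnc
    rwa [hφ0] at this
  -- `f (φ z) = (φ z - z₀) ^ n * g (φ z)` eventually
  have h1 : ∀ᶠ z in 𝓝[≠] z₀, f (φ z) = (φ z - z₀) ^ n * g (φ z) := htend.eventually hgev
  have h2 : ∀ᶠ z in 𝓝[≠] z₀, φ z - z₀ = (z - z₀) * ψ z := hψev.filter_mono nhdsWithin_le_nhds
  have h3 : ∀ᶠ z in 𝓝[≠] z₀, z ≠ z₀ := eventually_mem_nhdsWithin
  have key : ∀ᶠ z in 𝓝[≠] z₀, g z = ψ z ^ n * g (φ z) := by
    filter_upwards [h1, h2, h3, hgev, hinv] with z e1 e2 e3 e4 e5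
    have hz : (z - z₀) ^ n ≠ 0 := zpow_ne_zero _ (sub_ne_zero.mpr e3)
    rw [e1, e2, mul_zpow, e4] at e5
    have : (z - z₀) ^ n * (ψ z ^ n * g (φ z)) = (z - z₀) ^ n * g z := by
      rw [← e5]; ring
    exact (mul_left_cancel₀ hz this).symm
  -- pass to the limit
  have hψne : ψ z₀ ≠ 0 := hψ0 ▸ hφ'
  have hc1 : Tendsto g (𝓝[≠] z₀) (𝓝 (g z₀)) := hg.continuousAt.tendsto.mono_left nhdsWithin_le_nhds
  have hc2 : Tendsto (fun z => ψ z ^ n * g (φ z)) (𝓝[≠] z₀) (𝓝 (ψ z₀ ^ n * g z₀)) := by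
    have t1 : Tendsto (fun z => ψ z ^ n) (𝓝[≠] z₀) (𝓝 (ψ z₀ ^ n)) :=
      ((continuousAt_zpow₀ (ψ z₀) n (Or.inl hψne)).tendsto.comp hψ.continuousAt.tendsto).mono_left
        nhdsWithin_le_nhds
    have t2 : Tendsto (fun z => g (φ z)) (𝓝[≠] z₀) (𝓝 (g z₀)) := by
      have hφc : Tendsto φ (𝓝[≠] z₀) (𝓝 z₀) := htend.mono_right nhdsWithin_le_nhds
      exact hg.continuousAt.tendsto.comp hφc
    exact t1.mul t2
  have hlim := tendsto_nhds_unique (hc1.congr' key) hc2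
  have h4 : (ψ z₀ ^ n - 1) * g z₀ = 0 := by rw [sub_mul, one_mul, ← hlim, sub_self]
  rcases mul_eq_zero.mp h4 with h5 | h5
  · rw [← hψ0]; exact sub_eq_zero.mp h5
  · exact absurd h5 hg0

/-! ### The elliptic point `i` -/

lemma anE_hasDerivAt_negInv {z : ℂ} (hz : z ≠ 0) :
    HasDerivAt (fun w : ℂ => -w⁻¹) ((z ^ 2)⁻¹) z := by
  have h := (hasDerivAt_inv hz).neg
  have e : (fun w : ℂ => -w⁻¹) = -(fun y : ℂ => y⁻¹) := rfl
  rw [e]
  exact h.congr_deriv (by simp)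

/-- A function meromorphic at `i` and invariant under `z ↦ -1/z` near `i` has even order. -/
theorem anE_even_order_of_S_invariant {f : ℂ → ℂ} {n : ℤ}
    (hf : MeromorphicAt f Complex.I) (hn : meromorphicOrderAt f Complex.I = n)
    (hinv : ∀ᶠ z in 𝓝[≠] Complex.I, f (-z⁻¹) = f z) : Even n := by
  have hI : (Complex.I : ℂ) ≠ 0 := Complex.I_ne_zero
  have hd := anE_hasDerivAt_negInv hI
  have hφ : AnalyticAt ℂ (fun w : ℂ => -w⁻¹) Complex.I := by
    have : AnalyticAt ℂ (fun w : ℂ => w⁻¹) Complex.I := analyticAt_id.inv hI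
    exact this.neg
  have hφ0 : (fun w : ℂ => -w⁻¹) Complex.I = Complex.I := by
    simp [Complex.inv_I]
  have hder : deriv (fun w : ℂ => -w⁻¹) Complex.I = -1 := by
    rw [hd.deriv, Complex.I_sq]; norm_num
  have h := anE_deriv_zpow_order_eq_one hf hn hφ hφ0 (by rw [hder]; norm_num) hinv
  rw [hder] at h
  by_contra hodd
  rw [Int.not_even_iff_odd] at hodd
  rw [hodd.neg_one_zpow] at h
  norm_num at h

/-! ### The elliptic point `ρ` -/

lemma anE_hasDerivAt_negInvAddOne {z : ℂ} (hz : z + 1 ≠ 0) :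
    HasDerivAt (fun w : ℂ => -(w + 1)⁻¹) (((z + 1) ^ 2)⁻¹) z := by
  have h1 : HasDerivAt (fun w : ℂ => w + 1) 1 z := (hasDerivAt_id z).add_const 1
  have h := (h1.inv hz).neg
  have e : (fun w : ℂ => -(w + 1)⁻¹) = -(fun w : ℂ => w + 1)⁻¹ := rfl
  rw [e]
  exact h.congr_deriv (by rw [neg_div, neg_neg, one_div])

lemma anE_rho_add_one_ne_zero : (anE_rho : ℂ) + 1 ≠ 0 := by
  intro h0
  have h := anE_rho_sq_add
  have : (anE_rho : ℂ) = -1 := by linear_combination h0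
  rw [this] at h
  norm_num at h

lemma anE_rho_cube : (anE_rho : ℂ) ^ 3 = 1 := by
  linear_combination ((anE_rho : ℂ) - 1) * anE_rho_sq_add

lemma anE_rho_ne_one : (anE_rho : ℂ) ≠ 1 := by
  intro h
  have h2 := anE_rho_sq_add
  rw [h] at h2
  norm_num at h2

lemma anE_isPrimitiveRoot_rho : IsPrimitiveRoot (anE_rho : ℂ) 3 := by
  refine IsPrimitiveRoot.mk_of_lt _ (by norm_num) anE_rho_cube ?_
  intro l hl0 hl3 h
  interval_cases l
  · exact anE_rho_ne_one (by simpa using h)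
  · have h2 := anE_rho_sq_add
    rw [h] at h2
    have : (anE_rho : ℂ) = -2 := by linear_combination h2
    have h3 := anE_rho_cube
    rw [this] at h3
    norm_num at h3

/-- A function meromorphic at `ρ` and invariant under `z ↦ -1/(z+1)` near `ρ` has order divisible
by `3`. -/
theorem anE_three_dvd_order_of_ST_invariant {f : ℂ → ℂ} {n : ℤ}
    (hf : MeromorphicAt f (anE_rho : ℂ)) (hn : meromorphicOrderAt f (anE_rho : ℂ) = n)
    (hinv : ∀ᶠ z in 𝓝[≠] (anE_rho : ℂ), f (-(z + 1)⁻¹) = f z) : (3 : ℤ) ∣ n := by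
  have hρ1 := anE_rho_add_one_ne_zero
  have hρ : (anE_rho : ℂ) ≠ 0 := ne_zero anE_rho
  have hd := anE_hasDerivAt_negInvAddOne hρ1
  have hφ : AnalyticAt ℂ (fun w : ℂ => -(w + 1)⁻¹) (anE_rho : ℂ) := by
    have : AnalyticAt ℂ (fun w : ℂ => (w + 1)⁻¹) (anE_rho : ℂ) :=
      (analyticAt_id.add analyticAt_const).inv hρ1
    exact this.neg
  have hφ0 : (fun w : ℂ => -(w + 1)⁻¹) (anE_rho : ℂ) = (anE_rho : ℂ) := by
    show -((anE_rho : ℂ) + 1)⁻¹ = (anE_rho : ℂ)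
    rw [neg_eq_iff_eq_neg, inv_eq_iff_eq_inv, ← neg_inv]
    apply eq_neg_of_add_eq_zero_left
    field_simp
    linear_combination anE_rho_sq_add
  have hder : deriv (fun w : ℂ => -(w + 1)⁻¹) (anE_rho : ℂ) = (anE_rho : ℂ) ^ 2 := by
    rw [hd.deriv]
    have h1 : ((anE_rho : ℂ) + 1) ^ 2 = (anE_rho : ℂ) := by
      linear_combination anE_rho_sq_add
    rw [h1]
    apply inv_eq_of_mul_eq_one_right
    linear_combination anE_rho_cube
  have h := anE_deriv_zpow_order_eq_one hf hn hφ hφ0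
    (by rw [hder]; exact pow_ne_zero 2 hρ) hinv
  rw [hder] at h
  have hprim : IsPrimitiveRoot ((anE_rho : ℂ) ^ 2) 3 :=
    anE_isPrimitiveRoot_rho.pow_of_coprime 2 (by norm_num)
  have := (hprim.zpow_eq_one_iff_dvd n).mp h
  exact_mod_cast this

end Fermat.Agent.S24
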