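import Mathlib
import Fermat.Agent.S24.ANDefs
import Fermat.Agent.S24.CharPoly
import Fermat.Agent.S24.Translate

/-!
# S24 (AN-D0): every element of `ringA N` is integral over `Q̄[j]`

* `anD_invariantPolynomial : InvariantPolynomialStatement` (AN-C in the shape of `ANDefs`).
* `anD_descent`, `anD_descent_poly`: the descent property of the bridge for finite sums and
  for polynomial coefficients.
* `anD_exists_charPoly_bridge`: the characteristic polynomial of `Θ₀ a` over `ℂ[j]`.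
* `anD_ringAIntegral : GrowthStatement → RingAIntegralStatement`.
-/

set_option autoImplicit false

open UpperHalfPlane Filter Asymptotics CongruenceSubgroup Polynomial
open scoped MatrixGroups Manifold Topology

noncomputable section

namespace Fermat.Agent.S24

/-- (AN-C) in the shape of `ANDefs`. -/
theorem anD_invariantPolynomial : InvariantPolynomialStatement := by
  intro f hf hinv hg
  exact anD_polynomial_of_modGrowth f hf hinv hg

section Bridge

variable {N : ℕ} {Θ₀ : ringA N →+* (ℍ → ℂ)} {π : ℂ →+ QBar}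

theorem anD_bridge_jA (hΘ : IsBridge N Θ₀ π) (z : ℍ) : Θ₀ (jA N) z = jfun z := by
  have h := hΘ.map_jDiv 1 (one_dvd N) z
  have h1 : jfunMul 1 z = jfun z := by
    simp [jfunMul]
  rw [← h1, ← h]
  rfl

theorem anD_bridge_isModFun (hΘ : IsBridge N Θ₀ π) [NeZero N] (hG : GrowthStatement)
    (a : ringA N) : anB_IsModFun N (Θ₀ a) where
  holo := hΘ.holo a
  inv := hΘ.inv a
  growth := fun γ => by
    have h := hG N Θ₀ π hΘ a γ⁻¹
    have e : translate (Θ₀ a) γ⁻¹ = fun z => Θ₀ a (γ • z) := by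
      funext z
      simp [translate]
    rw [e] at h
    exact h

theorem anD_pi_zero (π : ℂ →+ QBar) : π 0 = 0 := map_zero π

theorem anD_pi_iota (hΘ : IsBridge N Θ₀ π) (c : QBar) : π (iota c) = c := by
  have h := hΘ.retract_mul c 1
  rw [mul_one, hΘ.retract_one, mul_one] at h
  exact h

/-- Descent for sums over an arbitrary finset. -/
theorem anD_descent (hΘ : IsBridge N Θ₀ π) {ι : Type*} (s : Finset ι) (c : ι → ℂ)
    (a : ι → ringA N) (h : ∀ z : ℍ, ∑ i ∈ s, c i * Θ₀ (a i) z = 0) :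
    ∑ i ∈ s, π (c i) • a i = 0 := by
  have e := s.equivFin
  have h1 : ∀ z : ℍ, ∑ j : Fin s.card, c (e.symm j) * Θ₀ (a (e.symm j)) z = 0 := by
    intro z
    rw [← h z, ← Finset.sum_coe_sort s (fun i => c i * Θ₀ (a i) z)]
    exact Equiv.sum_comp e.symm (fun i : s => c i * Θ₀ (a i) z)
  have h2 := hΘ.descent s.card (fun j => c (e.symm j)) (fun j => a (e.symm j)) h1
  rw [← h2, ← Finset.sum_coe_sort s (fun i => π (c i) • a i)]
  exact (Equiv.sum_comp e.symm (fun i : s => π (c i) • a i)).symm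

/-- Apply the additive retraction `π` to the coefficients of a polynomial. -/
def anD_piPoly (π : ℂ →+ QBar) (Q : ℂ[X]) : QBar[X] :=
  ∑ m ∈ Finset.range (Q.natDegree + 1), Polynomial.monomial m (π (Q.coeff m))

theorem anD_piPoly_one (hΘ : IsBridge N Θ₀ π) : anD_piPoly π 1 = 1 := by
  simp [anD_piPoly, hΘ.retract_one]

theorem anD_aeval_piPoly (π : ℂ →+ QBar) (Q : ℂ[X]) {A : Type*} [CommRing A] [Algebra QBar A]
    (x : A) :
    Polynomial.aeval x (anD_piPoly π Q) =
      ∑ m ∈ Finset.range (Q.natDegree + 1), π (Q.coeff m) • x ^ m := by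
  rw [anD_piPoly, map_sum]
  refine Finset.sum_congr rfl fun m _ => ?_
  rw [Polynomial.aeval_monomial, Algebra.smul_def]

/-- Descent for polynomial coefficients: a relation `∑ᵢ Qᵢ(j) Θ₀(bᵢ) = 0` with `Qᵢ ∈ ℂ[T]`
descends to `∑ᵢ (π Qᵢ)(j) bᵢ = 0`. -/
theorem anD_descent_poly (hΘ : IsBridge N Θ₀ π) {ι : Type*} (s : Finset ι) (Q : ι → ℂ[X])
    (b : ι → ringA N)
    (h : ∀ z : ℍ, ∑ i ∈ s, (Q i).eval (jfun z) * Θ₀ (b i) z = 0) :
    ∑ i ∈ s, Polynomial.aeval (jA N) (anD_piPoly π (Q i)) * b i = 0 := by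
  classical
  have h1 : ∀ z : ℍ, ∑ p ∈ s.sigma (fun i => Finset.range ((Q i).natDegree + 1)),
      (Q p.1).coeff p.2 * Θ₀ (jA N ^ p.2 * b p.1) z = 0 := by
    intro z
    rw [← h z, Finset.sum_sigma]
    refine Finset.sum_congr rfl fun i _ => ?_
    rw [Polynomial.eval_eq_sum_range, Finset.sum_mul]
    refine Finset.sum_congr rfl fun m _ => ?_
    rw [map_mul, map_pow, Pi.mul_apply, Pi.pow_apply, anD_bridge_jA hΘ]
    ring
  have h2 := anD_descent hΘ _ (fun p : Σ _ : ι, ℕ => (Q p.1).coeff p.2)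
    (fun p : Σ _ : ι, ℕ => jA N ^ p.2 * b p.1) h1
  rw [Finset.sum_sigma] at h2
  rw [← h2]
  refine Finset.sum_congr rfl fun i _ => ?_
  rw [anD_aeval_piPoly, Finset.sum_mul]
  refine Finset.sum_congr rfl fun m _ => ?_
  rw [smul_mul_assoc]

/-- The translates of `Θ₀ a` are permuted by `SL(2,ℤ)`. -/
theorem anD_tr_perm (hΘ : IsBridge N Θ₀ π) (a : ringA N) (γ : SL(2, ℤ)) :
    ∃ σ : Equiv.Perm (XN N), ∀ x z, anB_tr N (Θ₀ a) x (γ • z) = anB_tr N (Θ₀ a) (σ x) z :=
  ⟨MulAction.toPerm γ⁻¹, fun x z => anB_tr_smul (hΘ.inv a) γ x z⟩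

/-- **The characteristic polynomial of `Θ₀ a` over `ℂ[j]`**: the elementary symmetric functions
of the translates of `Θ₀ a` are polynomials `P k` in `j`, and `Θ₀ a` is a root of
`∑ₖ (-1)^k (P k)(j) T^(n-k)`. -/
theorem anD_exists_charPoly_bridge [NeZero N] [Fintype (XN N)] (hΘ : IsBridge N Θ₀ π)
    (hG : GrowthStatement) (a : ringA N) :
    ∃ P : ℕ → ℂ[X], P 0 = 1 ∧
      (∀ k (z : ℍ), anD_esymm (anB_tr N (Θ₀ a)) k z = (P k).eval (jfun z)) ∧
      ∀ z : ℍ, ∑ k ∈ Finset.range (Fintype.card (XN N) + 1),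
        (-1) ^ k * ((P k).eval (jfun z) * Θ₀ a z ^ (Fintype.card (XN N) - k)) = 0 := by
  have hmod := anD_bridge_isModFun hΘ hG a
  obtain ⟨P, hP0, hP, hroot⟩ := anD_exists_charPoly (anB_tr N (Θ₀ a))
    (fun x => anB_tr_mdiff hmod.holo x) (fun x => anB_tr_growth hmod x)
    (fun γ => anD_tr_perm hΘ a γ)
  refine ⟨P, hP0, hP, fun z => ?_⟩
  have h := hroot (QuotientGroup.mk 1 : XN N) z
  rw [anB_tr_one hmod.inv] at h
  exact h

end Bridge

/-- **(AN-D0)** Every element of `ringA N` is integral over `Q̄[j]`. -/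
theorem anD_ringAIntegral (hG : GrowthStatement) : RingAIntegralStatement := by
  intro N _ Θ₀ π hΘ a
  classical
  let _ : Fintype (XN N) := Fintype.ofFinite (XN N)
  obtain ⟨P, hP0, -, hroot⟩ := anD_exists_charPoly_bridge hΘ hG a
  set n := Fintype.card (XN N) with hn
  -- descent to `ringA N`
  have h1 : ∀ z : ℍ, ∑ k ∈ Finset.range (n + 1),
      (Polynomial.C ((-1 : ℂ) ^ k) * P k).eval (jfun z) * Θ₀ (a ^ (n - k)) z = 0 := by
    intro z
    rw [← hroot z]
    refine Finset.sum_congr rfl fun k _ => ?_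
    rw [Polynomial.eval_mul, Polynomial.eval_C, map_pow, Pi.pow_apply]
    ring
  have h2 := anD_descent_poly hΘ (Finset.range (n + 1))
    (fun k => Polynomial.C ((-1 : ℂ) ^ k) * P k) (fun k => a ^ (n - k)) h1
  -- the coefficients, in `Q̄[j] ⊆ F`
  set R := Algebra.adjoin QBar {jF N} with hR
  let q : ℕ → QBar[X] := fun k => anD_piPoly π (Polynomial.C ((-1 : ℂ) ^ k) * P k)
  have hq0 : q 0 = 1 := by
    simp only [q, pow_zero, map_one, one_mul, hP0]
    exact anD_piPoly_one hΘ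
  let r : ℕ → R := fun k =>
    ⟨Polynomial.aeval (jF N) (q k), Polynomial.aeval_mem_adjoin_singleton QBar (jF N)⟩
  have hr0 : r 0 = 1 := by
    apply Subtype.ext
    simp [r, hq0]
  let p : R[X] := ∑ k ∈ Finset.range (n + 1), Polynomial.C (r k) * Polynomial.X ^ (n - k)
  have hdeg : p.natDegree ≤ n := by
    refine Polynomial.natDegree_sum_le_of_forall_le _ _ fun k _ => ?_
    exact (Polynomial.natDegree_C_mul_X_pow_le _ _).trans (Nat.sub_le n k)
  have hcoeff : p.coeff n = 1 := by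
    simp only [p, Polynomial.finsetSum_coeff, Polynomial.coeff_C_mul_X_pow]
    rw [Finset.sum_eq_single 0]
    · simp [hr0]
    · intro k hk hk0
      have hk' : k ≤ n := Nat.lt_succ_iff.mp (Finset.mem_range.mp hk)
      have : n ≠ n - k := by omega
      simp [this]
    · intro h
      exact absurd (Finset.mem_range.mpr (Nat.succ_pos n)) h
  have hmonic : p.Monic := Polynomial.monic_of_natDegree_le_of_coeff_eq_one n hdeg hcoeff
  refine ⟨p, hmonic, ?_⟩
  have h3 := congrArg (fun x : ringA N => (x : FunField N)) h2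
  simp only [ZeroMemClass.coe_zero] at h3
  rw [← h3]
  rw [Polynomial.eval₂_finsetSum]
  push_cast
  refine Finset.sum_congr rfl fun k _ => ?_
  rw [Polynomial.eval₂_mul, Polynomial.eval₂_C, Polynomial.eval₂_pow, Polynomial.eval₂_X]
  congr 1

end Fermat.Agent.S24

end
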