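/-
S24 (GLUE, part 5): the target statement from the statements that are still open.
Everything that is already proved is plugged in here.  Owner: helper22.
-/
import Mathlib
import Fermat.Agent.S24.Defs
import Fermat.Agent.S24.ANDefs
import Fermat.Agent.S24.GlueMain
import Fermat.Agent.S24.GlueAN
import Fermat.Agent.S24.Comb
import Fermat.Agent.S24.DiffFinal
import Fermat.Agent.S24.Bridge
import Fermat.Agent.S24.TranslateAN
import Fermat.Agent.S24.DegreeAN
import Fermat.Agent.S24.RingAInt
import Fermat.Agent.S24.CoordAlg
import Fermat.Agent.S24.CoordDiv
import Fermat.Agent.S24.CuspPlace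
import Fermat.Agent.S24.PointPlace
import Fermat.Agent.S24.PointRam

set_option autoImplicit false

noncomputable section

namespace Fermat.Agent.S24

open AlgebraicCurve IntermediateField UpperHalfPlane
open scoped MatrixGroups

/-- (AN-coord) `j` is a coordinate. -/
theorem final_jCoordinate : JCoordinateStatement :=
  coord_jCoordinate' (anD_ringAIntegral anB_growth) bridge

/-- (AN-G) the degree lower bound. -/
theorem final_degreeLowerBound : DegreeLowerBoundStatement :=
  anG_degreeLowerBound bridge final_jCoordinate

/-- The target from the open statements. -/
theorem final_target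
    (hFI : FundamentalIdentityStatement)
    (hsymP : SymPointStatement) (hsymC : SymCuspStatement) : TargetStatement :=
  glue_target final_jCoordinate final_degreeLowerBound
    (glue_uniformizedGeneric bridge jSurjective pointFamily ramGeneric hsymP)
    (glue_uniformizedI bridge pointFamily ramI hsymP)
    (glue_uniformizedRho bridge pointFamily ramRho hsymP)
    (glue_uniformizedCusp bridge (anF_cuspFamily anB_growth) hsymC)
    hFI (coord_principalDivisor hFI) diff_degOneStatement diff_centreStatement
    diff_ordDiffZeroStatement diff_ordDiffPoleStatement diff_genusOfDivisorStatement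
    Comb.comb_cosetFinite Comb.comb_cosetCard Comb.comb_orbitsS Comb.comb_orbitsST
    Comb.comb_orbitsT

end Fermat.Agent.S24
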