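/-
S24, package AN-F (cusps), analytic core.  Owner: helper2.

The order at `i∞` of a periodic holomorphic function of moderate growth, in the variable
`q_N = exp (2πi z / N)`:  calculus of `IsCuspOrd`.
-/
import Mathlib
import Fermat.Agent.S24.ANDefs

set_option autoImplicit false

noncomputable section

namespace Fermat.Agent.S24

open UpperHalfPlane Filter Function Asymptotics
open scoped Topology Manifold Real MatrixGroups

/-! ### The exponential factor -/

/-- The factor `q_N ^ (-m) = exp (-2πi m z / N)`. -/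
def anF_e (N : ℕ) (m : ℤ) (z : ℍ) : ℂ :=
  Complex.exp (-(2 * Real.pi * Complex.I * m * (z : ℂ) / N))

theorem anF_isCuspOrd_iff (N : ℕ) (f : ℍ → ℂ) (m : ℤ) :
    IsCuspOrd N f m ↔
      ∃ L : ℂ, L ≠ 0 ∧ Tendsto (fun z : ℍ => f z * anF_e N m z) atImInfty (𝓝 L) := Iff.rfl

theorem anF_e_zero (N : ℕ) (z : ℍ) : anF_e N 0 z = 1 := by
  simp [anF_e]

theorem anF_e_add (N : ℕ) (m n : ℤ) (z : ℍ) : anF_e N (m + n) z = anF_e N m z * anF_e N n z := by
  unfold anF_e
  rw [← Complex.exp_add]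
  congr 1
  push_cast
  ring

theorem anF_e_ne_zero (N : ℕ) (m : ℤ) (z : ℍ) : anF_e N m z ≠ 0 := Complex.exp_ne_zero _

theorem anF_e_neg (N : ℕ) (m : ℤ) (z : ℍ) : anF_e N (-m) z = (anF_e N m z)⁻¹ := by
  have h := anF_e_add N m (-m) z
  rw [add_neg_cancel, anF_e_zero] at h
  exact eq_inv_of_mul_eq_one_right h.symm

theorem anF_norm_e (N : ℕ) (m : ℤ) (z : ℍ) :
    ‖anF_e N m z‖ = Real.exp (2 * π * m * z.im / N) := by
  unfold anF_e
  rw [Complex.norm_exp]
  congr 1
  have h1 : (-(2 * (π : ℂ) * Complex.I * (m : ℂ) * (z : ℂ) / (N : ℂ))) =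
      ((2 * π * m / N : ℝ) : ℂ) * (-(Complex.I * (z : ℂ))) := by
    push_cast
    ring
  rw [h1, Complex.re_ofReal_mul]
  simp only [Complex.neg_re, Complex.mul_re, Complex.I_re, Complex.I_im, zero_mul, one_mul,
    zero_sub, neg_neg]
  rw [UpperHalfPlane.coe_im]
  ring

theorem anF_tendsto_e_zero (N : ℕ) [NeZero N] {m : ℤ} (hm : m < 0) :
    Tendsto (anF_e N m) atImInfty (𝓝 0) := by
  rw [tendsto_zero_iff_norm_tendsto_zero]
  simp_rw [anF_norm_e]
  refine Real.tendsto_exp_atBot.comp ?_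
  have hN : (0 : ℝ) < N := by exact_mod_cast Nat.pos_of_ne_zero (NeZero.ne N)
  have hc : 2 * π * (m : ℝ) / N < 0 := by
    have : (m : ℝ) < 0 := by exact_mod_cast hm
    have := Real.pi_pos
    apply div_neg_of_neg_of_pos _ hN
    nlinarith
  have h1 : Tendsto (fun z : ℍ => z.im) atImInfty atTop := tendsto_comap
  have h2 := h1.const_mul_atTop_of_neg hc
  refine h2.congr (fun z => ?_)
  ring

theorem anF_e_vadd (N : ℕ) (m : ℤ) (t : ℝ) (z : ℍ) :
    anF_e N m (t +ᵥ z) = anF_e N m z * Complex.exp (-(2 * π * Complex.I * m * t / N)) := by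
  unfold anF_e
  rw [← Complex.exp_add, UpperHalfPlane.coe_vadd]
  congr 1
  ring

theorem anF_tendsto_vadd (t : ℝ) : Tendsto (fun z : ℍ => t +ᵥ z) atImInfty atImInfty := by
  rw [atImInfty, tendsto_comap_iff]
  have : (im ∘ fun z : ℍ => t +ᵥ z) = im := by
    funext z
    simp [UpperHalfPlane.vadd_im]
  rw [this]
  exact tendsto_comap

/-! ### Calculus of cusp orders -/

variable {N : ℕ} {f g : ℍ → ℂ} {m n k : ℤ}

/-- Below the order, `f q^(-k)` tends to zero. -/
theorem anF_tendsto_zero_of_lt [NeZero N] (hf : IsCuspOrd N f m) (hk : k < m) :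
    Tendsto (fun z : ℍ => f z * anF_e N k z) atImInfty (𝓝 0) := by
  obtain ⟨L, -, hL⟩ := hf
  have h1 := hL.mul (anF_tendsto_e_zero N (show k - m < 0 by omega))
  rw [mul_zero] at h1
  refine h1.congr (fun z => ?_)
  change f z * anF_e N m z * anF_e N (k - m) z = f z * anF_e N k z
  have : anF_e N k z = anF_e N m z * anF_e N (k - m) z := by
    rw [← anF_e_add]
    congr 1
    ring
  rw [this]
  ring

/-- The cusp order is unique. -/
theorem anF_isCuspOrd_unique [NeZero N] (hf : IsCuspOrd N f m) (hf' : IsCuspOrd N f n) :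
    m = n := by
  by_contra hne
  rcases lt_or_gt_of_ne hne with h | h
  · obtain ⟨L, hL0, hL⟩ := hf
    exact hL0 (tendsto_nhds_unique hL (anF_tendsto_zero_of_lt hf' h))
  · obtain ⟨L, hL0, hL⟩ := hf'
    exact hL0 (tendsto_nhds_unique hL (anF_tendsto_zero_of_lt hf h))

theorem anF_isCuspOrd_mul (hf : IsCuspOrd N f m) (hg : IsCuspOrd N g n) :
    IsCuspOrd N (fun z => f z * g z) (m + n) := by
  obtain ⟨L, hL0, hL⟩ := hf
  obtain ⟨L', hL'0, hL'⟩ := hg
  refine ⟨L * L', mul_ne_zero hL0 hL'0, ?_⟩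
  refine (hL.mul hL').congr (fun z => ?_)
  change f z * anF_e N m z * (g z * anF_e N n z) = f z * g z * anF_e N (m + n) z
  rw [anF_e_add]
  ring

theorem anF_isCuspOrd_mul' (hf : IsCuspOrd N f m) (hg : IsCuspOrd N g n) :
    IsCuspOrd N (f * g) (m + n) := anF_isCuspOrd_mul hf hg

theorem anF_isCuspOrd_const (N : ℕ) {c : ℂ} (hc : c ≠ 0) : IsCuspOrd N (fun _ => c) 0 := by
  refine ⟨c, hc, ?_⟩
  have : (fun z : ℍ => c * Complex.exp (-(2 * π * Complex.I * ((0 : ℤ) : ℂ) * (z : ℂ) / N)))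
      = fun _ => c := by
    funext z
    simp
  rw [this]
  exact tendsto_const_nhds

/-- The ultrametric inequality for cusp orders. -/
theorem anF_isCuspOrd_add [NeZero N] (hf : IsCuspOrd N f m) (hg : IsCuspOrd N g n)
    (hfg : IsCuspOrd N (fun z => f z + g z) k) : min m n ≤ k := by
  by_contra hcon
  have hk : k < min m n := not_le.mp hcon
  have h1 := anF_tendsto_zero_of_lt hf (lt_of_lt_of_le hk (min_le_left _ _))
  have h2 := anF_tendsto_zero_of_lt hg (lt_of_lt_of_le hk (min_le_right _ _))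
  obtain ⟨L, hL0, hL⟩ := hfg
  have h3 := h1.add h2
  rw [add_zero] at h3
  refine hL0 (tendsto_nhds_unique hL (h3.congr (fun z => ?_)))
  change f z * anF_e N k z + g z * anF_e N k z = (f z + g z) * anF_e N k z
  ring

/-- A function with a cusp order is not identically zero. -/
theorem anF_isCuspOrd_ne_zero (hf : IsCuspOrd N f m) : ∃ z, f z ≠ 0 := by
  by_contra hcon
  obtain ⟨L, hL0, hL⟩ := hf
  have : (fun z : ℍ => f z * Complex.exp (-(2 * π * Complex.I * (m : ℂ) * (z : ℂ) / N)))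
      = fun _ => 0 := by
    funext z
    have : f z = 0 := by
      by_contra h
      exact hcon ⟨z, h⟩
    rw [this, zero_mul]
  rw [this] at hL
  exact hL0 (tendsto_nhds_unique hL tendsto_const_nhds)

/-- Cusp orders are invariant under real translations. -/
theorem anF_isCuspOrd_vadd (t : ℝ) (hf : IsCuspOrd N f m) :
    IsCuspOrd N (fun z => f (t +ᵥ z)) m := by
  obtain ⟨L, hL0, hL⟩ := hf
  refine ⟨L * (Complex.exp (-(2 * π * Complex.I * m * t / N)))⁻¹,
    mul_ne_zero hL0 (inv_ne_zero (Complex.exp_ne_zero _)), ?_⟩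
  have h1 := (hL.comp (anF_tendsto_vadd t)).mul_const
    ((Complex.exp (-(2 * π * Complex.I * m * t / N)))⁻¹)
  refine h1.congr (fun z => ?_)
  change f (t +ᵥ z) * anF_e N m (t +ᵥ z) * _ = f (t +ᵥ z) * anF_e N m z
  rw [anF_e_vadd]
  have := Complex.exp_ne_zero (-(2 * π * Complex.I * m * t / N))
  field_simp

theorem anF_isCuspOrd_vadd_iff (t : ℝ) :
    IsCuspOrd N (fun z => f (t +ᵥ z)) m ↔ IsCuspOrd N f m := by
  refine ⟨fun h => ?_, anF_isCuspOrd_vadd t⟩
  have := anF_isCuspOrd_vadd (-t) h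
  simpa using this

/-- If `f` is invariant under `z ↦ z + h` and has cusp order `m` (in the variable `q_N`), then
`N ∣ m * h`. -/
theorem anF_dvd_of_periodic [NeZero N] (h : ℤ) (hper : ∀ z : ℍ, f ((h : ℝ) +ᵥ z) = f z)
    (hf : IsCuspOrd N f m) : (N : ℤ) ∣ m * h := by
  obtain ⟨L, hL0, hL⟩ := hf
  have h1 := (hL.comp (anF_tendsto_vadd (h : ℝ)))
  have h2 : Tendsto (fun z : ℍ => f z * anF_e N m z *
      Complex.exp (-(2 * π * Complex.I * m * (h : ℝ) / N))) atImInfty (𝓝 L) := by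
    refine h1.congr (fun z => ?_)
    change f ((h : ℝ) +ᵥ z) * anF_e N m ((h : ℝ) +ᵥ z) = _
    rw [anF_e_vadd, hper]
    ring
  have h3 := hL.mul_const (Complex.exp (-(2 * π * Complex.I * m * (h : ℝ) / N)))
  have h4 := tendsto_nhds_unique h2 h3
  have h5 : Complex.exp (-(2 * π * Complex.I * m * (h : ℝ) / N)) = 1 := by
    refine mul_left_cancel₀ hL0 ?_
    rw [mul_one]
    exact h4.symm
  rw [Complex.exp_eq_one_iff] at h5
  obtain ⟨j, hj⟩ := h5
  have hN : (N : ℂ) ≠ 0 := by exact_mod_cast NeZero.ne N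
  have hpi : (2 * (π : ℂ) * Complex.I) ≠ 0 := Complex.two_pi_I_ne_zero
  have h6 : ((m * h : ℤ) : ℂ) = ((-j * N : ℤ) : ℂ) := by
    push_cast
    have h7 : -(2 * (π : ℂ) * Complex.I * m * ((h : ℝ) : ℂ) / N) * N =
        (j : ℂ) * (2 * π * Complex.I) * N := by rw [hj]
    field_simp at h7
    push_cast at h7
    linear_combination -h7
  have h8 : m * h = -j * N := by exact_mod_cast h6
  exact ⟨-j, by rw [h8]; ring⟩

/-! ### Existence of the cusp order -/

local notation "𝕢" => Periodic.qParam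

theorem anF_e_mdiff (N : ℕ) (m : ℤ) : MDiff (anF_e N m) := by
  rw [UpperHalfPlane.mdifferentiable_iff]
  have h1 : DifferentiableOn ℂ (fun w : ℂ => Complex.exp (-(2 * π * Complex.I * m * w / N)))
      {z | 0 < z.im} := by
    apply Differentiable.differentiableOn
    fun_prop
  refine h1.congr (fun w hw => ?_)
  simp only [Function.comp_apply, anF_e]
  rw [ofComplex_apply_of_im_pos hw]

theorem anF_e_eq_qParam_pow (N : ℕ) (k : ℕ) (z : ℍ) :
    anF_e N k z = ((𝕢 N z) ^ k)⁻¹ := by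
  unfold anF_e Periodic.qParam
  rw [← Complex.exp_nat_mul, ← Complex.exp_neg]
  congr 1
  push_cast
  ring

theorem anF_e_periodic (N : ℕ) [NeZero N] (m : ℤ) (z : ℍ) :
    anF_e N m ((N : ℝ) +ᵥ z) = anF_e N m z := by
  rw [anF_e_vadd]
  have hN : (N : ℂ) ≠ 0 := by exact_mod_cast NeZero.ne N
  have : -(2 * (π : ℂ) * Complex.I * m * ((N : ℝ) : ℂ) / N) = ((-m : ℤ) : ℂ) * (2 * π * Complex.I) := by
    push_cast
    field_simp
  rw [this, Complex.exp_int_mul_two_pi_mul_I, mul_one]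

theorem anF_periodic_comp_ofComplex {N : ℕ} {g : ℍ → ℂ}
    (hper : ∀ z : ℍ, g ((N : ℝ) +ᵥ z) = g z) : Periodic (g ∘ ofComplex) (N : ℝ) := by
  intro w
  by_cases hw : 0 < Complex.im w
  · have hw' : 0 < Complex.im (w + (N : ℝ)) := by simpa using hw
    simp only [comp_apply, ofComplex_apply_of_im_pos hw', ofComplex_apply_of_im_pos hw]
    rw [← hper ⟨w, hw⟩]
    congr 1
    ext
    simp [add_comm]
  · have hw0 : Complex.im w ≤ 0 := not_lt.mp hw
    have hw' : Complex.im (w + (N : ℝ)) ≤ 0 := by simpa using hw0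
    simp only [comp_apply]
    rw [ofComplex_apply_of_im_nonpos hw', ofComplex_apply_of_im_nonpos hw0]

/-- **Core lemma of AN-F**: a holomorphic, `N`-periodic function of moderate growth on `ℍ`
which is not identically zero has a cusp order. -/
theorem anF_exists_isCuspOrd {N : ℕ} [NeZero N] {f : ℍ → ℂ} (hhol : MDiff f)
    (hper : ∀ z : ℍ, f ((N : ℝ) +ᵥ z) = f z) (hgr : ModerateGrowth f)
    (hne : ∃ z, f z ≠ 0) : ∃ m : ℤ, IsCuspOrd N f m := by
  obtain ⟨M, hM⟩ := hgr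
  obtain ⟨z₀, hz₀⟩ := hne
  have hN : (0 : ℝ) < N := by exact_mod_cast Nat.pos_of_ne_zero (NeZero.ne N)
  set K : ℤ := -((M : ℤ) * N) with hK
  set g : ℍ → ℂ := fun z => f z * anF_e N K z with hg
  have hg_hol : MDiff g := hhol.mul (anF_e_mdiff N K)
  have hg_per : Periodic (g ∘ ofComplex) (N : ℝ) := by
    apply anF_periodic_comp_ofComplex
    intro z
    simp only [hg]
    rw [hper, anF_e_periodic]
  have hg_bdd : IsBoundedAtImInfty g := by
    have h1 : (anF_e N K) =O[atImInfty] fun z : ℍ => Real.exp (-(2 * π * M * z.im)) := by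
      refine IsBigO.of_bound 1 (Eventually.of_forall fun z => ?_)
      rw [anF_norm_e, one_mul, Real.norm_of_nonneg (Real.exp_pos _).le, hK]
      apply le_of_eq
      congr 1
      push_cast
      field_simp
    have h2 := hM.mul h1
    have h3 : (fun z : ℍ => Real.exp (2 * π * M * z.im) * Real.exp (-(2 * π * M * z.im)))
        = fun _ => (1 : ℝ) := by
      funext z
      rw [← Real.exp_add, add_neg_cancel, Real.exp_zero]
    rw [h3] at h2
    exact h2
  set Φ := cuspFunction (N : ℝ) g with hΦ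
  have hΦ_diff : DifferentiableOn ℂ Φ (Metric.ball 0 1) :=
    differentiableOn_cuspFunction_ball hN hg_per hg_hol hg_bdd
  have hΦ_an : AnalyticOnNhd ℂ Φ (Metric.ball 0 1) :=
    hΦ_diff.analyticOnNhd Metric.isOpen_ball
  have hΦ_eq : ∀ z : ℍ, Φ (𝕢 N z) = g z := fun z => eq_cuspFunction z hN.ne' hg_per
  have hq₀ : 𝕢 N z₀ ∈ Metric.ball (0 : ℂ) 1 := by
    rw [mem_ball_zero_iff]
    exact Periodic.norm_qParam_lt_one hN z₀.im_pos
  have hord₀ : analyticOrderAt Φ (𝕢 N z₀) ≠ ⊤ := by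
    intro h
    rw [analyticOrderAt_eq_top] at h
    have := h.self_of_nhds
    rw [hΦ_eq] at this
    exact mul_ne_zero hz₀ (anF_e_ne_zero N K z₀) this
  have hord : analyticOrderAt Φ 0 ≠ ⊤ :=
    hΦ_an.analyticOrderAt_ne_top_of_isPreconnected (convex_ball 0 1).isPreconnected hq₀
      (Metric.mem_ball_self one_pos) hord₀
  have hΦ0 : AnalyticAt ℂ Φ 0 := hΦ_an 0 (Metric.mem_ball_self one_pos)
  obtain ⟨Ψ, hΨ_an, hΨ0, hΨ⟩ := hΦ0.analyticOrderAt_ne_top.mp hord
  set k := analyticOrderNatAt Φ 0 with hk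
  have hq_tendsto : Tendsto (fun z : ℍ => 𝕢 N z) atImInfty (𝓝 0) :=
    qParam_tendsto_atImInfty hN
  have h1 : Tendsto (fun z : ℍ => Ψ (𝕢 N z)) atImInfty (𝓝 (Ψ 0)) :=
    hΨ_an.continuousAt.tendsto.comp hq_tendsto
  have h2 : ∀ᶠ z : ℍ in atImInfty, Φ (𝕢 N z) = (𝕢 N z - 0) ^ k • Ψ (𝕢 N z) :=
    hq_tendsto.eventually hΨ
  refine ⟨(k : ℤ) + K, Ψ 0, hΨ0, ?_⟩
  refine h1.congr' ?_
  filter_upwards [h2] with z hz
  change Ψ (𝕢 N z) = f z * anF_e N ((k : ℤ) + K) z
  rw [add_comm, anF_e_add, ← mul_assoc]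
  change _ = g z * _
  rw [← hΦ_eq, hz, sub_zero, smul_eq_mul, anF_e_eq_qParam_pow]
  have : (𝕢 N z) ^ k ≠ 0 := pow_ne_zero _ (Periodic.qParam_ne_zero _)
  field_simp


/-! ### The cusp order of `j` -/

open ModularForm EisensteinSeries in
/-- `j(z) q(z) → 1` as `im z → ∞`. -/
theorem anF_tendsto_jfun_mul_q :
    Tendsto (fun z : ℍ => jfun z * 𝕢 1 z) atImInfty (𝓝 1) := by
  have h1 : Tendsto (fun z : ℍ => E₄ z ^ 3 / ∏' n, (1 - eta_q n z) ^ 24) atImInfty
      (𝓝 (1 ^ 3 / 1)) :=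
    (anE_tendsto_E₄.pow 3).div tendsto_atImInfty_tprod_one_sub_eta_q_pow one_ne_zero
  rw [one_pow, div_one] at h1
  refine h1.congr (fun z => ?_)
  have hΔ := discriminant_eq_q_prod z
  have hΔ0 := discriminant_ne_zero z
  have hq : 𝕢 1 z ≠ 0 := Periodic.qParam_ne_zero _
  have hP : (∏' n, (1 - eta_q n z) ^ 24) ≠ 0 := by
    intro h
    rw [h, mul_zero] at hΔ
    exact hΔ0 hΔ
  unfold jfun
  rw [hΔ]
  field_simp

/-- `j` has a simple pole in `q`, i.e. cusp order `-N` in the variable `q_N`. -/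
theorem anF_isCuspOrd_jfun (N : ℕ) [NeZero N] : IsCuspOrd N jfun (-(N : ℤ)) := by
  refine ⟨1, one_ne_zero, ?_⟩
  refine anF_tendsto_jfun_mul_q.congr (fun z => ?_)
  congr 1
  unfold Periodic.qParam
  congr 1
  have hN : (N : ℂ) ≠ 0 := by exact_mod_cast NeZero.ne N
  push_cast
  field_simp

end Fermat.Agent.S24
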