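/-
S24, package AN-F (cusps): places at the cusps.  Owner: helper2.

`CuspOrdExistsStatement`, `CuspPlaceStatement`, `CuspFamilyStatement` of `ANDefs.lean`, from the
bridge and `GrowthStatement`.
-/
import Mathlib
import Fermat.Agent.S24.ANDefs
import Fermat.Agent.S24.CuspOrd
import Fermat.Agent.S24.FracRingA
import Fermat.Agent.S24.Translate

set_option autoImplicit false

noncomputable section

namespace Fermat.Agent.S24

open AlgebraicCurve UpperHalfPlane Filter Function CongruenceSubgroup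
open scoped Topology Manifold MatrixGroups

/-! ### Translates -/

section Translates

variable {N : ℕ} {f : ℍ → ℂ}

theorem anF_translate_apply (f : ℍ → ℂ) (γ : SL(2, ℤ)) (z : ℍ) :
    translate f γ z = f (γ⁻¹ • z) := rfl

theorem anF_translate_eq_tr (hinv : ∀ γ ∈ Gamma0 N, ∀ z : ℍ, f (γ • z) = f z) (γ : SL(2, ℤ)) :
    translate f γ = anB_tr N f (QuotientGroup.mk γ : XN N) := by
  funext z
  rw [anB_tr_mk hinv]
  rfl

theorem anF_translate_mdiff (hf : MDiff f) (γ : SL(2, ℤ)) : MDiff (translate f γ) :=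
  anB_mdiff_comp_smul hf γ⁻¹

theorem anF_translate_vadd_of_fixed (hinv : ∀ γ ∈ Gamma0 N, ∀ z : ℍ, f (γ • z) = f z)
    (γ : SL(2, ℤ)) (h : ℤ) (hx : (ModularGroup.T ^ h) • (QuotientGroup.mk γ : XN N) = γ)
    (z : ℍ) : translate f γ ((h : ℝ) +ᵥ z) = translate f γ z := by
  rw [anF_translate_eq_tr hinv]
  exact anB_tr_vadd_of_fixed hinv _ h hx z

theorem anF_translate_vadd (hinv : ∀ γ ∈ Gamma0 N, ∀ z : ℍ, f (γ • z) = f z)
    (γ : SL(2, ℤ)) (z : ℍ) : translate f γ ((N : ℝ) +ᵥ z) = translate f γ z := by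
  rw [anF_translate_eq_tr hinv]
  exact anB_tr_vadd hinv _ z

theorem anF_translate_mul_right (hinv : ∀ γ ∈ Gamma0 N, ∀ z : ℍ, f (γ • z) = f z)
    (γ δ : SL(2, ℤ)) (hδ : δ ∈ Gamma0 N) : translate f (γ * δ) = translate f γ := by
  funext z
  rw [anF_translate_apply, anF_translate_apply, mul_inv_rev, mul_smul]
  exact hinv _ (inv_mem hδ) _

theorem anF_translate_T_mul (f : ℍ → ℂ) (γ : SL(2, ℤ)) :
    translate f (ModularGroup.T * γ) = fun z => translate f γ (((-1 : ℤ) : ℝ) +ᵥ z) := by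
  funext z
  rw [anF_translate_apply, anF_translate_apply, mul_inv_rev, mul_smul,
    ← UpperHalfPlane.modular_T_zpow_smul, zpow_neg, zpow_one]

theorem anF_translate_ne_zero {a : ℍ → ℂ} (γ : SL(2, ℤ)) (h : ∃ z, a z ≠ 0) :
    ∃ z, translate a γ z ≠ 0 := by
  obtain ⟨z, hz⟩ := h
  refine ⟨γ • z, ?_⟩
  rw [anF_translate_apply, inv_smul_smul]
  exact hz

end Translates

/-! ### (AN-F0) existence of cusp orders -/

section Exists

variable {N : ℕ} {Θ₀ : ringA N →+* (ℍ → ℂ)} {π : ℂ →+ QBar}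

theorem anF_exists_cuspOrd [NeZero N] (hG : GrowthStatement) (hΘ : IsBridge N Θ₀ π) (a : ringA N)
    (γ : SL(2, ℤ)) (ha : a ≠ 0) : ∃ m : ℤ, IsCuspOrd N (translate (Θ₀ a) γ) m :=
  anF_exists_isCuspOrd (anF_translate_mdiff (hΘ.holo a) γ)
    (anF_translate_vadd (hΘ.inv a) γ) (hG N Θ₀ π hΘ a γ)
    (anF_translate_ne_zero γ (fracA_bridge_ne_zero hΘ ha))

/-- (AN-F0) -/
theorem anF_cuspOrdExists (hG : GrowthStatement) : CuspOrdExistsStatement :=
  fun _ _ _ _ hΘ a γ ha => anF_exists_cuspOrd hG hΘ a γ ha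

theorem anF_ne_zero_of_isCuspOrd {a : ringA N} {γ : SL(2, ℤ)} {m : ℤ}
    (h : IsCuspOrd N (translate (Θ₀ a) γ) m) : a ≠ 0 := by
  rintro rfl
  obtain ⟨z, hz⟩ := anF_isCuspOrd_ne_zero h
  apply hz
  rw [anF_translate_apply, map_zero]
  rfl

theorem anF_translate_bridge_mul (a b : ringA N) (γ : SL(2, ℤ)) :
    translate (Θ₀ (a * b)) γ = fun z => translate (Θ₀ a) γ z * translate (Θ₀ b) γ z := by
  funext z
  simp only [anF_translate_apply, map_mul, Pi.mul_apply]

theorem anF_translate_bridge_add (a b : ringA N) (γ : SL(2, ℤ)) :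
    translate (Θ₀ (a + b)) γ = fun z => translate (Θ₀ a) γ z + translate (Θ₀ b) γ z := by
  funext z
  simp only [anF_translate_apply, map_add, Pi.add_apply]

theorem anF_translate_bridge_const (hΘ : IsBridge N Θ₀ π) (c : QBar) (γ : SL(2, ℤ)) :
    translate (Θ₀ (algebraMap QBar (ringA N) c)) γ = fun _ => iota c := by
  funext z
  rw [anF_translate_apply, hΘ.map_const]

theorem anF_bridge_jA (hΘ : IsBridge N Θ₀ π) : Θ₀ (jA N) = jfun := by
  funext z
  have := hΘ.map_jDiv 1 (one_dvd N) z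
  rw [jA, this, jfunMul]
  congr 1
  rw [Nat.cast_one, one_mul]
  exact ofComplex_apply z

theorem anF_translate_bridge_jA (hΘ : IsBridge N Θ₀ π) (γ : SL(2, ℤ)) :
    translate (Θ₀ (jA N)) γ = jfun := by
  funext z
  rw [anF_translate_apply, anF_bridge_jA hΘ, jfun_smul]

theorem anF_isCuspOrd_jA [NeZero N] (hΘ : IsBridge N Θ₀ π) (γ : SL(2, ℤ)) :
    IsCuspOrd N (translate (Θ₀ (jA N)) γ) (-(N : ℤ)) := by
  rw [anF_translate_bridge_jA hΘ]
  exact anF_isCuspOrd_jfun N

theorem anF_jA_ne_zero [NeZero N] (hΘ : IsBridge N Θ₀ π) : jA N ≠ 0 :=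
  anF_ne_zero_of_isCuspOrd (anF_isCuspOrd_jA hΘ 1)

theorem anF_coe_jA : ((jA N : ringA N) : FunField N) = jF N := rfl

end Exists

/-! ### (AN-F1) the place at a cusp -/

section Place

variable {N : ℕ} {Θ₀ : ringA N →+* (ℍ → ℂ)} {π : ℂ →+ QBar}

/-- The place at the cusp `γ⁻¹ ∞`, with the ramification bound. -/
theorem anF_exists_place [NeZero N] (hG : GrowthStatement) (hΘ : IsBridge N Θ₀ π) (γ : SL(2, ℤ)) :
    ∃ v : Place QBar (FunField N), IsPlaceAtCusp Θ₀ γ v ∧
      ∀ h : ℕ, 0 < h → (ModularGroup.T ^ (h : ℤ)) • (QuotientGroup.mk γ : XN N) = γ →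
        v.ord (jF N)⁻¹ ≤ (h : ℤ) := by
  classical
  -- the order function on `ringA N`
  have hex : ∀ a : ringA N, ∃ m : ℤ, a ≠ 0 → IsCuspOrd N (translate (Θ₀ a) γ) m := by
    intro a
    by_cases ha : a = 0
    · exact ⟨0, fun h => absurd ha h⟩
    · obtain ⟨m, hm⟩ := anF_exists_cuspOrd hG hΘ a γ ha
      exact ⟨m, fun _ => hm⟩
  choose ord hord using hex
  have huniq : ∀ (a : ringA N) (m : ℤ), IsCuspOrd N (translate (Θ₀ a) γ) m → ord a = m := by
    intro a m hm
    exact anF_isCuspOrd_unique (hord a (anF_ne_zero_of_isCuspOrd hm)) hm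
  have hmul : ∀ a b : ringA N, a ≠ 0 → b ≠ 0 → ord (a * b) = ord a + ord b := by
    intro a b ha hb
    apply huniq
    rw [anF_translate_bridge_mul]
    exact anF_isCuspOrd_mul (hord a ha) (hord b hb)
  have hadd : ∀ a b : ringA N, a ≠ 0 → b ≠ 0 → a + b ≠ 0 →
      min (ord a) (ord b) ≤ ord (a + b) := by
    intro a b ha hb hab
    have h := hord (a + b) hab
    rw [anF_translate_bridge_add] at h
    exact anF_isCuspOrd_add (hord a ha) (hord b hb) h
  have hK : ∀ c : QBar, c ≠ 0 → ord (algebraMap QBar (ringA N) c) = 0 := by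
    intro c hc
    apply huniq
    rw [anF_translate_bridge_const hΘ]
    exact anF_isCuspOrd_const N (by simpa using hc)
  have hj : ord (jA N) = -(N : ℤ) := huniq _ _ (anF_isCuspOrd_jA hΘ γ)
  have hN : (0 : ℤ) < N := by exact_mod_cast Nat.pos_of_ne_zero (NeZero.ne N)
  have hne : ∃ a : ringA N, a ≠ 0 ∧ ord a ≠ 0 :=
    ⟨jA N, anF_jA_ne_zero hΘ, by rw [hj]; omega⟩
  obtain ⟨v, m, hm, hmem, -, hdiff, hval⟩ :=
    fracA_exists_place (ringA N) (fracA_exists_div N) ord hmul hadd hK hne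
  have hm' : (0 : ℤ) < m := by exact_mod_cast hm
  refine ⟨v, ?_, ?_⟩
  · intro a b k l hk hl
    have ha := anF_ne_zero_of_isCuspOrd hk
    have hb := anF_ne_zero_of_isCuspOrd hl
    rw [hmem a b ha hb, huniq a k hk, huniq b l hl]
  · intro h hh hfix
    -- every value of `ord` times `h` is divisible by `N`
    have hdvd : ∀ a : ringA N, a ≠ 0 → (N : ℤ) ∣ ord a * h := by
      intro a ha
      exact anF_dvd_of_periodic (h : ℤ)
        (fun z => by
          have := anF_translate_vadd_of_fixed (hΘ.inv a) γ (h : ℤ) hfix z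
          simpa using this)
        (hord a ha)
    -- `m` is a difference of two values
    obtain ⟨ϖ, hϖ⟩ := place_exists_irreducible v
    have hϖ1 : v.ord (ϖ : FunField N) = 1 := v.ord_coe_irreducible hϖ
    obtain ⟨a, b, hb, hab⟩ := fracA_exists_div N (ϖ : FunField N)
    have ha : a ≠ 0 := by
      rintro rfl
      rw [hab] at hϖ1
      simp at hϖ1
    have h1 := hdiff a b ha hb
    rw [← hab, hϖ1, mul_one] at h1
    have h2 : (N : ℤ) ∣ (m : ℤ) * h := by
      rw [← h1, sub_mul]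
      exact dvd_sub (hdvd a ha) (hdvd b hb)
    have h3 : (N : ℤ) ≤ (m : ℤ) * h :=
      Int.le_of_dvd (mul_pos hm' (by exact_mod_cast hh)) h2
    -- the order of `j⁻¹`
    have h4 := hdiff 1 (jA N) one_ne_zero (anF_jA_ne_zero hΘ)
    have h5 : ord (1 : ringA N) = 0 := by
      have := hmul 1 1 one_ne_zero one_ne_zero
      rw [mul_one] at this
      omega
    have h6 : ((1 : ringA N) : FunField N) / ((jA N : ringA N) : FunField N) = (jF N)⁻¹ := by
      rw [anF_coe_jA, OneMemClass.coe_one, one_div]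
    rw [h6, h5, hj] at h4
    by_contra hcon
    have hcon' : (h : ℤ) + 1 ≤ v.ord (jF N)⁻¹ := by omega
    have : (m : ℤ) * ((h : ℤ) + 1) ≤ (m : ℤ) * v.ord (jF N)⁻¹ :=
      mul_le_mul_of_nonneg_left hcon' hm'.le
    nlinarith

/-- (AN-F1) -/
theorem anF_cuspPlace (hG : GrowthStatement) : CuspPlaceStatement := by
  intro N _ Θ₀ π hΘ γ
  obtain ⟨v, hv, -⟩ := anF_exists_place hG hΘ γ
  exact ⟨v, hv⟩

/-- The place at a cusp is unique. -/
theorem anF_place_unique [NeZero N] (hG : GrowthStatement) (hΘ : IsBridge N Θ₀ π) (γ : SL(2, ℤ))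
    {v v' : Place QBar (FunField N)} (hv : IsPlaceAtCusp Θ₀ γ v)
    (hv' : IsPlaceAtCusp Θ₀ γ v') : v = v' := by
  apply fracA_place_ext (ringA N) (fracA_exists_div N)
  intro a b ha hb
  obtain ⟨k, hk⟩ := anF_exists_cuspOrd hG hΘ a γ ha
  obtain ⟨l, hl⟩ := anF_exists_cuspOrd hG hΘ b γ hb
  rw [hv a b k l hk hl, hv' a b k l hk hl]

theorem anF_isPlaceAtCusp_mul_right (hΘ : IsBridge N Θ₀ π) (γ δ : SL(2, ℤ))
    (hδ : δ ∈ Gamma0 N) (v : Place QBar (FunField N)) :
    IsPlaceAtCusp Θ₀ (γ * δ) v ↔ IsPlaceAtCusp Θ₀ γ v := by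
  unfold IsPlaceAtCusp
  simp only [fun a => anF_translate_mul_right (hΘ.inv a) γ δ hδ]

theorem anF_isPlaceAtCusp_T_mul (γ : SL(2, ℤ)) (v : Place QBar (FunField N)) :
    IsPlaceAtCusp Θ₀ (ModularGroup.T * γ) v ↔ IsPlaceAtCusp Θ₀ γ v := by
  unfold IsPlaceAtCusp
  simp only [anF_translate_T_mul, anF_isCuspOrd_vadd_iff]

theorem anF_inv_jF_mem_nonunits [NeZero N] (hΘ : IsBridge N Θ₀ π) (γ : SL(2, ℤ))
    {v : Place QBar (FunField N)} (hv : IsPlaceAtCusp Θ₀ γ v) :
    (jF N)⁻¹ ∈ v.toValuationSubring.nonunits := by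
  have hN : (0 : ℤ) < N := by exact_mod_cast Nat.pos_of_ne_zero (NeZero.ne N)
  have h1 : IsCuspOrd N (translate (Θ₀ (1 : ringA N)) γ) 0 := by
    have := anF_translate_bridge_const hΘ 1 γ
    rw [map_one] at this
    rw [this]
    exact anF_isCuspOrd_const N (by simp)
  have h2 := hv (jA N) 1 _ _ (anF_isCuspOrd_jA hΘ γ) h1
  have h3 : jF N ∉ v.toValuationSubring := by
    intro h
    have : ((jA N : ringA N) : FunField N) / ((1 : ringA N) : FunField N) ∈
        v.toValuationSubring := by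
      rw [anF_coe_jA, OneMemClass.coe_one, div_one]
      exact h
    have := h2.mp this
    omega
  exact (place_mem_or_inv_mem_nonunits v (jF N)).resolve_left h3

end Place

/-! ### (AN-F2) the family of places at the cusps -/

/-- (AN-F2) -/
theorem anF_cuspFamily (hG : GrowthStatement) : CuspFamilyStatement := by
  intro N _ Θ₀ π hΘ
  classical
  have hN : 0 < N := Nat.pos_of_ne_zero (NeZero.ne N)
  choose P₀ hP₀ hram using fun γ : SL(2, ℤ) => anF_exists_place hG hΘ γ
  let P : XN N → Place QBar (FunField N) := fun x => P₀ (Quotient.out x)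
  have hP : ∀ γ : SL(2, ℤ), IsPlaceAtCusp Θ₀ γ (P (γ : XN N)) := by
    intro γ
    obtain ⟨δ, hδ⟩ := QuotientGroup.mk_out_eq_mul (Gamma0 N) γ
    have h1 : (Quotient.out (QuotientGroup.mk γ : XN N) : SL(2, ℤ)) = γ * δ := hδ
    have h2 := hP₀ (Quotient.out (QuotientGroup.mk γ : XN N))
    rw [h1] at h2
    have h3 : P (γ : XN N) = P₀ (γ * δ) := by
      change P₀ (Quotient.out (QuotientGroup.mk γ : XN N)) = _
      rw [h1]
    rw [h3]
    exact (anF_isPlaceAtCusp_mul_right hΘ γ δ δ.2 _).mp h2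
  refine ⟨P, hP, ?_, ?_, ?_⟩
  · intro x
    induction x using QuotientGroup.induction_on with
    | H γ => exact anF_inv_jF_mem_nonunits hΘ γ (hP γ)
  · intro x
    induction x using QuotientGroup.induction_on with
    | H γ =>
      have h1 : ModularGroup.T • (QuotientGroup.mk γ : XN N) =
          QuotientGroup.mk (ModularGroup.T * γ) := rfl
      rw [h1]
      exact anF_place_unique hG hΘ (ModularGroup.T * γ) (hP _)
        ((anF_isPlaceAtCusp_T_mul γ _).mpr (hP γ))
  · intro x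
    -- the orbit length is the minimal period
    have hcard : Nat.card (MulAction.orbit (Subgroup.zpowers ModularGroup.T) x) =
        minimalPeriod (ModularGroup.T • · : XN N → XN N) x := by
      exact (Nat.card_congr (MulAction.orbitZPowersEquiv ModularGroup.T x)).trans
        (Nat.card_zmod _)
    have hper : IsPeriodicPt (ModularGroup.T • · : XN N → XN N) N x := by
      rw [IsPeriodicPt, IsFixedPt, smul_iterate]
      have := anB_T_zpow_smul N 1 x
      simpa using this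
    have hpos : 0 < minimalPeriod (ModularGroup.T • · : XN N → XN N) x :=
      hper.minimalPeriod_pos hN
    have hfix : (ModularGroup.T ^ (minimalPeriod (ModularGroup.T • · : XN N → XN N) x)) • x
        = x := MulAction.pow_smul_eq_iff_minimalPeriod_dvd.mpr dvd_rfl
    rw [hcard]
    have hx : (QuotientGroup.mk (Quotient.out x) : XN N) = x := QuotientGroup.out_eq' x
    apply hram (Quotient.out x) _ hpos
    rw [hx, zpow_natCast]
    exact hfix

end Fermat.Agent.S24
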