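/-
S24, small analytic lemmas for the symmetric-function argument at the cusps (AN-D∞).
Owner: helper2.
-/
import Mathlib
import Fermat.Agent.S24.ANDefs
import Fermat.Agent.S24.CuspOrd
import Fermat.Agent.S24.PointOrd

set_option autoImplicit false

noncomputable section

namespace Fermat.Agent.S24

open UpperHalfPlane Filter Function Polynomial
open scoped Topology Manifold MatrixGroups

local notation "𝕢" => Periodic.qParam

/-- (SYM-2) Möbius invariance of the analytic order (helper7's `anE_ordAt_comp_smul`). -/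
theorem sym_ordAt_comp_smul (f : ℍ → ℂ) (γ : SL(2, ℤ)) (z : ℍ) :
    ordAt (fun w => f (γ • w)) z = ordAt f (γ • z) :=
  anE_ordAt_comp_smul f γ z

/-- (SYM-4a) If the cusp order of `f` is larger than that of `h`, then `f / h → 0` at `i∞`. -/
theorem sym_tendsto_div_of_lt {N : ℕ} [NeZero N] {f h : ℍ → ℂ} {m n : ℤ}
    (hf : IsCuspOrd N f m) (hh : IsCuspOrd N h n) (hlt : n < m) :
    Tendsto (fun z => f z / h z) atImInfty (𝓝 0) := by
  obtain ⟨L, -, hL⟩ := hf
  obtain ⟨L', hL'0, hL'⟩ := hh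
  have h1 := (hL.div hL' hL'0).mul (anF_tendsto_e_zero N (show n - m < 0 by omega))
  rw [mul_zero] at h1
  refine h1.congr (fun z => ?_)
  change f z * anF_e N m z / (h z * anF_e N n z) * anF_e N (n - m) z = f z / h z
  have e1 : anF_e N (n - m) z = anF_e N n z * (anF_e N m z)⁻¹ := by
    rw [sub_eq_add_neg, anF_e_add, anF_e_neg]
  have hm0 := anF_e_ne_zero N m z
  have hn0 := anF_e_ne_zero N n z
  rw [e1]
  by_cases hz : h z = 0
  · simp [hz]
  · field_simp

/-- Same with equal orders: the quotient tends to a nonzero limit. -/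
theorem sym_tendsto_div_of_eq {N : ℕ} {f h : ℍ → ℂ} {m : ℤ}
    (hf : IsCuspOrd N f m) (hh : IsCuspOrd N h m) :
    ∃ L : ℂ, L ≠ 0 ∧ Tendsto (fun z => f z / h z) atImInfty (𝓝 L) := by
  obtain ⟨L, hL0, hL⟩ := hf
  obtain ⟨L', hL'0, hL'⟩ := hh
  refine ⟨L / L', div_ne_zero hL0 hL'0, ?_⟩
  refine (hL.div hL' hL'0).congr (fun z => ?_)
  change f z * anF_e N m z / (h z * anF_e N m z) = f z / h z
  have hm0 := anF_e_ne_zero N m z
  by_cases hz : h z = 0
  · simp [hz]
  · field_simp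

/-- `1 / j → 0` at `i∞`. -/
theorem sym_tendsto_inv_jfun : Tendsto (fun z : ℍ => (jfun z)⁻¹) atImInfty (𝓝 0) := by
  have h1 : Tendsto (fun z : ℍ => 𝕢 1 z * (jfun z * 𝕢 1 z)⁻¹) atImInfty (𝓝 (0 * (1 : ℂ)⁻¹)) :=
    (qParam_tendsto_atImInfty one_pos).mul (anF_tendsto_jfun_mul_q.inv₀ one_ne_zero)
  rw [zero_mul] at h1
  refine h1.congr (fun z => ?_)
  have hq : 𝕢 1 z ≠ 0 := Periodic.qParam_ne_zero _
  rw [mul_inv, mul_comm (jfun z)⁻¹, ← mul_assoc, mul_inv_cancel₀ hq, one_mul]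

/-- `j ≠ 0` near `i∞`. -/
theorem sym_eventually_jfun_ne_zero : ∀ᶠ z : ℍ in atImInfty, jfun z ≠ 0 := by
  have h1 : ∀ᶠ z : ℍ in atImInfty, jfun z * 𝕢 1 z ≠ 0 :=
    anF_tendsto_jfun_mul_q.eventually_ne one_ne_zero
  filter_upwards [h1] with z hz
  exact left_ne_zero_of_mul hz

/-- (SYM-4b) If `r(j) / j ^ D → 0` at `i∞` for a nonzero polynomial `r`, then `deg r < D`. -/
theorem sym_natDegree_lt_of_tendsto (r : ℂ[X]) (hr : r ≠ 0) (D : ℕ)
    (h : Tendsto (fun z : ℍ => r.eval (jfun z) / jfun z ^ D) atImInfty (𝓝 0)) :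
    r.natDegree < D := by
  by_contra hcon
  have hD : D ≤ r.natDegree := not_lt.mp hcon
  -- `reverse r (1/j) → leading coefficient`
  have h1 : Tendsto (fun z : ℍ => r.reverse.eval (jfun z)⁻¹) atImInfty
      (𝓝 (r.reverse.eval 0)) :=
    (r.reverse.continuous.tendsto 0).comp sym_tendsto_inv_jfun
  have h2 : r.reverse.eval 0 = r.leadingCoeff := by
    rw [← Polynomial.coeff_zero_eq_eval_zero, Polynomial.coeff_zero_reverse]
  rw [h2] at h1
  -- `(1/j)^(d - D)` is bounded (tends to `0` or `1`)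
  have h3 : Tendsto (fun z : ℍ => ((jfun z)⁻¹) ^ (r.natDegree - D)) atImInfty
      (𝓝 ((0 : ℂ) ^ (r.natDegree - D))) := sym_tendsto_inv_jfun.pow _
  have h4 := h.mul h3
  rw [zero_mul] at h4
  have h5 : (fun z : ℍ => r.eval (jfun z) / jfun z ^ D * ((jfun z)⁻¹) ^ (r.natDegree - D))
      =ᶠ[atImInfty] fun z : ℍ => r.reverse.eval (jfun z)⁻¹ := by
    filter_upwards [sym_eventually_jfun_ne_zero] with z hz
    letI : Invertible (jfun z) := invertibleOfNonzero hz
    have h6 := Polynomial.eval₂_reverse_mul_pow (RingHom.id ℂ) (jfun z) r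
    simp only [Polynomial.eval₂_id, invOf_eq_inv] at h6
    have h7 : (jfun z)⁻¹ ^ (r.natDegree - D) * (jfun z) ^ (r.natDegree - D) = 1 := by
      rw [← mul_pow, inv_mul_cancel₀ hz, one_pow]
    have h8 : jfun z ^ r.natDegree = jfun z ^ D * jfun z ^ (r.natDegree - D) := by
      rw [← pow_add, Nat.add_sub_cancel' hD]
    rw [← h6, h8]
    have hpD : jfun z ^ D ≠ 0 := pow_ne_zero _ hz
    have hpd : jfun z ^ (r.natDegree - D) ≠ 0 := pow_ne_zero _ hz
    rw [inv_pow]
    field_simp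
  have h9 := tendsto_nhds_unique (h4.congr' h5) h1
  exact Polynomial.leadingCoeff_ne_zero.mpr hr h9.symm

/-- `‖j‖ → ∞` at `i∞`. -/
theorem sym_tendsto_norm_jfun : Tendsto (fun z : ℍ => ‖jfun z‖) atImInfty atTop := by
  have h1 : Tendsto (fun z : ℍ => ‖(jfun z)⁻¹‖⁻¹) atImInfty atTop := by
    have h2 : Tendsto (fun z : ℍ => ‖(jfun z)⁻¹‖) atImInfty (𝓝[>] 0) := by
      rw [tendsto_nhdsWithin_iff]
      refine ⟨by simpa using sym_tendsto_inv_jfun.norm, ?_⟩
      filter_upwards [sym_eventually_jfun_ne_zero] with z hz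
      exact norm_pos_iff.mpr (inv_ne_zero hz)
    exact tendsto_inv_nhdsGT_zero.comp h2
  refine h1.congr (fun z => ?_)
  rw [norm_inv, inv_inv]

end Fermat.Agent.S24
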