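import Mathlib
import Fermat.Agent.S24.ANDefs
import Fermat.Agent.S24.CharPoly

/-!
# S24 (AN-D): order calculus on the upper half plane

* `anD_analyticOrderAt_poly`: the analytic order of a polynomial function is the root
  multiplicity.
* `anD_ordAt_poly_jfun`: `ord_z (p ∘ j) = mult_{j z}(p) * ord_z (j - j z)`.
* `anD_ordAt_smul`: `ordAt` is invariant under Möbius transformations.
* `anD_ordAt_mul`, `anD_ordAt_prod`, `anD_le_ordAt_sum`, `anD_le_ordAt_esymm`.
-/

set_option autoImplicit false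

open UpperHalfPlane Filter Asymptotics CongruenceSubgroup Polynomial
open scoped MatrixGroups Manifold Topology

noncomputable section

namespace Fermat.Agent.S24

/-- The analytic order of a nonzero polynomial function at a point is the multiplicity of the
point as a root. -/
theorem anD_analyticOrderAt_poly (p : ℂ[X]) (hp : p ≠ 0) (t : ℂ) :
    analyticOrderAt (fun w : ℂ => p.eval w) t = (p.rootMultiplicity t : ℕ∞) := by
  obtain ⟨q, hq, hndvd⟩ := Polynomial.exists_eq_pow_rootMultiplicity_mul_and_not_dvd p hp t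
  have han : AnalyticAt ℂ (fun w : ℂ => p.eval w) t := (Polynomial.differentiable p).analyticAt t
  rw [han.analyticOrderAt_eq_natCast]
  refine ⟨fun w => q.eval w, (Polynomial.differentiable q).analyticAt t, ?_, ?_⟩
  · intro h
    exact hndvd ((Polynomial.dvd_iff_isRoot).2 h)
  · refine Filter.Eventually.of_forall fun w => ?_
    conv_lhs => rw [hq]
    simp [smul_eq_mul]

theorem anD_analyticAt_comp_ofComplex {f : ℍ → ℂ} (hf : MDiff f) (z : ℍ) :
    AnalyticAt ℂ (f ∘ ofComplex) (z : ℂ) :=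
  anE_analyticAt hf z

/-- `ord_z (p ∘ j) = mult_{j(z)}(p) * ord_z (j - j(z))`. -/
theorem anD_ordAt_poly_jfun (p : ℂ[X]) (hp : p ≠ 0) (z : ℍ) :
    ordAt (fun w => p.eval (jfun w)) z =
      (p.rootMultiplicity (jfun z) : ℕ∞) * ordAt (fun w => jfun w - jfun z) z := by
  have hg : AnalyticAt ℂ (jfun ∘ ofComplex) (z : ℂ) := anE_analyticAt jfun_mdiff z
  have hgz : (jfun ∘ ofComplex) (z : ℂ) = jfun z := by simp
  have hf : AnalyticAt ℂ (fun w : ℂ => p.eval w) ((jfun ∘ ofComplex) (z : ℂ)) :=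
    (Polynomial.differentiable p).analyticAt _
  have h := hf.analyticOrderAt_comp hg
  rw [hgz, anD_analyticOrderAt_poly p hp] at h
  exact h

/-- The order of `j - j(z)` at `z` is a positive natural number. -/
theorem anD_ordAt_jfun_sub (z : ℍ) :
    ∃ e : ℕ, 0 < e ∧ ordAt (fun w => jfun w - jfun z) z = (e : ℕ∞) := by
  by_cases h0 : jfun z = 0
  · exact ⟨3, by norm_num, anE_order_jfun_of_zero h0⟩
  · by_cases h1 : jfun z = 1728
    · exact ⟨2, by norm_num, anE_order_jfun_of_1728 h1⟩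
    · exact ⟨1, by norm_num, by rw [Nat.cast_one]; exact anE_order_jfun_of_generic h0 h1⟩

/-- `ordAt` is invariant under the action of `SL(2,ℤ)`. -/
theorem anD_ordAt_smul (f : ℍ → ℂ) (γ : SL(2, ℤ)) (z : ℍ) :
    ordAt (fun w => f (γ • w)) z = ordAt f (γ • z) := by
  set a : ℂ := ((algebraMap ℤ ℝ (γ 0 0) : ℝ) : ℂ) with ha
  set b : ℂ := ((algebraMap ℤ ℝ (γ 0 1) : ℝ) : ℂ) with hb
  set c : ℂ := ((algebraMap ℤ ℝ (γ 1 0) : ℝ) : ℂ) with hc
  set d : ℂ := ((algebraMap ℤ ℝ (γ 1 1) : ℝ) : ℂ) with hd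
  let m : ℂ → ℂ := fun w => (a * w + b) / (c * w + d)
  have hcoe : ∀ w : ℍ, ((γ • w : ℍ) : ℂ) = m w := fun w => coe_specialLinearGroup_apply γ w
  have hdet : a * d - b * c = 1 := by
    have h := γ.det_coe
    rw [Matrix.det_fin_two] at h
    have h2 : ((γ 0 0 * γ 1 1 - γ 0 1 * γ 1 0 : ℤ) : ℂ) = 1 := by rw [h]; simp
    simp only [ha, hb, hc, hd, algebraMap_int_eq, Int.coe_castRingHom, Complex.ofReal_intCast]
    push_cast at h2
    linear_combination h2
  have hden : ∀ w : ℍ, c * (w : ℂ) + d ≠ 0 := by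
    intro w h
    have h1 := hcoe w
    have him := (γ • w).im_pos
    have h2 : m w = 0 := by simp [m, h]
    rw [← coe_im, h1, h2] at him
    simp at him
  have hderiv : HasDerivAt m (1 / (c * (z : ℂ) + d) ^ 2) (z : ℂ) := by
    have h1 : HasDerivAt (fun w : ℂ => a * w + b) a (z : ℂ) := by
      simpa using ((hasDerivAt_id (z : ℂ)).const_mul a).add_const b
    have h2 : HasDerivAt (fun w : ℂ => c * w + d) c (z : ℂ) := by
      simpa using ((hasDerivAt_id (z : ℂ)).const_mul c).add_const d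
    have h3 := h1.div h2 (hden z)
    refine h3.congr_deriv ?_
    have := hden z
    field_simp
    linear_combination hdet
  have hm_an : AnalyticAt ℂ m (z : ℂ) := by
    have h1 : AnalyticAt ℂ (fun w : ℂ => a * w + b) (z : ℂ) := by fun_prop
    have h2 : AnalyticAt ℂ (fun w : ℂ => c * w + d) (z : ℂ) := by fun_prop
    exact h1.div h2 (hden z)
  have hne : deriv m (z : ℂ) ≠ 0 := by
    rw [hderiv.deriv]
    exact one_div_ne_zero (pow_ne_zero 2 (hden z))
  have heq : ((fun w => f (γ • w)) ∘ ofComplex) =ᶠ[𝓝 (z : ℂ)] ((f ∘ ofComplex) ∘ m) := by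
    filter_upwards [isOpen_upperHalfPlaneSet.mem_nhds z.im_pos] with w hw
    simp only [Function.comp_apply]
    rw [ofComplex_apply_of_im_pos hw, ← hcoe ⟨w, hw⟩, ofComplex_apply]
  rw [ordAt, ordAt, analyticOrderAt_congr heq, analyticOrderAt_comp_of_deriv_ne_zero hm_an hne,
    ← hcoe z]

/-! ### Order calculus -/

theorem anD_ordAt_zero (z : ℍ) : ordAt (fun _ => (0 : ℂ)) z = ⊤ := by
  rw [ordAt, analyticOrderAt_eq_top]
  exact Filter.Eventually.of_forall fun w => rfl

theorem anD_ordAt_eq_zero_iff {f : ℍ → ℂ} (hf : MDiff f) (z : ℍ) : ordAt f z = 0 ↔ f z ≠ 0 := by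
  rw [ordAt, (anE_analyticAt hf z).analyticOrderAt_eq_zero]
  simp

theorem anD_ordAt_mul {f g : ℍ → ℂ} (hf : MDiff f) (hg : MDiff g) (z : ℍ) :
    ordAt (fun w => f w * g w) z = ordAt f z + ordAt g z :=
  analyticOrderAt_mul (anE_analyticAt hf z) (anE_analyticAt hg z)

theorem anD_ordAt_pow {f : ℍ → ℂ} (hf : MDiff f) (n : ℕ) (z : ℍ) :
    ordAt (fun w => f w ^ n) z = n • ordAt f z :=
  analyticOrderAt_pow (anE_analyticAt hf z) n

theorem anD_le_ordAt_add (f g : ℍ → ℂ) (z : ℍ) :
    min (ordAt f z) (ordAt g z) ≤ ordAt (fun w => f w + g w) z :=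
  le_analyticOrderAt_add

theorem anD_mdiff_prod {ι : Type} (s : Finset ι) (F : ι → ℍ → ℂ) (hF : ∀ i ∈ s, MDiff (F i)) :
    MDiff (fun w => ∏ i ∈ s, F i w) := by
  have h : MDiff (∏ i ∈ s, F i) := MDifferentiable.prod fun i hi => hF i hi
  have e : (fun w => ∏ i ∈ s, F i w) = ∏ i ∈ s, F i := by
    funext w
    simp [Finset.prod_apply]
  rwa [e]

theorem anD_ordAt_prod {ι : Type} (s : Finset ι) (F : ι → ℍ → ℂ) (hF : ∀ i ∈ s, MDiff (F i))
    (z : ℍ) : ordAt (fun w => ∏ i ∈ s, F i w) z = ∑ i ∈ s, ordAt (F i) z := by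
  classical
  induction s using Finset.induction_on with
  | empty =>
    simp only [Finset.prod_empty, Finset.sum_empty]
    rw [anD_ordAt_eq_zero_iff mdifferentiable_const]
    exact one_ne_zero
  | insert a s ha ih =>
    have h1 : MDiff (F a) := hF a (Finset.mem_insert_self a s)
    have h2 : ∀ i ∈ s, MDiff (F i) := fun i hi => hF i (Finset.mem_insert_of_mem hi)
    simp only [Finset.prod_insert ha, Finset.sum_insert ha]
    rw [anD_ordAt_mul h1 (anD_mdiff_prod s F h2), ih h2]

theorem anD_le_ordAt_sum {ι : Type*} (s : Finset ι) (F : ι → ℍ → ℂ) (z : ℍ) (m : ℕ∞)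
    (h : ∀ i ∈ s, m ≤ ordAt (F i) z) : m ≤ ordAt (fun w => ∑ i ∈ s, F i w) z := by
  classical
  induction s using Finset.induction_on with
  | empty =>
    simp only [Finset.sum_empty]
    rw [anD_ordAt_zero]
    exact le_top
  | insert a s ha ih =>
    simp only [Finset.sum_insert ha]
    refine le_trans (le_min (h a (Finset.mem_insert_self a s))
      (ih fun i hi => h i (Finset.mem_insert_of_mem hi))) ?_
    exact anD_le_ordAt_add (F a) (fun w => ∑ i ∈ s, F i w) z

/-- If all members of the family vanish to order at least `m` at `z`, then the `k`-th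
elementary symmetric function vanishes to order at least `k • m`. -/
theorem anD_le_ordAt_esymm {X : Type} [Fintype X] (F : X → ℍ → ℂ) (hF : ∀ x, MDiff (F x))
    (z : ℍ) (m : ℕ∞) (h : ∀ x, m ≤ ordAt (F x) z) (k : ℕ) :
    k • m ≤ ordAt (anD_esymm F k) z := by
  have e : anD_esymm F k = fun w =>
      ∑ t ∈ Finset.powersetCard k (Finset.univ : Finset X), ∏ x ∈ t, F x w := rfl
  rw [e]
  refine anD_le_ordAt_sum _ _ z _ fun t ht => ?_
  rw [anD_ordAt_prod t F (fun x _ => hF x)]
  have hcard : t.card = k := (Finset.mem_powersetCard.mp ht).2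
  calc k • m = ∑ _x ∈ t, m := by rw [Finset.sum_const, hcard]
    _ ≤ ∑ x ∈ t, ordAt (F x) z := Finset.sum_le_sum fun x _ => h x

end Fermat.Agent.S24

end
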