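/-
S24 (AN-D, assembly): `SymPointStatement` and `SymCuspStatement` from the divisibility
statements (analytic half) and the existence of fractions `g = a / b(j)`.
Owner: helper22.
-/
import Mathlib
import Fermat.Agent.S24.Defs
import Fermat.Agent.S24.ANDefs
import Fermat.Agent.S24.RingAInt
import Fermat.Agent.S24.TranslateAN
import Fermat.Agent.S24.CoordAlg
import Fermat.Agent.S24.Comb

set_option autoImplicit false
set_option linter.unusedSectionVars false
set_option linter.style.haveILetI false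

noncomputable section

namespace Fermat.Agent.S24

open AlgebraicCurve IntermediateField UpperHalfPlane Polynomial
open scoped MatrixGroups

/-! ### Shapes of the inputs -/

/-- (SA1) every element of the function field is `a / b(j)`. -/
def FracStatement : Prop :=
  ∀ (N : ℕ) [NeZero N] (g : FunField N),
    ∃ (a : ringA N) (b : QBar[X]), b ≠ 0 ∧ g * aeval (jF N) b = (a : FunField N)

/-- The divisibility over a finite point (analytic half of AN-D). -/
def PointDvdStatement : Prop :=
  ∀ (N : ℕ) [NeZero N] [Fintype (XN N)] (Θ₀ : ringA N →+* (ℍ → ℂ)) (π : ℂ →+ QBar),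
    IsBridge N Θ₀ π → ∀ (c : QBar) (z₀ : ℍ), jfun z₀ = iota c →
      ∀ P : XN N → Place QBar (FunField N), IsPointFamily Θ₀ z₀ P →
        ∀ g : FunField N,
          IsIntegral (Algebra.adjoin QBar {jF N - algebraMap QBar (FunField N) c}) g →
          (∀ x, g ∈ (P x).toValuationSubring.nonunits) →
            ∀ (a : ringA N) (b : QBar[X]), b ≠ 0 → g * aeval (jF N) b = (a : FunField N) →
              ∀ Pk : ℕ → ℂ[X],
                (∀ k z, anD_esymm (anB_tr N (Θ₀ a)) k z = (Pk k).eval (jfun z)) →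
                  ∀ k, 1 ≤ k → (b.map iota) ^ k * (X - C (iota c)) ∣ Pk k

/-- The divisibility over the cusps (analytic half of AN-D). -/
def CuspDvdStatement : Prop :=
  ∀ (N : ℕ) [NeZero N] [Fintype (XN N)] (Θ₀ : ringA N →+* (ℍ → ℂ)) (π : ℂ →+ QBar),
    IsBridge N Θ₀ π →
      ∀ P : XN N → Place QBar (FunField N), IsCuspFamily Θ₀ P →
        ∀ g : FunField N,
          IsIntegral (Algebra.adjoin QBar {(jF N)⁻¹}) g →
          (∀ x, g ∈ (P x).toValuationSubring.nonunits) →
            ∀ (a : ringA N) (b : QBar[X]), b ≠ 0 → g * aeval (jF N) b = (a : FunField N) →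
              ∀ Pk : ℕ → ℂ[X],
                (∀ k z, anD_esymm (anB_tr N (Θ₀ a)) k z = (Pk k).eval (jfun z)) →
                  ∀ k, 1 ≤ k → ∃ (m : ℕ) (s : ℂ[X]),
                    Pk k * X ^ m = (b.map iota) ^ k * s ∧ s.natDegree < m

/-! ### Small lemmas -/

section Lemmas

variable {N : ℕ} {Θ₀ : ringA N →+* (ℍ → ℂ)} {π : ℂ →+ QBar}

theorem symF_coe_jA : ((jA N : ringA N) : FunField N) = jF N := rfl

theorem symF_coe_aeval (b : QBar[X]) :
    ((aeval (jA N) b : ringA N) : FunField N) = aeval (jF N) b := by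
  have h := Polynomial.aeval_algHom_apply (ringA N).val (jA N) b
  rw [← symF_coe_jA]
  exact h.symm

theorem symF_bridge_aeval (hΘ : IsBridge N Θ₀ π) (b : QBar[X]) (z : ℍ) :
    Θ₀ (aeval (jA N) b) z = (b.map iota).eval (jfun z) := by
  induction b using Polynomial.induction_on' with
  | add p q hp hq =>
    rw [map_add, map_add, Pi.add_apply, hp, hq, Polynomial.map_add, Polynomial.eval_add]
  | monomial n c =>
    rw [Polynomial.aeval_monomial, map_mul, map_pow, Pi.mul_apply, Pi.pow_apply,
      hΘ.map_const, anD_bridge_jA hΘ, Polynomial.map_monomial, Polynomial.eval_monomial]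

theorem symF_aeval_ne_zero [NeZero N] {b : QBar[X]} (hb : b ≠ 0) : aeval (jF N) b ≠ 0 := by
  intro h
  exact hb ((transcendental_iff.mp (coord_jTranscendental N)) b h)

theorem symF_jF_ne_zero [NeZero N] : jF N ≠ 0 := by
  intro h
  have := coord_jTranscendental N
  rw [h] at this
  exact this isAlgebraic_zero

/-- Polynomials in `j` lie in `Q̄[j - c]`. -/
theorem symF_aeval_mem_adjoin_sub (s : QBar[X]) (c : QBar) :
    aeval (jF N) s ∈ Algebra.adjoin QBar {jF N - algebraMap QBar (FunField N) c} := by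
  have hj : jF N ∈ Algebra.adjoin QBar {jF N - algebraMap QBar (FunField N) c} := by
    have h1 : jF N - algebraMap QBar (FunField N) c ∈
        Algebra.adjoin QBar {jF N - algebraMap QBar (FunField N) c} :=
      Algebra.subset_adjoin rfl
    have h2 := add_mem h1 (Subalgebra.algebraMap_mem _ c)
    simpa using h2
  rw [Polynomial.aeval_eq_sum_range]
  refine Subalgebra.sum_mem _ fun i _ => ?_
  exact Subalgebra.smul_mem _ (Subalgebra.pow_mem _ hj i) _

/-- Elements of a subalgebra are integral over it. -/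
theorem symF_isIntegral_of_mem {K F : Type*} [Field K] [Field F] [Algebra K F]
    (S : Subalgebra K F) {x : F} (hx : x ∈ S) : IsIntegral S x := by
  have : x = algebraMap S F ⟨x, hx⟩ := rfl
  rw [this]
  exact isIntegral_algebraMap

end Lemmas

/-! ### The point case -/

/-- The algebraic core of the point case: from the descended identity to `g ^ n = u * β`. -/
theorem symF_core {K F : Type*} [Field K] [Field F] [Algebra K F] (R : Subalgebra K F)
    (g bj u : F) (hbj : bj ≠ 0) (hg : IsIntegral R g) (n : ℕ) (s : ℕ → F)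
    (hs : ∀ k, s k ∈ R)
    (hid : (g * bj) ^ n + ∑ k ∈ Finset.range n,
      s (k + 1) * (bj ^ (k + 1) * u * (g * bj) ^ (n - (k + 1))) = 0) :
    ∃ β : F, IsIntegral R β ∧ g ^ n = u * β := by
  refine ⟨-∑ k ∈ Finset.range n, s (k + 1) * g ^ (n - (k + 1)), ?_, ?_⟩
  · refine IsIntegral.neg ?_
    refine IsIntegral.sum _ fun k _ => ?_
    exact (symF_isIntegral_of_mem R (hs (k + 1))).mul (hg.pow _)
  · have h1 : ∀ k ∈ Finset.range n,
        s (k + 1) * (bj ^ (k + 1) * u * (g * bj) ^ (n - (k + 1)))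
          = bj ^ n * (u * (s (k + 1) * g ^ (n - (k + 1)))) := by
      intro k hk
      have hk' : k + 1 ≤ n := Finset.mem_range.mp hk
      have e : bj ^ n = bj ^ (k + 1) * bj ^ (n - (k + 1)) := by
        rw [← pow_add]
        congr 1
        omega
      rw [e, mul_pow]
      ring
    rw [Finset.sum_congr rfl h1, ← Finset.mul_sum, ← Finset.mul_sum, mul_pow,
      mul_comm (g ^ n) (bj ^ n), ← mul_add] at hid
    have h2 := (mul_eq_zero.mp hid).resolve_left (pow_ne_zero n hbj)
    rw [mul_neg]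
    exact eq_neg_of_add_eq_zero_left h2

/-- **(AN-D)** over a finite point. -/
theorem symF_point (hfrac : FracStatement) (hdvd : PointDvdStatement) : SymPointStatement := by
  intro N _ Θ₀ π hΘ c z₀ hz₀ P hP g hint hvan
  classical
  haveI : Finite (XN N) := Comb.comb_cosetFinite N
  letI : Fintype (XN N) := Fintype.ofFinite (XN N)
  obtain ⟨a, b, hb, hg⟩ := hfrac N g
  obtain ⟨Pk, hP0, hPk, hroot⟩ := anD_exists_charPoly_bridge hΘ anB_growth a
  have hd := hdvd N Θ₀ π hΘ c z₀ hz₀ P hP g hint hvan a b hb hg Pk hPk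
  choose! r hr using hd
  set n := Fintype.card (XN N) with hn
  have hcard : Nat.card (XN N) = n := Nat.card_eq_fintype_card
  rw [hcard]
  -- the identity of functions, with the factor structure
  let Q : ℕ → ℂ[X] := fun k => if k = 0 then 1 else C ((-1 : ℂ) ^ k) * r k
  let B : ℕ → ringA N := fun k =>
    if k = 0 then a ^ n
    else (aeval (jA N) b) ^ k * (jA N - algebraMap QBar (ringA N) c) * a ^ (n - k)
  have h1 : ∀ z : ℍ, ∑ k ∈ Finset.range (n + 1), (Q k).eval (jfun z) * Θ₀ (B k) z = 0 := by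
    intro z
    rw [← hroot z]
    refine Finset.sum_congr rfl fun k _ => ?_
    by_cases hk : k = 0
    · subst hk
      simp only [Q, B, if_true, hP0, Polynomial.eval_one, map_pow, Pi.pow_apply, pow_zero,
        one_mul, Nat.sub_zero]
    · have hk1 : 1 ≤ k := Nat.one_le_iff_ne_zero.mpr hk
      simp only [Q, B, if_neg hk]
      rw [hr k hk1]
      simp only [map_mul, map_pow, map_sub, Pi.mul_apply, Pi.pow_apply, Pi.sub_apply,
        symF_bridge_aeval hΘ, anD_bridge_jA hΘ, hΘ.map_const, Polynomial.eval_mul,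
        Polynomial.eval_C, Polynomial.eval_pow, Polynomial.eval_sub, Polynomial.eval_X]
      ring
  have h2 := anD_descent_poly hΘ (Finset.range (n + 1)) Q B h1
  -- move to the function field
  have h3 := congrArg (fun x : ringA N => (x : FunField N)) h2
  simp only [AddSubmonoidClass.coe_finsetSum, MulMemClass.coe_mul, ZeroMemClass.coe_zero,
    symF_coe_aeval] at h3
  rw [Finset.sum_range_succ'] at h3
  have hQ0 : aeval (jF N) (anD_piPoly π (Q 0)) = 1 := by
    simp only [Q, if_true]
    rw [anD_piPoly_one hΘ, map_one]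
  have hB0 : ((B 0 : ringA N) : FunField N) = (g * aeval (jF N) b) ^ n := by
    simp only [B, if_true]
    rw [hg]
    rfl
  have hBk : ∀ k, ((B (k + 1) : ringA N) : FunField N) =
      (aeval (jF N) b) ^ (k + 1) * (jF N - algebraMap QBar (FunField N) c) *
        (g * aeval (jF N) b) ^ (n - (k + 1)) := by
    intro k
    simp only [B, if_neg (Nat.succ_ne_zero k)]
    rw [hg]
    simp only [MulMemClass.coe_mul, SubmonoidClass.coe_pow, symF_coe_aeval,
      AddSubgroupClass.coe_sub, symF_coe_jA]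
    rfl
  rw [hQ0, one_mul, hB0] at h3
  simp only [hBk] at h3
  rw [add_comm] at h3
  exact symF_core (Algebra.adjoin QBar {jF N - algebraMap QBar (FunField N) c}) g
    (aeval (jF N) b) (jF N - algebraMap QBar (FunField N) c) (symF_aeval_ne_zero hb) hint n
    (fun k => aeval (jF N) (anD_piPoly π (Q k)))
    (fun k => symF_aeval_mem_adjoin_sub _ c) h3

/-! ### The cusp case -/

theorem symF_natDegree_piPoly_le (π : ℂ →+ QBar) (Q : ℂ[X]) :
    (anD_piPoly π Q).natDegree ≤ Q.natDegree := by
  unfold anD_piPoly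
  refine Polynomial.natDegree_sum_le_of_forall_le _ _ fun m hm => ?_
  refine (Polynomial.natDegree_monomial_le _).trans ?_
  have := Finset.mem_range.mp hm
  omega

/-- A polynomial in `j` of degree `≤ d`, divided by `j ^ d`, is a polynomial in `j⁻¹`. -/
theorem symF_aeval_mul_inv_pow_mem {K F : Type*} [Field K] [Field F] [Algebra K F]
    (j : F) (hj : j ≠ 0) (t : K[X]) (d : ℕ) (ht : t.natDegree ≤ d) :
    aeval j t * (j⁻¹) ^ d ∈ Algebra.adjoin K {j⁻¹} := by
  have hjinv : j⁻¹ ∈ Algebra.adjoin K {j⁻¹} := Algebra.subset_adjoin rfl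
  rw [Polynomial.aeval_eq_sum_range, Finset.sum_mul]
  refine Subalgebra.sum_mem _ fun i hi => ?_
  have hi' : i ≤ d := by
    have := Finset.mem_range.mp hi
    omega
  have e : j ^ i * (j⁻¹) ^ d = (j⁻¹) ^ (d - i) := by
    have : (j⁻¹) ^ d = (j⁻¹) ^ i * (j⁻¹) ^ (d - i) := by
      rw [← pow_add]
      congr 1
      omega
    rw [this, ← mul_assoc, ← mul_pow, mul_inv_cancel₀ hj, one_pow, one_mul]
  rw [smul_mul_assoc, e]
  exact Subalgebra.smul_mem _ (Subalgebra.pow_mem _ hjinv _) _

/-- The algebraic core of the cusp case. -/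
theorem symF_core_cusp {K F : Type*} [Field K] [Field F] [Algebra K F] (R : Subalgebra K F)
    (g bj j : F) (hbj : bj ≠ 0) (hj : j ≠ 0) (hg : IsIntegral R g) (n M : ℕ) (m : ℕ → ℕ)
    (hm : ∀ k, k < n → 1 ≤ m (k + 1) ∧ m (k + 1) ≤ M) (t : ℕ → F)
    (ht : ∀ k, k < n → t (k + 1) * (j⁻¹) ^ (m (k + 1) - 1) ∈ R)
    (hid : j ^ M * (g * bj) ^ n + ∑ k ∈ Finset.range n,
      t (k + 1) * (bj ^ (k + 1) * j ^ (M - m (k + 1)) * (g * bj) ^ (n - (k + 1))) = 0) :
    ∃ β : F, IsIntegral R β ∧ g ^ n = j⁻¹ * β := by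
  refine ⟨-∑ k ∈ Finset.range n,
    (t (k + 1) * (j⁻¹) ^ (m (k + 1) - 1)) * g ^ (n - (k + 1)), ?_, ?_⟩
  · refine IsIntegral.neg ?_
    refine IsIntegral.sum _ fun k hk => ?_
    exact (symF_isIntegral_of_mem R (ht k (Finset.mem_range.mp hk))).mul (hg.pow _)
  · have h1 : ∀ k ∈ Finset.range n,
        t (k + 1) * (bj ^ (k + 1) * j ^ (M - m (k + 1)) * (g * bj) ^ (n - (k + 1)))
          = (bj ^ n * j ^ M) *
            (j⁻¹ * ((t (k + 1) * (j⁻¹) ^ (m (k + 1) - 1)) * g ^ (n - (k + 1)))) := by
      intro k hk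
      have hk' : k + 1 ≤ n := Finset.mem_range.mp hk
      obtain ⟨hm1, hmM⟩ := hm k (Finset.mem_range.mp hk)
      have e : bj ^ n = bj ^ (k + 1) * bj ^ (n - (k + 1)) := by
        rw [← pow_add]
        congr 1
        omega
      have e2 : j ^ M * (j⁻¹ * (j⁻¹) ^ (m (k + 1) - 1)) = j ^ (M - m (k + 1)) := by
        have h3 : j⁻¹ * (j⁻¹) ^ (m (k + 1) - 1) = (j⁻¹) ^ (m (k + 1)) := by
          rw [← pow_succ']
          congr 1
          omega
        have h4 : j ^ M = j ^ (M - m (k + 1)) * j ^ (m (k + 1)) := by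
          rw [← pow_add]
          congr 1
          omega
        rw [h3, h4, mul_assoc, ← mul_pow, mul_inv_cancel₀ hj, one_pow, mul_one]
      rw [← e2, e, mul_pow]
      ring
    rw [Finset.sum_congr rfl h1, ← Finset.mul_sum, ← Finset.mul_sum, mul_pow] at hid
    have h5 : bj ^ n * j ^ M * (g ^ n + j⁻¹ * ∑ k ∈ Finset.range n,
        (t (k + 1) * (j⁻¹) ^ (m (k + 1) - 1)) * g ^ (n - (k + 1))) = 0 := by
      rw [← hid]
      ring
    have h6 := (mul_eq_zero.mp h5).resolve_left
      (mul_ne_zero (pow_ne_zero n hbj) (pow_ne_zero M hj))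
    rw [mul_neg]
    exact eq_neg_of_add_eq_zero_left h6

/-- **(AN-D∞)** over the cusps. -/
theorem symF_cusp (hfrac : FracStatement) (hdvd : CuspDvdStatement) : SymCuspStatement := by
  intro N _ Θ₀ π hΘ P hP g hint hvan
  classical
  haveI : Finite (XN N) := Comb.comb_cosetFinite N
  letI : Fintype (XN N) := Fintype.ofFinite (XN N)
  obtain ⟨a, b, hb, hg⟩ := hfrac N g
  obtain ⟨Pk, hP0, hPk, hroot⟩ := anD_exists_charPoly_bridge hΘ anB_growth a
  have hd := hdvd N Θ₀ π hΘ P hP g hint hvan a b hb hg Pk hPk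
  choose! m s hms using hd
  set n := Fintype.card (XN N) with hn
  have hcard : Nat.card (XN N) = n := Nat.card_eq_fintype_card
  rw [hcard]
  set M : ℕ := ∑ k ∈ Finset.range (n + 1), m k with hM
  have hmM : ∀ k, k ≤ n → m k ≤ M := by
    intro k hk
    exact Finset.single_le_sum (f := m) (fun _ _ => Nat.zero_le _)
      (Finset.mem_range.mpr (Nat.lt_succ_of_le hk))
  let Q : ℕ → ℂ[X] := fun k => if k = 0 then 1 else C ((-1 : ℂ) ^ k) * s k
  let B : ℕ → ringA N := fun k =>
    if k = 0 then jA N ^ M * a ^ n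
    else (aeval (jA N) b) ^ k * jA N ^ (M - m k) * a ^ (n - k)
  have h1 : ∀ z : ℍ, ∑ k ∈ Finset.range (n + 1), (Q k).eval (jfun z) * Θ₀ (B k) z = 0 := by
    intro z
    have h0 : ∑ k ∈ Finset.range (n + 1), (Q k).eval (jfun z) * Θ₀ (B k) z
        = jfun z ^ M * ∑ k ∈ Finset.range (n + 1),
          (-1) ^ k * ((Pk k).eval (jfun z) * Θ₀ a z ^ (n - k)) := by
      rw [Finset.mul_sum]
      refine Finset.sum_congr rfl fun k hk => ?_
      by_cases hk0 : k = 0
      · subst hk0
        simp only [Q, B, if_true, hP0, Polynomial.eval_one, map_pow, map_mul, Pi.mul_apply,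
          Pi.pow_apply, pow_zero, one_mul, Nat.sub_zero, anD_bridge_jA hΘ]
      · have hk1 : 1 ≤ k := Nat.one_le_iff_ne_zero.mpr hk0
        have hkn : k ≤ n := Nat.lt_succ_iff.mp (Finset.mem_range.mp hk)
        obtain ⟨hmk, -⟩ := hms k hk1
        have hev := congrArg (Polynomial.eval (jfun z)) hmk
        simp only [Polynomial.eval_mul, Polynomial.eval_pow, Polynomial.eval_X] at hev
        have hsplit : jfun z ^ M = jfun z ^ (m k) * jfun z ^ (M - m k) := by
          rw [← pow_add]
          congr 1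
          have := hmM k hkn
          omega
        simp only [Q, B, if_neg hk0]
        simp only [map_mul, map_pow, Pi.mul_apply, Pi.pow_apply,
          symF_bridge_aeval hΘ, anD_bridge_jA hΘ, Polynomial.eval_mul,
          Polynomial.eval_pow, Polynomial.eval_C]
        rw [hsplit]
        calc (-1 : ℂ) ^ k * Polynomial.eval (jfun z) (s k) *
              (Polynomial.eval (jfun z) (Polynomial.map iota b) ^ k *
                jfun z ^ (M - m k) * Θ₀ a z ^ (n - k))
            = (-1 : ℂ) ^ k * ((Polynomial.eval (jfun z) (Polynomial.map iota b) ^ k *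
                Polynomial.eval (jfun z) (s k)) * jfun z ^ (M - m k) * Θ₀ a z ^ (n - k)) := by
              ring
          _ = (-1 : ℂ) ^ k * ((Polynomial.eval (jfun z) (Pk k) * jfun z ^ m k) *
                jfun z ^ (M - m k) * Θ₀ a z ^ (n - k)) := by rw [hev]
          _ = _ := by ring
    rw [h0, hroot z, mul_zero]
  have h2 := anD_descent_poly hΘ (Finset.range (n + 1)) Q B h1
  have h3 := congrArg (fun x : ringA N => (x : FunField N)) h2
  simp only [AddSubmonoidClass.coe_finsetSum, MulMemClass.coe_mul, ZeroMemClass.coe_zero,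
    symF_coe_aeval] at h3
  rw [Finset.sum_range_succ'] at h3
  have hQ0 : aeval (jF N) (anD_piPoly π (Q 0)) = 1 := by
    simp only [Q, if_true]
    rw [anD_piPoly_one hΘ, map_one]
  have hB0 : ((B 0 : ringA N) : FunField N) = jF N ^ M * (g * aeval (jF N) b) ^ n := by
    simp only [B, if_true]
    rw [hg]
    rfl
  have hBk : ∀ k, ((B (k + 1) : ringA N) : FunField N) =
      (aeval (jF N) b) ^ (k + 1) * jF N ^ (M - m (k + 1)) *
        (g * aeval (jF N) b) ^ (n - (k + 1)) := by
    intro k
    simp only [B, if_neg (Nat.succ_ne_zero k)]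
    rw [hg]
    simp only [MulMemClass.coe_mul, SubmonoidClass.coe_pow, symF_coe_aeval, symF_coe_jA]
  rw [hQ0, one_mul, hB0] at h3
  simp only [hBk] at h3
  rw [add_comm] at h3
  refine symF_core_cusp (Algebra.adjoin QBar {(jF N)⁻¹}) g (aeval (jF N) b) (jF N)
    (symF_aeval_ne_zero hb) symF_jF_ne_zero hint n M m ?_
    (fun k => aeval (jF N) (anD_piPoly π (Q k))) ?_ h3
  · intro k hk
    obtain ⟨-, hdeg⟩ := hms (k + 1) (Nat.succ_le_succ (Nat.zero_le k))
    exact ⟨by omega, hmM (k + 1) hk⟩
  · intro k hk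
    obtain ⟨-, hdeg⟩ := hms (k + 1) (Nat.succ_le_succ (Nat.zero_le k))
    refine symF_aeval_mul_inv_pow_mem (jF N) symF_jF_ne_zero _ _ ?_
    have h4 : (anD_piPoly π (Q (k + 1))).natDegree ≤ (s (k + 1)).natDegree := by
      refine (symF_natDegree_piPoly_le π _).trans ?_
      simp only [Q, if_neg (Nat.succ_ne_zero k)]
      exact Polynomial.natDegree_C_mul_le _ _
    omega

end Fermat.Agent.S24
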