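import Mathlib
import Fermat.Agent.S24.ANDefs
import Fermat.Agent.S24.RingAInt

/-!
# S24 (AN-D): the coefficientwise retraction `anD_piPoly π : ℂ[X] → Q̄[X]`

Algebraic properties of `anD_piPoly` (defined in `RingAInt.lean`): coefficients, additivity,
`Q̄[X]`-linearity (`anD_piPoly π (q.map iota * r) = q * anD_piPoly π r`), degree bound.
-/

set_option autoImplicit false

open UpperHalfPlane Polynomial
open scoped MatrixGroups

noncomputable section

namespace Fermat.Agent.S24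

variable {N : ℕ} {Θ₀ : ringA N →+* (ℍ → ℂ)} {π : ℂ →+ QBar}

theorem anD_piPoly_coeff (π : ℂ →+ QBar) (Q : ℂ[X]) (m : ℕ) :
    (anD_piPoly π Q).coeff m = π (Q.coeff m) := by
  rw [anD_piPoly, Polynomial.finsetSum_coeff]
  simp only [Polynomial.coeff_monomial]
  by_cases hm : m ∈ Finset.range (Q.natDegree + 1)
  · rw [Finset.sum_eq_single m]
    · simp
    · intro i _ him
      simp [him]
    · intro h
      exact absurd hm h
  · rw [Finset.sum_eq_zero]
    · have : Q.coeff m = 0 := by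
        apply Polynomial.coeff_eq_zero_of_natDegree_lt
        rw [Finset.mem_range] at hm
        omega
      rw [this, map_zero]
    · intro i hi
      have : i ≠ m := fun h => hm (h ▸ hi)
      simp [this]

theorem anD_piPoly_natDegree_le (π : ℂ →+ QBar) (Q : ℂ[X]) :
    (anD_piPoly π Q).natDegree ≤ Q.natDegree := by
  rw [Polynomial.natDegree_le_iff_coeff_eq_zero]
  intro m hm
  rw [anD_piPoly_coeff, Polynomial.coeff_eq_zero_of_natDegree_lt hm, map_zero]

theorem anD_piPoly_zero (π : ℂ →+ QBar) : anD_piPoly π 0 = 0 := by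
  ext m
  rw [anD_piPoly_coeff]
  simp

theorem anD_piPoly_add (π : ℂ →+ QBar) (Q R : ℂ[X]) :
    anD_piPoly π (Q + R) = anD_piPoly π Q + anD_piPoly π R := by
  ext m
  rw [Polynomial.coeff_add, anD_piPoly_coeff, anD_piPoly_coeff, anD_piPoly_coeff,
    Polynomial.coeff_add, map_add]

theorem anD_piPoly_neg (π : ℂ →+ QBar) (Q : ℂ[X]) :
    anD_piPoly π (-Q) = -anD_piPoly π Q := by
  ext m
  rw [Polynomial.coeff_neg, anD_piPoly_coeff, anD_piPoly_coeff, Polynomial.coeff_neg, map_neg]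

theorem anD_piPoly_sum (π : ℂ →+ QBar) {ι : Type*} (s : Finset ι) (Q : ι → ℂ[X]) :
    anD_piPoly π (∑ i ∈ s, Q i) = ∑ i ∈ s, anD_piPoly π (Q i) := by
  ext m
  rw [anD_piPoly_coeff, Polynomial.finsetSum_coeff, Polynomial.finsetSum_coeff, map_sum]
  exact Finset.sum_congr rfl fun i _ => (anD_piPoly_coeff π (Q i) m).symm

/-- (P1) `anD_piPoly π` is `Q̄[X]`-linear. -/
theorem anD_piPoly_map_mul (hΘ : IsBridge N Θ₀ π) (q : QBar[X]) (r : ℂ[X]) :
    anD_piPoly π (q.map iota * r) = q * anD_piPoly π r := by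
  ext m
  rw [anD_piPoly_coeff, Polynomial.coeff_mul, Polynomial.coeff_mul, map_sum]
  refine Finset.sum_congr rfl fun x _ => ?_
  rw [Polynomial.coeff_map, hΘ.retract_mul, anD_piPoly_coeff]

theorem anD_piPoly_mul_map (hΘ : IsBridge N Θ₀ π) (q : QBar[X]) (r : ℂ[X]) :
    anD_piPoly π (r * q.map iota) = anD_piPoly π r * q := by
  rw [mul_comm, anD_piPoly_map_mul hΘ, mul_comm]

theorem anD_piPoly_map (hΘ : IsBridge N Θ₀ π) (q : QBar[X]) :
    anD_piPoly π (q.map iota) = q := by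
  have h := anD_piPoly_map_mul hΘ q 1
  rwa [mul_one, anD_piPoly_one hΘ, mul_one] at h

theorem anD_piPoly_C_mul (hΘ : IsBridge N Θ₀ π) (c : QBar) (r : ℂ[X]) :
    anD_piPoly π (Polynomial.C (iota c) * r) = Polynomial.C c * anD_piPoly π r := by
  have h := anD_piPoly_map_mul hΘ (Polynomial.C c) r
  rwa [Polynomial.map_C] at h

/-- Signs pass through `anD_piPoly`. -/
theorem anD_piPoly_neg_one_pow_mul (hΘ : IsBridge N Θ₀ π) (k : ℕ) (r : ℂ[X]) :
    anD_piPoly π (Polynomial.C ((-1 : ℂ) ^ k) * r) =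
      Polynomial.C ((-1 : QBar) ^ k) * anD_piPoly π r := by
  have h := anD_piPoly_C_mul hΘ ((-1 : QBar) ^ k) r
  rwa [map_pow, map_neg, map_one] at h

/-- (P1') divisibility passes through `anD_piPoly`. -/
theorem anD_piPoly_dvd (hΘ : IsBridge N Θ₀ π) {q : QBar[X]} {p : ℂ[X]} (h : q.map iota ∣ p) :
    q ∣ anD_piPoly π p := by
  obtain ⟨r, rfl⟩ := h
  exact ⟨anD_piPoly π r, anD_piPoly_map_mul hΘ q r⟩

/-- The point-case divisibility, descended to `Q̄[X]`. -/
theorem anD_piPoly_dvd_point (hΘ : IsBridge N Θ₀ π) {b : QBar[X]} {c : QBar} {k : ℕ} {p : ℂ[X]}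
    (h : (b.map iota) ^ k * (X - C (iota c)) ∣ p) : b ^ k * (X - C c) ∣ anD_piPoly π p := by
  apply anD_piPoly_dvd hΘ
  simpa using h

/-- The cusp-case identity, descended to `Q̄[X]`. -/
theorem anD_piPoly_cusp (hΘ : IsBridge N Θ₀ π) {b : QBar[X]} {k m : ℕ} {p s : ℂ[X]}
    (h : p * X ^ m = (b.map iota) ^ k * s) (hs : s.natDegree < m) :
    anD_piPoly π p * X ^ m = b ^ k * anD_piPoly π s ∧ (anD_piPoly π s).natDegree < m := by
  refine ⟨?_, lt_of_le_of_lt (anD_piPoly_natDegree_le π s) hs⟩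
  have h1 : anD_piPoly π (p * (X ^ m : QBar[X]).map iota) = anD_piPoly π p * X ^ m :=
    anD_piPoly_mul_map hΘ (X ^ m) p
  have h2 : anD_piPoly π ((b ^ k).map iota * s) = b ^ k * anD_piPoly π s :=
    anD_piPoly_map_mul hΘ (b ^ k) s
  rw [← h1, ← h2]
  congr 1
  simpa using h

end Fermat.Agent.S24

end
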